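import Mathlib

set_option autoImplicit false

namespace Fermat.Agent.S14Lib

open NumberField nonZeroDivisors

/-- the exponent `b⁻² mod p`, as a natural number `< p` -/
noncomputable def etaExp (p b : ℕ) : ℕ := (((b : ZMod p)⁻¹) ^ 2).val

/-- the `ω²`-projection of the cyclotomic unit `1 + ζ` -/
noncomputable def eta {R : Type*} [CommRing R] (p : ℕ) (ζ : R) : R :=
  ∏ b ∈ Finset.Ico 1 p, (1 + ζ ^ b) ^ etaExp p b

section cls

variable {R : Type*} [CommRing R] [IsDedekindDomain R]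

open Classical in
/-- the ideal class of an ideal (junk value `1` for the zero ideal) -/
noncomputable def cls (I : Ideal R) : ClassGroup R :=
  if h : I = ⊥ then 1 else ClassGroup.mk0 ⟨I, mem_nonZeroDivisors_of_ne_zero h⟩

theorem cls_of_ne_bot {I : Ideal R} (h : I ≠ ⊥) :
    cls I = ClassGroup.mk0 ⟨I, mem_nonZeroDivisors_of_ne_zero h⟩ := by
  rw [cls, dif_neg h]

theorem cls_mk0 (I : (Ideal R)⁰) : cls (I : Ideal R) = ClassGroup.mk0 I := by
  rw [cls_of_ne_bot (nonZeroDivisors.coe_ne_zero I)]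

theorem cls_mul {I J : Ideal R} (hI : I ≠ ⊥) (hJ : J ≠ ⊥) : cls (I * J) = cls I * cls J := by
  have hIJ : I * J ≠ ⊥ := mul_ne_zero hI hJ
  rw [cls_of_ne_bot hI, cls_of_ne_bot hJ, cls_of_ne_bot hIJ, ← map_mul]
  rfl

theorem cls_pow {I : Ideal R} (hI : I ≠ ⊥) (n : ℕ) : cls (I ^ n) = cls I ^ n := by
  have hIn : I ^ n ≠ ⊥ := pow_ne_zero n hI
  rw [cls_of_ne_bot hI, cls_of_ne_bot hIn, ← map_pow]
  rfl

theorem cls_eq_one_iff {I : Ideal R} (hI : I ≠ ⊥) : cls I = 1 ↔ I.IsPrincipal := by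
  rw [cls_of_ne_bot hI]
  exact ClassGroup.mk0_eq_one_iff _

theorem cls_span_singleton (x : R) : cls (Ideal.span {x}) = 1 := by
  by_cases h : Ideal.span {x} = ⊥
  · rw [cls, dif_pos h]
  · rw [cls_eq_one_iff h]
    exact ⟨⟨x, rfl⟩⟩

theorem cls_prod {ι : Type*} (s : Finset ι) (f : ι → Ideal R) (hf : ∀ i ∈ s, f i ≠ ⊥) :
    cls (∏ i ∈ s, f i) = ∏ i ∈ s, cls (f i) := by
  classical
  induction s using Finset.induction_on with
  | empty =>
    simp only [Finset.prod_empty]
    rw [Ideal.one_eq_top, ← Ideal.span_singleton_one, cls_span_singleton]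
  | insert a s ha ih =>
    rw [Finset.prod_insert ha, Finset.prod_insert ha, cls_mul (hf a (Finset.mem_insert_self a s)),
      ih (fun i hi => hf i (Finset.mem_insert_of_mem hi))]
    exact Finset.prod_ne_zero_iff.mpr (fun i hi => hf i (Finset.mem_insert_of_mem hi))

theorem cls_surjective : Function.Surjective (cls : Ideal R → ClassGroup R) := by
  intro C
  obtain ⟨I, rfl⟩ := ClassGroup.mk0_surjective C
  exact ⟨I, cls_mk0 I⟩

end cls

end Fermat.Agent.S14Lib
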