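import Mathlib
import Fermat.Agent.S14.Defs
import Fermat.Agent.Lib.FrobeniusExists
import Fermat.Prelude.Def_FLTPrelim_Ramification

set_option autoImplicit false
set_option linter.style.haveILetI false

namespace Fermat.Agent.S14Lib

open NumberField nonZeroDivisors IsDedekindDomain
open scoped Pointwise
open Fermat.Agent.FrobLib

local notation "Qb" => AlgebraicClosure ℚ
local notation "GQ" => (AlgebraicClosure ℚ ≃ₐ[ℚ] AlgebraicClosure ℚ)
local notation "Zbar" => integralClosure ℤ (AlgebraicClosure ℚ)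

attribute [local instance] isAlgebraic_Qbar isAlgClosure_Qbar

theorem LP_isInvariant (H : Subgroup GQ) :
    Algebra.IsInvariant (FixedPoints.subalgebra ℤ Zbar H) Zbar H :=
  ⟨fun b hb => ⟨⟨b, hb⟩, rfl⟩⟩

theorem LP_smulCommClass (H : Subgroup GQ) :
    SMulCommClass H (FixedPoints.subalgebra ℤ Zbar H) Zbar :=
  ⟨fun g a b => by
    rw [Algebra.smul_def, Algebra.smul_def, smul_mul']
    congr 1
    exact a.2 g⟩

theorem LP_continuousSMul (H : Subgroup GQ) [TopologicalSpace Zbar] [DiscreteTopology Zbar] :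
    ContinuousSMul H Zbar := by
  haveI := continuousSMul_Zbar
  infer_instance

theorem LP_transitive (H : Subgroup GQ) (hH : IsClosed (H : Set GQ)) (P Q : Ideal Zbar)
    [P.IsPrime] [Q.IsPrime]
    (h : ∀ b : Zbar, (∀ g ∈ H, g • b = b) → (b ∈ P ↔ b ∈ Q)) : ∃ g ∈ H, Q = g • P := by
  letI : TopologicalSpace Zbar := ⊥
  haveI : DiscreteTopology Zbar := ⟨rfl⟩
  haveI := LP_continuousSMul H
  haveI := LP_isInvariant H
  haveI := LP_smulCommClass H
  haveI : CompactSpace H := isCompact_iff_compactSpace.mp hH.isCompact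
  obtain ⟨g, hg⟩ := Algebra.IsInvariant.exists_smul_of_under_eq_of_profinite
    (A := FixedPoints.subalgebra ℤ Zbar H) (G := H) P Q (by
      ext b
      exact h b.1 (fun g hg => b.2 ⟨g, hg⟩))
  exact ⟨g.1, g.2, hg⟩

theorem LP_inertia (H : Subgroup GQ) (hH : IsClosed (H : Set GQ)) (Q : Ideal Zbar) [Q.IsPrime]
    (σ : GQ) (hσ : σ • Q = Q) (hfix : ∀ b : Zbar, (∀ g ∈ H, g • b = b) → σ • b - b ∈ Q) :
    ∃ g ∈ H, g • Q = Q ∧ ∀ b : Zbar, g • b - σ • b ∈ Q := by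
  letI : TopologicalSpace Zbar := ⊥
  haveI : DiscreteTopology Zbar := ⟨rfl⟩
  haveI := LP_continuousSMul H
  haveI := LP_isInvariant H
  haveI := LP_smulCommClass H
  haveI : CompactSpace H := isCompact_iff_compactSpace.mp hH.isCompact
  set A' := FixedPoints.subalgebra ℤ Zbar H with hA'
  set P' : Ideal A' := Q.under A' with hP'
  haveI : Q.LiesOver P' := ⟨rfl⟩
  let φ₀ := Ideal.Quotient.stabilizerHom Q (Q.under ℤ) GQ ⟨σ, hσ⟩
  have hφ₀ : ∀ b : Zbar, φ₀ (Ideal.Quotient.mk Q b) = Ideal.Quotient.mk Q (σ • b) := fun b => rfl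
  let φ : (Zbar ⧸ Q) ≃ₐ[A' ⧸ P'] (Zbar ⧸ Q) :=
    AlgEquiv.ofRingEquiv (f := φ₀.toRingEquiv) (by
      intro r
      obtain ⟨a, rfl⟩ := Ideal.Quotient.mk_surjective r
      show φ₀ (Ideal.Quotient.mk Q a.1) = Ideal.Quotient.mk Q a.1
      rw [hφ₀, Ideal.Quotient.eq]
      exact hfix a.1 (fun g hg => a.2 ⟨g, hg⟩))
  obtain ⟨⟨g, hg⟩, hg'⟩ := Ideal.Quotient.stabilizerHom_surjective_of_profinite (G := H) P' Q φ
  refine ⟨g.1, g.2, hg, fun b => ?_⟩
  have h1 := DFunLike.congr_fun hg' (Ideal.Quotient.mk Q b)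
  rw [Ideal.Quotient.stabilizerHom_apply] at h1
  rw [← Ideal.Quotient.eq]
  exact h1

theorem LP_mem_decomposition (A : ValuationSubring Qb) {ℓ : ℕ} (hℓ : ℓ.Prime)
    (hA : A.LiesOverPrime ℓ) (σ : GQ) (hσQ : σ • center A = center A) :
    σ ∈ A.decompositionSubgroup ℚ := by
  have hσQ' : σ⁻¹ • center A = center A := by
    conv_lhs => rw [← hσQ]
    rw [inv_smul_smul]
  rw [MulAction.mem_stabilizer_iff]
  ext x
  rw [ValuationSubring.mem_pointwise_smul_iff_inv_smul_mem]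
  constructor
  · intro h
    have := map_mem_of_smul_center_eq A hℓ hA σ hσQ h
    rwa [← AlgEquiv.smul_def, smul_inv_smul] at this
  · intro h
    exact map_mem_of_smul_center_eq A hℓ hA σ⁻¹ hσQ' h

theorem LP_mem_inertia (A : ValuationSubring Qb) {ℓ : ℕ} (hℓ : ℓ.Prime)
    (hA : A.LiesOverPrime ℓ) (σ : GQ) (hσQ : σ • center A = center A)
    (hσF : ∀ b : Zbar, σ • b - b ∈ center A) :
    σ ∈ A.inertiaSubgroupIn ℚ := by
  have hσ := LP_mem_decomposition A hℓ hA σ hσQ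
  refine ⟨⟨σ, hσ⟩, ?_, rfl⟩
  show (⟨σ, hσ⟩ : A.decompositionSubgroup ℚ) ∈ A.inertiaSubgroup ℚ
  rw [ValuationSubring.inertiaSubgroup, MonoidHom.mem_ker]
  ext x
  obtain ⟨a, rfl⟩ := IsLocalRing.residue_surjective x
  obtain ⟨b, hb, hbx, hbn⟩ := exists_integral_mul A hℓ hA a.2 (isAlgebraic_int_Qbar a)
  set g : A.decompositionSubgroup ℚ := ⟨σ, hσ⟩ with hg
  set b' : A := incl A ⟨b, hb⟩ with hb'
  set c' : A := incl A ⟨b * a, hbx⟩ with hc'
  have hmul : b' * a = c' := Subtype.ext rfl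
  have hfrob : ∀ z : Zbar, IsLocalRing.residue A (g • incl A z) = IsLocalRing.residue A (incl A z) := by
    intro z
    rw [← sub_eq_zero, ← map_sub, IsLocalRing.residue_eq_zero_iff]
    have h1 := hσF z
    rw [center, Ideal.mem_comap] at h1
    exact h1
  have hb0 : IsLocalRing.residue A b' ≠ 0 := by
    rw [Ne, IsLocalRing.residue_eq_zero_iff]
    intro h
    exact hbn ((mem_center_iff A ⟨b, hb⟩).mp h)
  have h2 : IsLocalRing.residue A (g • b') * IsLocalRing.residue A (g • a) =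
      IsLocalRing.residue A (g • c') := by
    rw [← map_mul, ← smul_mul', hmul]
  rw [hfrob, hfrob, ← hb', ← hc', ← hmul, map_mul] at h2
  show g • IsLocalRing.residue A a = IsLocalRing.residue A a
  rw [← IsLocalRing.ResidueField.residue_smul]
  exact mul_left_cancel₀ hb0 h2


/-- the inclusion of the ring of integers of a subfield in the ring of all algebraic integers -/
noncomputable def LP_toZbar (N : IntermediateField ℚ Qb) : 𝓞 N →+* Zbar :=
  ((algebraMap N Qb).comp (algebraMap (𝓞 N) N)).codRestrict (integralClosure ℤ Qb).toSubring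
    (fun x => (RingOfIntegers.isIntegral_coe x).map (algebraMap N Qb).toIntAlgHom)

theorem LP_coe_toZbar (N : IntermediateField ℚ Qb) (x : 𝓞 N) :
    ((LP_toZbar N x : Zbar) : Qb) = ((x : N) : Qb) := rfl

theorem LP_exists_toZbar (N : IntermediateField ℚ Qb) (b : Zbar)
    (hb : ∀ g ∈ N.fixingSubgroup, g • b = b) : ∃ x : 𝓞 N, LP_toZbar N x = b := by
  have h1 : (b : Qb) ∈ IntermediateField.fixedField N.fixingSubgroup := by
    rw [IntermediateField.mem_fixedField_iff]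
    intro g hg
    exact congrArg Subtype.val (hb g hg)
  rw [InfiniteGalois.fixedField_fixingSubgroup] at h1
  have h2 : IsIntegral ℤ (⟨b, h1⟩ : N) := by
    have : IsIntegral ℤ (algebraMap N Qb ⟨b, h1⟩) := b.2
    exact (isIntegral_algebraMap_iff (algebraMap N Qb).injective).mp this
  exact ⟨⟨(⟨b, h1⟩ : N), h2⟩, Subtype.ext rfl⟩

theorem LP_smul_toZbar (N : IntermediateField ℚ Qb) (s : N ≃ₐ[ℚ] N) (σ : GQ)
    (h : ∀ x : N, σ (x : Qb) = ((s x : N) : Qb)) (x : 𝓞 N) :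
    σ • LP_toZbar N x = LP_toZbar N (s • x) := by
  apply Subtype.ext
  exact h (x : N)


theorem LP_exists_prime (N : IntermediateField ℚ Qb) [FiniteDimensional ℚ N]
    (w : Ideal (𝓞 N)) (hw : w.IsPrime) (hw0 : w ≠ ⊥) : ∃ ℓ : ℕ, ℓ.Prime ∧ (ℓ : 𝓞 N) ∈ w := by
  haveI : NumberField N := {}
  obtain ⟨ℓ, hchar⟩ := CharP.exists (𝓞 N ⧸ w)
  have hmem : (ℓ : 𝓞 N) ∈ w := by
    rw [← Ideal.Quotient.eq_zero_iff_mem, map_natCast]
    exact CharP.cast_eq_zero _ _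
  rcases CharP.char_is_prime_or_zero (𝓞 N ⧸ w) ℓ with h | h
  · exact ⟨ℓ, h, hmem⟩
  · exfalso
    subst h
    have h1 : ((Ideal.absNorm w : ℕ) : 𝓞 N ⧸ w) = 0 := by
      rw [← map_natCast (Ideal.Quotient.mk w), Ideal.Quotient.eq_zero_iff_mem]
      exact Ideal.absNorm_mem w
    rw [CharP.cast_eq_zero_iff (𝓞 N ⧸ w) 0, zero_dvd_iff, Ideal.absNorm_eq_zero_iff] at h1
    exact hw0 h1

theorem LP_exists_place (N : IntermediateField ℚ Qb) [FiniteDimensional ℚ N]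
    (w : Ideal (𝓞 N)) (hw : w.IsPrime) (hw0 : w ≠ ⊥) :
    ∃ A : ValuationSubring Qb, ∀ x : 𝓞 N, LP_toZbar N x ∈ center A ↔ x ∈ w := by
  haveI : NumberField N := {}
  let f₀ : 𝓞 N →+* Qb := (algebraMap N Qb).comp (algebraMap (𝓞 N) N)
  have hf₀ : Function.Injective f₀ :=
    (algebraMap N Qb).injective.comp RingOfIntegers.coe_injective
  let f : 𝓞 N →+* f₀.range := f₀.rangeRestrict
  have hfs : Function.Surjective f := f₀.rangeRestrict_surjective
  have hne : w.map f ≠ ⊤ := by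
    intro h
    have h1 : (1 : f₀.range) ∈ w.map f := h ▸ Submodule.mem_top
    rw [Ideal.mem_map_iff_of_surjective f hfs] at h1
    obtain ⟨x, hx, hx1⟩ := h1
    have h2 : f₀ x = f₀ 1 := by
      rw [map_one]
      exact congrArg Subtype.val hx1
    rw [hf₀ h2] at hx
    exact hw.ne_top ((Ideal.eq_top_iff_one w).mpr hx)
  obtain ⟨A, -, hA⟩ := Ideal.image_subset_nonunits_valuationSubring _ hne
  refine ⟨A, ?_⟩
  have hmax : w.IsMaximal := hw.isMaximal hw0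
  have hle : w ≤ (center A).comap (LP_toZbar N) := by
    intro x hx
    rw [Ideal.mem_comap, mem_center_iff]
    exact hA ⟨f x, Ideal.mem_map_of_mem f hx, rfl⟩
  have heq := hmax.eq_of_le (Ideal.comap_isPrime (LP_toZbar N) (center A)).ne_top hle
  intro x
  rw [heq, Ideal.mem_comap]

theorem LP_setup (N : IntermediateField ℚ Qb) [FiniteDimensional ℚ N] [IsGalois ℚ N]
    (w : Ideal (𝓞 N)) (hw : w.IsPrime) (hw0 : w ≠ ⊥) (s : N ≃ₐ[ℚ] N) (hs : s • w = w) :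
    ∃ (ℓ : ℕ) (A : ValuationSubring Qb) (σ : GQ), ℓ.Prime ∧ (ℓ : 𝓞 N) ∈ w ∧ A.LiesOverPrime ℓ ∧
      (∀ x : 𝓞 N, LP_toZbar N x ∈ center A ↔ x ∈ w) ∧ σ • center A = center A ∧
      ∀ x : N, σ (x : Qb) = ((s x : N) : Qb) := by
  obtain ⟨ℓ, hℓ, hℓw⟩ := LP_exists_prime N w hw hw0
  obtain ⟨A, hA⟩ := LP_exists_place N w hw hw0
  have hAℓ : A.LiesOverPrime ℓ := by
    have h1 := (hA _).mpr hℓw
    rw [mem_center_iff, LP_coe_toZbar] at h1
    show (ℓ : Qb) ∈ A.nonunits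
    simpa using h1
  obtain ⟨σ₀, hσ₀⟩ := AlgEquiv.restrictNormalHom_surjective (F := ℚ) (K₁ := N) Qb s
  have hσ₀' : ∀ x : N, σ₀ (x : Qb) = ((s x : N) : Qb) := by
    intro x
    rw [← hσ₀]
    exact (AlgEquiv.restrictNormal_commutes σ₀ N x).symm
  have hσ₀i : ∀ x : N, σ₀⁻¹ (x : Qb) = ((s⁻¹ x : N) : Qb) := by
    intro x
    have h1 := hσ₀' (s⁻¹ x)
    have h2 : s (s⁻¹ x) = x := AlgEquiv.apply_symm_apply s x
    rw [h2] at h1
    rw [← h1]
    exact AlgEquiv.symm_apply_apply σ₀ _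
  obtain ⟨τ, hτ, hτQ⟩ := LP_transitive N.fixingSubgroup (N.fixingSubgroup_isClosed)
    (σ₀ • center A) (center A) (by
      intro b hb
      obtain ⟨x, rfl⟩ := LP_exists_toZbar N b hb
      rw [Ideal.mem_pointwise_smul_iff_inv_smul_mem, LP_smul_toZbar N s⁻¹ σ₀⁻¹ hσ₀i, hA, hA,
        ← Ideal.mem_pointwise_smul_iff_inv_smul_mem, hs])
  refine ⟨ℓ, A, τ * σ₀, hℓ, hℓw, hAℓ, hA, ?_, ?_⟩
  · rw [mul_smul, ← hτQ]
  · intro x
    rw [AlgEquiv.mul_apply, hσ₀']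
    exact (IntermediateField.mem_fixingSubgroup_iff N τ).mp hτ _ (s x).2

/-- (N2) lifting decomposition elements. -/
theorem exists_lift_decomposition (N : IntermediateField ℚ Qb) [FiniteDimensional ℚ N]
    [IsGalois ℚ N] (w : Ideal (𝓞 N)) (hw : w.IsPrime) (hw0 : w ≠ ⊥) (s : N ≃ₐ[ℚ] N)
    (hs : s • w = w) :
    ∃ (ℓ : ℕ) (A : ValuationSubring Qb) (σ : GQ), ℓ.Prime ∧ (ℓ : 𝓞 N) ∈ w ∧ A.LiesOverPrime ℓ ∧
      σ ∈ A.decompositionSubgroup ℚ ∧ ∀ x : N, σ (x : Qb) = ((s x : N) : Qb) := by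
  obtain ⟨ℓ, A, σ, hℓ, hℓw, hA, -, hσ, hσs⟩ := LP_setup N w hw hw0 s hs
  exact ⟨ℓ, A, σ, hℓ, hℓw, hA, LP_mem_decomposition A hℓ hA σ hσ, hσs⟩

/-- (N1) lifting inertia elements to the absolute inertia group of a place of `ℚ̄`. -/
theorem exists_lift_inertia (N : IntermediateField ℚ Qb) [FiniteDimensional ℚ N] [IsGalois ℚ N]
    (w : Ideal (𝓞 N)) (hw : w.IsPrime) (hw0 : w ≠ ⊥) (s : N ≃ₐ[ℚ] N)
    (hs : ∀ x : 𝓞 N, s • x - x ∈ w) :
    ∃ (ℓ : ℕ) (A : ValuationSubring Qb) (σ : GQ), ℓ.Prime ∧ (ℓ : 𝓞 N) ∈ w ∧ A.LiesOverPrime ℓ ∧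
      σ ∈ A.inertiaSubgroupIn ℚ ∧ ∀ x : N, σ (x : Qb) = ((s x : N) : Qb) := by
  have hsw : s • w = w := by
    ext x
    rw [Ideal.mem_pointwise_smul_iff_inv_smul_mem]
    have h1 := hs (s⁻¹ • x)
    rw [smul_inv_smul] at h1
    constructor
    · intro h
      have := w.add_mem h1 h
      rwa [sub_add_cancel] at this
    · intro h
      have := w.sub_mem h h1
      rwa [sub_sub_cancel] at this
  obtain ⟨ℓ, A, σ₁, hℓ, hℓw, hA, hAw, hσ₁, hσ₁s⟩ := LP_setup N w hw hw0 s hsw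
  obtain ⟨ρ, hρ, hρQ, hρσ⟩ := LP_inertia N.fixingSubgroup (N.fixingSubgroup_isClosed)
    (center A) σ₁ hσ₁ (by
      intro b hb
      obtain ⟨x, rfl⟩ := LP_exists_toZbar N b hb
      rw [LP_smul_toZbar N s σ₁ hσ₁s, ← map_sub, hAw]
      exact hs x)
  have hρQ' : ρ⁻¹ • center A = center A := by
    conv_lhs => rw [← hρQ]
    rw [inv_smul_smul]
  refine ⟨ℓ, A, ρ⁻¹ * σ₁, hℓ, hℓw, hA, LP_mem_inertia A hℓ hA _ ?_ ?_, ?_⟩
  · rw [mul_smul, hσ₁, hρQ']
  · intro b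
    have h1 := hρσ b
    rw [← hρQ', Ideal.mem_pointwise_smul_iff_inv_smul_mem, inv_inv, smul_sub, mul_smul,
      smul_inv_smul]
    have := (center A).neg_mem h1
    rwa [neg_sub] at this
  · intro x
    rw [AlgEquiv.mul_apply, hσ₁s]
    exact (IntermediateField.mem_fixingSubgroup_iff N ρ⁻¹).mp (inv_mem hρ) _ (s x).2

end Fermat.Agent.S14Lib
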