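import Mathlib
import Fermat.Agent.S14.Defs

/-!
# S14, leaf (E), part 1: primes of degree `> 1` contribute a convergent sum
-/

set_option autoImplicit false

namespace Fermat.Agent.S14Lib

open NumberField nonZeroDivisors IsDedekindDomain Filter Topology

namespace BadPrimes

variable {K : Type} [Field K] [NumberField K]

theorem exists_prime_mem (v : HeightOneSpectrum (𝓞 K)) :
    ∃ q : ℕ, q.Prime ∧ (q : 𝓞 K) ∈ v.asIdeal := by
  classical
  have hex : ∃ k : ℕ, 0 < k ∧ (k : 𝓞 K) ∈ v.asIdeal := by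
    refine ⟨Ideal.absNorm v.asIdeal, Nat.pos_of_ne_zero ?_, Ideal.absNorm_mem _⟩
    rw [Ne, Ideal.absNorm_eq_zero_iff]
    exact v.ne_bot
  refine ⟨Nat.find hex, ?_, (Nat.find_spec hex).2⟩
  have hpos := (Nat.find_spec hex).1
  have hmem := (Nat.find_spec hex).2
  have hmin : ∀ k : ℕ, 0 < k → (k : 𝓞 K) ∈ v.asIdeal → Nat.find hex ≤ k :=
    fun k h1 h2 => Nat.find_min' hex ⟨h1, h2⟩
  rw [Nat.prime_def]
  refine ⟨?_, ?_⟩
  · by_contra h
    have h1 : Nat.find hex = 1 := by omega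
    rw [h1, Nat.cast_one] at hmem
    exact v.isPrime.ne_top ((Ideal.eq_top_iff_one _).2 hmem)
  · rintro m ⟨c, hc⟩
    have hm0 : 0 < m := Nat.pos_of_ne_zero (by rintro rfl; rw [zero_mul] at hc; omega)
    have hc0 : 0 < c := Nat.pos_of_ne_zero (by rintro rfl; rw [mul_zero] at hc; omega)
    rw [hc, Nat.cast_mul] at hmem
    rcases v.isPrime.mem_or_mem hmem with h | h
    · right
      have h1 := hmin m hm0 h
      have h2 : m ≤ Nat.find hex := Nat.le_of_dvd hpos ⟨c, hc⟩
      omega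
    · left
      have h1 := hmin c hc0 h
      have h2 : m * c ≤ 1 * c := by rw [one_mul, ← hc]; exact h1
      have := Nat.le_of_mul_le_mul_right h2 hc0
      omega

/-- a rational prime contained in `v`. -/
noncomputable def qOf (v : HeightOneSpectrum (𝓞 K)) : ℕ := (exists_prime_mem v).choose

theorem qOf_prime (v : HeightOneSpectrum (𝓞 K)) : (qOf v).Prime := (exists_prime_mem v).choose_spec.1

theorem qOf_mem (v : HeightOneSpectrum (𝓞 K)) : (qOf v : 𝓞 K) ∈ v.asIdeal :=
  (exists_prime_mem v).choose_spec.2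

theorem span_ne_bot {q : ℕ} (hq : q.Prime) : Ideal.span {(q : 𝓞 K)} ≠ 0 := by
  rw [Ne, Ideal.zero_eq_bot, Ideal.span_singleton_eq_bot]
  exact_mod_cast hq.ne_zero

theorem absNorm_eq_pow (v : HeightOneSpectrum (𝓞 K)) {q : ℕ} (hq : q.Prime)
    (hqv : (q : 𝓞 K) ∈ v.asIdeal) : ∃ f : ℕ, 1 ≤ f ∧ Ideal.absNorm v.asIdeal = q ^ f := by
  have hdvd : v.asIdeal ∣ Ideal.span {(q : 𝓞 K)} := Ideal.dvd_span_singleton.2 hqv
  have h2 := map_dvd Ideal.absNorm hdvd
  rw [Ideal.absNorm_span_natCast] at h2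
  obtain ⟨f, -, hf⟩ := (Nat.dvd_prime_pow hq).1 h2
  refine ⟨f, ?_, hf⟩
  rcases Nat.eq_zero_or_pos f with rfl | h
  · rw [pow_zero, Ideal.absNorm_eq_one_iff] at hf
    exact absurd hf v.isPrime.ne_top
  · exact h

theorem card_le {q : ℕ} (hq : q.Prime) (T : Finset (HeightOneSpectrum (𝓞 K)))
    (hT : ∀ v ∈ T, (q : 𝓞 K) ∈ v.asIdeal) : T.card ≤ Module.finrank ℤ (𝓞 K) := by
  have h1 : ∏ v ∈ T, v.asIdeal ∣ Ideal.span {(q : 𝓞 K)} := by
    refine Finset.prod_dvd_of_coprime ?_ fun v hv => Ideal.dvd_span_singleton.2 (hT v hv)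
    intro v _ w _ hvw
    rw [Function.onFun, Ideal.isCoprime_iff_sup_eq]
    exact Ideal.IsMaximal.coprime_of_ne v.isMaximal w.isMaximal
      fun h => hvw (HeightOneSpectrum.ext h)
  have h2 := map_dvd Ideal.absNorm h1
  rw [Ideal.absNorm_span_natCast, map_prod] at h2
  have h3 : q ^ T.card ≤ ∏ v ∈ T, Ideal.absNorm v.asIdeal := by
    rw [← Finset.prod_const]
    refine Finset.prod_le_prod' fun v hv => ?_
    obtain ⟨f, hf1, hf⟩ := absNorm_eq_pow v hq (hT v hv)
    rw [hf]
    exact Nat.le_self_pow (by omega) q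
  have h4 := Nat.le_of_dvd (pow_pos hq.pos _) h2
  exact (Nat.pow_le_pow_iff_right hq.one_lt).1 (h3.trans h4)

theorem finite_fiber (q : ℕ) : Finite {v : HeightOneSpectrum (𝓞 K) // qOf v = q} := by
  by_cases hq : q.Prime
  · have := (Ideal.finite_factors (span_ne_bot (K := K) hq))
    refine (this.subset ?_).to_subtype
    intro v hv
    have hv' : qOf v = q := hv
    exact Ideal.dvd_span_singleton.2 (hv' ▸ qOf_mem v)
  · have : IsEmpty {v : HeightOneSpectrum (𝓞 K) // qOf v = q} :=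
      ⟨fun v => hq (v.2 ▸ qOf_prime v.1)⟩
    infer_instance

theorem card_fiber_le (q : ℕ) :
    Nat.card {v : HeightOneSpectrum (𝓞 K) // qOf v = q} ≤ Module.finrank ℤ (𝓞 K) := by
  classical
  have := finite_fiber (K := K) q
  by_cases hq : q.Prime
  · have hfin : {v : HeightOneSpectrum (𝓞 K) | qOf v = q}.Finite := by
      have h' : Finite ↑{v : HeightOneSpectrum (𝓞 K) | qOf v = q} := this
      exact Set.toFinite _
    have h := card_le hq hfin.toFinset (fun v hv => by
      have hv' : qOf v = q := by simpa using hv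
      exact hv' ▸ qOf_mem v)
    rwa [← Nat.card_eq_card_finite_toFinset hfin] at h
  · have : IsEmpty {v : HeightOneSpectrum (𝓞 K) // qOf v = q} :=
      ⟨fun v => hq (v.2 ▸ qOf_prime v.1)⟩
    simp

theorem summable_qOf :
    Summable (fun v : HeightOneSpectrum (𝓞 K) => (((qOf v : ℝ)) ^ 2)⁻¹) := by
  rw [← (Equiv.sigmaFiberEquiv (fun v : HeightOneSpectrum (𝓞 K) => qOf v)).summable_iff]
  change Summable (fun x : (Σ q : ℕ, {v : HeightOneSpectrum (𝓞 K) // qOf v = q}) =>
    (((qOf (x.2 : HeightOneSpectrum (𝓞 K)) : ℝ)) ^ 2)⁻¹)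
  rw [summable_sigma_of_nonneg (fun x => by positivity)]
  refine ⟨fun q => ?_, ?_⟩
  · have := finite_fiber (K := K) q
    exact Summable.of_finite
  · have h : ∀ q : ℕ, ∑' v : {v : HeightOneSpectrum (𝓞 K) // qOf v = q},
        (((qOf (v : HeightOneSpectrum (𝓞 K)) : ℝ)) ^ 2)⁻¹ =
        (Nat.card {v : HeightOneSpectrum (𝓞 K) // qOf v = q} : ℝ) * (((q : ℝ)) ^ 2)⁻¹ := by
      intro q
      have : ∀ v : {v : HeightOneSpectrum (𝓞 K) // qOf v = q},
          (((qOf (v : HeightOneSpectrum (𝓞 K)) : ℝ)) ^ 2)⁻¹ = (((q : ℝ)) ^ 2)⁻¹ :=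
        fun v => by rw [v.2]
      rw [tsum_congr this, tsum_const, nsmul_eq_mul]
    simp only [h]
    have hs : Summable fun q : ℕ => (Module.finrank ℤ (𝓞 K) : ℝ) * (((q : ℝ)) ^ 2)⁻¹ :=
      (Real.summable_nat_pow_inv.2 (by norm_num)).mul_left _
    refine Summable.of_nonneg_of_le (fun q => by positivity) (fun q => ?_) hs
    exact mul_le_mul_of_nonneg_right (by exact_mod_cast card_fiber_le q) (by positivity)

/-- primes of degree `> 1` -/
theorem summable_not_prime :
    Summable (fun v : HeightOneSpectrum (𝓞 K) =>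
      if (Ideal.absNorm v.asIdeal).Prime then (0 : ℝ) else ((Ideal.absNorm v.asIdeal : ℝ))⁻¹) := by
  refine Summable.of_nonneg_of_le (fun v => ?_) (fun v => ?_) summable_qOf
  · split_ifs <;> positivity
  · split_ifs with h
    · positivity
    · obtain ⟨f, hf1, hf⟩ := absNorm_eq_pow v (qOf_prime v) (qOf_mem v)
      have hf2 : 2 ≤ f := by
        by_contra h2
        have : f = 1 := by omega
        rw [this, pow_one] at hf
        exact h (hf ▸ qOf_prime v)
      rw [hf]
      push_cast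
      have hq1 : (1 : ℝ) ≤ qOf v := by exact_mod_cast (qOf_prime v).one_le
      have hq0 : (0 : ℝ) < qOf v := by linarith
      exact inv_anti₀ (by positivity) (pow_le_pow_right₀ hq1 hf2)

open Classical in
/-- the bad primes: degree `> 1` or containing a given nonzero integer. -/
theorem summable_bad (p : ℕ) (hp : p ≠ 0) :
    Summable (fun v : HeightOneSpectrum (𝓞 K) =>
      if (Ideal.absNorm v.asIdeal).Prime ∧ (p : 𝓞 K) ∉ v.asIdeal then (0 : ℝ)
      else ((Ideal.absNorm v.asIdeal : ℝ))⁻¹) := by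
  have hfin : {v : HeightOneSpectrum (𝓞 K) | v.asIdeal ∣ Ideal.span {(p : 𝓞 K)}}.Finite := by
    apply Ideal.finite_factors
    rw [Ne, Ideal.zero_eq_bot, Ideal.span_singleton_eq_bot]
    exact_mod_cast hp
  have h2 : Summable (fun v : HeightOneSpectrum (𝓞 K) =>
      if (p : 𝓞 K) ∈ v.asIdeal then ((Ideal.absNorm v.asIdeal : ℝ))⁻¹ else 0) := by
    refine summable_of_hasFiniteSupport (hfin.subset ?_)
    intro v hv
    simp only [Function.mem_support, ne_eq, ite_eq_right_iff, Classical.not_imp] at hv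
    exact Ideal.dvd_span_singleton.2 hv.1
  refine Summable.of_nonneg_of_le (fun v => ?_) (fun v => ?_) (summable_not_prime.add h2)
  · split_ifs <;> positivity
  · have h0 : (0 : ℝ) ≤ ((Ideal.absNorm v.asIdeal : ℝ))⁻¹ := by positivity
    by_cases h1 : (Ideal.absNorm v.asIdeal).Prime <;> by_cases h3 : (p : 𝓞 K) ∈ v.asIdeal <;>
      simp [h1, h3, h0]

end BadPrimes

end Fermat.Agent.S14Lib
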