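import Mathlib
import Fermat.Agent.S14.Defs

/-!
# S14, leaf (B): Euler product over the prime ideals of a number field
-/

set_option autoImplicit false

namespace Fermat.Agent.S14Lib

open NumberField nonZeroDivisors IsDedekindDomain Filter Topology

namespace Euler

variable {K : Type} [Field K] [NumberField K]

/-- nonzero ideals all of whose prime factors lie in `S`. -/
def smooth (S : Finset (HeightOneSpectrum (𝓞 K))) : Set (Ideal (𝓞 K)) :=
  {I | I ≠ ⊥ ∧ ∀ v : HeightOneSpectrum (𝓞 K), v.asIdeal ∣ I → v ∈ S}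

theorem smooth_empty : smooth (∅ : Finset (HeightOneSpectrum (𝓞 K))) = {⊤} := by
  ext I
  simp only [smooth, Set.mem_ofPred_eq, Finset.notMem_empty, imp_false, Set.mem_singleton_iff]
  constructor
  · rintro ⟨h0, h⟩
    by_contra hI
    obtain ⟨M, hM, hIM⟩ := Ideal.exists_le_maximal I hI
    have hM0 : M ≠ ⊥ := fun h' => h0 (le_bot_iff.1 (h' ▸ hIM))
    exact h ⟨M, hM.isPrime, hM0⟩ (Ideal.dvd_iff_le.2 hIM)
  · rintro rfl
    refine ⟨top_ne_bot, fun v hv => ?_⟩
    have := Ideal.dvd_iff_le.1 hv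
    exact v.isPrime.ne_top (top_le_iff.1 this)

theorem eq_of_dvd {v w : HeightOneSpectrum (𝓞 K)} (h : w.asIdeal ∣ v.asIdeal) : w = v := by
  have hle := Ideal.dvd_iff_le.1 h
  have hmax : v.asIdeal.IsMaximal := v.isMaximal
  exact HeightOneSpectrum.ext (hmax.eq_of_le w.isPrime.ne_top hle).symm

theorem not_isUnit (v : HeightOneSpectrum (𝓞 K)) : ¬ IsUnit v.asIdeal := v.irreducible.not_isUnit

/-- the multiplication map `(k, J) ↦ v ^ k * J`. -/
def mulMap (v : HeightOneSpectrum (𝓞 K)) (S : Finset (HeightOneSpectrum (𝓞 K))) :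
    ℕ × smooth S → Ideal (𝓞 K) := fun x => v.asIdeal ^ x.1 * (x.2 : Ideal (𝓞 K))

theorem mulMap_injective_aux {v : HeightOneSpectrum (𝓞 K)} {J J' : Ideal (𝓞 K)} {k k' : ℕ}
    (hJ : ¬ v.asIdeal ∣ J) (hkk : k ≤ k') (h : v.asIdeal ^ k * J = v.asIdeal ^ k' * J') :
    k = k' ∧ J = J' := by
  obtain ⟨d, rfl⟩ := Nat.exists_eq_add_of_le hkk
  rw [pow_add, mul_assoc] at h
  have h2 := mul_left_cancel₀ (pow_ne_zero k v.ne_bot) h
  rcases Nat.eq_zero_or_pos d with rfl | hd
  · simpa using h2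
  · exfalso
    apply hJ
    rw [h2]
    exact Dvd.dvd.mul_right (dvd_pow_self _ hd.ne') _

theorem mulMap_injective {v : HeightOneSpectrum (𝓞 K)} {S : Finset (HeightOneSpectrum (𝓞 K))}
    (hv : v ∉ S) : Function.Injective (mulMap v S) := by
  rintro ⟨k, J, hJ⟩ ⟨k', J', hJ'⟩ h
  simp only [mulMap] at h
  have h1 : ¬ v.asIdeal ∣ J := fun hd => hv (hJ.2 v hd)
  have h2 : ¬ v.asIdeal ∣ J' := fun hd => hv (hJ'.2 v hd)
  rcases le_total k k' with hk | hk
  · obtain ⟨rfl, rfl⟩ := mulMap_injective_aux h1 hk h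
    rfl
  · obtain ⟨rfl, rfl⟩ := mulMap_injective_aux h2 hk h.symm
    rfl

open Classical in
theorem range_mulMap (v : HeightOneSpectrum (𝓞 K)) (S : Finset (HeightOneSpectrum (𝓞 K))) :
    Set.range (mulMap v S) = smooth (insert v S) := by
  ext I
  constructor
  · rintro ⟨⟨k, J, hJ⟩, rfl⟩
    refine ⟨mul_ne_zero (pow_ne_zero k v.ne_bot) hJ.1, fun w hw => ?_⟩
    rcases (w.prime.dvd_or_dvd hw) with h | h
    · rw [eq_of_dvd (w.prime.dvd_of_dvd_pow h)]
      exact Finset.mem_insert_self _ _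
    · exact Finset.mem_insert_of_mem (hJ.2 w h)
  · rintro ⟨h0, h⟩
    obtain ⟨k, J, hJ, rfl⟩ := WfDvdMonoid.max_power_factor h0 v.irreducible
    have hJ0 : J ≠ ⊥ := right_ne_zero_of_mul h0
    refine ⟨⟨k, J, hJ0, fun w hw => ?_⟩, rfl⟩
    rcases Finset.mem_insert.1 (h w (Dvd.dvd.mul_left hw _)) with rfl | hw'
    · exact absurd hw hJ
    · exact hw'

variable (F : Ideal (𝓞 K) →*₀ ℂ)

theorem norm_lt_one (hF : Summable fun I => ‖F I‖) (v : HeightOneSpectrum (𝓞 K)) :
    ‖F v.asIdeal‖ < 1 := by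
  have hinj : Function.Injective fun n : ℕ => v.asIdeal ^ n :=
    pow_injective_of_not_isUnit (not_isUnit v) v.ne_bot
  have := hF.comp_injective hinj
  simp only [Function.comp_def, map_pow, norm_pow] at this
  simpa using summable_geometric_iff_norm_lt_one.1 this

theorem hasSum_smooth (hF : Summable fun I => ‖F I‖) (S : Finset (HeightOneSpectrum (𝓞 K))) :
    HasSum (fun J : smooth S => F (J : Ideal (𝓞 K))) (∏ v ∈ S, (1 - F v.asIdeal)⁻¹) := by
  classical
  induction S using Finset.induction_on with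
  | empty =>
    rw [smooth_empty, Finset.prod_empty, ← Ideal.one_eq_top]
    have := hasSum_singleton (1 : Ideal (𝓞 K)) (fun I => F I)
    rw [map_one] at this
    exact this
  | insert v S hv ih =>
    rw [Finset.prod_insert hv, ← range_mulMap, (mulMap_injective hv).hasSum_range_iff]
    have h1 : HasSum (fun k : ℕ => F v.asIdeal ^ k) (1 - F v.asIdeal)⁻¹ :=
      hasSum_geometric_of_norm_lt_one (norm_lt_one F hF v)
    have h1' : Summable fun k : ℕ => ‖F v.asIdeal ^ k‖ := by
      simp only [norm_pow]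
      exact summable_geometric_of_lt_one (norm_nonneg _) (norm_lt_one F hF v)
    have h2' : Summable fun J : smooth S => ‖F (J : Ideal (𝓞 K))‖ := hF.subtype _
    have hs : Summable (fun x : ℕ × smooth S => F v.asIdeal ^ x.1 * F (x.2 : Ideal (𝓞 K))) :=
      summable_mul_of_summable_norm (f := fun k : ℕ => F v.asIdeal ^ k)
        (g := fun J : smooth S => F (J : Ideal (𝓞 K))) h1' h2'
    have h3 : HasSum (fun x : ℕ × smooth S => F v.asIdeal ^ x.1 * F (x.2 : Ideal (𝓞 K)))
        ((1 - F v.asIdeal)⁻¹ * ∏ v ∈ S, (1 - F v.asIdeal)⁻¹) := by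
      have : T3Space ℂ := inferInstance
      exact HasSum.mul (f := fun k : ℕ => F v.asIdeal ^ k)
        (g := fun J : smooth S => F (J : Ideal (𝓞 K))) h1 ih hs
    have h4 : ((fun I : Ideal (𝓞 K) => F I) ∘ mulMap v S) =
        fun x : ℕ × smooth S => F v.asIdeal ^ x.1 * F (x.2 : Ideal (𝓞 K)) := by
      funext x
      simp [mulMap]
    rw [h4]
    exact h3

theorem hasProd (hF : Summable fun I => ‖F I‖) :
    HasProd (fun v : HeightOneSpectrum (𝓞 K) => (1 - F v.asIdeal)⁻¹) (∑' I, F I) := by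
  classical
  rw [HasProd, SummationFilter.unconditional, Metric.tendsto_atTop]
  intro ε hε
  obtain ⟨A, hA⟩ := hF.of_norm.tsum_vanishing (Metric.ball_mem_nhds 0 hε)
  let S0 : Finset (HeightOneSpectrum (𝓞 K)) :=
    A.biUnion fun I => if h : I = 0 then ∅ else (Ideal.finite_factors h).toFinset
  refine ⟨S0, fun S hS => ?_⟩
  rw [dist_eq_norm, ← (hasSum_smooth F hF S).tsum_eq, norm_sub_rev,
    ← hF.of_norm.tsum_subtype_add_tsum_subtype_compl (smooth S), add_sub_cancel_left,
    tsum_eq_tsum_sdiff_singleton (smooth S)ᶜ (map_zero F)]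
  have := hA ((smooth S)ᶜ \ {0}) ?_
  · simpa using this
  · rw [Set.disjoint_left]
    rintro I ⟨hI1, hI2⟩ hIA
    apply hI1
    have hI0 : I ≠ 0 := hI2
    refine ⟨hI0, fun v hv => hS ?_⟩
    simp only [S0, Finset.mem_biUnion]
    refine ⟨I, hIA, ?_⟩
    rw [dif_neg hI0]
    simpa using hv

end Euler

open Euler

/-- (B) Euler product in exp-log form for a completely multiplicative function on ideals. -/
theorem euler_exp_log (K : Type) [Field K] [NumberField K]
    (F : Ideal (𝓞 K) →*₀ ℂ) (hF : Summable fun I => ‖F I‖) :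
    Summable (fun v : HeightOneSpectrum (𝓞 K) => -Complex.log (1 - F v.asIdeal)) ∧
      Complex.exp (∑' v : HeightOneSpectrum (𝓞 K), -Complex.log (1 - F v.asIdeal)) = ∑' I, F I := by
  have hinj : Function.Injective (fun v : HeightOneSpectrum (𝓞 K) => v.asIdeal) :=
    fun v w h => HeightOneSpectrum.ext h
  have hs : Summable (fun v : HeightOneSpectrum (𝓞 K) => F v.asIdeal) :=
    hF.of_norm.comp_injective hinj
  have hlog := hs.clog_one_sub.neg
  refine ⟨hlog, ?_⟩
  have hne (v : HeightOneSpectrum (𝓞 K)) : 1 - F v.asIdeal ≠ 0 := fun h => by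
    have h1 := norm_lt_one F hF v
    rw [← sub_eq_zero.1 h, norm_one] at h1
    exact lt_irrefl _ h1
  have H := hlog.hasSum.cexp
  simp only [Function.comp_def, Complex.exp_neg, Complex.exp_log (hne _)] at H
  exact H.unique (hasProd F hF)

end Fermat.Agent.S14Lib
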