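import Mathlib
import Fermat.Agent.S14.Defs

/-!
# S14, leaf (C): the Dedekind zeta function as a sum over ideals
-/

set_option autoImplicit false

namespace Fermat.Agent.S14Lib

open NumberField nonZeroDivisors IsDedekindDomain Filter Topology

namespace ZetaSum

variable (K : Type) [Field K] [NumberField K]

/-- number of ideals of norm `n`. -/
noncomputable def cnt (n : ℕ) : ℝ := (Nat.card {I : Ideal (𝓞 K) // Ideal.absNorm I = n} : ℝ)

theorem tendsto_cnt :
    Tendsto (fun n : ℕ => (∑ k ∈ Finset.Icc 1 n, cnt K k) / (n : ℝ)) atTop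
      (𝓝 (dedekindZeta_residue K)) := by
  refine ((Ideal.tendsto_norm_le_div_atTop₀ K).comp tendsto_natCast_atTop_atTop).congr fun n ↦ ?_
  simp only [Function.comp_apply, Nat.cast_le, cnt, ← Nat.cast_sum]
  congr
  rw [← add_left_inj 1, ← Ideal.card_norm_le_eq_card_norm_le_add_one,
    show Finset.Icc 1 n = Finset.Ioc 0 n from Finset.Icc_succ_left_eq_Ioc _ _,
    show 1 = Nat.card {I : Ideal (𝓞 K) // Ideal.absNorm I = 0} by simp [Ideal.absNorm_eq_zero_iff],
    Finset.sum_Ioc_add_eq_sum_Icc (n.zero_le),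
    ← Finset.card_preimage_eq_sum_card_image_eq (fun k _ ↦ Ideal.finite_setOfPred_absNorm_eq k)]
  simp [Set.coe_eq_subtype]

theorem lseriesSummable (s : ℝ) (hs : 1 < s) :
    LSeriesSummable (fun n => ((cnt K n : ℝ) : ℂ)) (s : ℂ) := by
  refine LSeriesSummable_of_sum_norm_bigO_and_nonneg (r := 1) ?_ (fun n => Nat.cast_nonneg _)
    zero_le_one (by simpa using hs)
  have h := (tendsto_cnt K).isBigO_one ℝ
  have h2 : (fun n : ℕ => (∑ k ∈ Finset.Icc 1 n, cnt K k)) =ᶠ[atTop]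
      fun n : ℕ => ((∑ k ∈ Finset.Icc 1 n, cnt K k) / (n : ℝ)) * (n : ℝ) := by
    filter_upwards [eventually_ne_atTop 0] with n hn
    rw [div_mul_cancel₀ _ (by exact_mod_cast hn)]
  refine h2.trans_isBigO ?_
  have := h.mul (Asymptotics.isBigO_refl (fun n : ℕ => (n : ℝ)) atTop)
  simpa using this

theorem term_eq (s : ℝ) (hs : 1 < s) (n : ℕ) :
    LSeries.term (fun n => ((cnt K n : ℝ) : ℂ)) (s : ℂ) n =
      ((cnt K n * (n : ℝ) ^ (-s) : ℝ) : ℂ) := by
  rcases Nat.eq_zero_or_pos n with rfl | hn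
  · simp [Real.zero_rpow (by linarith : -s ≠ 0)]
  · rw [LSeries.term_of_ne_zero hn.ne', Real.rpow_neg (Nat.cast_nonneg n), ← div_eq_mul_inv]
    push_cast
    rw [Complex.ofReal_cpow (Nat.cast_nonneg n)]
    simp

theorem summable_cnt (s : ℝ) (hs : 1 < s) : Summable fun n : ℕ => cnt K n * (n : ℝ) ^ (-s) := by
  have := lseriesSummable K s hs
  rw [LSeriesSummable, funext (term_eq K s hs)] at this
  exact Complex.summable_ofReal.1 this

instance (n : ℕ) : Finite {I : Ideal (𝓞 K) // Ideal.absNorm I = n} :=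
  (Ideal.finite_setOfPred_absNorm_eq n).to_subtype

theorem tsum_fiber (s : ℝ) (n : ℕ) :
    ∑' I : {I : Ideal (𝓞 K) // Ideal.absNorm I = n}, (Ideal.absNorm (I : Ideal (𝓞 K)) : ℝ) ^ (-s) =
      cnt K n * (n : ℝ) ^ (-s) := by
  have : ∀ I : {I : Ideal (𝓞 K) // Ideal.absNorm I = n},
      (Ideal.absNorm (I : Ideal (𝓞 K)) : ℝ) ^ (-s) = (n : ℝ) ^ (-s) := fun I => by rw [I.2]
  rw [tsum_congr this, tsum_const, cnt, nsmul_eq_mul]

theorem summable_sigma (s : ℝ) (hs : 1 < s) :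
    Summable (fun x : (Σ n : ℕ, {I : Ideal (𝓞 K) // Ideal.absNorm I = n}) =>
      (Ideal.absNorm (x.2 : Ideal (𝓞 K)) : ℝ) ^ (-s)) := by
  rw [summable_sigma_of_nonneg (fun x => Real.rpow_nonneg (Nat.cast_nonneg _) _)]
  refine ⟨fun n => Summable.of_finite, ?_⟩
  simp only [tsum_fiber]
  exact summable_cnt K s hs

end ZetaSum

open ZetaSum

/-- (C) the Dedekind zeta function as a sum over ideals. -/
theorem zeta_eq_tsum (K : Type) [Field K] [NumberField K] (s : ℝ) (hs : 1 < s) :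
    Summable (fun I : Ideal (𝓞 K) => (Ideal.absNorm I : ℝ) ^ (-s)) ∧
      dedekindZeta K (s : ℂ) = ((∑' I : Ideal (𝓞 K), (Ideal.absNorm I : ℝ) ^ (-s) : ℝ) : ℂ) := by
  have hS := summable_sigma K s hs
  have hsum : Summable (fun I : Ideal (𝓞 K) => (Ideal.absNorm I : ℝ) ^ (-s)) := by
    rw [← (Equiv.sigmaFiberEquiv (fun I : Ideal (𝓞 K) => Ideal.absNorm I)).summable_iff]
    exact hS
  refine ⟨hsum, ?_⟩
  rw [← (Equiv.sigmaFiberEquiv (fun I : Ideal (𝓞 K) => Ideal.absNorm I)).tsum_eq]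
  have h1 : ∑' x : (Σ n : ℕ, {I : Ideal (𝓞 K) // Ideal.absNorm I = n}),
      (Ideal.absNorm ((Equiv.sigmaFiberEquiv (fun I : Ideal (𝓞 K) => Ideal.absNorm I)) x) : ℝ) ^ (-s)
      = ∑' n : ℕ, cnt K n * (n : ℝ) ^ (-s) := by
    change ∑' x : (Σ n : ℕ, {I : Ideal (𝓞 K) // Ideal.absNorm I = n}),
      (Ideal.absNorm (x.2 : Ideal (𝓞 K)) : ℝ) ^ (-s) = _
    rw [Summable.tsum_sigma hS]
    exact tsum_congr fun n => tsum_fiber K s n
  rw [h1, Complex.ofReal_tsum, dedekindZeta, LSeries]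
  exact tsum_congr fun n => term_eq K s hs n

end Fermat.Agent.S14Lib
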