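import Mathlib
import Fermat.Agent.S14.Defs
import Fermat.Agent.S14.Euler
import Fermat.Agent.S14.ZetaSum
import Fermat.Agent.S14.BadPrimes

/-!
# S14, leaf (E), part 2: the analytic core
-/

set_option autoImplicit false

namespace Fermat.Agent.S14Lib

open NumberField nonZeroDivisors IsDedekindDomain Filter Topology

namespace NonSplit

/-! ### generic lemmas -/

theorem one_le_prod {ι : Type*} {g : ι → ℝ} (hg : ∀ i, 1 ≤ g i) (S : Finset ι) :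
    1 ≤ ∏ i ∈ S, g i := by
  classical
  induction S using Finset.induction_on with
  | empty => simp
  | insert a S ha ih =>
    rw [Finset.prod_insert ha]
    exact one_le_mul_of_one_le_of_one_le (hg a) ih

theorem prod_mono {ι : Type*} {g : ι → ℝ} (hg : ∀ i, 1 ≤ g i) {T S : Finset ι} (h : T ⊆ S) :
    ∏ i ∈ T, g i ≤ ∏ i ∈ S, g i := by
  classical
  rw [← Finset.prod_sdiff h]
  exact le_mul_of_one_le_left (zero_le_one.trans (one_le_prod hg T)) (one_le_prod hg _)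

theorem prod_le_norm {ι : Type*} {g : ι → ℝ} {D : ℂ} (hg : ∀ i, 1 ≤ g i)
    (h : HasProd (fun i => ((g i : ℝ) : ℂ)) D) (T : Finset ι) : ∏ i ∈ T, g i ≤ ‖D‖ := by
  have h2 := h.norm
  have h3 : (fun i => ‖((g i : ℝ) : ℂ)‖) = g := by
    funext i
    rw [Complex.norm_real, Real.norm_of_nonneg (zero_le_one.trans (hg i))]
  rw [h3] at h2
  rw [HasProd, SummationFilter.unconditional] at h2
  refine ge_of_tendsto h2 ?_
  filter_upwards [eventually_ge_atTop T] with S hS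
  exact prod_mono hg hS

theorem norm_le_of_prod_le {ι : Type*} {g : ι → ℝ} {D : ℂ} {C : ℝ} (hg : ∀ i, 1 ≤ g i)
    (h : HasProd (fun i => ((g i : ℝ) : ℂ)) D) (hC : ∀ T : Finset ι, ∏ i ∈ T, g i ≤ C) :
    ‖D‖ ≤ C := by
  have h2 := h.norm
  have h3 : (fun i => ‖((g i : ℝ) : ℂ)‖) = g := by
    funext i
    rw [Complex.norm_real, Real.norm_of_nonneg (zero_le_one.trans (hg i))]
  rw [h3] at h2
  rw [HasProd, SummationFilter.unconditional] at h2
  exact le_of_tendsto' h2 hC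

theorem prod_range_primitive {p : ℕ} (hp : 0 < p) {z : ℂ} (hz : IsPrimitiveRoot z p) (x : ℂ) :
    ∏ i ∈ Finset.range p, (1 - z ^ i * x) = 1 - x ^ p := by
  classical
  have : NeZero p := ⟨hp.ne'⟩
  have h := hz.pow_sub_pow_eq_prod_sub_mul (1 : ℂ) x hp
  rw [one_pow] at h
  rw [h]
  have himg : Polynomial.nthRootsFinset p (1 : ℂ) = (Finset.range p).image (fun i => z ^ i) := by
    ext μ
    rw [Polynomial.mem_nthRootsFinset hp, Finset.mem_image]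
    constructor
    · intro hμ
      obtain ⟨i, hi, rfl⟩ := hz.eq_pow_of_pow_eq_one hμ
      exact ⟨i, Finset.mem_range.2 hi, rfl⟩
    · rintro ⟨i, -, rfl⟩
      rw [← pow_mul, mul_comm, pow_mul, hz.pow_eq_one, one_pow]
  rw [himg, Finset.prod_image]
  intro i hi j hj hij
  exact hz.pow_inj (Finset.mem_range.1 hi) (Finset.mem_range.1 hj) hij

theorem inv_one_sub_le_exp {x : ℝ} (h0 : 0 ≤ x) (h1 : x ≤ 1 / 2) : (1 - x)⁻¹ ≤ Real.exp (2 * x) := by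
  have hpos : 0 < 1 - x := by linarith
  rw [inv_le_iff_one_le_mul₀ hpos]
  have h2 : 1 + 2 * x ≤ Real.exp (2 * x) := by linarith [Real.add_one_le_exp (2 * x)]
  nlinarith [mul_le_mul_of_nonneg_right h2 hpos.le]

/-! ### norms of primes -/

section field

variable {K : Type} [Field K] [NumberField K]

/-- `x_v(s) = N(v)^{-s}` -/
noncomputable def xx (s : ℝ) (v : HeightOneSpectrum (𝓞 K)) : ℝ :=
  (Ideal.absNorm v.asIdeal : ℝ) ^ (-s)

theorem two_le_absNorm (v : HeightOneSpectrum (𝓞 K)) : 2 ≤ Ideal.absNorm v.asIdeal := by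
  have h0 : Ideal.absNorm v.asIdeal ≠ 0 := by
    rw [Ne, Ideal.absNorm_eq_zero_iff]; exact v.ne_bot
  have h1 : Ideal.absNorm v.asIdeal ≠ 1 := by
    rw [Ne, Ideal.absNorm_eq_one_iff]; exact v.isPrime.ne_top
  omega

theorem xx_nonneg (s : ℝ) (v : HeightOneSpectrum (𝓞 K)) : 0 ≤ xx s v :=
  Real.rpow_nonneg (Nat.cast_nonneg _) _

theorem xx_le_inv {s : ℝ} (hs : 1 ≤ s) (v : HeightOneSpectrum (𝓞 K)) :
    xx s v ≤ ((Ideal.absNorm v.asIdeal : ℝ))⁻¹ := by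
  have h2 : (1 : ℝ) ≤ Ideal.absNorm v.asIdeal := by
    have := two_le_absNorm v
    exact_mod_cast (by omega : 1 ≤ Ideal.absNorm v.asIdeal)
  rw [← Real.rpow_neg_one]
  exact Real.rpow_le_rpow_of_exponent_le h2 (by linarith)

theorem inv_absNorm_le_half (v : HeightOneSpectrum (𝓞 K)) :
    ((Ideal.absNorm v.asIdeal : ℝ))⁻¹ ≤ 1 / 2 := by
  have h2 : (2 : ℝ) ≤ Ideal.absNorm v.asIdeal := by exact_mod_cast two_le_absNorm v
  rw [one_div]
  exact inv_anti₀ (by norm_num) h2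

theorem xx_le_half {s : ℝ} (hs : 1 ≤ s) (v : HeightOneSpectrum (𝓞 K)) : xx s v ≤ 1 / 2 :=
  (xx_le_inv hs v).trans (inv_absNorm_le_half v)

theorem one_le_inv_one_sub {s : ℝ} (hs : 1 ≤ s) (v : HeightOneSpectrum (𝓞 K)) :
    1 ≤ (1 - xx s v)⁻¹ := by
  have h1 := xx_le_half hs v
  have h0 := xx_nonneg s v
  exact (one_le_inv₀ (by linarith)).2 (by linarith)

theorem cls_one : cls (1 : Ideal (𝓞 K)) = 1 := by
  rw [Ideal.one_eq_top, ← Ideal.span_singleton_one, cls_span_singleton]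

/-- the twisted norm character `I ↦ χ([I]) N(I)^{-s}`. -/
noncomputable def FF (χ : ClassGroup (𝓞 K) →* ℂ) (s : ℝ) (hs : 0 < s) : Ideal (𝓞 K) →*₀ ℂ where
  toFun I := χ (cls I) * (((Ideal.absNorm I : ℝ) ^ (-s) : ℝ) : ℂ)
  map_zero' := by simp [Real.zero_rpow (by linarith : -s ≠ 0)]
  map_one' := by rw [cls_one, map_one, map_one]; simp
  map_mul' I J := by
    by_cases hI : I = ⊥
    · simp [hI, Real.zero_rpow (by linarith : -s ≠ 0)]
    by_cases hJ : J = ⊥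
    · simp [hJ, Real.zero_rpow (by linarith : -s ≠ 0)]
    rw [cls_mul hI hJ, map_mul, map_mul, Nat.cast_mul,
      Real.mul_rpow (Nat.cast_nonneg _) (Nat.cast_nonneg _)]
    push_cast
    ring

theorem FF_apply (χ : ClassGroup (𝓞 K) →* ℂ) (s : ℝ) (hs : 0 < s) (I : Ideal (𝓞 K)) :
    FF χ s hs I = χ (cls I) * (((Ideal.absNorm I : ℝ) ^ (-s) : ℝ) : ℂ) := rfl

theorem norm_chi (χ : ClassGroup (𝓞 K) →* ℂ) (C : ClassGroup (𝓞 K)) : ‖χ C‖ = 1 := by
  have h : χ C ^ Fintype.card (ClassGroup (𝓞 K)) = 1 := by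
    rw [← map_pow, pow_card_eq_one, map_one]
  exact Complex.norm_eq_one_of_pow_eq_one h Fintype.card_ne_zero

theorem summable_FF (χ : ClassGroup (𝓞 K) →* ℂ) {s : ℝ} (hs : 1 < s) :
    Summable fun I => ‖FF χ s (zero_lt_one.trans hs) I‖ := by
  have h := (zeta_eq_tsum K s hs).1
  refine h.congr fun I => ?_
  rw [FF_apply, norm_mul, norm_chi, one_mul, Complex.norm_real,
    Real.norm_of_nonneg (Real.rpow_nonneg (Nat.cast_nonneg _) _)]

theorem hasProd_FF (χ : ClassGroup (𝓞 K) →* ℂ) {s : ℝ} (hs : 1 < s) :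
    HasProd (fun v : HeightOneSpectrum (𝓞 K) => (1 - χ (cls v.asIdeal) * (xx s v : ℂ))⁻¹)
      (∑' I : Ideal (𝓞 K), χ (cls I) * (((Ideal.absNorm I : ℝ) ^ (-s) : ℝ) : ℂ)) :=
  Euler.hasProd (FF χ s (zero_lt_one.trans hs)) (summable_FF χ hs)

variable (K) in
/-- the Dedekind zeta function at real `s`, as a real number. -/
noncomputable def ZR (s : ℝ) : ℝ := ∑' I : Ideal (𝓞 K), (Ideal.absNorm I : ℝ) ^ (-s)

theorem ZR_nonneg (s : ℝ) : 0 ≤ ZR K s :=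
  tsum_nonneg fun _ => Real.rpow_nonneg (Nat.cast_nonneg _) _

theorem hasProd_ZR {s : ℝ} (hs : 1 < s) :
    HasProd (fun v : HeightOneSpectrum (𝓞 K) => (((1 - xx s v)⁻¹ : ℝ) : ℂ)) ((ZR K s : ℝ) : ℂ) := by
  have h := hasProd_FF (K := K) 1 hs
  simp only [MonoidHom.one_apply, one_mul] at h
  rw [ZR, Complex.ofReal_tsum]
  convert h using 2 with v
  push_cast
  rfl

theorem prod_le_ZR {s : ℝ} (hs : 1 < s) (T : Finset (HeightOneSpectrum (𝓞 K))) :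
    ∏ v ∈ T, (1 - xx s v)⁻¹ ≤ ZR K s := by
  have := prod_le_norm (fun v => one_le_inv_one_sub hs.le v) (hasProd_ZR (K := K) hs) T
  rwa [Complex.norm_real, Real.norm_of_nonneg (ZR_nonneg s)] at this

theorem ZR_le_of_prod_le {s : ℝ} (hs : 1 < s) {C : ℝ}
    (hC : ∀ T : Finset (HeightOneSpectrum (𝓞 K)), ∏ v ∈ T, (1 - xx s v)⁻¹ ≤ C) : ZR K s ≤ C := by
  have := norm_le_of_prod_le (fun v => one_le_inv_one_sub hs.le v) (hasProd_ZR (K := K) hs) hC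
  rwa [Complex.norm_real, Real.norm_of_nonneg (ZR_nonneg s)] at this

variable (K) in
theorem tendsto_ZR :
    Tendsto (fun s : ℝ => (s - 1) * ZR K s) (𝓝[>] 1) (𝓝 (dedekindZeta_residue K)) := by
  have h := tendsto_sub_one_mul_dedekindZeta_nhdsGT K
  have h2 : (fun s : ℝ => ((s : ℂ) - 1) * dedekindZeta K s) =ᶠ[𝓝[>] 1]
      fun s : ℝ => (((s - 1) * ZR K s : ℝ) : ℂ) := by
    filter_upwards [self_mem_nhdsWithin] with s hs
    rw [(zeta_eq_tsum K s hs).2, ZR]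
    push_cast
    rfl
  have h3 := h.congr' h2
  exact Filter.tendsto_ofReal_iff.1 h3

end field

/-! ### the product of the `L`-series -/

section main

variable {K : Type} [Field K] [NumberField K]

/-- the class group `L`-series -/
noncomputable def LL (χ : ClassGroup (𝓞 K) →* ℂ) (s : ℝ) : ℂ :=
  ∑' I : Ideal (𝓞 K), χ (cls I) * (((Ideal.absNorm I : ℝ) ^ (-s) : ℝ) : ℂ)

theorem LL_one (s : ℝ) : LL (1 : ClassGroup (𝓞 K) →* ℂ) s = ((ZR K s : ℝ) : ℂ) := by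
  rw [LL, ZR, Complex.ofReal_tsum]
  simp

open Classical in
/-- Euler factor of `∏_i L(s, χ^i)`. -/
noncomputable def gg (p : ℕ) (χ : ClassGroup (𝓞 K) →* ℂ) (s : ℝ)
    (v : HeightOneSpectrum (𝓞 K)) : ℝ :=
  if χ (cls v.asIdeal) = 1 then ((1 - xx s v)⁻¹) ^ p else (1 - xx s v ^ p)⁻¹

theorem one_le_gg {p : ℕ} (hp : 0 < p) (χ : ClassGroup (𝓞 K) →* ℂ) {s : ℝ} (hs : 1 ≤ s)
    (v : HeightOneSpectrum (𝓞 K)) : 1 ≤ gg p χ s v := by
  rw [gg]
  split_ifs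
  · exact one_le_pow₀ (one_le_inv_one_sub hs v)
  · have h0 := xx_nonneg s v
    have h1 := xx_le_half hs v
    have h2 : xx s v ^ p ≤ 1 / 2 :=
      (pow_le_of_le_one h0 (by linarith) hp.ne').trans h1
    have h3 : 0 ≤ xx s v ^ p := pow_nonneg h0 p
    exact (one_le_inv₀ (by linarith)).2 (by linarith)

theorem prod_factor {p : ℕ} (hp : p.Prime) (χ : ClassGroup (𝓞 K) →* ℂ) (hχp : ∀ C, χ C ^ p = 1)
    (s : ℝ) (v : HeightOneSpectrum (𝓞 K)) :
    ∏ i ∈ Finset.range p, (1 - (χ ^ i) (cls v.asIdeal) * (xx s v : ℂ))⁻¹ =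
      ((gg p χ s v : ℝ) : ℂ) := by
  rw [gg]
  simp only [MonoidHom.pow_apply]
  split_ifs with h
  · simp [h]
  · have hz : IsPrimitiveRoot (χ (cls v.asIdeal)) p := by
      have hfact : Fact p.Prime := ⟨hp⟩
      have hord := IsPrimitiveRoot.orderOf (χ (cls v.asIdeal))
      rwa [orderOf_eq_prime (hχp _) h] at hord
    rw [Finset.prod_inv_distrib, prod_range_primitive hp.pos hz]
    push_cast
    rfl

theorem hasProd_gg {p : ℕ} (hp : p.Prime) (χ : ClassGroup (𝓞 K) →* ℂ) (hχp : ∀ C, χ C ^ p = 1)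
    {s : ℝ} (hs : 1 < s) :
    HasProd (fun v : HeightOneSpectrum (𝓞 K) => ((gg p χ s v : ℝ) : ℂ))
      (∏ i ∈ Finset.range p, LL (χ ^ i) s) := by
  have h := hasProd_prod (s := Finset.range p)
    (f := fun i (v : HeightOneSpectrum (𝓞 K)) => (1 - (χ ^ i) (cls v.asIdeal) * (xx s v : ℂ))⁻¹)
    (a := fun i => LL (χ ^ i) s) (fun i _ => hasProd_FF (χ ^ i) hs)
  simpa only [prod_factor hp χ hχp] using h

theorem chi_pow_ne_one {p : ℕ} (hp : p.Prime) (χ : ClassGroup (𝓞 K) →* ℂ)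
    (hχp : ∀ C, χ C ^ p = 1) (hχ : χ ≠ 1) {i : ℕ} (hi0 : 0 < i) (hip : i < p) : χ ^ i ≠ 1 := by
  intro h
  apply hχ
  ext C
  by_contra hC
  rw [MonoidHom.one_apply] at hC
  have hz : IsPrimitiveRoot (χ C) p := by
    have hfact : Fact p.Prime := ⟨hp⟩
    have hord := IsPrimitiveRoot.orderOf (χ C)
    rwa [orderOf_eq_prime (hχp _) hC] at hord
  have h2 := hz.pow_ne_one_of_pos_of_lt hi0.ne' hip
  apply h2
  have := DFunLike.congr_fun h C
  simpa using this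

/-- uniform bound for the nontrivial `L`-series. -/
theorem exists_bound {p : ℕ} (hp : p.Prime) (χ : ClassGroup (𝓞 K) →* ℂ)
    (hχp : ∀ C, χ C ^ p = 1) (hχ : χ ≠ 1)
    (hA : ∀ f : ClassGroup (𝓞 K) → ℂ, ∑ C, f C = 0 → ∃ B : ℝ, ∀ s : ℝ, 1 < s → s ≤ 2 →
      ‖∑' I : Ideal (𝓞 K), f (cls I) * (((Ideal.absNorm I : ℝ) ^ (-s) : ℝ) : ℂ)‖ ≤ B) :
    ∃ B : ℝ, 0 ≤ B ∧ ∀ s : ℝ, 1 < s → s ≤ 2 → ∀ i, 0 < i → i < p → ‖LL (χ ^ i) s‖ ≤ B := by
  have h : ∀ i : ℕ, ∃ B : ℝ, 0 < i → i < p → ∀ s : ℝ, 1 < s → s ≤ 2 → ‖LL (χ ^ i) s‖ ≤ B := by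
    intro i
    by_cases hi : 0 < i ∧ i < p
    · obtain ⟨B, hB⟩ := hA (fun C => (χ ^ i) C)
        (sum_hom_units_eq_zero (χ ^ i) (chi_pow_ne_one hp χ hχp hχ hi.1 hi.2))
      exact ⟨B, fun _ _ => hB⟩
    · exact ⟨0, fun h1 h2 => absurd ⟨h1, h2⟩ hi⟩
  choose Bf hBf using h
  refine ⟨∑ i ∈ Finset.range p, |Bf i|, Finset.sum_nonneg fun _ _ => abs_nonneg _, ?_⟩
  intro s hs1 hs2 i hi0 hip
  refine (hBf i hi0 hip s hs1 hs2).trans ((le_abs_self _).trans ?_)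
  exact Finset.single_le_sum (f := fun i => |Bf i|) (fun _ _ => abs_nonneg _)
    (Finset.mem_range.2 hip)

theorem norm_prod_LL_le {p : ℕ} (hp : 0 < p) (χ : ClassGroup (𝓞 K) →* ℂ) {s B : ℝ}
    (hB : ∀ i, 0 < i → i < p → ‖LL (χ ^ i) s‖ ≤ B) :
    ‖∏ i ∈ Finset.range p, LL (χ ^ i) s‖ ≤ ZR K s * B ^ (p - 1) := by
  obtain ⟨m, rfl⟩ : ∃ m, p = m + 1 := ⟨p - 1, by omega⟩
  rw [Finset.prod_range_succ', norm_mul, pow_zero, LL_one, Complex.norm_real,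
    Real.norm_of_nonneg (ZR_nonneg s), mul_comm, norm_prod, Nat.add_sub_cancel]
  refine mul_le_mul_of_nonneg_left ?_ (ZR_nonneg s)
  calc ∏ i ∈ Finset.range m, ‖LL (χ ^ (i + 1)) s‖ ≤ ∏ _i ∈ Finset.range m, B :=
        Finset.prod_le_prod (fun _ _ => norm_nonneg _) fun i hi =>
          hB (i + 1) (Nat.succ_pos i) (by have := Finset.mem_range.1 hi; omega)
    _ = B ^ m := by simp

open Classical in
/-- the contribution of the bad primes. -/
noncomputable def bad (p : ℕ) (v : HeightOneSpectrum (𝓞 K)) : ℝ :=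
  if (Ideal.absNorm v.asIdeal).Prime ∧ (p : 𝓞 K) ∉ v.asIdeal then (0 : ℝ)
  else ((Ideal.absNorm v.asIdeal : ℝ))⁻¹

theorem summable_bad' {p : ℕ} (hp : p ≠ 0) :
    Summable (fun v : HeightOneSpectrum (𝓞 K) => bad p v) := BadPrimes.summable_bad p hp

theorem bad_nonneg (p : ℕ) (v : HeightOneSpectrum (𝓞 K)) : 0 ≤ bad p v := by
  rw [bad]; split_ifs <;> positivity

theorem prod_bad_le {p : ℕ} (hp : p ≠ 0) {s : ℝ} (hs : 1 ≤ s)
    (T : Finset (HeightOneSpectrum (𝓞 K)))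
    (hT : ∀ v ∈ T, ¬ ((Ideal.absNorm v.asIdeal).Prime ∧ (p : 𝓞 K) ∉ v.asIdeal)) :
    ∏ v ∈ T, ((1 - xx s v)⁻¹) ^ p ≤
      Real.exp (2 * p * ∑' v : HeightOneSpectrum (𝓞 K), bad p v) := by
  have h1 : ∀ v ∈ T, ((1 - xx s v)⁻¹) ^ p ≤ Real.exp (2 * p * bad p v) := by
    intro v hv
    have hb : bad p v = ((Ideal.absNorm v.asIdeal : ℝ))⁻¹ := by rw [bad, if_neg (hT v hv)]
    have h2 := inv_one_sub_le_exp (xx_nonneg s v) (xx_le_half hs v)
    have h3 : 0 ≤ (1 - xx s v)⁻¹ := zero_le_one.trans (one_le_inv_one_sub hs v)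
    calc ((1 - xx s v)⁻¹) ^ p ≤ (Real.exp (2 * xx s v)) ^ p := pow_le_pow_left₀ h3 h2 p
      _ = Real.exp (p * (2 * xx s v)) := (Real.exp_nat_mul _ _).symm
      _ ≤ Real.exp (2 * p * bad p v) := by
        apply Real.exp_le_exp.2
        rw [hb]
        have := xx_le_inv hs v
        have hp0 : (0 : ℝ) ≤ p := Nat.cast_nonneg p
        nlinarith
  calc ∏ v ∈ T, ((1 - xx s v)⁻¹) ^ p ≤ ∏ v ∈ T, Real.exp (2 * p * bad p v) :=
        Finset.prod_le_prod (fun v _ =>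
          pow_nonneg (zero_le_one.trans (one_le_inv_one_sub hs v)) p) h1
    _ = Real.exp (2 * p * ∑ v ∈ T, bad p v) := by
        rw [← Real.exp_sum, Finset.mul_sum]
    _ ≤ _ := by
        apply Real.exp_le_exp.2
        have := (summable_bad' (K := K) hp).sum_le_tsum T (fun v _ => bad_nonneg p v)
        have hp0 : (0 : ℝ) ≤ p := Nat.cast_nonneg p
        nlinarith

theorem prod_split_le {p : ℕ} {s : ℝ} (hs : 1 < s)
    (L : Type) [Field L] [NumberField L] (c : HeightOneSpectrum (𝓞 L) → Ideal (𝓞 K))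
    (T : Finset (HeightOneSpectrum (𝓞 K)))
    (hT : ∀ v ∈ T, ∃ S : Finset (HeightOneSpectrum (𝓞 L)), S.card = p ∧
      ∀ w ∈ S, c w = v.asIdeal ∧ Ideal.absNorm w.asIdeal = Ideal.absNorm v.asIdeal) :
    ∏ v ∈ T, ((1 - xx s v)⁻¹) ^ p ≤ ZR L s := by
  classical
  have h : ∀ v : HeightOneSpectrum (𝓞 K), ∃ S : Finset (HeightOneSpectrum (𝓞 L)), v ∈ T →
      (S.card = p ∧
      ∀ w ∈ S, c w = v.asIdeal ∧ Ideal.absNorm w.asIdeal = Ideal.absNorm v.asIdeal) := by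
    intro v
    by_cases hv : v ∈ T
    · obtain ⟨S, hS⟩ := hT v hv
      exact ⟨S, fun _ => hS⟩
    · exact ⟨∅, fun h => absurd h hv⟩
  choose W hW using h
  have hdisj : (T : Set (HeightOneSpectrum (𝓞 K))).PairwiseDisjoint W := by
    intro v hv v' hv' hne
    rw [Function.onFun, Finset.disjoint_left]
    intro w hw hw'
    apply hne
    apply HeightOneSpectrum.ext
    rw [← ((hW v hv).2 w hw).1, ← ((hW v' hv').2 w hw').1]
  have h2 := prod_le_ZR (K := L) hs (T.biUnion W)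
  rw [Finset.prod_biUnion hdisj] at h2
  refine le_trans (le_of_eq ?_) h2
  refine Finset.prod_congr rfl fun v hv => ?_
  have h3 : ∀ w ∈ W v, (1 - xx s w)⁻¹ = (1 - xx s v)⁻¹ := by
    intro w hw
    rw [xx, xx, ((hW v hv).2 w hw).2]
  rw [Finset.prod_congr rfl h3, Finset.prod_const, (hW v hv).1]

theorem key_ineq {p : ℕ} (hp : p.Prime) (χ : ClassGroup (𝓞 K) →* ℂ) (hχp : ∀ C, χ C ^ p = 1)
    {s B : ℝ} (hs : 1 < s) (hB0 : 0 ≤ B) (hB : ∀ i, 0 < i → i < p → ‖LL (χ ^ i) s‖ ≤ B)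
    (L : Type) [Field L] [NumberField L] (c : HeightOneSpectrum (𝓞 L) → Ideal (𝓞 K))
    (hsplit : ∀ v : HeightOneSpectrum (𝓞 K), (Ideal.absNorm v.asIdeal).Prime →
      (p : 𝓞 K) ∉ v.asIdeal → χ (cls v.asIdeal) ≠ 1 →
      ∃ S : Finset (HeightOneSpectrum (𝓞 L)), S.card = p ∧
        ∀ w ∈ S, c w = v.asIdeal ∧ Ideal.absNorm w.asIdeal = Ideal.absNorm v.asIdeal) :
    ZR K s ^ p ≤ (ZR K s * B ^ (p - 1)) * (ZR L s *
      Real.exp (2 * p * ∑' v : HeightOneSpectrum (𝓞 K), bad p v)) := by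
  classical
  have hprod : HasProd (fun v : HeightOneSpectrum (𝓞 K) => ((((1 - xx s v)⁻¹) ^ p : ℝ) : ℂ))
      ((ZR K s ^ p : ℝ) : ℂ) := by
    have := (hasProd_ZR (K := K) hs).pow p
    simpa using this
  have hfin := norm_le_of_prod_le (C := (ZR K s * B ^ (p - 1)) * (ZR L s *
      Real.exp (2 * p * ∑' v : HeightOneSpectrum (𝓞 K), bad p v)))
    (fun v => one_le_pow₀ (one_le_inv_one_sub hs.le v)) hprod ?_
  · rwa [Complex.norm_real, Real.norm_of_nonneg (pow_nonneg (ZR_nonneg s) p)] at hfin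
  intro T
  have hnn : ∀ S : Finset (HeightOneSpectrum (𝓞 K)), 0 ≤ ∏ v ∈ S, ((1 - xx s v)⁻¹) ^ p :=
    fun S => Finset.prod_nonneg fun v _ =>
      pow_nonneg (zero_le_one.trans (one_le_inv_one_sub hs.le v)) p
  rw [← Finset.prod_filter_mul_prod_filter_not T (fun v => χ (cls v.asIdeal) = 1)]
  rw [← Finset.prod_filter_mul_prod_filter_not (T.filter fun v => ¬ χ (cls v.asIdeal) = 1)
    (fun v => (Ideal.absNorm v.asIdeal).Prime ∧ (p : 𝓞 K) ∉ v.asIdeal)]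
  refine mul_le_mul ?_ (mul_le_mul ?_ ?_ (hnn _) (ZR_nonneg s)) (mul_nonneg (hnn _) (hnn _))
    (mul_nonneg (ZR_nonneg s) (pow_nonneg hB0 _))
  · have h1 : ∏ v ∈ T.filter (fun v => χ (cls v.asIdeal) = 1), ((1 - xx s v)⁻¹) ^ p =
        ∏ v ∈ T.filter (fun v => χ (cls v.asIdeal) = 1), gg p χ s v := by
      refine Finset.prod_congr rfl fun v hv => ?_
      rw [gg, if_pos (Finset.mem_filter.1 hv).2]
    rw [h1]
    exact (prod_le_norm (fun v => one_le_gg hp.pos χ hs.le v) (hasProd_gg hp χ hχp hs) _).trans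
      (norm_prod_LL_le hp.pos χ hB)
  · refine prod_split_le hs L c _ fun v hv => ?_
    have h1 := Finset.mem_filter.1 hv
    have h2 := Finset.mem_filter.1 h1.1
    exact hsplit v h1.2.1 h1.2.2 h2.2
  · exact prod_bad_le hp.ne_zero hs.le _ fun v hv => (Finset.mem_filter.1 hv).2

/-- the analytic core of leaf (E). -/
theorem core_analytic (p : ℕ) (hp : p.Prime) (hp2 : p ≠ 2)
    (χ : ClassGroup (𝓞 K) →* ℂ) (hχp : ∀ C, χ C ^ p = 1) (hχ : χ ≠ 1)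
    (hA : ∀ f : ClassGroup (𝓞 K) → ℂ, ∑ C, f C = 0 → ∃ B : ℝ, ∀ s : ℝ, 1 < s → s ≤ 2 →
      ‖∑' I : Ideal (𝓞 K), f (cls I) * (((Ideal.absNorm I : ℝ) ^ (-s) : ℝ) : ℂ)‖ ≤ B)
    (L : Type) [Field L] [NumberField L] (c : HeightOneSpectrum (𝓞 L) → Ideal (𝓞 K))
    (hsplit : ∀ v : HeightOneSpectrum (𝓞 K), (Ideal.absNorm v.asIdeal).Prime →
      (p : 𝓞 K) ∉ v.asIdeal → χ (cls v.asIdeal) ≠ 1 →
      ∃ S : Finset (HeightOneSpectrum (𝓞 L)), S.card = p ∧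
        ∀ w ∈ S, c w = v.asIdeal ∧ Ideal.absNorm w.asIdeal = Ideal.absNorm v.asIdeal) :
    False := by
  obtain ⟨B, hB0, hB⟩ := exists_bound hp χ hχp hχ hA
  set E : ℝ := Real.exp (2 * p * ∑' v : HeightOneSpectrum (𝓞 K), bad p v) with hE
  have hp3 : 3 ≤ p := by
    have := hp.two_le
    omega
  obtain ⟨m, rfl⟩ : ∃ m, p = m + 3 := ⟨p - 3, by omega⟩
  have h1 : Tendsto (fun s : ℝ => ((s - 1) * ZR K s) ^ (m + 3)) (𝓝[>] 1)
      (𝓝 (dedekindZeta_residue K ^ (m + 3))) := (tendsto_ZR K).pow _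
  have h0 : Tendsto (fun s : ℝ => (s - 1) ^ (m + 1)) (𝓝[>] 1) (𝓝 0) := by
    have : Tendsto (fun s : ℝ => (s - 1) ^ (m + 1)) (𝓝 1) (𝓝 ((1 - 1) ^ (m + 1))) :=
      ((continuous_id.sub continuous_const).pow _).tendsto 1
    rw [sub_self, zero_pow (Nat.succ_ne_zero m)] at this
    exact tendsto_nhdsWithin_of_tendsto_nhds this
  have h2 : Tendsto (fun s : ℝ => ((((s - 1) * ZR K s) * B ^ (m + 3 - 1)) *
      (((s - 1) * ZR L s) * E)) * (s - 1) ^ (m + 1)) (𝓝[>] 1)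
      (𝓝 (((dedekindZeta_residue K * B ^ (m + 3 - 1)) * (dedekindZeta_residue L * E)) * 0)) :=
    (((tendsto_ZR K).mul_const _).mul ((tendsto_ZR L).mul_const _)).mul h0
  have hle : ∀ᶠ s : ℝ in 𝓝[>] 1, ((s - 1) * ZR K s) ^ (m + 3) ≤
      ((((s - 1) * ZR K s) * B ^ (m + 3 - 1)) * (((s - 1) * ZR L s) * E)) * (s - 1) ^ (m + 1) := by
    have hmem : Set.Ioc (1 : ℝ) 2 ∈ 𝓝[>] (1 : ℝ) := Ioc_mem_nhdsGT (by norm_num)
    filter_upwards [hmem] with s hs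
    have hk := key_ineq hp χ hχp hs.1 hB0 (hB s hs.1 hs.2) L c hsplit
    have hpos : 0 ≤ (s - 1) ^ (m + 3) := pow_nonneg (by linarith [hs.1]) _
    calc ((s - 1) * ZR K s) ^ (m + 3) = (s - 1) ^ (m + 3) * ZR K s ^ (m + 3) := mul_pow _ _ _
      _ ≤ (s - 1) ^ (m + 3) * ((ZR K s * B ^ (m + 3 - 1)) * (ZR L s * E)) :=
          mul_le_mul_of_nonneg_left hk hpos
      _ = _ := by ring
  have hfinal := le_of_tendsto_of_tendsto h1 h2 hle
  rw [mul_zero] at hfinal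
  exact absurd hfinal (not_le.2 (pow_pos (dedekindZeta_residue_pos K) _))

end main

end NonSplit

end Fermat.Agent.S14Lib
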