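import Mathlib
import Fermat.Agent.S14.Defs
import Fermat.Agent.Lib.FrobeniusExists

set_option autoImplicit false
set_option linter.style.haveILetI false

namespace Fermat.Agent.S14Lib

open NumberField nonZeroDivisors IsDedekindDomain
open scoped Pointwise
open Fermat.Agent.FrobLib

local notation "Qb" => AlgebraicClosure ℚ
local notation "GQ" => (AlgebraicClosure ℚ ≃ₐ[ℚ] AlgebraicClosure ℚ)

attribute [local instance] isAlgebraic_Qbar isAlgClosure_Qbar

/-- (N5) finite level: an open normal subgroup `H` of `G_ℚ` is `Gal(ℚ̄/N)`, `N/ℚ` finite Galois. -/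
theorem exists_finite_level (H : Subgroup GQ) (hH : IsOpen (H : Set GQ)) (hn : H.Normal) :
    ∃ (N : IntermediateField ℚ Qb) (_ : FiniteDimensional ℚ N) (_ : IsGalois ℚ N),
      (∀ x : Qb, x ∈ N ↔ ∀ σ ∈ H, σ x = x) ∧
      (∀ σ : GQ, σ ∈ H ↔ ∀ x : N, σ (x : Qb) = x) ∧
      (∀ s : N ≃ₐ[ℚ] N, ∃ σ : GQ, ∀ x : N, σ (x : Qb) = ((s x : N) : Qb)) ∧
      (∀ σ : GQ, ∃ s : N ≃ₐ[ℚ] N, ∀ x : N, σ (x : Qb) = ((s x : N) : Qb)) := by
  have hcl : IsClosed (H : Set GQ) := H.isClosed_of_isOpen hH
  have hfix : (IntermediateField.fixedField H).fixingSubgroup = H :=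
    InfiniteGalois.fixingSubgroup_fixedField (⟨H, hcl⟩ : ClosedSubgroup GQ)
  have hfd : FiniteDimensional ℚ (IntermediateField.fixedField H) := by
    rw [← InfiniteGalois.isOpen_iff_finite, hfix]
    exact hH
  have hgal : IsGalois ℚ (IntermediateField.fixedField H) := by
    have h1 : (IntermediateField.fixedField H).fixingSubgroup.Normal := hfix.symm ▸ hn
    have h2 := (InfiniteGalois.normal_iff_isGalois (IntermediateField.fixedField H)).mp h1
    convert h2
    exact Subsingleton.elim _ _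
  refine ⟨IntermediateField.fixedField H, hfd, hgal, ?_, ?_, ?_, ?_⟩
  · intro x
    exact IntermediateField.mem_fixedField_iff H x
  · intro σ
    conv_lhs => rw [← hfix]
    rw [IntermediateField.mem_fixingSubgroup_iff]
    exact ⟨fun h x => h x.1 x.2, fun h x hx => h ⟨x, hx⟩⟩
  · intro s
    obtain ⟨σ, hσ⟩ := AlgEquiv.restrictNormalHom_surjective (F := ℚ)
      (K₁ := IntermediateField.fixedField H) Qb s
    refine ⟨σ, fun x => ?_⟩
    rw [← hσ]
    exact (AlgEquiv.restrictNormal_commutes σ (IntermediateField.fixedField H) x).symm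
  · intro σ
    exact ⟨AlgEquiv.restrictNormalHom (IntermediateField.fixedField H) σ, fun x =>
      (AlgEquiv.restrictNormal_commutes σ (IntermediateField.fixedField H) x).symm⟩

end Fermat.Agent.S14Lib
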