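import Mathlib

/-!
# S14, leaves (N3), (N4) : abstract structure of the two-dimensional representation
-/

set_option autoImplicit false

namespace Fermat.Agent.S14Lib

/-- a module with `p` elements is spanned by any non-zero vector -/
theorem Cocycle.exists_smul_eq (p : ℕ) [Fact p.Prime] (W : Type*) [AddCommGroup W]
    [Module (ZMod p) W] (hW : Nat.card W = p) (v : W) (hv : v ≠ 0) (w : W) :
    ∃ c : ZMod p, c • v = w := by
  have hfin : Finite W := Nat.finite_of_card_ne_zero (by rw [hW]; exact (Fact.out : p.Prime).ne_zero)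
  have hinj : Function.Injective (fun c : ZMod p => c • v) := smul_left_injective (ZMod p) hv
  have hbij := hinj.bijective_of_nat_card_le (by rw [hW, Nat.card_zmod])
  exact hbij.2 w

theorem Cocycle.exists_ne_zero (p : ℕ) [Fact p.Prime] (W : Type*) [AddCommGroup W]
    (hW : Nat.card W = p) : ∃ v : W, v ≠ 0 := by
  have hfin : Finite W := Nat.finite_of_card_ne_zero (by rw [hW]; exact (Fact.out : p.Prime).ne_zero)
  have : Nontrivial W := by
    rw [← Finite.one_lt_card_iff_nontrivial, hW]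
    exact (Fact.out : p.Prime).one_lt
  exact exists_ne 0

/-- (N3) abstract structure of the representation. -/
theorem exists_cocycle (p : ℕ) [Fact p.Prime] {Γ : Type*} [Group Γ] (V : Type)
    [AddCommGroup V] [Module (ZMod p) V] [DistribMulAction Γ V] [SMulCommClass Γ (ZMod p) V]
    (C : Submodule (ZMod p) V) (χ : Γ →* (ZMod p)ˣ)
    (hfix : ∀ σ : Γ, ∀ x ∈ C, σ • x = x)
    (hquot : ∀ (σ : Γ) (x : V), σ • x - (χ σ : ZMod p) • x ∈ C)
    (hC : Nat.card C = p) (hV : Nat.card V = p ^ 2) :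
    ∃ κ : Γ → ZMod p,
      (∀ σ τ, κ (σ * τ) = (χ τ : ZMod p) * κ σ + κ τ) ∧
      (∀ σ, (∀ x : V, σ • x = x) ↔ (χ σ = 1 ∧ κ σ = 0)) := by
  have hp : p.Prime := Fact.out
  have hQ : Nat.card (V ⧸ C) = p := by
    have h1 := Submodule.card_eq_card_quotient_mul_card C
    rw [hV, hC, pow_two] at h1
    exact (Nat.eq_of_mul_eq_mul_left hp.pos h1).symm
  obtain ⟨e₁, he₁⟩ := Cocycle.exists_ne_zero p C hC
  obtain ⟨q, hq⟩ := Cocycle.exists_ne_zero p (V ⧸ C) hQ
  obtain ⟨e₂, rfl⟩ := Submodule.Quotient.mk_surjective C q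
  have he₂ : e₂ ∉ C := by
    intro h
    exact hq ((Submodule.Quotient.mk_eq_zero C).mpr h)
  have he₁' : (e₁ : V) ≠ 0 := by simpa using he₁
  have hex : ∀ σ : Γ, ∃ c : ZMod p, c • (e₁ : V) = σ • e₂ - (χ σ : ZMod p) • e₂ := by
    intro σ
    obtain ⟨c, hc⟩ := Cocycle.exists_smul_eq p C hC e₁ he₁ ⟨_, hquot σ e₂⟩
    exact ⟨c, congrArg Subtype.val hc⟩
  choose κ hκ using hex
  have hκ' : ∀ σ, σ • e₂ = (χ σ : ZMod p) • e₂ + κ σ • (e₁ : V) := by
    intro σ; rw [hκ]; abel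
  refine ⟨κ, ?_, ?_⟩
  · intro σ τ
    have h1 : (σ * τ) • e₂ = ((χ (σ * τ) : (ZMod p)ˣ) : ZMod p) • e₂
        + ((χ τ : ZMod p) * κ σ + κ τ) • (e₁ : V) := by
      rw [mul_smul, hκ' τ, smul_add, smul_comm σ, smul_comm σ, hκ' σ, hfix σ _ e₁.2, map_mul,
        Units.val_mul, smul_add, smul_smul, smul_smul, add_smul, mul_comm (χ τ : ZMod p)]
      abel
    rw [hκ' (σ * τ)] at h1
    have h2 := add_left_cancel h1
    exact smul_left_injective (ZMod p) he₁' h2
  · intro σ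
    constructor
    · intro h
      have h1 := hκ' σ
      rw [h e₂] at h1
      have h2 : (1 - (χ σ : ZMod p)) • e₂ = κ σ • (e₁ : V) := by
        rw [sub_smul, one_smul]
        nth_rewrite 1 [h1]
        abel
      have h3 : (1 - (χ σ : ZMod p)) = 0 := by
        by_contra hne
        apply he₂
        have h4 : e₂ = (1 - (χ σ : ZMod p))⁻¹ • (κ σ • (e₁ : V)) := by
          rw [← h2, smul_smul, inv_mul_cancel₀ hne, one_smul]
        rw [h4]
        exact C.smul_mem _ (C.smul_mem _ e₁.2)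
      rw [h3, zero_smul] at h2
      refine ⟨?_, ?_⟩
      · apply Units.ext
        rw [Units.val_one]
        exact (sub_eq_zero.mp h3).symm
      · by_contra hne
        exact he₁' ((smul_eq_zero.mp h2.symm).resolve_left hne)
    · rintro ⟨h1, h2⟩ x
      obtain ⟨c, hc⟩ := Cocycle.exists_smul_eq p (V ⧸ C) hQ _ hq (Submodule.Quotient.mk x)
      rw [← Submodule.Quotient.mk_smul, Submodule.Quotient.eq] at hc
      have h3 : σ • e₂ = e₂ := by
        rw [hκ' σ, h1, h2]; simp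
      have h4 := hfix σ _ hc
      rw [smul_sub, smul_comm, h3] at h4
      have h5 : σ • x = c • e₂ - (c • e₂ - x) := by
        rw [← h4]; abel
      rw [h5]; abel

/-- (N4) the split case. -/
theorem split_of_trivial (p : ℕ) [Fact p.Prime] {Γ : Type*} [Group Γ] (V : Type)
    [AddCommGroup V] [Module (ZMod p) V] [DistribMulAction Γ V] [SMulCommClass Γ (ZMod p) V]
    (C : Submodule (ZMod p) V) (χ : Γ →* (ZMod p)ˣ)
    (hfix : ∀ σ : Γ, ∀ x ∈ C, σ • x = x)
    (hquot : ∀ (σ : Γ) (x : V), σ • x - (χ σ : ZMod p) • x ∈ C)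
    (hC : Nat.card C = p) (hV : Nat.card V = p ^ 2)
    (hχ : ∃ σ, χ σ ≠ 1) (htriv : ∀ σ, χ σ = 1 → ∀ x : V, σ • x = x) :
    ∃ C' : Submodule (ZMod p) V, (∀ σ : Γ, ∀ x ∈ C', σ • x ∈ C') ∧ IsCompl C C' := by
  obtain ⟨σ₀, hσ₀⟩ := hχ
  have hne : (1 - (χ σ₀ : ZMod p)) ≠ 0 := by
    intro h
    apply hσ₀
    apply Units.ext
    rw [Units.val_one]
    exact (sub_eq_zero.mp h).symm
  let C' : Submodule (ZMod p) V :=
    { carrier := {x | σ₀ • x = (χ σ₀ : ZMod p) • x}
      add_mem' := by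
        intro a b ha hb
        simp only [Set.mem_ofPred_eq] at ha hb ⊢
        rw [smul_add, ha, hb, smul_add]
      zero_mem' := by simp
      smul_mem' := by
        intro c x hx
        simp only [Set.mem_ofPred_eq] at hx ⊢
        rw [smul_comm, hx, smul_comm] }
  have hC' : ∀ x, x ∈ C' ↔ σ₀ • x = (χ σ₀ : ZMod p) • x := fun x => Iff.rfl
  refine ⟨C', ?_, ?_⟩
  · intro σ x hx
    rw [hC'] at hx ⊢
    have h1 : χ (σ₀⁻¹ * (σ⁻¹ * σ₀ * σ)) = 1 := by
      simp only [map_mul, map_inv]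
      rw [mul_comm (χ σ)⁻¹, mul_assoc, inv_mul_cancel, mul_one, inv_mul_cancel]
    have h2 := htriv _ h1 x
    have h3 : σ₀ • σ • x = σ • σ₀ • ((σ₀⁻¹ * (σ⁻¹ * σ₀ * σ)) • x) := by
      simp only [← mul_smul]
      congr 1
      group
    rw [h3, h2, hx, smul_comm]
  · rw [isCompl_iff]
    constructor
    · rw [Submodule.disjoint_def]
      intro x hx hx'
      rw [hC', hfix σ₀ x hx] at hx'
      have h1 : (1 - (χ σ₀ : ZMod p)) • x = 0 := by
        rw [sub_smul, one_smul, ← hx', sub_self]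
      exact (smul_eq_zero.mp h1).resolve_left hne
    · rw [codisjoint_iff, Submodule.eq_top_iff']
      intro x
      rw [Submodule.mem_sup]
      obtain ⟨c, hc⟩ : ∃ c, c = σ₀ • x - (χ σ₀ : ZMod p) • x := ⟨_, rfl⟩
      obtain ⟨u, hu⟩ : ∃ u, u = (1 - (χ σ₀ : ZMod p))⁻¹ := ⟨_, rfl⟩
      have hcC : c ∈ C := hc ▸ hquot σ₀ x
      refine ⟨u • c, C.smul_mem _ hcC, x - u • c, ?_, by abel⟩
      rw [hC', smul_sub, hfix σ₀ _ (C.smul_mem _ hcC), smul_sub]
      have h1 : σ₀ • x = (χ σ₀ : ZMod p) • x + c := by rw [hc]; abel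
      have h2 : c = (1 - (χ σ₀ : ZMod p)) • (u • c) := by
        rw [smul_smul, hu, mul_inv_cancel₀ hne, one_smul]
      rw [h1]
      nth_rewrite 1 [h2]
      rw [sub_smul, one_smul]
      abel

end Fermat.Agent.S14Lib
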