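import Mathlib
import Fermat.Agent.S14.Defs

set_option autoImplicit false

namespace Fermat.Agent.S14Lib

open NumberField nonZeroDivisors IsDedekindDomain
open scoped Pointwise

/-- sums/products over `Ico 1 p` of a function of the residue class. -/
theorem etaUnit_prod_zmod {M : Type*} [CommMonoid M] (p : ℕ) [Fact p.Prime]
    (F : ZMod p → M) (h0 : F 0 = 1) :
    ∏ b ∈ Finset.Ico 1 p, F (b : ZMod p) = ∏ x : ZMod p, F x := by
  have hp : 0 < p := (Fact.out : p.Prime).pos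
  have h1 : ∏ b ∈ Finset.range p, F (b : ZMod p) = ∏ x : ZMod p, F x := by
    refine Finset.prod_bij (fun b _ => (b : ZMod p)) (fun _ _ => Finset.mem_univ _) ?_ ?_
      (fun _ _ => rfl)
    · intro a ha b hb hab
      rw [ZMod.natCast_eq_natCast_iff'] at hab
      rwa [Nat.mod_eq_of_lt (Finset.mem_range.1 ha), Nat.mod_eq_of_lt (Finset.mem_range.1 hb)] at hab
    · intro x _
      exact ⟨x.val, Finset.mem_range.2 (ZMod.val_lt x), ZMod.natCast_zmod_val x⟩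
  rw [← h1, Finset.range_eq_Ico, Finset.prod_eq_prod_Ico_succ_bot hp]
  simp [h0]

theorem etaUnit_eta_eq {R : Type*} [CommRing R] (p : ℕ) [Fact p.Prime] (ζ : R) (hζ : ζ ^ p = 1) :
    eta p ζ = ∏ x : ZMod p, (1 + ζ ^ x.val) ^ ((x⁻¹) ^ 2).val := by
  rw [← etaUnit_prod_zmod p (fun x : ZMod p => (1 + ζ ^ x.val) ^ ((x⁻¹) ^ 2).val) (by simp)]
  refine Finset.prod_congr rfl fun b _ => ?_
  simp only [etaExp, ZMod.val_natCast]
  congr 2
  exact pow_eq_pow_mod b hζ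

section cyclo

variable (p : ℕ) [Fact p.Prime] (K : Type) [Field K] [NumberField K]
  [IsCyclotomicExtension {p} ℚ K] (ζ : 𝓞 K) (hζ : IsPrimitiveRoot ζ p)

theorem etaUnit_isUnit_factor (hp2 : p ≠ 2) (hζ : IsPrimitiveRoot ζ p) (b : ℕ) (hb : ¬ p ∣ b) :
    IsUnit (1 + ζ ^ b) := by
  have hp : p.Prime := Fact.out
  have hcop : b.Coprime p := ((Nat.Prime.coprime_iff_not_dvd hp).2 hb).symm
  have h2 : Nat.Coprime 2 p := by
    rw [Nat.coprime_primes Nat.prime_two hp]; exact fun h => hp2 h.symm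
  have := (hζ.pow_of_coprime b hcop).geom_sum_isUnit hp.two_le h2
  simpa [Finset.sum_range_succ] using this

/-- (J1) `eta` is a unit. -/
theorem isUnit_eta (hp2 : p ≠ 2) (hζ : IsPrimitiveRoot ζ p) : IsUnit (eta p ζ) := by
  unfold eta
  rw [IsUnit.prod_iff]
  intro b hb
  refine IsUnit.pow _ (etaUnit_isUnit_factor p K ζ hp2 hζ b ?_)
  rw [Finset.mem_Ico] at hb
  exact Nat.not_dvd_of_pos_of_lt hb.1 hb.2

theorem etaUnit_pow_congr {M : Type*} [CommMonoid M] (w : M) (hw : IsUnit w) (m n : ℕ)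
    (h : (m : ZMod p) = (n : ZMod p)) : ∃ u : Mˣ, w ^ m = w ^ n * (u : M) ^ p := by
  obtain ⟨w, rfl⟩ := hw
  have h' : ((m : ℤ) : ZMod p) = ((n : ℤ) : ZMod p) := by simpa using h
  rw [ZMod.intCast_eq_intCast_iff_dvd_sub] at h'
  obtain ⟨k, hk⟩ := h'
  refine ⟨w ^ (-k), ?_⟩
  have : w ^ m = w ^ n * (w ^ (-k)) ^ p := by
    rw [← zpow_natCast w m, ← zpow_natCast w n, ← zpow_natCast (w ^ (-k)) p, ← zpow_mul,
      ← zpow_add]
    congr 1
    linarith
  exact_mod_cast congrArg Units.val this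

/-- (J2) `eta` is an `ω²`-eigenvector mod `p`-th powers. -/
theorem eta_eigen (hp2 : p ≠ 2) (hζ : IsPrimitiveRoot ζ p) (σ : K ≃ₐ[ℚ] K) (a : ℕ)
    (ha : σ • ζ = ζ ^ a) :
    ∃ u : (𝓞 K)ˣ, σ • (eta p ζ) = (eta p ζ) ^ (a ^ 2) * (u : 𝓞 K) ^ p := by
  have hp : p.Prime := Fact.out
  have hζp : ζ ^ p = 1 := hζ.pow_eq_one
  -- `a` is prime to `p`
  have ha0 : (a : ZMod p) ≠ 0 := by
    intro h0
    rw [ZMod.natCast_eq_zero_iff] at h0
    obtain ⟨k, rfl⟩ := h0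
    rw [pow_mul, hζp, one_pow] at ha
    have : ζ = 1 := by
      have h1 : σ • ζ = σ • (1 : 𝓞 K) := by rw [ha, smul_one]
      exact MulAction.injective σ h1
    exact hζ.ne_one hp.one_lt this
  -- the action on the factors
  have hfac : ∀ x : ZMod p, σ • (1 + ζ ^ x.val) = 1 + ζ ^ ((a : ZMod p) * x).val := by
    intro x
    rw [smul_add, smul_one, smul_pow', ha, ← pow_mul, ZMod.val_mul, ZMod.val_natCast,
      Nat.mod_mul_mod, ← pow_eq_pow_mod _ hζp]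
  have h1 : σ • (eta p ζ) =
      ∏ x : ZMod p, (1 + ζ ^ x.val) ^ ((((a : ZMod p)⁻¹ * x)⁻¹) ^ 2).val := by
    rw [etaUnit_eta_eq p ζ hζp, Finset.smul_prod']
    rw [← Equiv.prod_comp (Equiv.mulLeft₀ (a : ZMod p) ha0)
      (fun x : ZMod p => (1 + ζ ^ x.val) ^ ((((a : ZMod p)⁻¹ * x)⁻¹) ^ 2).val)]
    refine Finset.prod_congr rfl fun x _ => ?_
    rw [smul_pow', hfac]
    show _ = (1 + ζ ^ ((a : ZMod p) * x).val) ^ ((((a : ZMod p)⁻¹ * ((a : ZMod p) * x))⁻¹) ^ 2).val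
    rw [inv_mul_cancel_left₀ ha0]
  have h2 : ∀ x : ZMod p, ∃ u : (𝓞 K)ˣ,
      (1 + ζ ^ x.val) ^ ((((a : ZMod p)⁻¹ * x)⁻¹) ^ 2).val =
        ((1 + ζ ^ x.val) ^ ((x⁻¹) ^ 2).val) ^ (a ^ 2) * (u : 𝓞 K) ^ p := by
    intro x
    by_cases hx : x = 0
    · subst hx
      exact ⟨1, by simp⟩
    · rw [← pow_mul]
      refine etaUnit_pow_congr p _ (etaUnit_isUnit_factor p K ζ hp2 hζ _ ?_) _ _ ?_
      · intro hdvd
        apply hx
        rw [← ZMod.natCast_zmod_val x, ZMod.natCast_eq_zero_iff]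
        exact hdvd
      · push_cast
        rw [ZMod.natCast_zmod_val, ZMod.natCast_zmod_val]
        field_simp
  choose u hu using h2
  refine ⟨∏ x : ZMod p, u x, ?_⟩
  rw [h1, etaUnit_eta_eq p ζ hζp, Finset.prod_congr rfl fun x _ => hu x, Finset.prod_mul_distrib,
    Finset.prod_pow, Units.coe_prod, Finset.prod_pow]

end cyclo

end Fermat.Agent.S14Lib
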