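import Mathlib
import Fermat.Agent.S14.Defs
import Fermat.Agent.S14.EtaUnit

set_option autoImplicit false

namespace Fermat.Agent.S14Lib

open NumberField nonZeroDivisors IsDedekindDomain Polynomial
open scoped Pointwise

section poly

variable {F : Type*} [Field F]

/-- the second order "logarithm" on polynomials with nonzero constant term -/
noncomputable def etaLocalLam (f : F[X]) : F :=
  (2 * f.coeff 0 * f.coeff 2 - f.coeff 1 ^ 2) / f.coeff 0 ^ 2

theorem etaLocal_coeff_two_mul (f g : F[X]) :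
    (f * g).coeff 2 = f.coeff 0 * g.coeff 2 + f.coeff 1 * g.coeff 1 + f.coeff 2 * g.coeff 0 := by
  rw [Polynomial.coeff_mul]
  simp [Finset.Nat.antidiagonal_succ, add_assoc]

theorem etaLocal_coeff_one_mul (f g : F[X]) :
    (f * g).coeff 1 = f.coeff 0 * g.coeff 1 + f.coeff 1 * g.coeff 0 := by
  rw [Polynomial.coeff_mul]
  simp [Finset.Nat.antidiagonal_succ]

theorem etaLocalLam_mul (f g : F[X]) (hf : f.coeff 0 ≠ 0) (hg : g.coeff 0 ≠ 0) :
    etaLocalLam (f * g) = etaLocalLam f + etaLocalLam g := by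
  unfold etaLocalLam
  rw [etaLocal_coeff_two_mul, etaLocal_coeff_one_mul, Polynomial.mul_coeff_zero]
  field_simp
  ring

theorem etaLocalLam_one : etaLocalLam (1 : F[X]) = 0 := by
  simp [etaLocalLam, Polynomial.coeff_one]

theorem etaLocal_coeff_zero_pow (f : F[X]) (n : ℕ) : (f ^ n).coeff 0 = f.coeff 0 ^ n := by
  simp [Polynomial.coeff_zero_eq_eval_zero]

theorem etaLocalLam_pow (f : F[X]) (hf : f.coeff 0 ≠ 0) (n : ℕ) :
    etaLocalLam (f ^ n) = n * etaLocalLam f := by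
  induction n with
  | zero => simp [etaLocalLam_one]
  | succ n ih =>
    rw [pow_succ, etaLocalLam_mul _ _ (by rw [etaLocal_coeff_zero_pow]; exact pow_ne_zero _ hf) hf,
      ih]
    push_cast
    ring

theorem etaLocalLam_prod {ι : Type*} (s : Finset ι) (f : ι → F[X])
    (hf : ∀ i ∈ s, (f i).coeff 0 ≠ 0) :
    (∏ i ∈ s, f i).coeff 0 ≠ 0 ∧ etaLocalLam (∏ i ∈ s, f i) = ∑ i ∈ s, etaLocalLam (f i) := by
  classical
  induction s using Finset.induction_on with
  | empty => simp [etaLocalLam_one]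
  | insert a s ha ih =>
    have h1 := ih fun i hi => hf i (Finset.mem_insert_of_mem hi)
    have h2 := hf a (Finset.mem_insert_self a s)
    rw [Finset.prod_insert ha, Finset.sum_insert ha]
    refine ⟨by rw [Polynomial.mul_coeff_zero]; exact mul_ne_zero h2 h1.1, ?_⟩
    rw [etaLocalLam_mul _ _ h2 h1.1, h1.2]

theorem etaLocalLam_congr (f g : F[X]) (h : (X : F[X]) ^ 3 ∣ f - g) :
    f.coeff 0 = g.coeff 0 ∧ etaLocalLam f = etaLocalLam g := by
  rw [Polynomial.X_pow_dvd_iff] at h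
  have h0 := h 0 (by norm_num)
  have h1 := h 1 (by norm_num)
  have h2 := h 2 (by norm_num)
  rw [Polynomial.coeff_sub, sub_eq_zero] at h0 h1 h2
  exact ⟨h0, by unfold etaLocalLam; rw [h0, h1, h2]⟩

end poly

theorem etaLocal_sum_inv (p : ℕ) [Fact p.Prime] (hp : 5 ≤ p) :
    ∑ b ∈ Finset.Ico 1 p, ((b : ZMod p))⁻¹ = 0 := by
  have h := etaUnit_prod_zmod (M := Multiplicative (ZMod p)) p
    (fun x => Multiplicative.ofAdd (x⁻¹)) (by simp)
  have h' : ∑ b ∈ Finset.Ico 1 p, ((b : ZMod p))⁻¹ = ∑ x : ZMod p, x⁻¹ := by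
    have := congrArg Multiplicative.toAdd h
    simpa [toAdd_prod] using this
  rw [h']
  have h3 : ∑ x : ZMod p, x⁻¹ = ∑ x : ZMod p, x := by
    refine Finset.sum_bij' (fun x _ => x⁻¹) (fun x _ => x⁻¹) ?_ ?_ ?_ ?_ ?_ <;> simp
  rw [h3]
  have := FiniteField.sum_pow_lt_card_sub_one (ZMod p) 1 (by rw [ZMod.card]; omega)
  simpa using this

/-- the value of the logarithm on `eta p (1 + X)` -/
theorem etaLocal_lam_eta (p : ℕ) [Fact p.Prime] (hp : 5 ≤ p) :
    (eta p (1 + X : (ZMod p)[X])).coeff 0 ≠ 0 ∧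
      etaLocalLam (eta p (1 + X : (ZMod p)[X])) = -1 / 4 := by
  have hpp : p.Prime := Fact.out
  have h2 : (2 : ZMod p) ≠ 0 := by
    intro h
    have : ((2 : ℕ) : ZMod p) = 0 := by exact_mod_cast h
    rw [ZMod.natCast_eq_zero_iff] at this
    have := Nat.le_of_dvd (by norm_num) this
    omega
  have hc0 : ∀ b : ℕ, (1 + (1 + X : (ZMod p)[X]) ^ b).coeff 0 = 2 := by
    intro b
    rw [Polynomial.coeff_add, Polynomial.coeff_one_add_X_pow]
    simp; norm_num
  have hlam : ∀ b : ℕ, 1 ≤ b → etaLocalLam (1 + (1 + X : (ZMod p)[X]) ^ b) =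
      ((b : ZMod p) ^ 2 - 2 * b) / 4 := by
    intro b hb
    unfold etaLocalLam
    rw [hc0, Polynomial.coeff_add, Polynomial.coeff_add, Polynomial.coeff_one_add_X_pow,
      Polynomial.coeff_one_add_X_pow]
    have hch : (2 : ZMod p) * (b.choose 2 : ZMod p) = (b : ZMod p) * ((b : ZMod p) - 1) := by
      have h : 2 * b.choose 2 = b * (b - 1) := by
        rw [Nat.choose_two_right, Nat.mul_div_cancel' (Nat.even_mul_pred_self b).two_dvd]
      have := congrArg (Nat.cast (R := ZMod p)) h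
      push_cast [Nat.cast_sub hb] at this
      exact this
    simp only [Polynomial.coeff_one, Nat.choose_one_right]
    norm_num
    congr 1
    linear_combination 2 * hch
  have hmain := etaLocalLam_prod (Finset.Ico 1 p)
    (fun b => (1 + (1 + X : (ZMod p)[X]) ^ b) ^ etaExp p b)
    (fun b _ => by rw [etaLocal_coeff_zero_pow, hc0]; exact pow_ne_zero _ h2)
  refine ⟨hmain.1, ?_⟩
  unfold eta
  rw [hmain.2]
  have hterm : ∀ b ∈ Finset.Ico 1 p,
      etaLocalLam ((1 + (1 + X : (ZMod p)[X]) ^ b) ^ etaExp p b) =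
        1 / 4 - (1 / 2) * ((b : ZMod p))⁻¹ := by
    intro b hb
    rw [Finset.mem_Ico] at hb
    have hb0 : (b : ZMod p) ≠ 0 := by
      rw [Ne, ZMod.natCast_eq_zero_iff]
      exact Nat.not_dvd_of_pos_of_lt hb.1 hb.2
    rw [etaLocalLam_pow _ (by rw [hc0]; exact h2), hlam b hb.1, etaExp, ZMod.natCast_zmod_val]
    have h4 : (4 : ZMod p) ≠ 0 := by
      have : (4 : ZMod p) = 2 * 2 := by norm_num
      rw [this]; exact mul_ne_zero h2 h2
    field_simp
    ring
  rw [Finset.sum_congr rfl hterm, Finset.sum_sub_distrib, ← Finset.mul_sum, etaLocal_sum_inv p hp]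
  simp only [Finset.sum_const, Nat.card_Ico, nsmul_eq_mul, mul_zero, sub_zero]
  rw [Nat.cast_sub hpp.one_le]
  simp
  ring

theorem etaLocal_geom (p : ℕ) [Fact p.Prime] :
    ∑ i ∈ Finset.range p, (1 + X : (ZMod p)[X]) ^ i = X ^ (p - 1) := by
  have hpp : p.Prime := Fact.out
  have h := geom_sum_mul (1 + X : (ZMod p)[X]) p
  rw [add_pow_char, one_pow, add_sub_cancel_left, add_sub_cancel_left] at h
  have h' : (X : (ZMod p)[X]) ^ p = X ^ (p - 1) * X := by
    rw [← pow_succ, Nat.sub_add_cancel hpp.one_le]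
  rw [h'] at h
  exact mul_right_cancel₀ Polynomial.X_ne_zero h

theorem etaLocal_map_eta {R S : Type*} [CommRing R] [CommRing S] (φ : R →+* S) (p : ℕ) (ζ : R) :
    φ (eta p ζ) = eta p (φ ζ) := by
  simp [eta, map_prod]

section cyclo

variable (p : ℕ) [Fact p.Prime] (K : Type) [Field K] [NumberField K]
  [IsCyclotomicExtension {p} ℚ K] (ζ : 𝓞 K) (hζ : IsPrimitiveRoot ζ p)

theorem etaLocal_exists_hom (hp : 5 ≤ p) (hζ : IsPrimitiveRoot ζ p) :
    ∃ φ : 𝓞 K →+* (ZMod p)[X] ⧸ Ideal.span {(X : (ZMod p)[X]) ^ 3},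
      φ ζ = Ideal.Quotient.mk _ (1 + X) := by
  have hpp : p.Prime := Fact.out
  have hζK : IsPrimitiveRoot (ζ : K) p := hζ.map_of_injective RingOfIntegers.coe_injective
  have hgen : hζK.integralPowerBasis.gen = ζ := by
    rw [IsPrimitiveRoot.integralPowerBasis_gen]; rfl
  have hmin : minpoly ℤ hζK.integralPowerBasis.gen = cyclotomic p ℤ := by
    rw [hgen, cyclotomic_eq_minpoly hζK hpp.pos]
    exact (minpoly.algebraMap_eq RingOfIntegers.coe_injective ζ).symm
  have hy : aeval (Ideal.Quotient.mk (Ideal.span {(X : (ZMod p)[X]) ^ 3}) (1 + X))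
      (minpoly ℤ hζK.integralPowerBasis.gen) = 0 := by
    rw [hmin]
    have h1 := Polynomial.aeval_algHom_apply
      (Ideal.Quotient.mkₐ ℤ (Ideal.span {(X : (ZMod p)[X]) ^ 3})) (1 + X) (cyclotomic p ℤ)
    rw [Ideal.Quotient.mkₐ_eq_mk] at h1
    rw [h1, cyclotomic_prime, map_sum]
    simp only [map_pow, aeval_X]
    rw [etaLocal_geom, Ideal.Quotient.eq_zero_iff_mem,
      Ideal.mem_span_singleton]
    exact pow_dvd_pow _ (by omega)
  refine ⟨(hζK.integralPowerBasis.lift _ hy).toRingHom, ?_⟩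
  have := hζK.integralPowerBasis.lift_gen _ hy
  rw [hgen] at this
  exact this

/-- (J3) the local computation `Λ(eta) = -1/8 ≠ 0`. -/
theorem eta_local (hp : 5 ≤ p) (hζ : IsPrimitiveRoot ζ p) (j : ℕ) (u c : 𝓞 K)
    (hu : ¬ (ζ - 1) ∣ u) (h : (ζ - 1) ^ 3 ∣ (eta p ζ) ^ j * u ^ p - c ^ p) : p ∣ j := by
  have hpp : p.Prime := Fact.out
  obtain ⟨φ, hφ⟩ := etaLocal_exists_hom p K ζ hp hζ
  have hζK : IsPrimitiveRoot (ζ : K) p := hζ.map_of_injective RingOfIntegers.coe_injective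
  have hπ : φ (ζ - 1) = Ideal.Quotient.mk _ X := by
    rw [map_sub, hφ, map_one, ← map_one (Ideal.Quotient.mk _), ← map_sub, add_sub_cancel_left]
  obtain ⟨U, hU⟩ := Ideal.Quotient.mk_surjective (φ u)
  obtain ⟨C, hC⟩ := Ideal.Quotient.mk_surjective (φ c)
  -- the constant term of `U` is nonzero
  have hU0 : U.coeff 0 ≠ 0 := by
    intro h0
    apply hu
    -- the augmentation
    let ε : (ZMod p)[X] ⧸ Ideal.span {(X : (ZMod p)[X]) ^ 3} →+* ZMod p :=
      Ideal.Quotient.lift _ (Polynomial.evalRingHom (0 : ZMod p)) (by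
        intro a ha
        rw [Ideal.mem_span_singleton] at ha
        obtain ⟨b, rfl⟩ := ha
        simp)
    have hprime : Prime (ζ - 1) := hζK.zeta_sub_one_prime'
    have hmax : (Ideal.span {ζ - 1}).IsMaximal :=
      ((Ideal.span_singleton_prime hprime.ne_zero).2 hprime).isMaximal
        (by rw [Ne, Ideal.span_singleton_eq_bot]; exact hprime.ne_zero)
    have hle : Ideal.span {ζ - 1} ≤ RingHom.ker (ε.comp φ) := by
      rw [Ideal.span_singleton_le_iff_mem, RingHom.mem_ker, RingHom.comp_apply, hπ]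
      simp [ε]
    have heq := hmax.eq_of_le (RingHom.ker_ne_top _) hle
    have hmem : u ∈ RingHom.ker (ε.comp φ) := by
      rw [RingHom.mem_ker, RingHom.comp_apply, ← hU]
      simp [ε, ← Polynomial.coeff_zero_eq_eval_zero, h0]
    rw [← heq, Ideal.mem_span_singleton] at hmem
    exact hmem
  -- the congruence in `F_p[X]`
  have hdvd : (X : (ZMod p)[X]) ^ 3 ∣ (eta p (1 + X : (ZMod p)[X])) ^ j * U ^ p - C ^ p := by
    rw [← Ideal.mem_span_singleton, ← Ideal.Quotient.eq_zero_iff_mem]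
    obtain ⟨d, hd⟩ := h
    have := congrArg φ hd
    rw [map_mul, map_pow, hπ, ← map_pow, Ideal.Quotient.eq_zero_iff_mem.2
      (Ideal.mem_span_singleton_self _), zero_mul, map_sub, map_mul, map_pow, map_pow, map_pow,
      etaLocal_map_eta, hφ, ← etaLocal_map_eta, ← hU, ← hC] at this
    simpa using this
  obtain ⟨hE0, hE⟩ := etaLocal_lam_eta p hp
  obtain ⟨hc0, hlam⟩ := etaLocalLam_congr _ _ hdvd
  have hEj0 : ((eta p (1 + X : (ZMod p)[X])) ^ j).coeff 0 ≠ 0 := by
    rw [etaLocal_coeff_zero_pow]; exact pow_ne_zero _ hE0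
  have hUp0 : (U ^ p).coeff 0 ≠ 0 := by
    rw [etaLocal_coeff_zero_pow]; exact pow_ne_zero _ hU0
  have hC0 : C.coeff 0 ≠ 0 := by
    intro h0
    rw [Polynomial.mul_coeff_zero, etaLocal_coeff_zero_pow C, h0, zero_pow hpp.ne_zero] at hc0
    exact mul_ne_zero hEj0 hUp0 hc0
  rw [etaLocalLam_mul _ _ hEj0 hUp0, etaLocalLam_pow _ hE0, etaLocalLam_pow _ hU0,
    etaLocalLam_pow _ hC0, hE] at hlam
  simp only [CharP.cast_eq_zero, zero_mul, add_zero] at hlam
  have h2 : (2 : ZMod p) ≠ 0 := by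
    intro h
    have : ((2 : ℕ) : ZMod p) = 0 := by exact_mod_cast h
    rw [ZMod.natCast_eq_zero_iff] at this
    have := Nat.le_of_dvd (by norm_num) this
    omega
  have h4 : (4 : ZMod p) ≠ 0 := by
    have : (4 : ZMod p) = 2 * 2 := by norm_num
    rw [this]; exact mul_ne_zero h2 h2
  rw [← ZMod.natCast_eq_zero_iff]
  rcases mul_eq_zero.1 hlam with h | h
  · exact h
  · exfalso
    rw [div_eq_zero_iff] at h
    rcases h with h | h
    · exact neg_ne_zero.2 one_ne_zero h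
    · exact h4 h

end cyclo

end Fermat.Agent.S14Lib
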