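import Mathlib
import Fermat.Agent.S14.Defs

/-! Auxiliary lemmas for Thaine's relation (leaf (F) of S14). -/

set_option autoImplicit false
set_option linter.style.haveILetI false

namespace Fermat.Agent.S14Lib

open NumberField nonZeroDivisors IsDedekindDomain UniqueFactorizationMonoid
open scoped Pointwise

/-- local computation at a totally ramified prime -/
theorem thaine_local {B : Type*} [CommRing B] [IsDedekindDomain B] (L : Ideal B) [hL : L.IsPrime]
    (τ : B →+* B) (hτ : ∀ z, τ z - z ∈ L) (ϖ s ξ β : B) (r : ℕ)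
    (hϖ0 : ϖ ≠ 0) (hϖ1 : ϖ ∈ L) (hϖ2 : ϖ ∉ L ^ 2) (hτϖ : τ ϖ = ϖ * s)
    (hβ1 : β ∈ L ^ r) (hβ2 : β ∉ L ^ (r + 1)) (hτβ : τ β = ξ * β) :
    ξ - s ^ r ∈ L := by
  obtain ⟨c, hc⟩ : L ∣ Ideal.span {ϖ} := Ideal.dvd_span_singleton.mpr hϖ1
  have hcL : ¬ c ≤ L := by
    intro h
    apply hϖ2
    have : Ideal.span {ϖ} ≤ L ^ 2 := by
      rw [hc, pow_two]
      exact Ideal.mul_mono_right h
    exact this (Ideal.mem_span_singleton_self ϖ)
  obtain ⟨y₀, hy₀c, hy₀L⟩ := SetLike.not_le_iff_exists.mp hcL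
  have hyL : y₀ ^ r ∉ L := fun h => hy₀L (hL.mem_of_pow_mem r h)
  have hmem : β * y₀ ^ r ∈ Ideal.span {ϖ ^ r} := by
    rw [← Ideal.span_singleton_pow, hc, mul_pow]
    exact Ideal.mul_mem_mul hβ1 (Ideal.pow_mem_pow hy₀c r)
  obtain ⟨x, hx⟩ := Ideal.mem_span_singleton.mp hmem
  set y := y₀ ^ r with hy
  have hxL : x ∉ L := by
    intro h
    have h1 : y * β ∈ L ^ (r + 1) := by
      rw [mul_comm, hx, pow_succ]
      exact Ideal.mul_mem_mul (Ideal.pow_mem_pow hϖ1 r) h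
    rcases Ideal.IsPrime.mul_mem_pow L h1 with h2 | h2
    · exact hyL h2
    · exact hβ2 h2
  have key : ξ * (x * τ y) = s ^ r * (y * τ x) := by
    have h1 : τ β * τ y = (ϖ * s) ^ r * τ x := by
      rw [← map_mul, hx, map_mul, map_pow, hτϖ]
    have h2 : ϖ ^ r * (ξ * (x * τ y)) = ϖ ^ r * (s ^ r * (y * τ x)) := by
      calc ϖ ^ r * (ξ * (x * τ y)) = ξ * (ϖ ^ r * x) * τ y := by ring
        _ = ξ * (β * y) * τ y := by rw [hx]
        _ = (τ β * τ y) * y := by rw [hτβ]; ring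
        _ = ϖ ^ r * (s ^ r * (y * τ x)) := by rw [h1]; ring
    exact mul_left_cancel₀ (pow_ne_zero r hϖ0) h2
  have h3 : (ξ - s ^ r) * (x * y) ∈ L := by
    have : (ξ - s ^ r) * (x * y) = s ^ r * y * (τ x - x) - ξ * x * (τ y - y) := by
      linear_combination key
    rw [this]
    exact L.sub_mem (L.mul_mem_left _ (hτ x)) (L.mul_mem_left _ (hτ y))
  rcases hL.mem_or_mem h3 with h | h
  · exact h
  · rcases hL.mem_or_mem h with h | h
    · exact absurd h hxL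
    · exact absurd h hyL

/-- factorisation lemma -/
theorem thaine_factor {A : Type*} [CommRing A] [IsDedekindDomain A] {ι : Type*} [Fintype ι]
    (P : ι → Ideal A) (hPinj : Function.Injective P)
    (I : Ideal A) (hI : I ≠ ⊥) (p : ℕ)
    (h : ∀ Q : Ideal A, Q.IsPrime → Q ≠ ⊥ → (∀ i, Q ≠ P i) → p ∣ (normalizedFactors I).count Q) :
    ∃ J : Ideal A, I = (∏ i, P i ^ (normalizedFactors I).count (P i)) * J ^ p := by
  classical
  set M := normalizedFactors I with hM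
  have h1 : I = ∏ x ∈ M.toFinset, x ^ M.count x := by
    rw [← Finset.prod_multiset_count]
    exact (Ideal.prod_normalizedFactors_eq_self hI).symm
  set S : Finset (Ideal A) := Finset.univ.image P with hS
  have h2 : ∏ i, P i ^ M.count (P i) = ∏ x ∈ S, x ^ M.count x := by
    rw [hS, Finset.prod_image (fun a _ b _ hab => hPinj hab)]
  have h3 : ∏ x ∈ S, x ^ M.count x = ∏ x ∈ M.toFinset.filter (· ∈ S), x ^ M.count x := by
    symm
    apply Finset.prod_subset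
    · intro x hx
      exact (Finset.mem_filter.mp hx).2
    · intro x hx hx'
      have : x ∉ M := by
        intro hxM
        exact hx' (Finset.mem_filter.mpr ⟨Multiset.mem_toFinset.mpr hxM, hx⟩)
      rw [Multiset.count_eq_zero_of_notMem this, pow_zero]
  refine ⟨∏ x ∈ M.toFinset.filter (· ∉ S), x ^ (M.count x / p), ?_⟩
  rw [h2, h3, ← Finset.prod_pow]
  conv_lhs => rw [h1, ← Finset.prod_filter_mul_prod_filter_not M.toFinset (· ∈ S)]
  congr 1
  apply Finset.prod_congr rfl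
  intro x hx
  rw [Finset.mem_filter, Multiset.mem_toFinset] at hx
  have hxp : Prime x := prime_of_normalized_factor x hx.1
  have := h x (Ideal.isPrime_of_prime hxp) hxp.ne_zero (by
    intro i hi
    exact hx.2 (Finset.mem_image.mpr ⟨i, Finset.mem_univ i, hi.symm⟩))
  rw [← pow_mul, Nat.div_mul_cancel this]

/-- count relation -/
theorem thaine_count {A B : Type*} [CommRing A] [IsDedekindDomain A] [CommRing B]
    [IsDedekindDomain B] [Algebra A B] [FaithfulSMul A B] (I : Ideal A) (hI : I ≠ ⊥)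
    (𝔅 : Ideal B) (n : ℕ) (hn : n ≠ 0) (hmap : I.map (algebraMap A B) = 𝔅 ^ n)
    (q : Ideal A) (hq : q.IsPrime) (hq0 : q ≠ ⊥) (Q : Ideal B) (hQ : Q.IsPrime) (hQ0 : Q ≠ ⊥)
    [Q.LiesOver q] :
    q.ramificationIdx' Q * (normalizedFactors I).count q = n * (normalizedFactors 𝔅).count Q := by
  have hqi : Irreducible q := (Ideal.prime_of_isPrime hq0 hq).irreducible
  have hQp : Prime Q := Ideal.prime_of_isPrime hQ0 hQ
  have hB : 𝔅 ≠ ⊥ := by
    rintro rfl
    rw [← Ideal.zero_eq_bot, zero_pow hn, Ideal.zero_eq_bot] at hmap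
    exact (Ideal.map_ne_bot_of_ne_bot hI) hmap
  have h1 := Ideal.IsDedekindDomain.emultiplicity_map_eq_ramificationIdx'_mul (S := B) hI hqi
    hQp.irreducible hQ0
  rw [hmap, emultiplicity_pow hQp, emultiplicity_eq_count_normalizedFactors hQp.irreducible hB,
    emultiplicity_eq_count_normalizedFactors hqi hI, normalize_eq, normalize_eq] at h1
  exact_mod_cast h1.symm

theorem thaine_unit {R : Type*} [CommRing R] [IsDomain R] (μ : R) (m : ℕ) (hm : Odd m)
    (hμ : μ ^ m = 1) (hμ1 : μ ≠ 1) :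
    (1 + μ) * ∑ i ∈ Finset.range ((m + 1) / 2), (μ ^ 2) ^ i = 1 := by
  obtain ⟨k, rfl⟩ := hm
  have h1 : (2 * k + 1 + 1) / 2 = k + 1 := by omega
  rw [h1]
  have h2 := mul_neg_geom_sum (μ ^ 2) (k + 1)
  have h3 : (μ ^ 2) ^ (k + 1) = μ := by
    rw [← pow_mul, show 2 * (k + 1) = (2 * k + 1) + 1 by ring, pow_succ, hμ, one_mul]
  rw [h3] at h2
  have h4 : (1 - μ) ≠ 0 := sub_ne_zero.mpr (Ne.symm hμ1)
  apply mul_left_cancel₀ h4
  rw [mul_one]
  conv_rhs => rw [← h2]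
  ring

theorem thaine_sub_one_mem {R : Type*} [CommRing R] (L : Ideal R) [hL : L.IsPrime] (ℓ : ℕ)
    (hl : ℓ.Prime) (hlL : (ℓ : R) ∈ L) (ω : R) (hω : ω ^ ℓ = 1) : ω - 1 ∈ L := by
  obtain ⟨r, hr⟩ := exists_add_pow_prime_eq hl (ω - 1) 1
  rw [sub_add_cancel, hω, one_pow] at hr
  have : (ω - 1) ^ ℓ = - ((ℓ : R) * ((ω - 1) * 1 * r)) := by linear_combination -hr
  apply hL.mem_of_pow_mem ℓ
  rw [this]
  exact L.neg_mem (L.mul_mem_right _ hlL)

theorem thaine_pow_dvd {R : Type*} [CommRing R] [IsDomain R] (ℓ : ℕ) (hl : ℓ.Prime) (ω : R)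
    (hω : IsPrimitiveRoot ω ℓ) : (ω - 1) ^ (ℓ - 1) ∣ (ℓ : R) := by
  haveI : Fact ℓ.Prime := ⟨hl⟩
  have h1 := Polynomial.cyclotomic_eq_prod_X_sub_primitiveRoots hω
  have h2 : (ℓ : R) = ∏ μ ∈ primitiveRoots ℓ R, (1 - μ) := by
    rw [← Polynomial.eval_one_cyclotomic_prime (R := R) (p := ℓ), h1, Polynomial.eval_prod]
    simp
  rw [h2, ← Nat.totient_prime hl, ← hω.card_primitiveRoots, ← Finset.prod_const]
  apply Finset.prod_dvd_prod_of_dvd
  intro μ hμ
  rw [mem_primitiveRoots hl.pos] at hμ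
  obtain ⟨i, -, rfl⟩ := hω.eq_pow_of_pow_eq_one hμ.pow_eq_one
  have := sub_dvd_pow_sub_pow ω 1 i
  rw [one_pow] at this
  rw [← neg_sub (ω ^ i) 1, dvd_neg]
  exact this

theorem thaine_mem_pow_iff {B : Type*} [CommRing B] [IsDedekindDomain B] (L : Ideal B)
    (hL : L.IsPrime) (hL0 : L ≠ ⊥) (x : B) (hx : x ≠ 0) (k : ℕ) :
    x ∈ L ^ k ↔ k ≤ (normalizedFactors (Ideal.span {x})).count L := by
  have hLp : Prime L := Ideal.prime_of_isPrime hL0 hL
  have hx' : Ideal.span {x} ≠ 0 := by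
    rw [Ideal.zero_eq_bot, Ne, Ideal.span_singleton_eq_bot]
    exact hx
  rw [← Ideal.dvd_span_singleton, pow_dvd_iff_le_emultiplicity,
    emultiplicity_eq_count_normalizedFactors hLp.irreducible hx', normalize_eq]
  exact_mod_cast Iff.rfl

theorem thaine_liesOver {R : Type*} [CommRing R] (P : Ideal R) [hP : P.IsPrime] (q : ℕ)
    (hq : q.Prime) (h : (q : R) ∈ P) : P.LiesOver (Ideal.span {(q : ℤ)}) := by
  constructor
  have hmax : (Ideal.span {(q : ℤ)}).IsMaximal :=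
    PrincipalIdealRing.isMaximal_of_irreducible (Nat.prime_iff_prime_int.mp hq).irreducible
  apply hmax.eq_of_le
  · exact (Ideal.IsPrime.under ℤ P).ne_top
  · rw [Ideal.span_singleton_le_iff_mem, Ideal.mem_comap]
    simpa using h

theorem thaine_t_ne_zero (ℓ : ℕ) [Fact ℓ.Prime] (hl2 : ℓ ≠ 2) (t : ℕ)
    (ht : ∀ x : ZMod ℓ, x ≠ 0 → ∃ k : ℕ, x = (t : ZMod ℓ) ^ k) : (t : ZMod ℓ) ≠ 0 := by
  intro h0
  have hl : ℓ.Prime := Fact.out
  have h1 : (-1 : ZMod ℓ) ≠ 0 := neg_ne_zero.mpr one_ne_zero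
  obtain ⟨k, hk⟩ := ht (-1) h1
  rw [h0] at hk
  rcases Nat.eq_zero_or_pos k with rfl | hk0
  · rw [pow_zero] at hk
    haveI : Fact (2 < ℓ) := ⟨lt_of_le_of_ne hl.two_le (Ne.symm hl2)⟩
    exact ZMod.neg_one_ne_one hk
  · rw [zero_pow hk0.ne'] at hk
    exact h1 hk

theorem thaine_pow_congr {R : Type*} [Monoid R] {ω : R} {ℓ : ℕ} (hω : ω ^ ℓ = 1) {m n : ℕ}
    (h : (m : ZMod ℓ) = n) : ω ^ m = ω ^ n := by
  rw [ZMod.natCast_eq_natCast_iff] at h
  rw [← Nat.div_add_mod m ℓ, ← Nat.div_add_mod n ℓ, pow_add, pow_add, pow_mul, pow_mul, hω,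
    one_pow, one_pow, h]

theorem thaine_gal (ℓ : ℕ) [Fact ℓ.Prime] (K F : Type) [Field K] [Field F] [Algebra K F]
    [IsCyclotomicExtension {ℓ} K F] (hirr : Irreducible (Polynomial.cyclotomic ℓ K))
    (hl2 : ℓ ≠ 2) (t : ℕ) (ht : ∀ x : ZMod ℓ, x ≠ 0 → ∃ k : ℕ, x = (t : ZMod ℓ) ^ k) :
    ∃ τ : F ≃ₐ[K] F, τ (IsCyclotomicExtension.zeta ℓ K F) = (IsCyclotomicExtension.zeta ℓ K F) ^ t ∧
      ∀ σ : F ≃ₐ[K] F, σ ∈ Subgroup.zpowers τ := by
  have hl : ℓ.Prime := Fact.out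
  haveI : NeZero ℓ := ⟨hl.ne_zero⟩
  set ω := IsCyclotomicExtension.zeta ℓ K F with hωdef
  have hω : IsPrimitiveRoot ω ℓ := IsCyclotomicExtension.zeta_spec ℓ K F
  have ht0 := thaine_t_ne_zero ℓ hl2 t ht
  have htc : t.Coprime ℓ := by
    rw [Nat.coprime_comm, hl.coprime_iff_not_dvd]
    intro h
    exact ht0 ((ZMod.natCast_eq_zero_iff t ℓ).mpr h)
  have hμ : IsPrimitiveRoot (ω ^ t) ℓ := hω.pow_of_coprime t htc
  set τ : F ≃ₐ[K] F := IsCyclotomicExtension.fromZetaAut hμ hirr with hτdef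
  have hτ : τ ω = ω ^ t := IsCyclotomicExtension.fromZetaAut_spec hμ hirr
  have hτk : ∀ k : ℕ, (τ ^ k) ω = ω ^ (t ^ k) := by
    intro k
    induction k with
    | zero => simp
    | succ k ih =>
      rw [pow_succ', AlgEquiv.mul_apply, ih, map_pow, hτ, ← pow_mul, ← pow_succ']
  refine ⟨τ, hτ, fun σ => ?_⟩
  obtain ⟨a, -, ha⟩ := hω.eq_pow_of_pow_eq_one (ξ := σ ω) (by rw [← map_pow, hω.pow_eq_one, map_one])
  have ha0 : (a : ZMod ℓ) ≠ 0 := by
    intro h
    rw [ZMod.natCast_eq_zero_iff] at h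
    obtain ⟨c, rfl⟩ := h
    rw [pow_mul, hω.pow_eq_one, one_pow] at ha
    have : ω = 1 := by
      apply σ.injective
      rw [← ha, map_one]
    exact hω.ne_one hl.one_lt this
  obtain ⟨k, hk⟩ := ht a ha0
  refine ⟨k, ?_⟩
  have h1 : (τ ^ k) ω = σ ω := by
    rw [hτk, ← ha]
    apply thaine_pow_congr hω.pow_eq_one
    push_cast
    exact hk.symm
  simp only [zpow_natCast]
  apply AlgEquiv.coe_toAlgHom_injective
  apply (hω.powerBasis K).algHom_ext
  rw [hω.powerBasis_gen K]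
  exact h1

theorem thaine_norm (ℓ : ℕ) [Fact ℓ.Prime] (K F : Type) [Field K] [Field F] [Algebra K F]
    [IsCyclotomicExtension {ℓ} K F] (hirr : Irreducible (Polynomial.cyclotomic ℓ K))
    (hl2 : ℓ ≠ 2) (z : K) (hz : z ^ ℓ = z) (hz1 : 1 + z ≠ 0) :
    Algebra.norm K (1 + algebraMap K F z * IsCyclotomicExtension.zeta ℓ K F) = 1 := by
  classical
  have hl : ℓ.Prime := Fact.out
  haveI : NeZero ℓ := ⟨hl.ne_zero⟩
  set ω := IsCyclotomicExtension.zeta ℓ K F with hωdef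
  have hω : IsPrimitiveRoot ω ℓ := IsCyclotomicExtension.zeta_spec ℓ K F
  let E := AlgebraicClosure F
  apply (algebraMap K E).injective
  letI := IsCyclotomicExtension.finiteDimensional {ℓ} K F
  letI := IsCyclotomicExtension.isGalois {ℓ} K F
  rw [Algebra.norm_eq_prod_embeddings, map_one]
  set z' : E := algebraMap K E z with hz'
  have hωE : IsPrimitiveRoot (algebraMap F E ω) ℓ := hω.map_of_injective (algebraMap F E).injective
  have h1 : ∏ σ : F →ₐ[K] E, σ (1 + algebraMap K F z * ω) = ∏ μ ∈ primitiveRoots ℓ E, (1 + μ * z') := by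
    rw [← Finset.prod_attach (primitiveRoots ℓ E), ← Finset.univ_eq_attach]
    refine Fintype.prod_equiv (hω.embeddingsEquivPrimitiveRoots E hirr) _ _ fun σ => ?_
    simp [mul_comm, hz']
  have h2 : (1 + z') * ∏ μ ∈ primitiveRoots ℓ E, (1 + μ * z') = 1 + z' := by
    have h3 := hωE.pow_add_pow_eq_prod_add_mul (1 : E) z' (hl.odd_of_ne_two hl2)
    rw [IsPrimitiveRoot.nthRoots_one_eq_biUnion_primitiveRoots, hl.divisors] at h3
    have hne : (1 : ℕ) ≠ ℓ := hl.one_lt.ne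
    rw [Finset.prod_biUnion, Finset.prod_pair hne, IsPrimitiveRoot.primitiveRoots_one,
      Finset.prod_singleton, one_mul, one_pow, hz', ← map_pow, hz] at h3
    · exact h3.symm
    · intro i _ j _ hij
      exact IsPrimitiveRoot.disjoint hij
  rw [h1]
  have hz1' : 1 + z' ≠ 0 := by
    rw [hz', ← map_one (algebraMap K E), ← map_add]
    exact (map_ne_zero _).mpr hz1
  exact mul_left_cancel₀ hz1' (by rw [h2, mul_one])

theorem thaine_prim_mul {R : Type*} [CommMonoid R] {a b : R} {m n : ℕ} (ha : IsPrimitiveRoot a m)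
    (hb : IsPrimitiveRoot b n) (h : m.Coprime n) : IsPrimitiveRoot (a * b) (m * n) := by
  have h1 := ha.eq_orderOf
  have h2 := hb.eq_orderOf
  have h3 := (Commute.all a b).orderOf_mul_eq_mul_orderOf_of_coprime (by rwa [← h1, ← h2])
  rw [h1, h2, ← h3]
  exact IsPrimitiveRoot.orderOf _

theorem thaine_cyc (p ℓ : ℕ) [Fact p.Prime] [Fact ℓ.Prime] (K F : Type) [Field K] [NumberField K]
    [Field F] [NumberField F] [Algebra K F] [IsCyclotomicExtension {p} ℚ K]
    [IsCyclotomicExtension {ℓ} K F] (hpl : p ≠ ℓ) : IsCyclotomicExtension {p * ℓ} ℚ F := by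
  have hp : p.Prime := Fact.out
  have hl : ℓ.Prime := Fact.out
  haveI : NeZero p := ⟨hp.ne_zero⟩
  haveI : NeZero ℓ := ⟨hl.ne_zero⟩
  haveI : NeZero (p * ℓ) := ⟨mul_ne_zero hp.ne_zero hl.ne_zero⟩
  have h1 : IsCyclotomicExtension ({p} ∪ {ℓ}) ℚ F :=
    IsCyclotomicExtension.trans {p} {ℓ} ℚ K F (algebraMap K F).injective
  rw [IsCyclotomicExtension.iff_singleton]
  constructor
  · have hz1 : IsPrimitiveRoot (algebraMap K F (IsCyclotomicExtension.zeta p ℚ K)) p :=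
      (IsCyclotomicExtension.zeta_spec p ℚ K).map_of_injective (algebraMap K F).injective
    have hz2 := IsCyclotomicExtension.zeta_spec ℓ K F
    exact ⟨_, thaine_prim_mul hz1 hz2 ((Nat.coprime_primes hp hl).mpr hpl)⟩
  · intro x
    have := ((IsCyclotomicExtension.iff_adjoin_eq_top _ _ _).mp h1).2
    have hx : x ∈ (⊤ : Subalgebra ℚ F) := Algebra.mem_top
    rw [← this] at hx
    refine Algebra.adjoin_mono ?_ hx
    rintro b ⟨n, hn, -, hb⟩
    simp only [Set.mem_union, Set.mem_singleton_iff] at hn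
    rcases hn with rfl | rfl
    · show b ^ (n * ℓ) = 1
      rw [pow_mul, hb, one_pow]
    · show b ^ (p * n) = 1
      rw [mul_comm, pow_mul, hb, one_pow]

theorem thaine_finrank (p ℓ : ℕ) [Fact p.Prime] [Fact ℓ.Prime] (K F : Type) [Field K]
    [NumberField K] [Field F] [NumberField F] [Algebra K F] [IsCyclotomicExtension {p} ℚ K]
    [IsCyclotomicExtension {ℓ} K F] (hpl : p ≠ ℓ) : Module.finrank K F = ℓ - 1 := by
  have hp : p.Prime := Fact.out
  have hl : ℓ.Prime := Fact.out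
  haveI : NeZero p := ⟨hp.ne_zero⟩
  haveI : NeZero (p * ℓ) := ⟨mul_ne_zero hp.ne_zero hl.ne_zero⟩
  haveI := thaine_cyc p ℓ K F hpl
  have h1 : Module.finrank ℚ F = (p * ℓ).totient := IsCyclotomicExtension.Rat.finrank (p * ℓ) F
  have h2 : Module.finrank ℚ K = p.totient := IsCyclotomicExtension.Rat.finrank p K
  have h3 := Module.finrank_mul_finrank ℚ K F
  rw [h1, h2, Nat.totient_mul ((Nat.coprime_primes hp hl).mpr hpl), Nat.totient_prime hl] at h3
  exact Nat.eq_of_mul_eq_mul_left (Nat.totient_pos.mpr hp.pos) h3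

theorem thaine_irr (p ℓ : ℕ) [Fact p.Prime] [Fact ℓ.Prime] (K F : Type) [Field K]
    [NumberField K] [Field F] [NumberField F] [Algebra K F] [IsCyclotomicExtension {p} ℚ K]
    [IsCyclotomicExtension {ℓ} K F] (hpl : p ≠ ℓ) : Irreducible (Polynomial.cyclotomic ℓ K) := by
  have hl : ℓ.Prime := Fact.out
  haveI : NeZero ℓ := ⟨hl.ne_zero⟩
  have hz := IsCyclotomicExtension.zeta_spec ℓ K F
  have hint : IsIntegral K (IsCyclotomicExtension.zeta ℓ K F) :=
    hz.isIntegral hl.pos |>.tower_top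
  have hdvd : minpoly K (IsCyclotomicExtension.zeta ℓ K F) ∣ Polynomial.cyclotomic ℓ K := by
    apply minpoly.dvd
    rw [Polynomial.aeval_def, Polynomial.eval₂_eq_eval_map, Polynomial.map_cyclotomic]
    exact hz.isRoot_cyclotomic hl.pos
  have hdeg : (minpoly K (IsCyclotomicExtension.zeta ℓ K F)).natDegree = ℓ - 1 := by
    rw [← thaine_finrank p ℓ K F hpl, (hz.powerBasis K).finrank]
    have := (hz.powerBasis K).natDegree_minpoly
    rw [hz.powerBasis_gen K] at this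
    exact this
  have : minpoly K (IsCyclotomicExtension.zeta ℓ K F) = Polynomial.cyclotomic ℓ K := by
    symm
    apply Polynomial.eq_of_monic_of_dvd_of_natDegree_le (minpoly.monic hint)
      (Polynomial.cyclotomic.monic ℓ K) hdvd
    rw [hdeg, Polynomial.natDegree_cyclotomic, Nat.totient_prime hl]
  rw [← this]
  exact minpoly.irreducible hint

theorem thaine_exists_prime {R : Type*} [CommRing R] [IsDomain R] [Algebra.IsIntegral ℤ R]
    [CharZero R] (P : Ideal R) [hP : P.IsPrime] (hP0 : P ≠ ⊥) : ∃ q : ℕ, q.Prime ∧ (q : R) ∈ P := by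
  have h1 : P.under ℤ ≠ ⊥ := by
    haveI : Module.IsTorsionFree ℤ R := inferInstance
    exact Ideal.under_ne_bot ℤ hP0
  have h2 : (P.under ℤ).IsPrime := Ideal.IsPrime.under ℤ P
  have h3 := Int.ideal_span_absNorm_eq_self (P.under ℤ)
  set q := Ideal.absNorm (P.under ℤ) with hq
  have hq0 : (q : ℤ) ≠ 0 := by
    intro h
    rw [h] at h3
    apply h1
    rw [← h3]
    simp
  rw [← h3, Ideal.span_singleton_prime hq0, ← Nat.prime_iff_prime_int] at h2
  refine ⟨q, h2, ?_⟩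
  have : (q : ℤ) ∈ P.under ℤ := by
    rw [← h3]
    exact Ideal.mem_span_singleton_self _
  simpa [Ideal.mem_comap] using this

theorem thaine_ram (p ℓ : ℕ) [Fact p.Prime] [Fact ℓ.Prime] (K F : Type) [Field K]
    [NumberField K] [Field F] [NumberField F] [Algebra K F] [IsCyclotomicExtension {p} ℚ K]
    [IsCyclotomicExtension {ℓ} K F] (hpl : p ≠ ℓ)
    (q : Ideal (𝓞 K)) [hq : q.IsPrime] (hq0 : q ≠ ⊥) (Q : Ideal (𝓞 F)) [hQ : Q.IsPrime]
    [hQq : Q.LiesOver q] :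
    ((ℓ : 𝓞 K) ∈ q → q.ramificationIdx' Q = ℓ - 1 ∧ Q.ramificationIdx ℤ = ℓ - 1) ∧
    ((ℓ : 𝓞 K) ∉ q → q.ramificationIdx' Q = 1) := by
  have hp : p.Prime := Fact.out
  have hl : ℓ.Prime := Fact.out
  haveI : NeZero p := ⟨hp.ne_zero⟩
  haveI : NeZero (p * ℓ) := ⟨mul_ne_zero hp.ne_zero hl.ne_zero⟩
  haveI := thaine_cyc p ℓ K F hpl
  rw [Ideal.ramificationIdx'_eq_ramificationIdx q Q hq0]
  have htower : Q.ramificationIdx ℤ = q.ramificationIdx ℤ * Q.ramificationIdx (𝓞 K) :=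
    Ideal.ramificationIdx_tower q Q
  constructor
  · intro hlq
    haveI h1 : q.LiesOver (Ideal.span {(ℓ : ℤ)}) := thaine_liesOver q ℓ hl hlq
    haveI h2 : Q.LiesOver (Ideal.span {(ℓ : ℤ)}) := Ideal.LiesOver.trans Q q _
    have e1 : q.ramificationIdx ℤ = 1 :=
      IsCyclotomicExtension.Rat.ramificationIdx_eq_of_not_dvd (m := p) ℓ K q
        (fun h => hpl ((Nat.prime_dvd_prime_iff_eq hl hp).mp h).symm)
    have e2 : Q.ramificationIdx ℤ = ℓ ^ 0 * (ℓ - 1) :=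
      IsCyclotomicExtension.Rat.ramificationIdx_eq (p * ℓ) F Q (p := ℓ) (k := 0) (m := p)
        (by ring) (fun h => hpl ((Nat.prime_dvd_prime_iff_eq hl hp).mp h).symm)
    rw [e1, e2, pow_zero, one_mul, one_mul] at htower
    constructor
    · exact htower.symm
    · rw [e2]; simp
  · intro hlq
    obtain ⟨r, hr, hrq⟩ := thaine_exists_prime q hq0
    haveI : Fact r.Prime := ⟨hr⟩
    haveI h1 : q.LiesOver (Ideal.span {(r : ℤ)}) := thaine_liesOver q r hr hrq
    haveI h2 : Q.LiesOver (Ideal.span {(r : ℤ)}) := Ideal.LiesOver.trans Q q _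
    have hrl : r ≠ ℓ := by
      rintro rfl
      exact hlq hrq
    by_cases hrp : r = p
    · subst hrp
      have e1 : q.ramificationIdx ℤ = r - 1 :=
        IsCyclotomicExtension.Rat.ramificationIdx_eq_of_prime r K q
      have e2 : Q.ramificationIdx ℤ = r ^ 0 * (r - 1) :=
        IsCyclotomicExtension.Rat.ramificationIdx_eq (r * ℓ) F Q (p := r) (k := 0) (m := ℓ)
          (by ring) (fun h => hpl ((Nat.prime_dvd_prime_iff_eq hp hl).mp h))
      rw [e1, e2, pow_zero, one_mul] at htower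
      have : 0 < r - 1 := by have := hp.two_le; omega
      exact (Nat.eq_of_mul_eq_mul_left this (by rw [mul_one]; exact htower)).symm
    · have e2 : Q.ramificationIdx ℤ = 1 :=
        IsCyclotomicExtension.Rat.ramificationIdx_eq_of_not_dvd (m := p * ℓ) r F Q (by
          intro h
          rcases (Nat.Prime.dvd_mul hr).mp h with h | h
          · exact hrp ((Nat.prime_dvd_prime_iff_eq hr hp).mp h)
          · exact hrl ((Nat.prime_dvd_prime_iff_eq hr hl).mp h))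
      rw [e2] at htower
      exact Nat.eq_one_of_mul_eq_one_left htower.symm

theorem thaine_split (p ℓ : ℕ) [Fact p.Prime] [Fact ℓ.Prime] (K : Type) [Field K]
    [NumberField K] [IsCyclotomicExtension {p} ℚ K] (hpl : p ≠ ℓ)
    (v : Ideal (𝓞 K)) [hv : v.IsPrime] (hvN : Ideal.absNorm v = ℓ) :
    (ℓ : ZMod p) = 1 ∧ Function.Injective (fun σ : K ≃ₐ[ℚ] K => σ • v) ∧
      ∀ q : Ideal (𝓞 K), q.IsPrime → (ℓ : 𝓞 K) ∈ q → ∃ σ : K ≃ₐ[ℚ] K, q = σ • v := by
  have hp : p.Prime := Fact.out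
  have hl : ℓ.Prime := Fact.out
  haveI : NeZero p := ⟨hp.ne_zero⟩
  haveI : IsGalois ℚ K := IsCyclotomicExtension.isGalois {p} ℚ K
  have hlv : (ℓ : 𝓞 K) ∈ v := by
    rw [← hvN]
    exact Ideal.absNorm_mem v
  haveI h1 : v.LiesOver (Ideal.span {(ℓ : ℤ)}) := thaine_liesOver v ℓ hl hlv
  have hndvd : ¬ ℓ ∣ p := fun h => hpl ((Nat.prime_dvd_prime_iff_eq hl hp).mp h).symm
  have hcop : ℓ.Coprime p := (Nat.coprime_primes hl hp).mpr (Ne.symm hpl)
  have hf : v.inertiaDeg ℤ = orderOf (ℓ : ZMod p) :=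
    IsCyclotomicExtension.Rat.inertiaDeg_eq_of_not_dvd (m := p) ℓ K v hndvd
  have hf1 : v.inertiaDeg ℤ = 1 := by
    have := Ideal.pow_inertiaDeg ℓ v
    rw [hvN] at this
    exact Nat.pow_right_injective hl.two_le (by simpa using this)
  have hl1 : (ℓ : ZMod p) = 1 := by
    rw [hf1] at hf
    exact orderOf_eq_one_iff.mp hf.symm
  have hv0 : v ≠ ⊥ := by
    rintro rfl
    rw [Ideal.mem_bot] at hlv
    exact hl.ne_zero (by exact_mod_cast hlv)
  haveI hvmax : v.IsMaximal := hv.isMaximal hv0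
  refine ⟨hl1, ?_, ?_⟩
  · have hstab : ∀ σ : K ≃ₐ[ℚ] K, σ • v = v → σ = 1 := by
      intro σ hσ
      have := IsCyclotomicExtension.Rat.mem_zpowers_galEquivZMod_of_mem_stabilizer p K ℓ v hcop
        (σ := σ) (MulAction.mem_stabilizer_iff.mpr hσ)
      have hu : ZMod.unitOfCoprime ℓ hcop = 1 := by
        ext
        simpa using hl1
      rw [hu, Subgroup.zpowers_one_eq_bot, Subgroup.mem_bot] at this
      exact (MulEquiv.map_eq_one_iff _).mp this
    intro σ σ' h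
    have h' : (σ'⁻¹ * σ) • v = v := by
      rw [mul_smul]
      show σ'⁻¹ • (σ • v) = v
      rw [show σ • v = σ' • v from h, inv_smul_smul]
    have := hstab _ h'
    exact (inv_mul_eq_one.mp this).symm
  · intro q hq hlq
    haveI h2 : q.LiesOver (Ideal.span {(ℓ : ℤ)}) := thaine_liesOver q ℓ hl hlq
    exact Algebra.IsInvariant.exists_smul_of_under_eq ℤ (𝓞 K) (K ≃ₐ[ℚ] K) v q
      ((Ideal.over_def v (Ideal.span {(ℓ : ℤ)})).symm.trans (Ideal.over_def q _))

theorem thaine_beta (p ℓ : ℕ) [Fact p.Prime] [Fact ℓ.Prime] (K F : Type) [Field K]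
    [NumberField K] [Field F] [NumberField F] [Algebra K F] [IsCyclotomicExtension {p} ℚ K]
    [IsCyclotomicExtension {ℓ} K F] (hp2 : p ≠ 2) (hpl : p ≠ ℓ) (hl2 : ℓ ≠ 2)
    (hl1 : (ℓ : ZMod p) = 1)
    (ζ : 𝓞 K) (hζ : IsPrimitiveRoot ζ p)
    (t : ℕ) (ht : ∀ x : ZMod ℓ, x ≠ 0 → ∃ k : ℕ, x = (t : ZMod ℓ) ^ k) :
    ∃ (τ : F ≃ₐ[K] F) (ω β : 𝓞 F), IsPrimitiveRoot ω ℓ ∧ τ • ω = ω ^ t ∧
      (∀ σ : F ≃ₐ[K] F, σ ∈ Subgroup.zpowers τ) ∧ β ≠ 0 ∧
      τ • β = (1 + algebraMap (𝓞 K) (𝓞 F) ζ * ω) * β ∧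
      IsUnit (1 + algebraMap (𝓞 K) (𝓞 F) ζ * ω) := by
  have hp : p.Prime := Fact.out
  have hl : ℓ.Prime := Fact.out
  haveI : NeZero ℓ := ⟨hl.ne_zero⟩
  have hirr := thaine_irr p ℓ K F hpl
  obtain ⟨τ, hτω, hgen⟩ := thaine_gal ℓ K F hirr hl2 t ht
  have hω := IsCyclotomicExtension.zeta_spec ℓ K F
  set ω := IsCyclotomicExtension.zeta ℓ K F with hωdef
  set ωI : 𝓞 F := hω.toInteger with hωI
  have hωIp : IsPrimitiveRoot ωI ℓ := hω.toInteger_isPrimitiveRoot
  set ζF : 𝓞 F := algebraMap (𝓞 K) (𝓞 F) ζ with hζF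
  have hζFp : IsPrimitiveRoot ζF p :=
    hζ.map_of_injective (FaithfulSMul.algebraMap_injective (𝓞 K) (𝓞 F))
  have hμ : IsPrimitiveRoot (ζF * ωI) (p * ℓ) :=
    thaine_prim_mul hζFp hωIp ((Nat.coprime_primes hp hl).mpr hpl)
  have hodd : Odd (p * ℓ) := (hp.odd_of_ne_two hp2).mul (hl.odd_of_ne_two hl2)
  have hμ1 : ζF * ωI ≠ 1 := hμ.ne_one (by
    have := hp.two_le; have := hl.two_le; nlinarith)
  have hunit := thaine_unit (ζF * ωI) (p * ℓ) hodd hμ.pow_eq_one hμ1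
  set ξ : 𝓞 F := 1 + ζF * ωI with hξ
  set ξ' : 𝓞 F := ∑ i ∈ Finset.range ((p * ℓ + 1) / 2), ((ζF * ωI) ^ 2) ^ i with hξ'
  have hzK : IsPrimitiveRoot (ζ : K) p :=
    hζ.map_of_injective (FaithfulSMul.algebraMap_injective (𝓞 K) K)
  have hn1 : Algebra.norm K (algebraMap (𝓞 F) F ξ) = 1 := by
    have := thaine_norm ℓ K F hirr hl2 (ζ : K) (by
      conv_rhs => rw [← pow_one (ζ : K)]
      apply thaine_pow_congr hzK.pow_eq_one
      simpa using hl1) (by
      intro h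
      have h1 : (ζ : K) = -1 := by linear_combination h
      have h2 : (ζ : K) ^ 2 = 1 := by rw [h1]; ring
      have h3 := hzK.dvd_of_pow_eq_one 2 h2
      exact hp2 ((Nat.prime_dvd_prime_iff_eq hp Nat.prime_two).mp h3))
    rw [← this]
    rfl
  have hn2 : Algebra.norm K (algebraMap (𝓞 F) F ξ') = 1 := by
    have h := congrArg (fun x => Algebra.norm K (algebraMap (𝓞 F) F x)) hunit
    simp only [map_mul, map_one] at h
    rw [hn1, one_mul] at h
    exact h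
  haveI : IsGalois K F := IsCyclotomicExtension.isGalois {ℓ} K F
  haveI : IsCyclic (F ≃ₐ[K] F) := ⟨τ, hgen⟩
  obtain ⟨β, hβ0, hβ⟩ := groupCohomology.exists_mul_galRestrict_of_norm_eq_one (A := 𝓞 K)
    (B := 𝓞 F) hgen hn2
  have hgr : ∀ x : 𝓞 F, galRestrict (𝓞 K) K F (𝓞 F) τ x = τ • x := by
    intro x
    apply FaithfulSMul.algebraMap_injective (𝓞 F) F
    rw [algebraMap_galRestrict_apply]
    rfl
  refine ⟨τ, ωI, β, hωIp, ?_, hgen, hβ0, ?_, ⟨⟨ξ, ξ', hunit, by rw [mul_comm]; exact hunit⟩, rfl⟩⟩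
  · apply FaithfulSMul.algebraMap_injective (𝓞 F) F
    rw [map_pow]
    exact hτω
  · rw [hgr] at hβ
    calc τ • β = (ξ * ξ') * τ • β := by rw [hunit, one_mul]
      _ = ξ * (ξ' * τ • β) := by ring
      _ = ξ * β := by rw [hβ]

theorem thaine_normIdeal (K F : Type) [Field K] [NumberField K] [Field F] [NumberField F]
    [Algebra K F] [IsGalois K F] (τ : F ≃ₐ[K] F) (hgen : ∀ σ : F ≃ₐ[K] F, σ ∈ Subgroup.zpowers τ)
    (β ξ : 𝓞 F) (hβ0 : β ≠ 0) (hξ : IsUnit ξ) (hτβ : τ • β = ξ * β) :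
    ∃ b : 𝓞 K, b ≠ 0 ∧ (Ideal.span {b}).map (algebraMap (𝓞 K) (𝓞 F)) =
      Ideal.span {β} ^ (Module.finrank K F) := by
  have hsm : ∀ σ : F ≃ₐ[K] F, σ • Ideal.span {β} = Ideal.span {σ • β} := by
    intro σ
    rw [Ideal.pointwise_smul_def, Ideal.map_span, Set.image_singleton]
    rfl
  have hτ : τ ∈ MulAction.stabilizer (F ≃ₐ[K] F) (Ideal.span {β}) := by
    rw [MulAction.mem_stabilizer_iff, hsm, hτβ, Ideal.span_singleton_mul_left_unit hξ]
  have hstab : ∀ σ : F ≃ₐ[K] F, Ideal.span {σ • β} = Ideal.span {β} := by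
    intro σ
    rw [← hsm]
    exact MulAction.mem_stabilizer_iff.mp ((Subgroup.zpowers_le.mpr hτ) (hgen σ))
  refine ⟨RingOfIntegers.norm K β, ?_, ?_⟩
  · intro h
    have h1 := RingOfIntegers.coe_norm (K := K) β
    rw [h] at h1
    have h2 : Algebra.norm K (β : F) = 0 := by rw [← h1]; rfl
    rw [Algebra.norm_eq_zero_iff] at h2
    exact hβ0 (RingOfIntegers.coe_injective (by simpa using h2))
  · have h1 : algebraMap (𝓞 K) (𝓞 F) (RingOfIntegers.norm K β) = ∏ σ : F ≃ₐ[K] F, σ • β := by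
      apply FaithfulSMul.algebraMap_injective (𝓞 F) F
      have h2 := RingOfIntegers.coe_algebraMap_norm K β
      rw [Algebra.norm_eq_prod_automorphisms] at h2
      rw [map_prod]
      exact h2
    rw [Ideal.map_span, Set.image_singleton, h1, ← Ideal.prod_span_singleton]
    simp_rw [hstab]
    rw [Finset.prod_const, Finset.card_univ, ← Nat.card_eq_fintype_card,
      IsGalois.card_aut_eq_finrank]

theorem thaine_inertia (p ℓ : ℕ) [Fact p.Prime] [Fact ℓ.Prime] (K F : Type) [Field K]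
    [NumberField K] [Field F] [NumberField F] [Algebra K F] [IsCyclotomicExtension {p} ℚ K]
    [IsCyclotomicExtension {ℓ} K F] (hpl : p ≠ ℓ)
    (ζ : 𝓞 K) (hζ : IsPrimitiveRoot ζ p) (ω : 𝓞 F) (hω : IsPrimitiveRoot ω ℓ)
    (τ : F ≃ₐ[K] F) (t : ℕ) (hτω : τ • ω = ω ^ t) (L : Ideal (𝓞 F)) (hωL : ω - 1 ∈ L)
    (z : 𝓞 F) : τ • z - z ∈ L := by
  have hp : p.Prime := Fact.out
  have hl : ℓ.Prime := Fact.out
  haveI : NeZero (p * ℓ) := ⟨mul_ne_zero hp.ne_zero hl.ne_zero⟩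
  haveI := thaine_cyc p ℓ K F hpl
  set ζF : 𝓞 F := algebraMap (𝓞 K) (𝓞 F) ζ with hζF
  have hζFp : IsPrimitiveRoot ζF p :=
    hζ.map_of_injective (FaithfulSMul.algebraMap_injective (𝓞 K) (𝓞 F))
  have hμ : IsPrimitiveRoot (ζF * ω) (p * ℓ) :=
    thaine_prim_mul hζFp hω ((Nat.coprime_primes hp hl).mpr hpl)
  have hμF : IsPrimitiveRoot (algebraMap (𝓞 F) F (ζF * ω)) (p * ℓ) :=
    hμ.map_of_injective (FaithfulSMul.algebraMap_injective (𝓞 F) F)
  have htop := IsCyclotomicExtension.Rat.adjoin_singleton_eq_top hμF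
  have hto : hμF.toInteger = ζF * ω := by
    apply FaithfulSMul.algebraMap_injective (𝓞 F) F
    rfl
  rw [hto] at htop
  have hτζ : τ • ζF = ζF := by
    apply FaithfulSMul.algebraMap_injective (𝓞 F) F
    exact τ.commutes (ζ : K)
  have hz : z ∈ Algebra.adjoin ℤ {ζF * ω} := by rw [htop]; exact Algebra.mem_top
  induction hz using Algebra.adjoin_induction with
  | mem x hx =>
    rw [Set.mem_singleton_iff] at hx
    subst hx
    rw [smul_mul', hτζ, hτω]
    have h1 : ω ^ t - 1 ∈ L := by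
      have := sub_dvd_pow_sub_pow ω 1 t
      rw [one_pow] at this
      exact Ideal.mem_of_dvd L this hωL
    have : ζF * ω ^ t - ζF * ω = ζF * ((ω ^ t - 1) - (ω - 1)) := by ring
    rw [this]
    exact L.mul_mem_left _ (L.sub_mem h1 hωL)
  | algebraMap r =>
    have : τ • (algebraMap ℤ (𝓞 F) r) = algebraMap ℤ (𝓞 F) r :=
      map_intCast (MulSemiringAction.toRingHom (F ≃ₐ[K] F) (𝓞 F) τ) r
    rw [this, sub_self]
    exact L.zero_mem
  | add x y _ _ hx hy =>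
    have : τ • (x + y) - (x + y) = (τ • x - x) + (τ • y - y) := by rw [smul_add]; ring
    rw [this]
    exact L.add_mem hx hy
  | mul x y _ _ hx hy =>
    have : τ • (x * y) - (x * y) = (τ • x) * (τ • y - y) + (τ • x - x) * y := by
      rw [smul_mul']; ring
    rw [this]
    exact L.add_mem (L.mul_mem_left _ hy) (L.mul_mem_right _ hx)

end Fermat.Agent.S14Lib
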