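import Mathlib
import Fermat.Agent.S14.Defs
import Fermat.Agent.S14.ThaineAux

/-! Thaine's relation (leaf (F) of S14). -/

set_option autoImplicit false
set_option linter.style.haveILetI false

namespace Fermat.Agent.S14Lib

open NumberField nonZeroDivisors IsDedekindDomain UniqueFactorizationMonoid
open scoped Pointwise

theorem thaine_main (p ℓ : ℕ) [Fact p.Prime] [Fact ℓ.Prime] (K F : Type) [Field K]
    [NumberField K] [Field F] [NumberField F] [Algebra K F] [IsCyclotomicExtension {p} ℚ K]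
    [IsCyclotomicExtension {ℓ} K F] (hp2 : p ≠ 2) (hpl : p ≠ ℓ)
    (ζ : 𝓞 K) (hζ : IsPrimitiveRoot ζ p)
    (v : Ideal (𝓞 K)) [hv : v.IsPrime] (hvN : Ideal.absNorm v = ℓ)
    (t : ℕ) (ht : ∀ x : ZMod ℓ, x ≠ 0 → ∃ k : ℕ, x = (t : ZMod ℓ) ^ k) :
    ∃ (b : 𝓞 K) (J : Ideal (𝓞 K)) (r : (K ≃ₐ[ℚ] K) → ℕ), b ≠ 0 ∧
      Ideal.span {b} = (∏ σ : K ≃ₐ[ℚ] K, (σ • v) ^ r σ) * J ^ p ∧
      ∀ σ : K ≃ₐ[ℚ] K, 1 + ζ - (t : 𝓞 K) ^ r σ ∈ σ • v := by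
  have hp : p.Prime := Fact.out
  have hl : ℓ.Prime := Fact.out
  obtain ⟨hl1, hinj, htrans⟩ := thaine_split p ℓ K hpl v hvN
  have hpdvd : p ∣ ℓ - 1 := by
    have h1 : ((1 : ℕ) : ZMod p) = (ℓ : ZMod p) := by rw [hl1]; simp
    rw [ZMod.natCast_eq_natCast_iff] at h1
    exact (Nat.modEq_iff_dvd' hl.one_lt.le).mp h1
  have hl2 : ℓ ≠ 2 := by
    rintro rfl
    have := Nat.le_of_dvd (by norm_num) hpdvd
    have := hp.two_le
    omega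
  obtain ⟨τ, ω, β, hω, hτω, hgen, hβ0, hτβ, hξu⟩ := thaine_beta p ℓ K F hp2 hpl hl2 hl1 ζ hζ t ht
  haveI : IsGalois K F := IsCyclotomicExtension.isGalois {ℓ} K F
  obtain ⟨b, hb0, hmap⟩ := thaine_normIdeal K F τ hgen β _ hβ0 hξu hτβ
  rw [thaine_finrank p ℓ K F hpl] at hmap
  have hI0 : Ideal.span {b} ≠ ⊥ := by
    rw [Ne, Ideal.span_singleton_eq_bot]; exact hb0
  have hn0 : ℓ - 1 ≠ 0 := by have := hl.two_le; omega
  have hlv : (ℓ : 𝓞 K) ∈ v := by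
    rw [← hvN]
    exact Ideal.absNorm_mem v
  -- the factorisation
  obtain ⟨J, hJ⟩ := thaine_factor (fun σ : K ≃ₐ[ℚ] K => σ • v) hinj (Ideal.span {b}) hI0 p (by
    intro Q hQ hQ0 hQv
    have hlQ : (ℓ : 𝓞 K) ∉ Q := by
      intro h
      obtain ⟨σ, hσ⟩ := htrans Q hQ h
      exact hQv σ hσ
    haveI hQmax : Q.IsMaximal := hQ.isMaximal hQ0
    obtain ⟨QQ, hQQ1, hQQ2⟩ := Ideal.exists_maximal_ideal_liesOver_of_isIntegral Q (S := 𝓞 F)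
    have hQQ0 : QQ ≠ ⊥ := Ideal.ne_bot_of_liesOver_of_ne_bot hQ0 QQ
    have hc := thaine_count (Ideal.span {b}) hI0 (Ideal.span {β}) (ℓ - 1) hn0 hmap Q hQ hQ0 QQ
      hQQ1.isPrime hQQ0
    haveI := hQQ1.isPrime
    rw [(thaine_ram p ℓ K F hpl Q hQ0 QQ).2 hlQ, one_mul] at hc
    rw [hc]
    exact Dvd.dvd.mul_right hpdvd _)
  refine ⟨b, J, fun σ => (normalizedFactors (Ideal.span {b})).count (σ • v), hb0, hJ, ?_⟩
  intro σ
  show 1 + ζ - (t : 𝓞 K) ^ (normalizedFactors (Ideal.span {b})).count (σ • v) ∈ σ • v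
  set q : Ideal (𝓞 K) := σ • v with hq
  haveI hqp : q.IsPrime := hv.smul σ
  have hlq : (ℓ : 𝓞 K) ∈ q := by
    have h1 : σ • (ℓ : 𝓞 K) = (ℓ : 𝓞 K) :=
      map_natCast (MulSemiringAction.toRingHom (K ≃ₐ[ℚ] K) (𝓞 K) σ) ℓ
    rw [← h1]
    exact Ideal.smul_mem_pointwise_smul σ _ v hlv
  have hq0 : q ≠ ⊥ := by
    intro h
    rw [h, Ideal.mem_bot] at hlq
    exact hl.ne_zero (by exact_mod_cast hlq)
  haveI hqmax : q.IsMaximal := hqp.isMaximal hq0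
  obtain ⟨L, hL1, hL2⟩ := Ideal.exists_maximal_ideal_liesOver_of_isIntegral q (S := 𝓞 F)
  haveI hLp : L.IsPrime := hL1.isPrime
  have hL0 : L ≠ ⊥ := Ideal.ne_bot_of_liesOver_of_ne_bot hq0 L
  have hc := thaine_count (Ideal.span {b}) hI0 (Ideal.span {β}) (ℓ - 1) hn0 hmap q hqp hq0 L
    hLp hL0
  obtain ⟨he1, he2⟩ := (thaine_ram p ℓ K F hpl q hq0 L).1 hlq
  rw [he1] at hc
  have hr : (normalizedFactors (Ideal.span {b})).count q = (normalizedFactors (Ideal.span {β})).count L :=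
    Nat.eq_of_mul_eq_mul_left (Nat.pos_of_ne_zero hn0) hc
  rw [hr]
  set r := (normalizedFactors (Ideal.span {β})).count L with hrdef
  have hlL : (ℓ : 𝓞 F) ∈ L := by
    have := (Ideal.mem_of_liesOver L q (ℓ : 𝓞 K)).mp hlq
    simpa using this
  have hωL : ω - 1 ∈ L := thaine_sub_one_mem L ℓ hl hlL ω hω.pow_eq_one
  have hω0 : ω - 1 ≠ 0 := sub_ne_zero.mpr (hω.ne_one hl.one_lt)
  have hlF0 : (ℓ : 𝓞 F) ≠ 0 := by exact_mod_cast hl.ne_zero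
  have hϖ2 : ω - 1 ∉ L ^ 2 := by
    intro h
    obtain ⟨u, hu⟩ := thaine_pow_dvd ℓ hl ω hω
    have h1 : (ℓ : 𝓞 F) ∈ L ^ (2 * (ℓ - 1)) := by
      rw [hu, pow_mul]
      exact Ideal.mul_mem_right _ _ (Ideal.pow_mem_pow h _)
    rw [thaine_mem_pow_iff L hLp hL0 _ hlF0] at h1
    haveI : L.LiesOver (Ideal.span {(ℓ : ℤ)}) := thaine_liesOver L ℓ hl hlL
    have hm : (Ideal.span {(ℓ : ℤ)}).map (algebraMap ℤ (𝓞 F)) = Ideal.span {(ℓ : 𝓞 F)} := by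
      rw [Ideal.map_span, Set.image_singleton]
      simp
    have h2 := Ideal.IsDedekindDomain.ramificationIdx_eq_normalizedFactors_count
      (Ideal.span {(ℓ : ℤ)}) L (by
        rw [hm, Ne, Ideal.span_singleton_eq_bot]; exact hlF0)
    rw [hm, he2] at h2
    omega
  have hloc := thaine_local L (MulSemiringAction.toRingHom (F ≃ₐ[K] F) (𝓞 F) τ)
    (fun z => thaine_inertia p ℓ K F hpl ζ hζ ω hω τ t hτω L hωL z) (ω - 1)
    (∑ i ∈ Finset.range t, ω ^ i) (1 + algebraMap (𝓞 K) (𝓞 F) ζ * ω) β r hω0 hωL hϖ2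
    (by
      rw [mul_geom_sum, map_sub, map_one]
      congr 1)
    ((thaine_mem_pow_iff L hLp hL0 β hβ0 r).mpr le_rfl)
    (fun h => by
      have := (thaine_mem_pow_iff L hLp hL0 β hβ0 (r + 1)).mp h
      omega)
    hτβ
  have hs : (∑ i ∈ Finset.range t, ω ^ i) - (t : 𝓞 F) ∈ L := by
    have : (∑ i ∈ Finset.range t, ω ^ i) - (t : 𝓞 F) = ∑ i ∈ Finset.range t, (ω ^ i - 1) := by
      rw [Finset.sum_sub_distrib]
      simp
    rw [this]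
    apply L.sum_mem
    intro i _
    have := sub_dvd_pow_sub_pow ω 1 i
    rw [one_pow] at this
    exact Ideal.mem_of_dvd L this hωL
  have hs' : (∑ i ∈ Finset.range t, ω ^ i) ^ r - (t : 𝓞 F) ^ r ∈ L :=
    Ideal.mem_of_dvd L (sub_dvd_pow_sub_pow _ _ r) hs
  rw [Ideal.mem_of_liesOver L q]
  have : algebraMap (𝓞 K) (𝓞 F) (1 + ζ - (t : 𝓞 K) ^ r) =
      ((1 + algebraMap (𝓞 K) (𝓞 F) ζ * ω) - (∑ i ∈ Finset.range t, ω ^ i) ^ r)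
      + ((∑ i ∈ Finset.range t, ω ^ i) ^ r - (t : 𝓞 F) ^ r)
      - algebraMap (𝓞 K) (𝓞 F) ζ * (ω - 1) := by
    simp only [map_sub, map_add, map_one, map_pow, map_natCast]
    ring
  rw [this]
  exact L.sub_mem (L.add_mem hloc hs') (L.mul_mem_left _ hωL)

section cyclo

variable (p : ℕ) [Fact p.Prime] (K : Type) [Field K] [NumberField K]
  [IsCyclotomicExtension {p} ℚ K] (ζ : 𝓞 K)

/-- (F) Thaine's relation. -/
theorem thaine_relation (hp2 : p ≠ 2) (hζ : IsPrimitiveRoot ζ p)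
    (v : HeightOneSpectrum (𝓞 K)) (ℓ : ℕ) (hℓ : ℓ.Prime)
    (hv : Ideal.absNorm v.asIdeal = ℓ) (hℓp : ℓ ≠ p)
    (t : ℕ) (ht : ∀ x : ZMod ℓ, x ≠ 0 → ∃ k : ℕ, x = (t : ZMod ℓ) ^ k) :
    ∃ (b : 𝓞 K) (J : Ideal (𝓞 K)) (r : (K ≃ₐ[ℚ] K) → ℕ), b ≠ 0 ∧
      Ideal.span {b} = (∏ σ : K ≃ₐ[ℚ] K, (σ • v.asIdeal) ^ r σ) * J ^ p ∧
      ∀ σ : K ≃ₐ[ℚ] K, 1 + ζ - (t : 𝓞 K) ^ r σ ∈ σ • v.asIdeal := by
  haveI : Fact ℓ.Prime := ⟨hℓ⟩
  haveI : NeZero ℓ := ⟨hℓ.ne_zero⟩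
  haveI := v.isPrime
  exact thaine_main p ℓ K (CyclotomicField ℓ K) hp2 (Ne.symm hℓp) ζ hζ v.asIdeal hv t ht

end cyclo

end Fermat.Agent.S14Lib
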