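import Mathlib
import Fermat.Agent.S14.Defs
import Fermat.Agent.S14.EtaUnit
import Fermat.Agent.S14.Thaine

/-!
# S14, leaf (G) : consequence of Thaine's relation for characters of type `ω²`
-/

set_option autoImplicit false

namespace Fermat.Agent.S14Lib

open NumberField nonZeroDivisors IsDedekindDomain
open scoped Pointwise

namespace EtaMod

/-- product over the units of `ZMod p` -/
theorem prod_units {M : Type*} [CommMonoid M] (p : ℕ) [Fact p.Prime] (H : ZMod p → M)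
    (h0 : H 0 = 1) : ∏ u : (ZMod p)ˣ, H (u : ZMod p) = ∏ x : ZMod p, H x := by
  classical
  rw [Fintype.prod_equiv unitsEquivNeZero (fun u : (ZMod p)ˣ => H (u : ZMod p))
    (fun x : {a : ZMod p // a ≠ 0} => H x.1) (fun u => rfl)]
  rw [← Finset.prod_subtype (Finset.univ.filter (fun a : ZMod p => a ≠ 0)) (by simp) H]
  apply Finset.prod_subset (Finset.filter_subset _ _)
  intro x _ hx
  simp only [Finset.mem_filter, Finset.mem_univ, true_and, not_not] at hx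
  rw [hx, h0]

/-- existence of a primitive root -/
theorem exists_primitive_root (ℓ : ℕ) (hℓ : ℓ.Prime) :
    ∃ t : ℕ, ∀ x : ZMod ℓ, x ≠ 0 → ∃ k : ℕ, x = (t : ZMod ℓ) ^ k := by
  have : Fact ℓ.Prime := ⟨hℓ⟩
  obtain ⟨g, hg⟩ := IsCyclic.exists_monoid_generator (α := (ZMod ℓ)ˣ)
  refine ⟨(g : ZMod ℓ).val, fun x hx => ?_⟩
  obtain ⟨k, hk⟩ := hg (Units.mk0 x hx)
  refine ⟨k, ?_⟩
  rw [ZMod.natCast_zmod_val]
  have := congrArg Units.val hk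
  simpa using this.symm

theorem pow_eq_one_iff (p : ℕ) [Fact p.Prime] (g : Multiplicative (ZMod p)) (hg : g ≠ 1) (n : ℕ) :
    g ^ n = 1 ↔ (n : ZMod p) = 0 := by
  have h1 : g ^ n = Multiplicative.ofAdd ((n : ZMod p) * Multiplicative.toAdd g) := by
    rw [← nsmul_eq_mul, ofAdd_nsmul, ofAdd_toAdd]
  have hg' : Multiplicative.toAdd g ≠ 0 := by
    intro h
    apply hg
    rw [← ofAdd_toAdd g, h, ofAdd_zero]
  rw [h1, ofAdd_eq_one, mul_eq_zero]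
  constructor
  · intro h; exact h.resolve_right hg'
  · intro h; exact Or.inl h

theorem pow_p_eq_one (p : ℕ) [Fact p.Prime] (g : Multiplicative (ZMod p)) : g ^ p = 1 := by
  have h1 : g ^ p = Multiplicative.ofAdd ((p : ZMod p) * Multiplicative.toAdd g) := by
    rw [← nsmul_eq_mul, ofAdd_nsmul, ofAdd_toAdd]
  rw [h1]; simp

end EtaMod

section cyclo

variable (p : ℕ) [Fact p.Prime] (K : Type) [Field K] [NumberField K]
  [IsCyclotomicExtension {p} ℚ K] (ζ : 𝓞 K) (hζ : IsPrimitiveRoot ζ p)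

namespace EtaMod

/-- the cyclotomic character -/
noncomputable def ee : (K ≃ₐ[ℚ] K) ≃* (ZMod p)ˣ :=
  IsCyclotomicExtension.autEquivPow K
    (Polynomial.cyclotomic.irreducible_rat (Fact.out : p.Prime).pos)

/-- the cyclotomic character with values in `ZMod p` -/
noncomputable def AA (σ : K ≃ₐ[ℚ] K) : ZMod p := ((ee p K σ : (ZMod p)ˣ) : ZMod p)

include hζ in
theorem smul_zeta (σ : K ≃ₐ[ℚ] K) : σ • ζ = ζ ^ (AA p K σ).val := by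
  have hζK : IsPrimitiveRoot (ζ : K) p := hζ.map_of_injective RingOfIntegers.coe_injective
  have hz := IsCyclotomicExtension.zeta_spec p ℚ K
  obtain ⟨i, -, hi⟩ := hz.eq_pow_of_pow_eq_one hζK.pow_eq_one
  apply RingOfIntegers.coe_injective
  change σ (ζ : K) = ((ζ ^ (AA p K σ).val : 𝓞 K) : K)
  have h2 : ((ζ ^ (AA p K σ).val : 𝓞 K) : K) = (ζ : K) ^ (AA p K σ).val := by push_cast; rfl
  have h3 : IsCyclotomicExtension.zeta p ℚ K ^ (AA p K σ).val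
      = σ (IsCyclotomicExtension.zeta p ℚ K) := IsPrimitiveRoot.autToPow_spec ℚ hz σ
  rw [h2, ← hi, map_pow, ← h3]
  ring

theorem AA_inv (σ : K ≃ₐ[ℚ] K) : AA p K σ⁻¹ = (AA p K σ)⁻¹ := by
  unfold AA
  rw [map_inv, Units.val_inv_eq_inv_val]

include hζ in
/-- `eta` as a product over the Galois group -/
theorem eta_gal : eta p ζ = ∏ σ : K ≃ₐ[ℚ] K, (σ⁻¹ • (1 + ζ)) ^ ((AA p K σ) ^ 2).val := by
  rw [etaUnit_eta_eq p ζ hζ.pow_eq_one]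
  set H : ZMod p → 𝓞 K := fun x => (1 + ζ ^ x.val) ^ ((x⁻¹) ^ 2).val with hH
  have h1 : ∀ σ : K ≃ₐ[ℚ] K, (σ⁻¹ • (1 + ζ)) ^ ((AA p K σ) ^ 2).val = H (AA p K σ⁻¹) := by
    intro σ
    rw [hH]
    simp only
    rw [smul_add, smul_one, smul_zeta p K ζ hζ, AA_inv, inv_inv]
  rw [Finset.prod_congr rfl (fun σ _ => h1 σ)]
  have h3 := Equiv.prod_comp (Equiv.inv (K ≃ₐ[ℚ] K)) (fun σ => H (AA p K σ))
  simp only [Equiv.inv_apply] at h3
  rw [h3]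
  have h2 := Equiv.prod_comp (ee p K).toEquiv (fun u : (ZMod p)ˣ => H (u : ZMod p))
  rw [← prod_units p H (by simp [hH]), ← h2]
  rfl

omit [IsCyclotomicExtension {p} ℚ K] in
theorem smul_natCast' (σ : K ≃ₐ[ℚ] K) (n : ℕ) : σ • (n : 𝓞 K) = n :=
  map_natCast (MulSemiringAction.toRingHom (K ≃ₐ[ℚ] K) (𝓞 K) σ) n

include hζ in
theorem eta_pow_mod_of_thaine
    (ψ : ClassGroup (𝓞 K) →* Multiplicative (ZMod p))
    (hψ : ∀ (σ : K ≃ₐ[ℚ] K) (a : ℕ), σ • ζ = ζ ^ a → ∀ I : Ideal (𝓞 K),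
      ψ (cls (σ • I)) = ψ (cls I) ^ (a ^ 2))
    (v : HeightOneSpectrum (𝓞 K)) (hψv : ψ (cls v.asIdeal) ≠ 1)
    (t : ℕ) (b : 𝓞 K) (J : Ideal (𝓞 K)) (r : (K ≃ₐ[ℚ] K) → ℕ) (hb : b ≠ 0)
    (hspan : Ideal.span {b} = (∏ σ : K ≃ₐ[ℚ] K, (σ • v.asIdeal) ^ r σ) * J ^ p)
    (hcong : ∀ σ : K ≃ₐ[ℚ] K, 1 + ζ - (t : 𝓞 K) ^ r σ ∈ σ • v.asIdeal) :
    ∃ y : 𝓞 K, eta p ζ - y ^ p ∈ v.asIdeal := by
  have hp : p.Prime := Fact.out
  have hne : Ideal.span {b} ≠ ⊥ := by simpa [Ideal.span_singleton_eq_bot] using hb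
  have hprod_ne : (∏ σ : K ≃ₐ[ℚ] K, (σ • v.asIdeal) ^ r σ) ≠ ⊥ := by
    intro h
    rw [h, Ideal.bot_mul] at hspan
    exact hne hspan
  have hJp : J ^ p ≠ ⊥ := by
    intro h
    rw [h, Ideal.mul_bot] at hspan
    exact hne hspan
  have hJ : J ≠ ⊥ := by
    rintro rfl
    apply hJp
    rw [← Ideal.zero_eq_bot, zero_pow hp.ne_zero]
  have hσv : ∀ σ : K ≃ₐ[ℚ] K, σ • v.asIdeal ≠ ⊥ := by
    intro σ h
    obtain ⟨x, hx, hx0⟩ := Submodule.exists_mem_ne_zero_of_ne_bot v.ne_bot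
    have h1 : σ • x ∈ σ • v.asIdeal := Ideal.smul_mem_pointwise_smul σ x _ hx
    rw [h, Ideal.mem_bot] at h1
    apply hx0
    have h2 := congrArg (fun z => σ⁻¹ • z) h1
    simpa using h2
  -- class group computation
  have h1 : ψ (cls (Ideal.span {b})) = 1 := by rw [cls_span_singleton, map_one]
  rw [hspan, cls_mul hprod_ne hJp, cls_prod _ _ (fun σ _ => pow_ne_zero _ (hσv σ)), cls_pow hJ,
    map_mul, map_prod, map_pow, pow_p_eq_one, mul_one] at h1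
  have h2 : ∀ σ : K ≃ₐ[ℚ] K, ψ (cls ((σ • v.asIdeal) ^ r σ))
      = ψ (cls v.asIdeal) ^ ((AA p K σ).val ^ 2 * r σ) := by
    intro σ
    rw [cls_pow (hσv σ), map_pow, hψ σ _ (smul_zeta p K ζ hζ σ), ← pow_mul]
  rw [Finset.prod_congr rfl (fun σ _ => h2 σ), Finset.prod_pow_eq_pow_sum,
    pow_eq_one_iff p _ hψv] at h1
  -- the exponent
  obtain ⟨m, hm⟩ : p ∣ ∑ σ : K ≃ₐ[ℚ] K, r σ * ((AA p K σ) ^ 2).val := by
    rw [← ZMod.natCast_eq_zero_iff]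
    rw [← h1]
    push_cast
    apply Finset.sum_congr rfl
    intro σ _
    rw [ZMod.natCast_zmod_val, ZMod.natCast_zmod_val, mul_comm]
  refine ⟨(t : 𝓞 K) ^ m, ?_⟩
  have h3 : ∀ σ : K ≃ₐ[ℚ] K, Ideal.Quotient.mk v.asIdeal (σ⁻¹ • (1 + ζ))
      = (Ideal.Quotient.mk v.asIdeal (t : 𝓞 K)) ^ (r σ) := by
    intro σ
    have h4 := hcong σ
    rw [Ideal.mem_pointwise_smul_iff_inv_smul_mem, smul_sub, smul_pow', smul_natCast'] at h4
    rw [← map_pow, Ideal.Quotient.eq]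
    exact h4
  rw [← Ideal.Quotient.eq_zero_iff_mem, map_sub, sub_eq_zero, eta_gal p K ζ hζ, map_prod]
  simp only [map_pow, h3]
  simp only [← pow_mul]
  rw [Finset.prod_pow_eq_pow_sum, hm, mul_comm]

include hζ in
/-- (G) with Thaine's relation (F) as a hypothesis -/
theorem eta_pow_mod_of_char_of
    (hF : ∀ (v : HeightOneSpectrum (𝓞 K)) (ℓ : ℕ) (_ : ℓ.Prime)
      (_ : Ideal.absNorm v.asIdeal = ℓ) (_ : ℓ ≠ p)
      (t : ℕ) (_ : ∀ x : ZMod ℓ, x ≠ 0 → ∃ k : ℕ, x = (t : ZMod ℓ) ^ k),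
      ∃ (b : 𝓞 K) (J : Ideal (𝓞 K)) (r : (K ≃ₐ[ℚ] K) → ℕ), b ≠ 0 ∧
        Ideal.span {b} = (∏ σ : K ≃ₐ[ℚ] K, (σ • v.asIdeal) ^ r σ) * J ^ p ∧
        ∀ σ : K ≃ₐ[ℚ] K, 1 + ζ - (t : 𝓞 K) ^ r σ ∈ σ • v.asIdeal)
    (ψ : ClassGroup (𝓞 K) →* Multiplicative (ZMod p))
    (hψ : ∀ (σ : K ≃ₐ[ℚ] K) (a : ℕ), σ • ζ = ζ ^ a → ∀ I : Ideal (𝓞 K),
      ψ (cls (σ • I)) = ψ (cls I) ^ (a ^ 2))
    (v : HeightOneSpectrum (𝓞 K)) (hv : (Ideal.absNorm v.asIdeal).Prime)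
    (hpv : (p : 𝓞 K) ∉ v.asIdeal) (hψv : ψ (cls v.asIdeal) ≠ 1) :
    ∃ y : 𝓞 K, eta p ζ - y ^ p ∈ v.asIdeal := by
  have hℓp : Ideal.absNorm v.asIdeal ≠ p := by
    intro h
    apply hpv
    rw [← h]
    exact Ideal.absNorm_mem v.asIdeal
  obtain ⟨t, ht⟩ := exists_primitive_root _ hv
  obtain ⟨b, J, r, hb, hspan, hcong⟩ := hF v _ hv rfl hℓp t ht
  exact eta_pow_mod_of_thaine p K ζ hζ ψ hψ v hψv t b J r hb hspan hcong

end EtaMod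

/-- (G) consequence of Thaine's relation for characters of type `ω²`. -/
theorem eta_pow_mod_of_char (hp2 : p ≠ 2) (hζ : IsPrimitiveRoot ζ p)
    (ψ : ClassGroup (𝓞 K) →* Multiplicative (ZMod p))
    (hψ : ∀ (σ : K ≃ₐ[ℚ] K) (a : ℕ), σ • ζ = ζ ^ a → ∀ I : Ideal (𝓞 K),
      ψ (cls (σ • I)) = ψ (cls I) ^ (a ^ 2))
    (v : HeightOneSpectrum (𝓞 K)) (hv : (Ideal.absNorm v.asIdeal).Prime)
    (hpv : (p : 𝓞 K) ∉ v.asIdeal) (hψv : ψ (cls v.asIdeal) ≠ 1) :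
    ∃ y : 𝓞 K, eta p ζ - y ^ p ∈ v.asIdeal :=
  EtaMod.eta_pow_mod_of_char_of p K ζ hζ
    (fun v ℓ hℓ hv hℓp t ht => thaine_relation p K ζ hp2 hζ v ℓ hℓ hv hℓp t ht) ψ hψ v hv hpv hψv

end cyclo

end Fermat.Agent.S14Lib
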