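import Mathlib
import Fermat.Agent.S14.Defs

/-!
# S14 (H): abstract finite abelian group lemma
-/

set_option autoImplicit false

namespace Fermat.Agent.S14Lib

namespace NoChar

theorem eq_zero_of_forall_addHom (q : ℕ) [Fact q.Prime] (V : Type) [AddCommGroup V]
    [Module (ZMod q) V] (v : V) (h : ∀ φ : V →+ ZMod q, φ v = 0) : v = 0 :=
  (Module.forall_dual_apply_eq_zero_iff (ZMod q) v).mp fun φ => h φ.toAddMonoidHom

/-- characters to `ZMod q` separate elements modulo `q`-th powers. -/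
theorem exists_pow_of_forall_char (q : ℕ) [Fact q.Prime] (A : Type) [CommGroup A]
    (z : A) (h : ∀ ψ : A →* Multiplicative (ZMod q), ψ z = 1) : ∃ w : A, z = w ^ q := by
  classical
  let H : Subgroup A := (powMonoidHom q : A →* A).range
  have hq : ∀ v : Additive (A ⧸ H), q • v = 0 := by
    intro v
    induction v using Additive.rec with
    | ofMul v =>
      induction v using QuotientGroup.induction_on with
      | H a =>
        rw [← ofMul_pow, ← QuotientGroup.mk_pow]
        have : ((a ^ q : A) : A ⧸ H) = 1 := (QuotientGroup.eq_one_iff _).mpr ⟨a, rfl⟩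
        rw [this]; rfl
  have hz : (Additive.ofMul (z : A ⧸ H) : Additive (A ⧸ H)) = 0 := by
    refine @eq_zero_of_forall_addHom q _ (Additive (A ⧸ H)) _ (AddCommGroup.zmodModule hq) _ ?_
    intro φ
    exact h ((AddMonoidHom.toMultiplicativeRight φ).comp (QuotientGroup.mk' H))
  have hz' : (z : A ⧸ H) = 1 := hz
  obtain ⟨w, hw⟩ := (QuotientGroup.eq_one_iff _).mp hz'
  exact ⟨w, hw.symm⟩

/-- in a group killed by `q`, powers only depend on the exponent mod `q`. -/
theorem pow_eq_pow_of_modEq {G : Type*} [Group G] {q : ℕ} {g : G} (hg : g ^ q = 1) {m n : ℕ}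
    (h : m ≡ n [MOD q]) : g ^ m = g ^ n := by
  rw [← Nat.div_add_mod m q, ← Nat.div_add_mod n q, pow_add, pow_add, pow_mul, pow_mul, hg,
    one_pow, one_pow, h]

theorem mult_pow_q (q : ℕ) (z : Multiplicative (ZMod q)) : z ^ q = 1 := by
  induction z using Multiplicative.rec with
  | ofAdd z =>
    rw [← ofAdd_nsmul]
    simp

end NoChar

open NoChar in
/-- (H) abstract finite abelian group lemma (eigenspaces of `A[p]` and `A/p`). -/
theorem eq_one_of_no_char (q : ℕ) [Fact q.Prime] (A : Type) [CommGroup A] [Finite A]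
    (T : (ZMod q)ˣ →* MulAut A) (k : ℕ) (x : A) (hx : x ^ q = 1)
    (hTx : ∀ u : (ZMod q)ˣ, T u x = x ^ ((u : ZMod q) ^ k).val)
    (hno : ∀ ψ : A →* Multiplicative (ZMod q),
      (∀ (u : (ZMod q)ˣ) (y : A), ψ (T u y) = ψ y ^ ((u : ZMod q) ^ k).val) → ψ = 1) :
    x = 1 := by
  classical
  have hqp : q.Prime := Fact.out
  -- the projector
  let c : (ZMod q)ˣ → ℕ := fun u => (((u⁻¹ : (ZMod q)ˣ) : ZMod q) ^ k).val
  let e : A →* A :=
    { toFun := fun y => ∏ u : (ZMod q)ˣ, (T u y) ^ c u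
      map_one' := by simp
      map_mul' := fun y z => by simp [mul_pow, Finset.prod_mul_distrib] }
  have he : ∀ y, e y = ∏ u : (ZMod q)ˣ, (T u y) ^ c u := fun _ => rfl
  have hc : ∀ v : (ZMod q)ˣ, ((c v : ℕ) : ZMod q) = ((v⁻¹ : (ZMod q)ˣ) : ZMod q) ^ k :=
    fun v => ZMod.natCast_zmod_val _
  -- `ψ ∘ e` is an eigencharacter
  have h1 : ∀ ψ : A →* Multiplicative (ZMod q), ψ.comp e = 1 := by
    intro ψ
    apply hno
    intro w y
    simp only [MonoidHom.comp_apply, he, map_prod, map_pow]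
    rw [← Finset.prod_pow]
    rw [← Equiv.prod_comp (Equiv.mulRight w⁻¹)]
    refine Finset.prod_congr rfl fun u _ => ?_
    simp only [Equiv.coe_mulRight]
    have : T (u * w⁻¹) (T w y) = T u y := by
      rw [← MulAut.mul_apply, ← map_mul]; simp
    rw [this, ← pow_mul]
    apply pow_eq_pow_of_modEq (mult_pow_q q _)
    rw [← ZMod.natCast_eq_natCast_iff]
    rw [Nat.cast_mul, hc, hc, ZMod.natCast_zmod_val, mul_inv_rev, inv_inv, Units.val_mul, mul_pow,
      mul_comm]
  -- hence `e` takes values in `q`-th powers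
  have h2 : ∀ y, ∃ w, e y = w ^ q := fun y =>
    exists_pow_of_forall_char q A (e y) fun ψ => by
      have := congrArg (fun f : A →* Multiplicative (ZMod q) => f y) (h1 ψ)
      simpa using this
  have h3 : ∀ j : ℕ, ∀ y, ∃ w, (⇑e)^[j] y = w ^ (q ^ j) := by
    intro j
    induction j with
    | zero => intro y; exact ⟨y, by simp⟩
    | succ j ih =>
      intro y
      obtain ⟨w, hw⟩ := ih y
      obtain ⟨w', hw'⟩ := h2 w
      refine ⟨w', ?_⟩
      rw [Function.iterate_succ_apply', hw, map_pow, hw', ← pow_mul, pow_succ']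
  -- `e x = x⁻¹`
  have h4 : e x = x⁻¹ := by
    rw [he]
    have : ∀ u : (ZMod q)ˣ, (T u x) ^ c u = x := by
      intro u
      rw [hTx, ← pow_mul]
      conv_rhs => rw [← pow_one x]
      apply pow_eq_pow_of_modEq hx
      rw [← ZMod.natCast_eq_natCast_iff, Nat.cast_mul, hc, ZMod.natCast_zmod_val, ← mul_pow,
        Units.mul_inv, one_pow, Nat.cast_one]
    rw [Finset.prod_congr rfl fun u _ => this u, Finset.prod_const, Finset.card_univ,
      ZMod.card_units_eq_totient, Nat.totient_prime hqp]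
    apply eq_inv_of_mul_eq_one_left
    rw [← pow_succ, Nat.sub_add_cancel hqp.one_lt.le, hx]
  have h5 : ∀ j : ℕ, ∃ w, x = w ^ (q ^ j) := by
    intro j
    have h6 : ∀ j : ℕ, (⇑e)^[j] x = x ∨ (⇑e)^[j] x = x⁻¹ := by
      intro j
      induction j with
      | zero => left; simp
      | succ j ih =>
        rw [Function.iterate_succ_apply']
        rcases ih with h | h
        · right; rw [h, h4]
        · left; rw [h, map_inv, h4, inv_inv]
    obtain ⟨w, hw⟩ := h3 j x
    rcases h6 j with h | h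
    · exact ⟨w, by rw [← hw, h]⟩
    · exact ⟨w⁻¹, by rw [inv_pow, ← hw, h, inv_inv]⟩
  -- conclusion
  obtain ⟨s, n', hn', hcard⟩ := Nat.exists_eq_pow_mul_and_not_dvd (n := Nat.card A)
    Nat.card_pos.ne' q hqp.ne_one
  obtain ⟨w, hw⟩ := h5 s
  have h7 : x ^ n' = 1 := by
    rw [hw, ← pow_mul, ← hcard, pow_card_eq_one']
  have h8 : orderOf x ∣ Nat.gcd q n' := Nat.dvd_gcd (orderOf_dvd_of_pow_eq_one hx)
    (orderOf_dvd_of_pow_eq_one h7)
  rw [(Nat.Prime.coprime_iff_not_dvd hqp).mpr hn', Nat.dvd_one, orderOf_eq_one_iff] at h8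
  exact h8

end Fermat.Agent.S14Lib
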