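import Mathlib
import Fermat.Agent.S14.Defs

/-!
# S14, analytic part: shared data structures

`UnitCoords K` packages Dirichlet's unit theorem as linear coordinates on the logarithmic space.
`Weight K` packages a function `H s x = |N x|^(-s) ρ(x)` on the mixed space, where `ρ` is a
Lipschitz partition of unity for the action of the units.
-/

set_option autoImplicit false

namespace Fermat.Agent.S14Lib

open NumberField NumberField.mixedEmbedding NumberField.InfinitePlace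
open scoped Classical

/-- Linear coordinates on the logarithmic space adapted to the unit group. -/
structure UnitCoords (K : Type) [Field K] [NumberField K] where
  r : ℕ
  lam : Fin r → ((InfinitePlace K → ℝ) →ₗ[ℝ] ℝ)
  e : (𝓞 K)ˣ → (Fin r → ℤ)
  W : ℕ
  M : ℝ
  W_pos : 0 < W
  lam_unit : ∀ (u : (𝓞 K)ˣ) (i : Fin r),
    lam i (fun w => Real.log (w ((u : 𝓞 K) : K))) = (e u i : ℝ)
  lam_one : ∀ i, lam i (fun _ => 1) = 0
  card_fiber : ∀ m : Fin r → ℤ, Nat.card {u : (𝓞 K)ˣ // e u = m} = W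
  bound : ∀ (t : InfinitePlace K → ℝ) (w : InfinitePlace K),
    |t w| ≤ M * (|∑ w', (mult w' : ℝ) * t w'| + ∑ i, |lam i t|)

/-- A weight function: `H s x = |N x|^(-s) ρ(x)`, `ρ` a Lipschitz partition of unity
for the action of the units. -/
structure Weight (K : Type) [Field K] [NumberField K] where
  H : ℝ → mixedSpace K → ℝ
  W : ℕ
  L : ℝ
  W_pos : 0 < W
  nonneg : ∀ s x, 0 ≤ H s x
  zero : ∀ s, H s 0 = 0
  le_one : ∀ s, 0 ≤ s → ∀ a : 𝓞 K, H s (mixedEmbedding K (a : K)) ≤ 1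
  lip : ∀ s, 1 ≤ s → s ≤ 2 → ∀ x y : mixedSpace K, 1 ≤ ‖x‖ → ‖x - y‖ ≤ ‖x‖ / 2 →
    |H s x - H s y| ≤ L * ‖x - y‖ * ‖x‖ ^ (-(Module.finrank ℚ K : ℝ) - 1)
  unfold : ∀ (s : ℝ) (a : 𝓞 K), a ≠ 0 →
    HasSum (fun u : (𝓞 K)ˣ => H s (mixedEmbedding K (((u : 𝓞 K) * a : 𝓞 K) : K)))
      ((W : ℝ) * (Ideal.absNorm (Ideal.span {a}) : ℝ) ^ (-s))

end Fermat.Agent.S14Lib
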