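import Mathlib
import Fermat.Agent.S14.ADefs

/-!
# S14 (A2): comparison of the lattice sums over `𝓞 K` and over an ideal
-/

set_option autoImplicit false

namespace Fermat.Agent.S14Lib

open NumberField NumberField.mixedEmbedding NumberField.InfinitePlace
open scoped Classical

theorem LC.finrank_lattice (K : Type) [Field K] [NumberField K] :
    Module.finrank ℤ (mixedEmbedding.integerLattice K) = Module.finrank ℚ K := by
  rw [ZLattice.rank ℝ (mixedEmbedding.integerLattice K), mixedEmbedding.finrank]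

theorem LC.summable_norm0 (K : Type) [Field K] [NumberField K] :
    Summable (fun z : mixedEmbedding.integerLattice K =>
      ‖(z : mixedSpace K)‖ ^ (-(Module.finrank ℚ K : ℝ) - 1)) := by
  apply ZLattice.summable_norm_rpow (mixedEmbedding.integerLattice K)
  rw [LC.finrank_lattice]
  linarith

/-- the map from integers to the integer lattice -/
noncomputable def LC.toLattice (K : Type) [Field K] [NumberField K] (a : 𝓞 K) :
    mixedEmbedding.integerLattice K :=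
  ⟨mixedEmbedding K (a : K), ⟨a, rfl⟩⟩

theorem LC.toLattice_injective (K : Type) [Field K] [NumberField K] :
    Function.Injective (LC.toLattice K) := by
  intro a b hab
  have h1 : mixedEmbedding K (a : K) = mixedEmbedding K (b : K) := congrArg Subtype.val hab
  exact RingOfIntegers.ext (mixedEmbedding_injective K h1)

theorem LC.summable_norm (K : Type) [Field K] [NumberField K] :
    Summable (fun a : 𝓞 K => ‖mixedEmbedding K (a : K)‖ ^ (-(Module.finrank ℚ K : ℝ) - 1)) := by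
  have h := (LC.summable_norm0 K).comp_injective (LC.toLattice_injective K)
  simpa only [Function.comp_def, LC.toLattice] using h

theorem LC.abs_sub_le_one {u v : ℝ} (hu : 0 ≤ u) (hu1 : u ≤ 1) (hv : 0 ≤ v) (hv1 : v ≤ 1) :
    |u - v| ≤ 1 := by
  rw [abs_le]
  constructor <;> linarith

theorem LC.diff_bound (K : Type) [Field K] [NumberField K] (Wt : Weight K) (r : 𝓞 K) :
    ∃ c : ℝ, 0 ≤ c ∧ ∀ s : ℝ, 1 ≤ s → s ≤ 2 → ∀ b : 𝓞 K,
      |Wt.H s (mixedEmbedding K ((b + r : 𝓞 K) : K)) - Wt.H s (mixedEmbedding K (b : K))| ≤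
        (if b = 0 then 1 else 0) +
          c * ‖mixedEmbedding K (b : K)‖ ^ (-(Module.finrank ℚ K : ℝ) - 1) := by
  set n : ℝ := (Module.finrank ℚ K : ℝ) with hn
  have hn0 : 0 ≤ n := Nat.cast_nonneg _
  set ρ : ℝ := ‖mixedEmbedding K (r : K)‖ with hρ
  have hρ0 : 0 ≤ ρ := norm_nonneg _
  set R : ℝ := max 1 (2 * ρ) with hR
  have hR1 : 1 ≤ R := le_max_left _ _
  have hR0 : 0 < R := by linarith
  refine ⟨max (R ^ (n + 1)) (|Wt.L| * ρ), le_max_of_le_left (Real.rpow_nonneg hR0.le _), ?_⟩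
  intro s hs1 hs2 b
  have hle : |Wt.H s (mixedEmbedding K ((b + r : 𝓞 K) : K)) - Wt.H s (mixedEmbedding K (b : K))|
      ≤ 1 := LC.abs_sub_le_one (Wt.nonneg _ _) (Wt.le_one s (by linarith) _) (Wt.nonneg _ _)
        (Wt.le_one s (by linarith) _)
  have hc0 : 0 ≤ max (R ^ (n + 1)) (|Wt.L| * ρ) := le_max_of_le_left (Real.rpow_nonneg hR0.le _)
  by_cases hb : b = 0
  · rw [if_pos hb]
    have := mul_nonneg hc0 (Real.rpow_nonneg (norm_nonneg (mixedEmbedding K (b : K))) (-n - 1))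
    linarith
  · rw [if_neg hb, zero_add]
    have hb0 : 0 < ‖mixedEmbedding K (b : K)‖ := by
      rw [norm_pos_iff]
      intro h0
      apply hb
      apply RingOfIntegers.ext
      apply mixedEmbedding_injective K
      rw [h0]
      simp
    have hpow0 : 0 ≤ ‖mixedEmbedding K (b : K)‖ ^ (-n - 1) := Real.rpow_nonneg hb0.le _
    by_cases hbR : ‖mixedEmbedding K (b : K)‖ < R
    · have h1 : R ^ (-n - 1) ≤ ‖mixedEmbedding K (b : K)‖ ^ (-n - 1) :=
        Real.rpow_le_rpow_of_nonpos hb0 hbR.le (by linarith)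
      have h2 : R ^ (n + 1) * R ^ (-n - 1) = 1 := by
        rw [← Real.rpow_add hR0]
        have : n + 1 + (-n - 1) = 0 := by ring
        rw [this, Real.rpow_zero]
      calc _ ≤ 1 := hle
        _ = R ^ (n + 1) * R ^ (-n - 1) := h2.symm
        _ ≤ R ^ (n + 1) * ‖mixedEmbedding K (b : K)‖ ^ (-n - 1) :=
            mul_le_mul_of_nonneg_left h1 (Real.rpow_nonneg hR0.le _)
        _ ≤ _ := mul_le_mul_of_nonneg_right (le_max_left _ _) hpow0
    · rw [not_lt] at hbR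
      have hxy : mixedEmbedding K (b : K) - mixedEmbedding K ((b + r : 𝓞 K) : K) =
          - mixedEmbedding K (r : K) := by
        push_cast
        rw [map_add]
        abel
      have h1 := Wt.lip s hs1 hs2 (mixedEmbedding K (b : K)) (mixedEmbedding K ((b + r : 𝓞 K) : K))
        (le_trans hR1 hbR) (by
          rw [hxy, norm_neg]
          have : 2 * ρ ≤ R := le_max_right _ _
          linarith)
      rw [hxy, norm_neg] at h1
      rw [abs_sub_comm]
      calc _ ≤ Wt.L * ρ * ‖mixedEmbedding K (b : K)‖ ^ (-n - 1) := h1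
        _ ≤ (|Wt.L| * ρ) * ‖mixedEmbedding K (b : K)‖ ^ (-n - 1) :=
            mul_le_mul_of_nonneg_right (mul_le_mul_of_nonneg_right (le_abs_self _) hρ0) hpow0
        _ ≤ _ := mul_le_mul_of_nonneg_right (le_max_right _ _) hpow0

/-- a representative of a coset -/
noncomputable def LC.rep {R : Type*} [CommRing R] (𝔟 : Ideal R) (q : R ⧸ 𝔟) : R :=
  Function.surjInv Ideal.Quotient.mk_surjective q

theorem LC.mk_rep {R : Type*} [CommRing R] (𝔟 : Ideal R) (q : R ⧸ 𝔟) :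
    Ideal.Quotient.mk 𝔟 (LC.rep 𝔟 q) = q :=
  Function.surjInv_eq Ideal.Quotient.mk_surjective q

/-- decomposition of a ring in cosets of an ideal -/
noncomputable def LC.cosetEquiv {R : Type*} [CommRing R] (𝔟 : Ideal R) : (R ⧸ 𝔟) × 𝔟 ≃ R where
  toFun p := (p.2 : R) + LC.rep 𝔟 p.1
  invFun a := (Ideal.Quotient.mk 𝔟 a, ⟨a - LC.rep 𝔟 (Ideal.Quotient.mk 𝔟 a), by
    rw [← Ideal.Quotient.eq, LC.mk_rep]⟩)
  left_inv := by
    rintro ⟨q, b⟩
    have h1 : Ideal.Quotient.mk 𝔟 ((b : R) + LC.rep 𝔟 q) = q := by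
      rw [map_add, LC.mk_rep, Ideal.Quotient.eq_zero_iff_mem.mpr b.2, zero_add]
    refine Prod.ext h1 (Subtype.ext ?_)
    simp only [h1]
    ring
  right_inv := by
    intro a
    simp

theorem lattice_compare (K : Type) [Field K] [NumberField K] (Wt : Weight K)
    (𝔟 : Ideal (𝓞 K)) (h𝔟 : 𝔟 ≠ ⊥) :
    ∃ C : ℝ, ∀ s : ℝ, 1 ≤ s → s ≤ 2 →
      Summable (fun a : 𝓞 K => Wt.H s (mixedEmbedding K (a : K))) →
      |∑' a : 𝓞 K, Wt.H s (mixedEmbedding K (a : K)) -
        (Ideal.absNorm 𝔟 : ℝ) * ∑' a : 𝔟, Wt.H s (mixedEmbedding K ((a : 𝓞 K) : K))| ≤ C := by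
  have hfin : Finite (𝓞 K ⧸ 𝔟) := Ideal.finiteQuotientOfFreeOfNeBot 𝔟 h𝔟
  have : Fintype (𝓞 K ⧸ 𝔟) := Fintype.ofFinite _
  choose c hc0 hc using fun q : 𝓞 K ⧸ 𝔟 => LC.diff_bound K Wt (LC.rep 𝔟 q)
  let g : (𝓞 K ⧸ 𝔟) → 𝓞 K → ℝ := fun q a => (if a = 0 then 1 else 0) +
    c q * ‖mixedEmbedding K (a : K)‖ ^ (-(Module.finrank ℚ K : ℝ) - 1)
  have hg : ∀ q, Summable (g q) := fun q =>
    (hasSum_ite_eq (0 : 𝓞 K) (1 : ℝ)).summable.add ((LC.summable_norm K).mul_left _)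
  have hg0 : ∀ q a, 0 ≤ g q a := fun q a =>
    add_nonneg (by split_ifs <;> norm_num) (mul_nonneg (hc0 q) (Real.rpow_nonneg (norm_nonneg _) _))
  refine ⟨∑ q, ∑' a, g q a, fun s hs1 hs2 hsum => ?_⟩
  set F : 𝓞 K → ℝ := fun a => Wt.H s (mixedEmbedding K (a : K)) with hF
  have hF𝔟 : Summable (fun b : 𝔟 => F b) := hsum.comp_injective Subtype.val_injective
  have hFe : Summable (fun p : (𝓞 K ⧸ 𝔟) × 𝔟 => F (LC.cosetEquiv 𝔟 p)) :=
    (Equiv.summable_iff (LC.cosetEquiv 𝔟)).mpr hsum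
  have h1 : ∑' a, F a = ∑ q, ∑' b : 𝔟, F ((b : 𝓞 K) + LC.rep 𝔟 q) := by
    rw [← (LC.cosetEquiv 𝔟).tsum_eq F, hFe.tsum_prod, tsum_fintype]
    rfl
  have h2 : (Ideal.absNorm 𝔟 : ℝ) * ∑' b : 𝔟, F b = ∑ q : 𝓞 K ⧸ 𝔟, ∑' b : 𝔟, F b := by
    rw [Finset.sum_const, Finset.card_univ, nsmul_eq_mul, Ideal.absNorm_apply,
      Submodule.cardQuot_apply, Nat.card_eq_fintype_card]
  rw [h1, h2, ← Finset.sum_sub_distrib]
  refine (Finset.abs_sum_le_sum_abs _ _).trans (Finset.sum_le_sum fun q _ => ?_)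
  have hq : Summable (fun b : 𝔟 => F ((b : 𝓞 K) + LC.rep 𝔟 q)) := hFe.prod_factor q
  rw [← hq.tsum_sub hF𝔟, ← Real.norm_eq_abs]
  have hg𝔟 : Summable (fun b : 𝔟 => g q b) := (hg q).comp_injective Subtype.val_injective
  refine (tsum_of_norm_bounded hg𝔟.hasSum fun b => ?_).trans
    (tsum_comp_le_tsum_of_inj (hg q) (hg0 q) Subtype.val_injective)
  rw [Real.norm_eq_abs]
  exact hc q s hs1 hs2 b

end Fermat.Agent.S14Lib
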