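import Mathlib
import Fermat.Agent.S14.ADefs

/-!
# S14 (A3): unfolding, the lattice sum over `𝔟` is a partial zeta function
-/

set_option autoImplicit false

namespace Fermat.Agent.S14Lib

open NumberField NumberField.mixedEmbedding NumberField.InfinitePlace
open scoped Classical

section

variable {R : Type*} [CommRing R] [IsDedekindDomain R]

/-- ideals in the class inverse to `𝔟` -/
abbrev UC.Cl (𝔟 : Ideal R) : Type _ := {I : Ideal R // I ≠ ⊥ ∧ cls I = (cls 𝔟)⁻¹}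

theorem UC.exists_gen (𝔟 : Ideal R) (h𝔟 : 𝔟 ≠ ⊥) (I : UC.Cl 𝔟) :
    ∃ g : R, Ideal.span {g} = I.1 * 𝔟 := by
  have h1 : cls (I.1 * 𝔟) = 1 := by rw [cls_mul I.2.1 h𝔟, I.2.2, inv_mul_cancel]
  obtain ⟨g, hg⟩ := ((cls_eq_one_iff (mul_ne_zero I.2.1 h𝔟)).mp h1).principal
  exact ⟨g, hg.symm⟩

/-- a generator of `I * 𝔟` -/
noncomputable def UC.gen (𝔟 : Ideal R) (h𝔟 : 𝔟 ≠ ⊥) (I : UC.Cl 𝔟) : R :=
  (UC.exists_gen 𝔟 h𝔟 I).choose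

theorem UC.span_gen (𝔟 : Ideal R) (h𝔟 : 𝔟 ≠ ⊥) (I : UC.Cl 𝔟) :
    Ideal.span {UC.gen 𝔟 h𝔟 I} = I.1 * 𝔟 :=
  (UC.exists_gen 𝔟 h𝔟 I).choose_spec

theorem UC.gen_ne_zero (𝔟 : Ideal R) (h𝔟 : 𝔟 ≠ ⊥) (I : UC.Cl 𝔟) : UC.gen 𝔟 h𝔟 I ≠ 0 := by
  intro h0
  have h1 := UC.span_gen 𝔟 h𝔟 I
  rw [h0, Ideal.span_singleton_eq_bot.mpr rfl] at h1
  exact mul_ne_zero I.2.1 h𝔟 h1.symm

theorem UC.gen_mem (𝔟 : Ideal R) (h𝔟 : 𝔟 ≠ ⊥) (I : UC.Cl 𝔟) : UC.gen 𝔟 h𝔟 I ∈ 𝔟 := by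
  have h1 : UC.gen 𝔟 h𝔟 I ∈ Ideal.span {UC.gen 𝔟 h𝔟 I} := Ideal.mem_span_singleton_self _
  rw [UC.span_gen] at h1
  have h2 : I.1 * 𝔟 ≤ 𝔟 := Ideal.mul_le_right
  exact h2 h1

/-- the parametrisation of the nonzero elements of `𝔟` -/
noncomputable def UC.param (𝔟 : Ideal R) (h𝔟 : 𝔟 ≠ ⊥) (p : UC.Cl 𝔟 × Rˣ) : {a : 𝔟 // a ≠ 0} :=
  ⟨⟨(p.2 : R) * UC.gen 𝔟 h𝔟 p.1, 𝔟.mul_mem_left _ (UC.gen_mem 𝔟 h𝔟 p.1)⟩, fun h =>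
    mul_ne_zero p.2.ne_zero (UC.gen_ne_zero 𝔟 h𝔟 p.1) (congrArg Subtype.val h)⟩

theorem UC.param_bijective (𝔟 : Ideal R) (h𝔟 : 𝔟 ≠ ⊥) : Function.Bijective (UC.param 𝔟 h𝔟) := by
  constructor
  · rintro ⟨I, u⟩ ⟨I', u'⟩ h
    have h1 : (u : R) * UC.gen 𝔟 h𝔟 I = (u' : R) * UC.gen 𝔟 h𝔟 I' :=
      congrArg (fun z : {a : 𝔟 // a ≠ 0} => ((z : 𝔟) : R)) h
    have h2 : Ideal.span {UC.gen 𝔟 h𝔟 I} = Ideal.span {UC.gen 𝔟 h𝔟 I'} := by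
      rw [Ideal.span_singleton_eq_span_singleton]
      refine ⟨u'⁻¹ * u, ?_⟩
      rw [Units.val_mul, mul_comm, mul_assoc, h1, ← mul_assoc, Units.inv_mul, one_mul]
    rw [UC.span_gen, UC.span_gen] at h2
    have h3 : I = I' := Subtype.ext (mul_right_cancel₀ h𝔟 h2)
    subst h3
    have h4 : u = u' := Units.ext (mul_right_cancel₀ (UC.gen_ne_zero 𝔟 h𝔟 I) h1)
    rw [h4]
  · rintro ⟨⟨a, ha⟩, ha0⟩
    have ha0' : a ≠ 0 := fun h => ha0 (Subtype.ext h)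
    have hle : Ideal.span {a} ≤ 𝔟 := (Ideal.span_singleton_le_iff_mem _).mpr ha
    obtain ⟨I, hI⟩ := Ideal.dvd_iff_le.mpr hle
    have hspan : Ideal.span {a} ≠ ⊥ := by
      rw [Ne, Ideal.span_singleton_eq_bot]
      exact ha0'
    have hI0 : I ≠ ⊥ := by
      rintro rfl
      rw [Ideal.mul_bot] at hI
      exact hspan hI
    have hcls : cls I = (cls 𝔟)⁻¹ := by
      have h1 := cls_span_singleton a
      rw [hI, cls_mul h𝔟 hI0] at h1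
      exact eq_inv_of_mul_eq_one_right h1
    let I' : UC.Cl 𝔟 := ⟨I, hI0, hcls⟩
    have h2 : Ideal.span {UC.gen 𝔟 h𝔟 I'} = Ideal.span {a} := by
      rw [UC.span_gen, hI, mul_comm]
    obtain ⟨u, hu⟩ := Ideal.span_singleton_eq_span_singleton.mp h2
    refine ⟨(I', u), Subtype.ext (Subtype.ext ?_)⟩
    show (u : R) * UC.gen 𝔟 h𝔟 I' = a
    rw [mul_comm, hu]

end

theorem unfold_class (K : Type) [Field K] [NumberField K] (Wt : Weight K)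
    (𝔟 : Ideal (𝓞 K)) (h𝔟 : 𝔟 ≠ ⊥) (s : ℝ)
    (hs : Summable (fun I : Ideal (𝓞 K) => (Ideal.absNorm I : ℝ) ^ (-s))) :
    Summable (fun a : 𝔟 => Wt.H s (mixedEmbedding K ((a : 𝓞 K) : K))) ∧
    ∑' a : 𝔟, Wt.H s (mixedEmbedding K ((a : 𝓞 K) : K)) =
      (Wt.W : ℝ) * (Ideal.absNorm 𝔟 : ℝ) ^ (-s) *
        ∑' I : {I : Ideal (𝓞 K) // I ≠ ⊥ ∧ cls I = (cls 𝔟)⁻¹}, (Ideal.absNorm I.1 : ℝ) ^ (-s) := by
  set F : 𝔟 → ℝ := fun a => Wt.H s (mixedEmbedding K ((a : 𝓞 K) : K)) with hF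
  let e : UC.Cl 𝔟 × (𝓞 K)ˣ ≃ {a : 𝔟 // a ≠ 0} := Equiv.ofBijective _ (UC.param_bijective 𝔟 h𝔟)
  let f : UC.Cl 𝔟 × (𝓞 K)ˣ → ℝ := fun p => F (e p)
  have hf0 : 0 ≤ f := fun p => Wt.nonneg _ _
  have hfI : ∀ I : UC.Cl 𝔟, HasSum (fun u => f (I, u))
      ((Wt.W : ℝ) * (Ideal.absNorm 𝔟 : ℝ) ^ (-s) * (Ideal.absNorm I.1 : ℝ) ^ (-s)) := by
    intro I
    have h1 := Wt.unfold s (UC.gen 𝔟 h𝔟 I) (UC.gen_ne_zero 𝔟 h𝔟 I)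
    rw [UC.span_gen, map_mul, Nat.cast_mul,
      Real.mul_rpow (Nat.cast_nonneg _) (Nat.cast_nonneg _)] at h1
    have h2 : (Wt.W : ℝ) * ((Ideal.absNorm I.1 : ℝ) ^ (-s) * (Ideal.absNorm 𝔟 : ℝ) ^ (-s)) =
        (Wt.W : ℝ) * (Ideal.absNorm 𝔟 : ℝ) ^ (-s) * (Ideal.absNorm I.1 : ℝ) ^ (-s) := by ring
    rw [h2] at h1
    exact h1
  have hsCl : Summable (fun I : UC.Cl 𝔟 => (Ideal.absNorm I.1 : ℝ) ^ (-s)) :=
    hs.comp_injective Subtype.val_injective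
  have hfsum : Summable f := by
    rw [summable_prod_of_nonneg hf0]
    refine ⟨fun I => (hfI I).summable, ?_⟩
    have h3 : (fun I : UC.Cl 𝔟 => ∑' u, f (I, u)) = fun I =>
        (Wt.W : ℝ) * (Ideal.absNorm 𝔟 : ℝ) ^ (-s) * (Ideal.absNorm I.1 : ℝ) ^ (-s) :=
      funext fun I => (hfI I).tsum_eq
    rw [h3]
    exact hsCl.mul_left _
  have hftsum : ∑' p, f p = (Wt.W : ℝ) * (Ideal.absNorm 𝔟 : ℝ) ^ (-s) *
      ∑' I : UC.Cl 𝔟, (Ideal.absNorm I.1 : ℝ) ^ (-s) := by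
    rw [hfsum.tsum_prod, ← tsum_mul_left]
    exact tsum_congr fun I => (hfI I).tsum_eq
  have h4 : HasSum (fun a : {a : 𝔟 // a ≠ 0} => F a) (∑' p, f p) :=
    (Equiv.hasSum_iff e).mp hfsum.hasSum
  have hsupp : Function.support F ⊆ {a : 𝔟 | a ≠ 0} := by
    intro a ha h0
    apply ha
    rw [h0]
    show Wt.H s (mixedEmbedding K (((0 : 𝔟) : 𝓞 K) : K)) = 0
    simp [Wt.zero]
  have h5 : HasSum F (∑' p, f p) := (hasSum_subtype_iff_of_support_subset hsupp).mp h4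
  exact ⟨h5.summable, by rw [h5.tsum_eq, hftsum]⟩

end Fermat.Agent.S14Lib
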