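import Mathlib
import Fermat.Agent.S14.ADefs
import Fermat.Agent.S14.ZetaSum
import Fermat.Agent.S14.LatticeCompare
import Fermat.Agent.S14.UnfoldClass

/-!
# S14 (A4): class group `L`-series are bounded near `s = 1`
-/

set_option autoImplicit false

namespace Fermat.Agent.S14Lib

open NumberField NumberField.mixedEmbedding NumberField.InfinitePlace
open scoped Classical

theorem CL.rpow_anti (N : ℕ) {s s₀ : ℝ} (hs₀ : 0 < s₀) (h : s₀ ≤ s) :
    (N : ℝ) ^ (-s) ≤ (N : ℝ) ^ (-s₀) := by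
  rcases Nat.eq_zero_or_pos N with rfl | hN
  · rw [Nat.cast_zero, Real.zero_rpow (by linarith), Real.zero_rpow (by linarith)]
  · exact Real.rpow_le_rpow_of_exponent_le (by exact_mod_cast hN) (by linarith)

/-- (A4a) crude bound for the Dedekind zeta function. -/
theorem zeta_bound (K : Type) [Field K] [NumberField K] :
    ∃ C : ℝ, ∀ s : ℝ, 1 < s → s ≤ 2 →
      (s - 1) * ∑' I : Ideal (𝓞 K), (Ideal.absNorm I : ℝ) ^ (-s) ≤ C := by
  have h1 := (tendsto_sub_one_mul_dedekindZeta_nhdsGT K).norm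
  have h2 := h1.eventually (gt_mem_nhds (lt_add_one ‖((dedekindZeta_residue K : ℝ) : ℂ)‖))
  rw [eventually_nhdsWithin_iff, Metric.eventually_nhds_iff] at h2
  obtain ⟨δ, hδ, h3⟩ := h2
  set s₀ : ℝ := 1 + δ / 2 with hs₀
  have hs₀1 : 1 < s₀ := by rw [hs₀]; linarith
  set Z : ℝ → ℝ := fun s => ∑' I : Ideal (𝓞 K), (Ideal.absNorm I : ℝ) ^ (-s) with hZ
  have hZ0 : ∀ s, 0 ≤ Z s := fun s => tsum_nonneg fun I => Real.rpow_nonneg (Nat.cast_nonneg _) _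
  refine ⟨max (‖((dedekindZeta_residue K : ℝ) : ℂ)‖ + 1) (Z s₀), fun s hs1 hs2 => ?_⟩
  by_cases hsδ : s < 1 + δ
  · refine le_trans ?_ (le_max_left _ _)
    have h4 := h3 (y := s) (by rw [Real.dist_eq, abs_lt]; constructor <;> linarith) hs1
    rw [(zeta_eq_tsum K s hs1).2] at h4
    have h5 : ‖((s : ℂ) - 1) * ((∑' I : Ideal (𝓞 K), (Ideal.absNorm I : ℝ) ^ (-s) : ℝ) : ℂ)‖ =
        (s - 1) * Z s := by
      have h6 : ((s : ℂ) - 1) * ((∑' I : Ideal (𝓞 K), (Ideal.absNorm I : ℝ) ^ (-s) : ℝ) : ℂ) =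
          (((s - 1) * Z s : ℝ) : ℂ) := by
        rw [Complex.ofReal_mul, Complex.ofReal_sub, Complex.ofReal_one]
      rw [h6, Complex.norm_real, Real.norm_eq_abs, abs_of_nonneg (mul_nonneg (by linarith) (hZ0 s))]
    rw [h5] at h4
    exact h4.le
  · refine le_trans ?_ (le_max_right _ _)
    have h7 : Z s ≤ Z s₀ :=
      Summable.tsum_le_tsum (fun I => CL.rpow_anti _ (by linarith) (by rw [hs₀]; linarith))
        (zeta_eq_tsum K s hs1).1 (zeta_eq_tsum K s₀ hs₀1).1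
    calc (s - 1) * Z s ≤ 1 * Z s := mul_le_mul_of_nonneg_right (by linarith) (hZ0 s)
      _ = Z s := one_mul _
      _ ≤ Z s₀ := h7

/-- partial zeta function -/
noncomputable def CL.Zc (K : Type) [Field K] [NumberField K] (C : ClassGroup (𝓞 K)) (s : ℝ) : ℝ :=
  ∑' I : {I : Ideal (𝓞 K) // I ≠ ⊥ ∧ cls I = C}, (Ideal.absNorm I.1 : ℝ) ^ (-s)

theorem CL.Zc_nonneg (K : Type) [Field K] [NumberField K] (C : ClassGroup (𝓞 K)) (s : ℝ) :
    0 ≤ CL.Zc K C s :=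
  tsum_nonneg fun _ => Real.rpow_nonneg (Nat.cast_nonneg _) _

theorem CL.Zc_le (K : Type) [Field K] [NumberField K] (C : ClassGroup (𝓞 K)) {s : ℝ} (hs : 1 < s) :
    CL.Zc K C s ≤ ∑' I : Ideal (𝓞 K), (Ideal.absNorm I : ℝ) ^ (-s) :=
  tsum_comp_le_tsum_of_inj (zeta_eq_tsum K s hs).1
    (fun _ => Real.rpow_nonneg (Nat.cast_nonneg _) _) Subtype.val_injective

theorem CL.cls_top (K : Type) [Field K] [NumberField K] : cls (⊤ : Ideal (𝓞 K)) = 1 := by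
  rw [← Ideal.span_singleton_one, cls_span_singleton]

/-- the lattice sum over `𝓞 K` -/
theorem CL.sum_top (K : Type) [Field K] [NumberField K] (Wt : Weight K) {s : ℝ} (hs : 1 < s) :
    Summable (fun a : 𝓞 K => Wt.H s (mixedEmbedding K (a : K))) ∧
      ∑' a : 𝓞 K, Wt.H s (mixedEmbedding K (a : K)) = (Wt.W : ℝ) * CL.Zc K 1 s := by
  obtain ⟨h1, h2⟩ := unfold_class K Wt ⊤ top_ne_bot s (zeta_eq_tsum K s hs).1
  have h3 : (cls (⊤ : Ideal (𝓞 K)))⁻¹ = 1 := by rw [CL.cls_top, inv_one]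
  rw [h3, Ideal.absNorm_top, Nat.cast_one, Real.one_rpow, mul_one] at h2
  let e : (⊤ : Ideal (𝓞 K)) ≃ 𝓞 K := (Submodule.topEquiv (R := 𝓞 K) (M := 𝓞 K)).toEquiv
  constructor
  · exact (Equiv.summable_iff e).mp h1
  · rw [← e.tsum_eq]
    exact h2

theorem CL.one_sub_rpow_le {x s : ℝ} (hx : 1 ≤ x) :
    1 - x * x ^ (-s) ≤ (s - 1) * Real.log x := by
  have hx0 : 0 < x := by linarith
  have h1 : x * x ^ (-s) = Real.exp (-((s - 1) * Real.log x)) := by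
    rw [Real.rpow_def_of_pos hx0]
    nth_rewrite 1 [← Real.exp_log hx0]
    rw [← Real.exp_add]
    congr 1
    ring
  rw [h1]
  have := Real.add_one_le_exp (-((s - 1) * Real.log x))
  linarith

theorem CL.partial_zeta_compare_of (K : Type) [Field K] [NumberField K] (Wt : Weight K)
    (C : ClassGroup (𝓞 K)) :
    ∃ B : ℝ, ∀ s : ℝ, 1 < s → s ≤ 2 → |CL.Zc K C s - CL.Zc K 1 s| ≤ B := by
  obtain ⟨J, hJ⟩ := ClassGroup.mk0_surjective C⁻¹
  set 𝔟 : Ideal (𝓞 K) := (J : Ideal (𝓞 K)) with h𝔟def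
  have h𝔟 : 𝔟 ≠ ⊥ := nonZeroDivisors.coe_ne_zero J
  have hcls : (cls 𝔟)⁻¹ = C := by rw [h𝔟def, cls_mk0, hJ, inv_inv]
  obtain ⟨C₀, hC₀⟩ := lattice_compare K Wt 𝔟 h𝔟
  obtain ⟨C₁, hC₁⟩ := zeta_bound K
  set x : ℝ := (Ideal.absNorm 𝔟 : ℝ) with hx
  have hx1 : 1 ≤ x := by
    have : Ideal.absNorm 𝔟 ≠ 0 := by
      rw [Ne, Ideal.absNorm_eq_zero_iff]
      exact h𝔟
    rw [hx]
    exact_mod_cast Nat.one_le_iff_ne_zero.mpr this
  have hW : (0 : ℝ) < Wt.W := by exact_mod_cast Wt.W_pos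
  refine ⟨Real.log x * C₁ + C₀ / Wt.W, fun s hs1 hs2 => ?_⟩
  obtain ⟨ht1, ht2⟩ := CL.sum_top K Wt hs1
  obtain ⟨-, hb2⟩ := unfold_class K Wt 𝔟 h𝔟 s (zeta_eq_tsum K s hs1).1
  rw [hcls] at hb2
  have h1 := hC₀ s hs1.le hs2 ht1
  rw [ht2, hb2] at h1
  change |(Wt.W : ℝ) * CL.Zc K 1 s - x * ((Wt.W : ℝ) * x ^ (-s) * CL.Zc K C s)| ≤ C₀ at h1
  have h2 : (Wt.W : ℝ) * CL.Zc K 1 s - x * ((Wt.W : ℝ) * x ^ (-s) * CL.Zc K C s) =
      (Wt.W : ℝ) * (CL.Zc K 1 s - x * x ^ (-s) * CL.Zc K C s) := by ring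
  rw [h2, abs_mul, abs_of_pos hW] at h1
  have h3 : |CL.Zc K 1 s - x * x ^ (-s) * CL.Zc K C s| ≤ C₀ / Wt.W := by
    rw [le_div_iff₀ hW, mul_comm]
    exact h1
  have h4 : (1 - x * x ^ (-s)) * CL.Zc K C s ≤ Real.log x * C₁ := by
    have hlog : 0 ≤ Real.log x := Real.log_nonneg hx1
    calc (1 - x * x ^ (-s)) * CL.Zc K C s
        ≤ ((s - 1) * Real.log x) * CL.Zc K C s :=
          mul_le_mul_of_nonneg_right (CL.one_sub_rpow_le hx1) (CL.Zc_nonneg K C s)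
      _ ≤ ((s - 1) * Real.log x) * ∑' I : Ideal (𝓞 K), (Ideal.absNorm I : ℝ) ^ (-s) :=
          mul_le_mul_of_nonneg_left (CL.Zc_le K C hs1) (mul_nonneg (by linarith) hlog)
      _ = Real.log x * ((s - 1) * ∑' I : Ideal (𝓞 K), (Ideal.absNorm I : ℝ) ^ (-s)) := by ring
      _ ≤ Real.log x * C₁ := mul_le_mul_of_nonneg_left (hC₁ s hs1 hs2) hlog
  have h5 : 0 ≤ (1 - x * x ^ (-s)) * CL.Zc K C s := by
    apply mul_nonneg _ (CL.Zc_nonneg K C s)
    have hx0 : 0 < x := by linarith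
    have h6 : x * x ^ (-s) = x ^ (1 - s) := by
      rw [Real.rpow_sub hx0, Real.rpow_one, Real.rpow_neg hx0.le]
      rfl
    rw [h6, sub_nonneg]
    exact Real.rpow_le_one_of_one_le_of_nonpos hx1 (by linarith)
  have h7 : CL.Zc K C s - CL.Zc K 1 s = (1 - x * x ^ (-s)) * CL.Zc K C s -
      (CL.Zc K 1 s - x * x ^ (-s) * CL.Zc K C s) := by ring
  rw [h7]
  calc _ ≤ |(1 - x * x ^ (-s)) * CL.Zc K C s| + |CL.Zc K 1 s - x * x ^ (-s) * CL.Zc K C s| :=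
        abs_sub _ _
    _ ≤ _ := by
        rw [abs_of_nonneg h5]
        exact add_le_add h4 h3

theorem CL.tsum_eq_sum (K : Type) [Field K] [NumberField K] (f : ClassGroup (𝓞 K) → ℂ) {s : ℝ}
    (hs : 1 < s) :
    ∑' I : Ideal (𝓞 K), f (cls I) * (((Ideal.absNorm I : ℝ) ^ (-s) : ℝ) : ℂ) =
      ∑ C, f C * ((CL.Zc K C s : ℝ) : ℂ) := by
  set z : Ideal (𝓞 K) → ℝ := fun I => (Ideal.absNorm I : ℝ) ^ (-s) with hz
  have hzs : Summable z := (zeta_eq_tsum K s hs).1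
  let S : ClassGroup (𝓞 K) → Set (Ideal (𝓞 K)) := fun C => {I | I ≠ ⊥ ∧ cls I = C}
  have hZc : ∀ C, CL.Zc K C s = ∑' I, (S C).indicator z I := fun C => tsum_subtype (S C) z
  have hind : ∀ C, Summable ((S C).indicator z) := fun C => hzs.indicator _
  have hterm : ∀ I, f (cls I) * ((z I : ℝ) : ℂ) =
      ∑ C, f C * (((S C).indicator z I : ℝ) : ℂ) := by
    intro I
    by_cases hI : I = ⊥
    · have h0 : z I = 0 := by
        rw [hz, hI]
        simp only [Ideal.absNorm_bot, Nat.cast_zero]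
        exact Real.zero_rpow (by linarith)
      rw [h0, Complex.ofReal_zero, mul_zero]
      symm
      apply Finset.sum_eq_zero
      intro C _
      rw [Set.indicator_of_notMem (fun h : I ∈ S C => h.1 hI), Complex.ofReal_zero, mul_zero]
    · rw [Finset.sum_eq_single (cls I)]
      · rw [Set.indicator_of_mem (show I ∈ S (cls I) from ⟨hI, rfl⟩)]
      · intro C _ hC
        rw [Set.indicator_of_notMem (fun h : I ∈ S C => hC h.2.symm), Complex.ofReal_zero,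
          mul_zero]
      · intro h
        exact absurd (Finset.mem_univ _) h
  have hsumC : ∀ C ∈ (Finset.univ : Finset (ClassGroup (𝓞 K))),
      Summable (fun I => f C * (((S C).indicator z I : ℝ) : ℂ)) := fun C _ =>
    (Complex.ofRealCLM.summable (hind C)).mul_left _
  calc ∑' I : Ideal (𝓞 K), f (cls I) * ((z I : ℝ) : ℂ)
      = ∑' I : Ideal (𝓞 K), ∑ C, f C * (((S C).indicator z I : ℝ) : ℂ) := tsum_congr hterm
    _ = ∑ C, ∑' I : Ideal (𝓞 K), f C * (((S C).indicator z I : ℝ) : ℂ) :=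
        Summable.tsum_finsetSum hsumC
    _ = ∑ C, f C * ((CL.Zc K C s : ℝ) : ℂ) := by
        refine Finset.sum_congr rfl fun C _ => ?_
        rw [tsum_mul_left, hZc, Complex.ofReal_tsum]

theorem CL.bounded_classL_of (K : Type) [Field K] [NumberField K] (Wt : Weight K)
    (f : ClassGroup (𝓞 K) → ℂ) (hf : ∑ C, f C = 0) :
    ∃ B : ℝ, ∀ s : ℝ, 1 < s → s ≤ 2 →
      ‖∑' I : Ideal (𝓞 K), f (cls I) * (((Ideal.absNorm I : ℝ) ^ (-s) : ℝ) : ℂ)‖ ≤ B := by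
  choose B hB using CL.partial_zeta_compare_of K Wt
  refine ⟨∑ C, ‖f C‖ * B C, fun s hs1 hs2 => ?_⟩
  rw [CL.tsum_eq_sum K f hs1]
  have h1 : ∑ C, f C * ((CL.Zc K C s : ℝ) : ℂ) =
      ∑ C, f C * (((CL.Zc K C s - CL.Zc K 1 s : ℝ)) : ℂ) := by
    have h2 : ∑ C, f C * (((CL.Zc K C s - CL.Zc K 1 s : ℝ)) : ℂ) =
        ∑ C, f C * ((CL.Zc K C s : ℝ) : ℂ) - (∑ C, f C) * ((CL.Zc K 1 s : ℝ) : ℂ) := by
      rw [Finset.sum_mul, ← Finset.sum_sub_distrib]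
      refine Finset.sum_congr rfl fun C _ => ?_
      rw [Complex.ofReal_sub]
      ring
    rw [h2, hf, zero_mul, sub_zero]
  rw [h1]
  refine (norm_sum_le _ _).trans (Finset.sum_le_sum fun C _ => ?_)
  rw [norm_mul, Complex.norm_real, Real.norm_eq_abs]
  exact mul_le_mul_of_nonneg_left (hB C s hs1 hs2) (norm_nonneg _)

end Fermat.Agent.S14Lib
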