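import Mathlib
import Fermat.Agent.S14.ADefs

set_option autoImplicit false

namespace Fermat.Agent.S14Lib

open NumberField NumberField.mixedEmbedding NumberField.InfinitePlace
open scoped Classical

namespace UC

open NumberField.Units NumberField.Units.dirichletUnitTheorem

variable (K : Type) [Field K] [NumberField K]

/-- the weighted sum `Σ(t) = ∑ mult w · t_w` -/
noncomputable def sig : (InfinitePlace K → ℝ) →ₗ[ℝ] ℝ :=
  ∑ w : InfinitePlace K, (mult w : ℝ) • LinearMap.proj w

theorem sig_apply (t : InfinitePlace K → ℝ) : sig K t = ∑ w, (mult w : ℝ) * t w := by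
  simp [sig, LinearMap.sum_apply]

/-- the projection to the logarithmic space -/
noncomputable def proj : (InfinitePlace K → ℝ) →ₗ[ℝ] logSpace K :=
  LinearMap.pi fun w => (mult w.1 : ℝ) • (LinearMap.proj w.1 -
    ((Module.finrank ℚ K : ℝ)⁻¹) • sig K)

theorem proj_apply (t : InfinitePlace K → ℝ) (w : {w : InfinitePlace K // w ≠ w₀}) :
    proj K t w = (mult w.1 : ℝ) * (t w.1 - (Module.finrank ℚ K : ℝ)⁻¹ * sig K t) := by
  simp [proj]

theorem sig_one : sig K (fun _ => 1) = (Module.finrank ℚ K : ℝ) := by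
  rw [sig_apply, ← InfinitePlace.sum_mult_eq]
  simp

theorem proj_one : proj K (fun _ => 1) = 0 := by
  ext w
  have hn : (Module.finrank ℚ K : ℝ) ≠ 0 := by
    exact_mod_cast (Module.finrank_pos (R := ℚ) (M := K)).ne'
  rw [proj_apply, sig_one, inv_mul_cancel₀ hn]
  simp

theorem sig_unit (u : (𝓞 K)ˣ) : sig K (fun w => Real.log (w ((u : 𝓞 K) : K))) = 0 := by
  rw [sig_apply]
  exact sum_mult_mul_log u

theorem proj_unit (u : (𝓞 K)ˣ) :
    proj K (fun w => Real.log (w ((u : 𝓞 K) : K))) = logEmbedding K (Additive.ofMul u) := by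
  ext w
  rw [proj_apply, sig_unit, logEmbedding_component]
  simp

theorem mem_unitLattice (u : (𝓞 K)ˣ) : logEmbedding K (Additive.ofMul u) ∈ unitLattice K :=
  ⟨Additive.ofMul u, trivial, rfl⟩

/-- the real basis of the logarithmic space -/
noncomputable def bas : Module.Basis (Fin (rank K)) ℝ (logSpace K) :=
  (basisUnitLattice K).ofZLatticeBasis ℝ (unitLattice K)

noncomputable def lam (i : Fin (rank K)) : (InfinitePlace K → ℝ) →ₗ[ℝ] ℝ :=
  (bas K).coord i ∘ₗ proj K

noncomputable def e (u : (𝓞 K)ˣ) : Fin (rank K) → ℤ :=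
  fun i => (basisUnitLattice K).repr ⟨logEmbedding K (Additive.ofMul u), mem_unitLattice K u⟩ i

theorem lam_unit (u : (𝓞 K)ˣ) (i : Fin (rank K)) :
    lam K i (fun w => Real.log (w ((u : 𝓞 K) : K))) = (e K u i : ℝ) := by
  rw [lam, LinearMap.comp_apply, proj_unit, Module.Basis.coord_apply]
  exact Module.Basis.ofZLatticeBasis_repr_apply ℝ (unitLattice K) (basisUnitLattice K)
    ⟨logEmbedding K (Additive.ofMul u), mem_unitLattice K u⟩ i

theorem lam_one (i : Fin (rank K)) : lam K i (fun _ => 1) = 0 := by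
  rw [lam, LinearMap.comp_apply, proj_one, map_zero]

theorem e_eq_iff (u v : (𝓞 K)ˣ) : e K u = e K v ↔ u⁻¹ * v ∈ torsion K := by
  rw [← logEmbedding_eq_zero_iff, ofMul_mul, ofMul_inv, map_add, map_neg, neg_add_eq_zero]
  constructor
  · intro h
    have h1 : (basisUnitLattice K).repr ⟨logEmbedding K (Additive.ofMul u), mem_unitLattice K u⟩ =
        (basisUnitLattice K).repr ⟨logEmbedding K (Additive.ofMul v), mem_unitLattice K v⟩ := by
      ext i
      exact congrFun h i
    exact congrArg Subtype.val ((basisUnitLattice K).repr.injective h1)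
  · intro h
    funext i
    simp only [e, h]

theorem e_surjective : Function.Surjective (e K) := by
  intro m
  obtain ⟨x, hx⟩ := (basisUnitLattice K).equivFun.surjective m
  obtain ⟨u, -, hu⟩ := x.2
  refine ⟨Additive.toMul u, ?_⟩
  rw [← hx]
  funext i
  have : (⟨logEmbedding K (Additive.ofMul (Additive.toMul u)), mem_unitLattice K _⟩ :
      unitLattice K) = x := Subtype.ext hu
  simp only [e, this]
  rfl

theorem card_fiber (m : Fin (rank K) → ℤ) :
    Nat.card {u : (𝓞 K)ˣ // e K u = m} = torsionOrder K := by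
  obtain ⟨u₀, hu₀⟩ := e_surjective K m
  rw [torsionOrder]
  refine Nat.card_congr ⟨fun u => ⟨u₀⁻¹ * u.1, (e_eq_iff K u₀ u.1).mp (hu₀.trans u.2.symm)⟩,
    fun z => ⟨u₀ * z.1, ?_⟩, ?_, ?_⟩
  · rw [← hu₀]
    refine ((e_eq_iff K u₀ (u₀ * z.1)).mpr ?_).symm
    rw [inv_mul_cancel_left]
    exact z.2
  · intro u
    simp
  · intro z
    simp

theorem ker_eq_bot : LinearMap.ker ((sig K).prod (LinearMap.pi (lam K))) = ⊥ := by
  rw [LinearMap.ker_eq_bot']
  intro t ht
  have h1 : sig K t = 0 := congrArg Prod.fst ht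
  have h2 : LinearMap.pi (lam K) t = 0 := congrArg Prod.snd ht
  have h3 : proj K t = 0 := by
    apply (bas K).repr.injective
    ext i
    have := congrFun h2 i
    simpa [lam] using this
  have h4 : ∀ w : InfinitePlace K, w ≠ w₀ → t w = 0 := by
    intro w hw
    have := congrFun h3 ⟨w, hw⟩
    rw [proj_apply, h1] at this
    simpa [mult_coe_ne_zero] using this
  funext w
  by_cases hw : w = w₀
  · rw [sig_apply, Finset.sum_eq_single w₀] at h1
    · rw [hw]
      simpa [mult_coe_ne_zero] using h1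
    · intro b _ hb
      rw [h4 b hb, mul_zero]
    · intro h
      exact absurd (Finset.mem_univ _) h
  · exact h4 w hw

theorem bound : ∃ M : ℝ, ∀ (t : InfinitePlace K → ℝ) (w : InfinitePlace K),
    |t w| ≤ M * (|∑ w', (mult w' : ℝ) * t w'| + ∑ i, |lam K i t|) := by
  obtain ⟨C, -, hC⟩ := LinearMap.exists_antilipschitzWith _ (ker_eq_bot K)
  refine ⟨C, fun t w => ?_⟩
  have h1 := hC.le_mul_norm_sub t 0
  rw [add_zero, map_zero, add_zero, norm_neg, norm_neg] at h1
  have h2 : |t w| ≤ ‖t‖ := norm_le_pi_norm t w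
  have h3 : ‖((sig K).prod (LinearMap.pi (lam K))) t‖ ≤
      |∑ w', (mult w' : ℝ) * t w'| + ∑ i, |lam K i t| := by
    have hs : 0 ≤ ∑ i, |lam K i t| := Finset.sum_nonneg fun i _ => abs_nonneg _
    rw [← sig_apply]
    refine max_le ?_ ?_
    · show |sig K t| ≤ _
      linarith
    · show ‖LinearMap.pi (lam K) t‖ ≤ _
      rw [pi_norm_le_iff_of_nonneg (by positivity)]
      intro i
      have : |lam K i t| ≤ ∑ i, |lam K i t| :=
        Finset.single_le_sum (f := fun i => |lam K i t|) (fun i _ => abs_nonneg _)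
          (Finset.mem_univ i)
      show |lam K i t| ≤ _
      linarith [abs_nonneg (sig K t)]
  calc |t w| ≤ ‖t‖ := h2
    _ ≤ C * ‖((sig K).prod (LinearMap.pi (lam K))) t‖ := h1
    _ ≤ C * _ := by gcongr

end UC

/-- (A0) Dirichlet's unit theorem, packaged. -/
theorem exists_unitCoords (K : Type) [Field K] [NumberField K] : Nonempty (UnitCoords K) := by
  obtain ⟨M, hM⟩ := UC.bound K
  exact ⟨{
    r := Units.rank K
    lam := UC.lam K
    e := UC.e K
    W := Units.torsionOrder K
    M := M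
    W_pos := Units.torsionOrder_pos K
    lam_unit := UC.lam_unit K
    lam_one := UC.lam_one K
    card_fiber := UC.card_fiber K
    bound := hM }⟩

end Fermat.Agent.S14Lib
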