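import Mathlib
import Fermat.Agent.S14.ADefs

set_option autoImplicit false
set_option linter.style.haveILetI false

namespace Fermat.Agent.S14Lib

open NumberField NumberField.mixedEmbedding NumberField.InfinitePlace
open scoped Classical

namespace Wt

/-- the tent function -/
noncomputable def tent (c : ℝ) : ℝ := max 0 (1 - |c|)

theorem tent_nonneg (c : ℝ) : 0 ≤ tent c := le_max_left _ _

theorem tent_le_one (c : ℝ) : tent c ≤ 1 := max_le zero_le_one (by linarith [abs_nonneg c])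

theorem tent_eq_zero {c : ℝ} (h : 1 ≤ |c|) : tent c = 0 := max_eq_left (by linarith)

theorem abs_lt_one_of_tent_ne_zero {c : ℝ} (h : tent c ≠ 0) : |c| < 1 := by
  by_contra h1
  exact h (tent_eq_zero (not_lt.mp h1))

theorem tent_lip (a b : ℝ) : |tent a - tent b| ≤ |a - b| := by
  unfold tent
  calc |max 0 (1 - |a|) - max 0 (1 - |b|)| ≤ |(1 - |a|) - (1 - |b|)| := by
        have := abs_max_sub_max_le_abs (1 - |a|) (1 - |b|) 0
        rwa [max_comm (1 - |a|), max_comm (1 - |b|)] at this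
    _ = |(|b| - |a|)| := by congr 1; ring
    _ ≤ |b - a| := abs_abs_sub_abs_le_abs_sub b a
    _ = |a - b| := abs_sub_comm b a

theorem tent_of_nonneg {c : ℝ} (h0 : 0 ≤ c) (h1 : c ≤ 1) : tent c = 1 - c := by
  rw [tent, abs_of_nonneg h0, max_eq_right (by linarith)]

theorem tent_of_nonpos {c : ℝ} (h0 : c ≤ 0) (h1 : -1 ≤ c) : tent c = 1 + c := by
  rw [tent, abs_of_nonpos h0, max_eq_right (by linarith)]
  ring

/-- the two integers `k` where `tent (c + k)` can be nonzero -/
noncomputable def supp (c : ℝ) : Finset ℤ := {-⌊c⌋, -⌊c⌋ - 1}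

theorem tent_sum (c : ℝ) : ∑ k ∈ supp c, tent (c + k) = 1 := by
  have h1 := Int.floor_le c
  have h2 := Int.lt_floor_add_one c
  rw [supp, Finset.sum_pair (by omega)]
  push_cast
  rw [tent_of_nonneg (by linarith) (by linarith), tent_of_nonpos (by linarith) (by linarith)]
  ring

theorem tent_eq_zero_of_notMem (c : ℝ) (k : ℤ) (hk : k ∉ supp c) : tent (c + k) = 0 := by
  have h1 := Int.floor_le c
  have h2 := Int.lt_floor_add_one c
  rw [supp, Finset.mem_insert, Finset.mem_singleton, not_or] at hk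
  apply tent_eq_zero
  rcases lt_or_gt_of_ne hk.1 with h | h
  · have h3 : k ≤ -⌊c⌋ - 2 := by
      have := hk.2
      omega
    have h4 : (k : ℝ) ≤ -(⌊c⌋ : ℝ) - 2 := by exact_mod_cast h3
    rw [le_abs]
    right
    linarith
  · have h3 : -⌊c⌋ + 1 ≤ k := by omega
    have h4 : -(⌊c⌋ : ℝ) + 1 ≤ (k : ℝ) := by exact_mod_cast h3
    rw [le_abs]
    left
    linarith

theorem hasSum_prod_tent {r : ℕ} (c : Fin r → ℝ) :
    HasSum (fun m : Fin r → ℤ => ∏ i, tent (c i + m i)) 1 := by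
  have h1 : ∑ m ∈ Fintype.piFinset (fun i => supp (c i)), ∏ i, tent (c i + m i) = 1 := by
    rw [← Finset.prod_univ_sum (fun i => supp (c i)) (fun i (k : ℤ) => tent (c i + k))]
    exact Finset.prod_eq_one fun i _ => tent_sum (c i)
  rw [← h1]
  apply hasSum_sum_of_ne_finset_zero
  intro m hm
  rw [Fintype.mem_piFinset, not_forall] at hm
  obtain ⟨i, hi⟩ := hm
  exact Finset.prod_eq_zero (Finset.mem_univ i) (tent_eq_zero_of_notMem _ _ hi)

theorem hasSum_comp_of_card_fiber {α β : Type*} (e : α → β) (W : ℕ) (hW : 0 < W)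
    (hcard : ∀ b, Nat.card {a // e a = b} = W) (g : β → ℝ) (hg : ∀ b, 0 ≤ g b) (S : ℝ)
    (hS : HasSum g S) : HasSum (fun a => g (e a)) (W * S) := by
  rw [← (Equiv.sigmaFiberEquiv e).hasSum_iff]
  have hfin : ∀ b, Finite {a // e a = b} := fun b =>
    Nat.finite_of_card_ne_zero (by rw [hcard b]; exact hW.ne')
  have hfib : ∀ b, HasSum (fun c : {a // e a = b} =>
      ((fun a => g (e a)) ∘ (Equiv.sigmaFiberEquiv e)) ⟨b, c⟩) (W * g b) := by
    intro b
    haveI := hfin b
    haveI := Fintype.ofFinite {a // e a = b}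
    have h1 : ∀ c : {a // e a = b},
        ((fun a => g (e a)) ∘ (Equiv.sigmaFiberEquiv e)) ⟨b, c⟩ = g b := by
      intro c
      simp [Equiv.sigmaFiberEquiv, c.2]
    simp_rw [h1]
    have h2 := hasSum_fintype (fun _ : {a // e a = b} => g b)
    rw [Finset.sum_const, Finset.card_univ, ← Nat.card_eq_fintype_card, hcard b, nsmul_eq_mul] at h2
    exact h2
  refine HasSum.sigma_of_hasSum (hS.mul_left (W : ℝ)) hfib ?_
  rw [summable_sigma_of_nonneg]
  · refine ⟨fun b => (hfib b).summable, ?_⟩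
    simp_rw [fun b => (hfib b).tsum_eq]
    exact (hS.mul_left (W : ℝ)).summable
  · intro x
    exact hg _

theorem abs_prod_sub_prod_le {ι : Type*} (s : Finset ι) (a b : ι → ℝ)
    (ha : ∀ i ∈ s, |a i| ≤ 1) (hb : ∀ i ∈ s, |b i| ≤ 1) :
    |∏ i ∈ s, a i - ∏ i ∈ s, b i| ≤ ∑ i ∈ s, |a i - b i| := by
  induction s using Finset.induction_on with
  | empty => simp
  | insert j s hj ih =>
    rw [Finset.prod_insert hj, Finset.prod_insert hj, Finset.sum_insert hj]
    have h1 := ih (fun i hi => ha i (Finset.mem_insert_of_mem hi))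
      (fun i hi => hb i (Finset.mem_insert_of_mem hi))
    have h2 : |∏ i ∈ s, a i| ≤ 1 := by
      rw [Finset.abs_prod]
      exact Finset.prod_le_one (fun i _ => abs_nonneg _)
        (fun i hi => ha i (Finset.mem_insert_of_mem hi))
    have h3 := hb j (Finset.mem_insert_self j s)
    have h4 : a j * ∏ i ∈ s, a i - b j * ∏ i ∈ s, b i =
        (a j - b j) * ∏ i ∈ s, a i + b j * (∏ i ∈ s, a i - ∏ i ∈ s, b i) := by ring
    rw [h4]
    calc |(a j - b j) * ∏ i ∈ s, a i + b j * (∏ i ∈ s, a i - ∏ i ∈ s, b i)|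
        ≤ |(a j - b j) * ∏ i ∈ s, a i| + |b j * (∏ i ∈ s, a i - ∏ i ∈ s, b i)| := abs_add_le _ _
      _ = |a j - b j| * |∏ i ∈ s, a i| + |b j| * |∏ i ∈ s, a i - ∏ i ∈ s, b i| := by
          rw [abs_mul, abs_mul]
      _ ≤ |a j - b j| * 1 + 1 * ∑ i ∈ s, |a i - b i| := by
          gcongr
      _ = _ := by ring

theorem abs_log_sub_log_le {δ a b : ℝ} (hδ : 0 < δ) (ha : δ ≤ a) (hb : δ ≤ b) :
    |Real.log a - Real.log b| ≤ δ⁻¹ * |a - b| := by
  wlog hab : b ≤ a generalizing a b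
  · rw [abs_sub_comm, abs_sub_comm a b]
    exact this hb ha (le_of_not_ge hab)
  have hb0 : 0 < b := lt_of_lt_of_le hδ hb
  have ha0 : 0 < a := lt_of_lt_of_le hδ ha
  rw [abs_of_nonneg (sub_nonneg.mpr (Real.log_le_log hb0 hab)), abs_of_nonneg (sub_nonneg.mpr hab),
    ← Real.log_div ha0.ne' hb0.ne']
  calc Real.log (a / b) ≤ a / b - 1 := Real.log_le_sub_one_of_pos (div_pos ha0 hb0)
    _ = b⁻¹ * (a - b) := by field_simp
    _ ≤ δ⁻¹ * (a - b) := by
        have : b⁻¹ ≤ δ⁻¹ := inv_anti₀ hδ hb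
        have h2 : 0 ≤ a - b := sub_nonneg.mpr hab
        gcongr

theorem abs_exp_sub_exp_le {A a b : ℝ} (ha : a ≤ A) (hb : b ≤ A) :
    |Real.exp a - Real.exp b| ≤ Real.exp A * |a - b| := by
  wlog hab : b ≤ a generalizing a b
  · rw [abs_sub_comm, abs_sub_comm a b]
    exact this hb ha (le_of_not_ge hab)
  rw [abs_of_nonneg (sub_nonneg.mpr (Real.exp_le_exp.mpr hab)), abs_of_nonneg (sub_nonneg.mpr hab)]
  have h1 : Real.exp b = Real.exp a * Real.exp (b - a) := by
    rw [← Real.exp_add]; congr 1; ring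
  have h2 : b - a + 1 ≤ Real.exp (b - a) := Real.add_one_le_exp _
  calc Real.exp a - Real.exp b = Real.exp a * (1 - Real.exp (b - a)) := by rw [h1]; ring
    _ ≤ Real.exp a * (a - b) := by
        have := Real.exp_pos a
        have h3 : 1 - Real.exp (b - a) ≤ a - b := by linarith
        gcongr
    _ ≤ Real.exp A * (a - b) := by
        have h3 : 0 ≤ a - b := sub_nonneg.mpr hab
        have := Real.exp_le_exp.mpr ha
        gcongr

variable {K : Type} [Field K] [NumberField K] (U : UnitCoords K)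

/-- the logarithmic coordinates -/
noncomputable def ell (z : mixedSpace K) : InfinitePlace K → ℝ :=
  fun w => Real.log (normAtPlace w z)

/-- the partition of unity, in logarithmic coordinates -/
noncomputable def rho (t : InfinitePlace K → ℝ) : ℝ := ∏ i, tent (U.lam i t)

theorem rho_nonneg (t : InfinitePlace K → ℝ) : 0 ≤ rho U t :=
  Finset.prod_nonneg fun _ _ => tent_nonneg _

theorem rho_le_one (t : InfinitePlace K → ℝ) : rho U t ≤ 1 :=
  Finset.prod_le_one (fun _ _ => tent_nonneg _) (fun _ _ => tent_le_one _)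

/-- the weight function -/
noncomputable def HH (s : ℝ) (z : mixedSpace K) : ℝ :=
  if mixedEmbedding.norm z = 0 then 0 else (mixedEmbedding.norm z) ^ (-s) * rho U (ell z)

theorem HH_nonneg (s : ℝ) (z : mixedSpace K) : 0 ≤ HH U s z := by
  unfold HH
  split_ifs
  · exact le_rfl
  · exact mul_nonneg (Real.rpow_nonneg (mixedEmbedding.norm_nonneg z) _) (rho_nonneg U _)

theorem HH_zero (s : ℝ) : HH U s 0 = 0 := by
  rw [HH, if_pos (map_zero _)]

theorem norm_mixedEmbedding_int (a : 𝓞 K) :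
    mixedEmbedding.norm (mixedEmbedding K (a : K)) = (Ideal.absNorm (Ideal.span {a}) : ℝ) := by
  rw [norm_eq_norm, Ideal.absNorm_span_singleton, ← Algebra.coe_norm_int, Nat.cast_natAbs]
  push_cast
  rfl

theorem HH_le_one (s : ℝ) (hs : 0 ≤ s) (a : 𝓞 K) : HH U s (mixedEmbedding K (a : K)) ≤ 1 := by
  unfold HH
  split_ifs with h
  · exact zero_le_one
  · rw [norm_mixedEmbedding_int] at h ⊢
    have h1 : (1 : ℝ) ≤ (Ideal.absNorm (Ideal.span {a}) : ℝ) := by
      have : Ideal.absNorm (Ideal.span {a}) ≠ 0 := by exact_mod_cast h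
      exact_mod_cast Nat.one_le_iff_ne_zero.mpr this
    have h2 : (Ideal.absNorm (Ideal.span {a}) : ℝ) ^ (-s) ≤ 1 :=
      Real.rpow_le_one_of_one_le_of_nonpos h1 (by linarith)
    calc _ ≤ (1 : ℝ) * 1 := by
          have := rho_le_one U (ell (mixedEmbedding K (a : K)))
          have h3 := rho_nonneg U (ell (mixedEmbedding K (a : K)))
          gcongr
      _ = 1 := one_mul 1

theorem HH_unfold (s : ℝ) (a : 𝓞 K) (ha : a ≠ 0) :
    HasSum (fun u : (𝓞 K)ˣ => HH U s (mixedEmbedding K (((u : 𝓞 K) * a : 𝓞 K) : K)))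
      ((U.W : ℝ) * (Ideal.absNorm (Ideal.span {a}) : ℝ) ^ (-s)) := by
  have hN0 : (Ideal.absNorm (Ideal.span {a}) : ℝ) ≠ 0 := by
    rw [Nat.cast_ne_zero, Ne, Ideal.absNorm_eq_zero_iff, Ideal.span_singleton_eq_bot]
    exact ha
  have haK : (a : K) ≠ 0 := by
    rwa [Ne, RingOfIntegers.coe_eq_zero_iff]
  set c : Fin U.r → ℝ := fun i => U.lam i (ell (mixedEmbedding K (a : K))) with hc
  have h1 : ∀ u : (𝓞 K)ˣ, HH U s (mixedEmbedding K (((u : 𝓞 K) * a : 𝓞 K) : K)) =
      (Ideal.absNorm (Ideal.span {a}) : ℝ) ^ (-s) * ∏ i, tent (c i + (U.e u i : ℤ)) := by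
    intro u
    have hspan : Ideal.span {(u : 𝓞 K) * a} = Ideal.span {a} :=
      Ideal.span_singleton_mul_left_unit u.isUnit a
    rw [HH, norm_mixedEmbedding_int, hspan, if_neg hN0, rho]
    congr 1
    refine Finset.prod_congr rfl fun i _ => ?_
    congr 1
    have h2 : ell (mixedEmbedding K (((u : 𝓞 K) * a : 𝓞 K) : K)) =
        ell (mixedEmbedding K (a : K)) + fun w => Real.log (w ((u : 𝓞 K) : K)) := by
      funext w
      simp only [ell, normAtPlace_apply, Pi.add_apply, map_mul]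
      rw [Real.log_mul, add_comm]
      · exact (map_ne_zero w).mpr (by
          rw [Ne, RingOfIntegers.coe_eq_zero_iff]; exact u.ne_zero)
      · exact (map_ne_zero w).mpr haK
    rw [h2, map_add, U.lam_unit]
  simp_rw [h1]
  have h3 := hasSum_comp_of_card_fiber U.e U.W U.W_pos U.card_fiber
    (fun m : Fin U.r → ℤ => ∏ i, tent (c i + m i))
    (fun m => Finset.prod_nonneg fun _ _ => tent_nonneg _) 1 (hasSum_prod_tent c)
  have h4 := h3.mul_left ((Ideal.absNorm (Ideal.span {a}) : ℝ) ^ (-s))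
  have h5 : (Ideal.absNorm (Ideal.span {a}) : ℝ) ^ (-s) * ((U.W : ℝ) * 1) =
      (U.W : ℝ) * (Ideal.absNorm (Ideal.span {a}) : ℝ) ^ (-s) := by ring
  rw [h5] at h4
  exact h4

/-- the weighted sum of the coordinates -/
noncomputable def sg (t : InfinitePlace K → ℝ) : ℝ := ∑ w, (mult w : ℝ) * t w

theorem sum_mult_real : ∑ w : InfinitePlace K, (mult w : ℝ) = (Module.finrank ℚ K : ℝ) := by
  rw [← InfinitePlace.sum_mult_eq]
  push_cast
  rfl

theorem finrank_pos_real : (0 : ℝ) < (Module.finrank ℚ K : ℝ) := by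
  exact_mod_cast (Module.finrank_pos (R := ℚ) (M := K))

theorem rho_eq_zero (t : InfinitePlace K → ℝ) (w w' : InfinitePlace K)
    (h : 2 * |U.M| * U.r < t w' - t w) : rho U t = 0 := by
  by_contra hne
  have hlam : ∀ i, |U.lam i t| < 1 := by
    intro i
    apply abs_lt_one_of_tent_ne_zero
    exact (Finset.prod_ne_zero_iff.mp hne) i (Finset.mem_univ i)
  have hn := finrank_pos_real (K := K)
  set a : ℝ := sg t / (Module.finrank ℚ K : ℝ) with ha
  set t' : InfinitePlace K → ℝ := t - a • (fun _ => (1 : ℝ)) with ht'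
  have h1 : ∀ i, U.lam i t' = U.lam i t := by
    intro i
    rw [ht', map_sub, map_smul, U.lam_one, smul_zero, sub_zero]
  have h2 : ∑ w', (mult w' : ℝ) * t' w' = 0 := by
    have : ∀ w', (mult w' : ℝ) * t' w' = (mult w' : ℝ) * t w' - (mult w' : ℝ) * a := by
      intro w'
      simp only [ht', Pi.sub_apply, Pi.smul_apply, smul_eq_mul, mul_one]
      ring
    simp_rw [this]
    rw [Finset.sum_sub_distrib, ← Finset.sum_mul, sum_mult_real, ha]
    unfold sg
    field_simp
    ring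
  have h3 : ∀ v, |t' v| ≤ |U.M| * U.r := by
    intro v
    have h4 := U.bound t' v
    rw [h2, abs_zero, zero_add] at h4
    simp_rw [h1] at h4
    have h5 : ∑ i, |U.lam i t| ≤ U.r := by
      calc ∑ i, |U.lam i t| ≤ ∑ _i : Fin U.r, (1 : ℝ) :=
            Finset.sum_le_sum fun i _ => (hlam i).le
        _ = U.r := by simp
    have h6 : 0 ≤ ∑ i, |U.lam i t| := Finset.sum_nonneg fun i _ => abs_nonneg _
    calc |t' v| ≤ U.M * ∑ i, |U.lam i t| := h4
      _ ≤ |U.M| * ∑ i, |U.lam i t| := by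
          have := le_abs_self U.M
          gcongr
      _ ≤ |U.M| * U.r := by gcongr
  have h7 : t w' - t w = t' w' - t' w := by
    simp only [ht', Pi.sub_apply, Pi.smul_apply, smul_eq_mul, mul_one]
    ring
  have h8 := h3 w'
  have h9 := h3 w
  rw [abs_le] at h8 h9
  linarith [h8.2, h9.1]

theorem HH_smul (s c : ℝ) (hc : 0 < c) (z : mixedSpace K) :
    HH U s (c • z) = c ^ (-((Module.finrank ℚ K : ℝ) * s)) * HH U s z := by
  unfold HH
  rw [mixedEmbedding.norm_smul, abs_of_pos hc]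
  by_cases hz : mixedEmbedding.norm z = 0
  · rw [if_pos hz, if_pos (by rw [hz, mul_zero]), mul_zero]
  · rw [if_neg hz, if_neg (mul_ne_zero (pow_ne_zero _ hc.ne') hz)]
    have h1 : ell (c • z) = ell z + Real.log c • (fun _ => (1 : ℝ)) := by
      funext w
      simp only [ell, Pi.add_apply, Pi.smul_apply, smul_eq_mul, mul_one]
      rw [normAtPlace_smul, abs_of_pos hc, Real.log_mul hc.ne'
        (mixedEmbedding.norm_ne_zero_iff.mp hz w), add_comm]
    have h2 : rho U (ell (c • z)) = rho U (ell z) := by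
      unfold rho
      refine Finset.prod_congr rfl fun i _ => ?_
      rw [h1, map_add, map_smul, U.lam_one, smul_zero, add_zero]
    rw [h2, Real.mul_rpow (pow_nonneg hc.le _) (mixedEmbedding.norm_nonneg z), ← Real.rpow_natCast,
      ← Real.rpow_mul hc.le, mul_assoc]
    congr 2
    ring

theorem normAtPlace_le_norm (w : InfinitePlace K) (x : mixedSpace K) : normAtPlace w x ≤ ‖x‖ := by
  rw [norm_eq_sup'_normAtPlace]
  exact Finset.le_sup' (fun w => normAtPlace w x) (Finset.mem_univ w)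

theorem exists_normAtPlace_eq_norm (x : mixedSpace K) : ∃ w, normAtPlace w x = ‖x‖ := by
  rw [norm_eq_sup'_normAtPlace]
  obtain ⟨w, -, hw⟩ := Finset.exists_mem_eq_sup' Finset.univ_nonempty (fun w => normAtPlace w x)
  exact ⟨w, hw.symm⟩

theorem abs_normAtPlace_sub (w : InfinitePlace K) (x y : mixedSpace K) :
    |normAtPlace w x - normAtPlace w y| ≤ ‖x - y‖ := by
  rw [abs_le]
  constructor
  · have h1 := normAtPlace_add_le w x (y - x)
    have h2 := normAtPlace_le_norm w (y - x)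
    rw [add_sub_cancel] at h1
    rw [norm_sub_rev] at h2
    linarith
  · have h1 := normAtPlace_add_le w y (x - y)
    have h2 := normAtPlace_le_norm w (x - y)
    rw [add_sub_cancel] at h1
    linarith

/-- truncated logarithmic coordinates -/
noncomputable def phi (δ : ℝ) (z : mixedSpace K) : InfinitePlace K → ℝ :=
  fun w => Real.log (max (normAtPlace w z) δ)

theorem norm_phi_sub {δ : ℝ} (hδ : 0 < δ) (x y : mixedSpace K) :
    ‖phi δ x - phi δ y‖ ≤ δ⁻¹ * ‖x - y‖ := by
  rw [pi_norm_le_iff_of_nonneg (by positivity)]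
  intro w
  show |Real.log (max (normAtPlace w x) δ) - Real.log (max (normAtPlace w y) δ)| ≤ _
  calc _ ≤ δ⁻¹ * |max (normAtPlace w x) δ - max (normAtPlace w y) δ| :=
        abs_log_sub_log_le hδ (le_max_right _ _) (le_max_right _ _)
    _ ≤ δ⁻¹ * |normAtPlace w x - normAtPlace w y| := by
        have := abs_max_sub_max_le_abs (normAtPlace w x) (normAtPlace w y) δ
        gcongr
    _ ≤ δ⁻¹ * ‖x - y‖ := by
        have := abs_normAtPlace_sub w x y
        gcongr

theorem rho_lip : ∃ C : ℝ, 0 ≤ C ∧ ∀ t t' : InfinitePlace K → ℝ,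
    |rho U t - rho U t'| ≤ C * ‖t - t'‖ := by
  refine ⟨∑ i, ‖LinearMap.toContinuousLinearMap (U.lam i)‖,
    Finset.sum_nonneg fun _ _ => norm_nonneg _, fun t t' => ?_⟩
  calc |rho U t - rho U t'| ≤ ∑ i, |tent (U.lam i t) - tent (U.lam i t')| :=
        abs_prod_sub_prod_le _ _ _
          (fun i _ => by rw [abs_of_nonneg (tent_nonneg _)]; exact tent_le_one _)
          (fun i _ => by rw [abs_of_nonneg (tent_nonneg _)]; exact tent_le_one _)
    _ ≤ ∑ i, ‖LinearMap.toContinuousLinearMap (U.lam i)‖ * ‖t - t'‖ := by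
        refine Finset.sum_le_sum fun i _ => ?_
        calc |tent (U.lam i t) - tent (U.lam i t')| ≤ |U.lam i t - U.lam i t'| := tent_lip _ _
          _ = ‖LinearMap.toContinuousLinearMap (U.lam i) (t - t')‖ := by
              rw [← map_sub]; rfl
          _ ≤ _ := ContinuousLinearMap.le_opNorm _ _
    _ = _ := by rw [Finset.sum_mul]

theorem sg_lip (t t' : InfinitePlace K → ℝ) :
    |sg t - sg t'| ≤ (Module.finrank ℚ K : ℝ) * ‖t - t'‖ := by
  unfold sg
  rw [← Finset.sum_sub_distrib, ← sum_mult_real, Finset.sum_mul]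
  calc |∑ w, ((mult w : ℝ) * t w - (mult w : ℝ) * t' w)|
      ≤ ∑ w, |(mult w : ℝ) * t w - (mult w : ℝ) * t' w| := Finset.abs_sum_le_sum_abs _ _
    _ ≤ _ := by
        refine Finset.sum_le_sum fun w _ => ?_
        rw [← mul_sub, abs_mul, abs_of_nonneg (Nat.cast_nonneg _)]
        have : |t w - t' w| ≤ ‖t - t'‖ := norm_le_pi_norm (t - t') w
        gcongr

/-- the norm factor, truncated, in logarithmic coordinates -/
noncomputable def F0 (δ s : ℝ) (t : InfinitePlace K → ℝ) : ℝ :=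
  Real.exp (-s * max (sg t) ((Module.finrank ℚ K : ℝ) * Real.log δ))

theorem F0_arg_le {δ s : ℝ} (hδ1 : δ ≤ 1) (hδ : 0 < δ) (hs0 : 0 ≤ s) (hs : s ≤ 2)
    (t : InfinitePlace K → ℝ) :
    -s * max (sg t) ((Module.finrank ℚ K : ℝ) * Real.log δ) ≤
      -2 * ((Module.finrank ℚ K : ℝ) * Real.log δ) := by
  have h1 : (Module.finrank ℚ K : ℝ) * Real.log δ ≤ 0 :=
    mul_nonpos_of_nonneg_of_nonpos (Nat.cast_nonneg _) (Real.log_nonpos hδ.le hδ1)
  have h2 := le_max_right (sg t) ((Module.finrank ℚ K : ℝ) * Real.log δ)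
  nlinarith

theorem F0_lip {δ s : ℝ} (hδ1 : δ ≤ 1) (hδ : 0 < δ) (hs0 : 0 ≤ s) (hs : s ≤ 2)
    (t t' : InfinitePlace K → ℝ) :
    |F0 δ s t - F0 δ s t'| ≤ Real.exp (-2 * ((Module.finrank ℚ K : ℝ) * Real.log δ)) *
      (2 * (Module.finrank ℚ K : ℝ)) * ‖t - t'‖ := by
  unfold F0
  calc _ ≤ Real.exp (-2 * ((Module.finrank ℚ K : ℝ) * Real.log δ)) *
        |(-s * max (sg t) ((Module.finrank ℚ K : ℝ) * Real.log δ)) -
          (-s * max (sg t') ((Module.finrank ℚ K : ℝ) * Real.log δ))| :=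
        abs_exp_sub_exp_le (F0_arg_le hδ1 hδ hs0 hs t) (F0_arg_le hδ1 hδ hs0 hs t')
    _ ≤ Real.exp (-2 * ((Module.finrank ℚ K : ℝ) * Real.log δ)) *
        (2 * ((Module.finrank ℚ K : ℝ) * ‖t - t'‖)) := by
        rw [← mul_sub, abs_mul, abs_neg, abs_of_nonneg hs0]
        have h1 := abs_max_sub_max_le_abs (sg t) (sg t') ((Module.finrank ℚ K : ℝ) * Real.log δ)
        have h2 := sg_lip t t'
        have h3 := h1.trans h2
        gcongr
    _ = _ := by ring

theorem F0_le {δ s : ℝ} (hδ1 : δ ≤ 1) (hδ : 0 < δ) (hs0 : 0 ≤ s) (hs : s ≤ 2)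
    (t : InfinitePlace K → ℝ) :
    F0 δ s t ≤ Real.exp (-2 * ((Module.finrank ℚ K : ℝ) * Real.log δ)) :=
  Real.exp_le_exp.mpr (F0_arg_le hδ1 hδ hs0 hs t)

theorem GG_lip {δ : ℝ} (hδ1 : δ ≤ 1) (hδ : 0 < δ) : ∃ C : ℝ, 0 ≤ C ∧ ∀ s : ℝ, 0 ≤ s → s ≤ 2 →
    ∀ t t' : InfinitePlace K → ℝ,
    |F0 δ s t * rho U t - F0 δ s t' * rho U t'| ≤ C * ‖t - t'‖ := by
  obtain ⟨C, hC0, hC⟩ := rho_lip U
  set E := Real.exp (-2 * ((Module.finrank ℚ K : ℝ) * Real.log δ)) with hE
  have hE0 : 0 ≤ E := (Real.exp_pos _).le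
  refine ⟨E * C + E * (2 * (Module.finrank ℚ K : ℝ)), by positivity, fun s hs0 hs t t' => ?_⟩
  have h1 : F0 δ s t * rho U t - F0 δ s t' * rho U t' =
      F0 δ s t * (rho U t - rho U t') + (F0 δ s t - F0 δ s t') * rho U t' := by ring
  rw [h1]
  calc _ ≤ |F0 δ s t * (rho U t - rho U t')| + |(F0 δ s t - F0 δ s t') * rho U t'| :=
        abs_add_le _ _
    _ = F0 δ s t * |rho U t - rho U t'| + |F0 δ s t - F0 δ s t'| * rho U t' := by
        rw [abs_mul, abs_mul, abs_of_nonneg (show 0 ≤ F0 δ s t from (Real.exp_pos _).le),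
          abs_of_nonneg (rho_nonneg U t')]
    _ ≤ E * (C * ‖t - t'‖) + (E * (2 * (Module.finrank ℚ K : ℝ)) * ‖t - t'‖) * 1 := by
        have h2 := F0_le hδ1 hδ hs0 hs t
        have h3 := hC t t'
        have h4 := F0_lip hδ1 hδ hs0 hs t t'
        have h5 := rho_le_one U t'
        have h6 := rho_nonneg U t'
        gcongr
    _ = _ := by ring

theorem HH_eq_GG (s : ℝ) {δ : ℝ} (hδ : 0 < δ)
    (hD : 2 * |U.M| * U.r < Real.log (1 / 2) - Real.log δ)
    (z : mixedSpace K) (hz : 1 / 2 ≤ ‖z‖) :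
    HH U s z = F0 δ s (phi δ z) * rho U (phi δ z) := by
  obtain ⟨w', hw'⟩ := exists_normAtPlace_eq_norm z
  by_cases hall : ∀ w, δ ≤ normAtPlace w z
  · have hphi : phi δ z = ell z := by
      funext w
      simp only [phi, ell, max_eq_left (hall w)]
    have hpos : ∀ w, 0 < normAtPlace w z := fun w => lt_of_lt_of_le hδ (hall w)
    have hN : 0 < mixedEmbedding.norm z := by
      rw [mixedEmbedding.norm_apply]
      exact Finset.prod_pos fun w _ => pow_pos (hpos w) _
    have hsg : sg (ell z) = Real.log (mixedEmbedding.norm z) := by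
      rw [mixedEmbedding.norm_apply, Real.log_prod (fun w _ => (pow_pos (hpos w) _).ne')]
      unfold sg ell
      refine Finset.sum_congr rfl fun w _ => ?_
      rw [Real.log_pow]
    have hge : (Module.finrank ℚ K : ℝ) * Real.log δ ≤ sg (ell z) := by
      rw [← sum_mult_real, Finset.sum_mul]
      unfold sg ell
      refine Finset.sum_le_sum fun w _ => ?_
      have := Real.log_le_log hδ (hall w)
      gcongr
    rw [HH, if_neg hN.ne', hphi, F0, max_eq_left hge, hsg, Real.rpow_def_of_pos hN]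
    congr 2
    ring
  · push Not at hall
    obtain ⟨w, hw⟩ := hall
    have h1 : rho U (phi δ z) = 0 := by
      apply rho_eq_zero U _ w w'
      have h2 : phi δ z w = Real.log δ := by
        simp only [phi, max_eq_right hw.le]
      have h3 : Real.log (1 / 2) ≤ phi δ z w' := by
        simp only [phi]
        apply Real.log_le_log (by norm_num)
        rw [hw']
        exact le_max_of_le_left hz
      linarith
    rw [h1, mul_zero, HH]
    split_ifs with h0
    · rfl
    · have hpos : 0 < normAtPlace w z :=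
        lt_of_le_of_ne (normAtPlace_nonneg w z) (mixedEmbedding.norm_ne_zero_iff.mp h0 w).symm
      have h4 : rho U (ell z) = 0 := by
        apply rho_eq_zero U _ w w'
        have h2 : ell z w ≤ Real.log δ := Real.log_le_log hpos hw.le
        have h3 : Real.log (1 / 2) ≤ ell z w' := by
          simp only [ell]
          apply Real.log_le_log (by norm_num)
          rw [hw']
          exact hz
        linarith
      rw [h4, mul_zero]

theorem HH_shell : ∃ L : ℝ, 0 ≤ L ∧ ∀ s : ℝ, 0 ≤ s → s ≤ 2 → ∀ x y : mixedSpace K,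
    1 / 2 ≤ ‖x‖ → 1 / 2 ≤ ‖y‖ → |HH U s x - HH U s y| ≤ L * ‖x - y‖ := by
  set D : ℝ := 2 * |U.M| * U.r + 1 with hDdef
  have hD0 : 0 ≤ D := by positivity
  set δ : ℝ := Real.exp (-D) / 2 with hδdef
  have hδ : 0 < δ := by positivity
  have hδ1 : δ ≤ 1 := by
    have : Real.exp (-D) ≤ 1 := Real.exp_le_one_iff.mpr (by linarith)
    rw [hδdef]
    linarith
  have hlog : Real.log (1 / 2) - Real.log δ = D := by
    rw [hδdef, Real.log_div (Real.exp_pos _).ne' (by norm_num), Real.log_exp,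
      Real.log_div (by norm_num) (by norm_num), Real.log_one]
    ring
  have hD : 2 * |U.M| * U.r < Real.log (1 / 2) - Real.log δ := by
    rw [hlog, hDdef]
    linarith
  obtain ⟨C, hC0, hC⟩ := GG_lip U hδ1 hδ
  refine ⟨C * δ⁻¹, by positivity, fun s hs0 hs x y hx hy => ?_⟩
  rw [HH_eq_GG U s hδ hD x hx, HH_eq_GG U s hδ hD y hy]
  calc _ ≤ C * ‖phi δ x - phi δ y‖ := hC s hs0 hs _ _
    _ ≤ C * (δ⁻¹ * ‖x - y‖) := by
        have := norm_phi_sub hδ x y
        gcongr
    _ = _ := by ring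

theorem HH_lip : ∃ L : ℝ, ∀ s, 1 ≤ s → s ≤ 2 → ∀ x y : mixedSpace K, 1 ≤ ‖x‖ →
    ‖x - y‖ ≤ ‖x‖ / 2 →
    |HH U s x - HH U s y| ≤ L * ‖x - y‖ * ‖x‖ ^ (-(Module.finrank ℚ K : ℝ) - 1) := by
  obtain ⟨L, hL0, hL⟩ := HH_shell U
  refine ⟨L, fun s hs1 hs2 x y hx hxy => ?_⟩
  set c : ℝ := ‖x‖ with hc
  have hc0 : 0 < c := by linarith
  set x' : mixedSpace K := c⁻¹ • x with hx'
  set y' : mixedSpace K := c⁻¹ • y with hy'
  have hxx : x = c • x' := by rw [hx', smul_smul, mul_inv_cancel₀ hc0.ne', one_smul]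
  have hyy : y = c • y' := by rw [hy', smul_smul, mul_inv_cancel₀ hc0.ne', one_smul]
  have hnx : ‖x'‖ = 1 := by
    rw [hx', _root_.norm_smul, norm_inv, Real.norm_of_nonneg hc0.le, ← hc, inv_mul_cancel₀ hc0.ne']
  have hsub : ‖x' - y'‖ = c⁻¹ * ‖x - y‖ := by
    rw [hx', hy', ← smul_sub, _root_.norm_smul, norm_inv, Real.norm_of_nonneg hc0.le]
  have hsub2 : ‖x' - y'‖ ≤ 1 / 2 := by
    rw [hsub, inv_mul_le_iff₀ hc0]
    linarith
  have hny : 1 / 2 ≤ ‖y'‖ := by
    have h1 : ‖x'‖ ≤ ‖y'‖ + ‖x' - y'‖ := by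
      have := norm_add_le y' (x' - y')
      rwa [add_sub_cancel] at this
    linarith
  have h2 := hL s (by linarith) hs2 x' y' (by rw [hnx]; norm_num) hny
  have hn := finrank_pos_real (K := K)
  conv_lhs => rw [hxx, hyy]
  rw [HH_smul U s c hc0, HH_smul U s c hc0, ← mul_sub, abs_mul,
    abs_of_nonneg (Real.rpow_nonneg hc0.le _)]
  calc c ^ (-((Module.finrank ℚ K : ℝ) * s)) * |HH U s x' - HH U s y'|
      ≤ c ^ (-((Module.finrank ℚ K : ℝ) * s)) * (L * (c⁻¹ * ‖x - y‖)) := by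
        rw [hsub] at h2
        gcongr
    _ = L * ‖x - y‖ * (c ^ (-((Module.finrank ℚ K : ℝ) * s)) * c⁻¹) := by ring
    _ = L * ‖x - y‖ * c ^ (-((Module.finrank ℚ K : ℝ) * s) - 1) := by
        rw [Real.rpow_sub_one hc0.ne', div_eq_mul_inv]
    _ ≤ L * ‖x - y‖ * c ^ (-(Module.finrank ℚ K : ℝ) - 1) := by
        have h3 : c ^ (-((Module.finrank ℚ K : ℝ) * s) - 1) ≤
            c ^ (-(Module.finrank ℚ K : ℝ) - 1) := by
          apply Real.rpow_le_rpow_of_exponent_le hx
          nlinarith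
        gcongr

end Wt

/-- (A1) construction of the weight from unit coordinates. -/
theorem exists_weight (K : Type) [Field K] [NumberField K] (U : UnitCoords K) :
    Nonempty (Weight K) := by
  obtain ⟨L, hL⟩ := Wt.HH_lip U
  exact ⟨{
    H := Wt.HH U
    W := U.W
    L := L
    W_pos := U.W_pos
    nonneg := Wt.HH_nonneg U
    zero := Wt.HH_zero U
    le_one := Wt.HH_le_one U
    lip := hL
    unfold := Wt.HH_unfold U }⟩

end Fermat.Agent.S14Lib
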