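import Mathlib
import Fermat.Agent.S14.ClassLCore
import Fermat.Agent.S14.UnitCoords
import Fermat.Agent.S14.Weight

/-!
# S14 (A4): class group `L`-series are bounded near `s = 1` (final statements)
-/

set_option autoImplicit false

namespace Fermat.Agent.S14Lib

open NumberField NumberField.mixedEmbedding NumberField.InfinitePlace
open scoped Classical

/-- (A4b) partial zeta functions of two classes differ by `O(1)`. -/
theorem partial_zeta_compare (K : Type) [Field K] [NumberField K] (C : ClassGroup (𝓞 K)) :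
    ∃ B : ℝ, ∀ s : ℝ, 1 < s → s ≤ 2 →
      |∑' I : {I : Ideal (𝓞 K) // I ≠ ⊥ ∧ cls I = C}, (Ideal.absNorm I.1 : ℝ) ^ (-s) -
        ∑' I : {I : Ideal (𝓞 K) // I ≠ ⊥ ∧ cls I = 1}, (Ideal.absNorm I.1 : ℝ) ^ (-s)| ≤ B :=
  CL.partial_zeta_compare_of K (exists_weight K (exists_unitCoords K).some).some C

/-- (A) class-group L-series are bounded near `s = 1`. -/
theorem bounded_classL (K : Type) [Field K] [NumberField K]
    (f : ClassGroup (𝓞 K) → ℂ) (hf : ∑ C, f C = 0) :
    ∃ B : ℝ, ∀ s : ℝ, 1 < s → s ≤ 2 →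
      ‖∑' I : Ideal (𝓞 K), f (cls I) * (((Ideal.absNorm I : ℝ) ^ (-s) : ℝ) : ℂ)‖ ≤ B :=
  CL.bounded_classL_of K (exists_weight K (exists_unitCoords K).some).some f hf

end Fermat.Agent.S14Lib
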