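import Mathlib
import Fermat.Agent.S14.Defs

set_option autoImplicit false

namespace Fermat.Agent.S14Lib

open NumberField nonZeroDivisors IsDedekindDomain Polynomial IntermediateField
open scoped Pointwise

/-- existence of the Kummer automorphism -/
theorem kummerSplit_exists_aut (p : ℕ) [Fact p.Prime] (K : Type) [Field K]
    (ζ : K) (hζ : IsPrimitiveRoot ζ p)
    (L : Type) [Field L] [Algebra K L] (hdeg : Module.finrank K L = p)
    (η : K) (hη : ∀ y : K, η ≠ y ^ p) (b : L) (hb : b ^ p = algebraMap K L η) :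
    ∃ τ : L ≃ₐ[K] L, τ b = algebraMap K L ζ * b := by
  have hpp : p.Prime := Fact.out
  have : NeZero p := ⟨hpp.ne_zero⟩
  have : FiniteDimensional K L := Module.finite_of_finrank_pos (by rw [hdeg]; exact hpp.pos)
  have H : Irreducible (X ^ p - C η) :=
    X_pow_sub_C_irreducible_of_prime hpp (fun b hb => hη b hb.symm)
  have hmin : X ^ p - C η = minpoly K b :=
    minpoly.eq_of_irreducible_of_monic H (by simp [hb]) (monic_X_pow_sub_C _ hpp.ne_zero)
  have htop : K⟮b⟯ = ⊤ := by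
    rw [Field.primitive_element_iff_minpoly_natDegree_eq, ← hmin, natDegree_X_pow_sub_C, hdeg]
  have : IsSplittingField K L (X ^ p - C η) := by
    have := isSplittingField_X_pow_sub_C_of_root_adjoin_eq_top (K := K) (L := L)
      ⟨ζ, by rw [hdeg, mem_primitiveRoots hpp.pos]; exact hζ⟩ (a := η) (α := b)
      (by rw [hdeg]; exact hb) htop
    rwa [hdeg] at this
  refine ⟨(autEquivZmod H L hζ).symm (Multiplicative.ofAdd ((1 : ℕ) : ZMod p)), ?_⟩
  rw [autEquivZmod_symm_apply_natCast H L hb hζ 1, pow_one, Algebra.smul_def]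

/-- a nontrivial `p`-th root of unity is not `1` modulo a prime not containing `p` -/
theorem kummerSplit_root_sub_one_notMem {R : Type*} [CommRing R] [IsDomain R] (p : ℕ)
    [Fact p.Prime] (z : R) (hz : IsPrimitiveRoot z p) (v : Ideal R) (hpv : (p : R) ∉ v)
    (m : ℕ) (hm0 : 0 < m) (hmp : m < p) : z ^ m - 1 ∉ v := by
  have hpp : p.Prime := Fact.out
  intro hmem
  apply hpv
  have hμ : IsPrimitiveRoot (z ^ m) p :=
    hz.pow_of_coprime m ((Nat.Prime.coprime_iff_not_dvd hpp).2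
      (Nat.not_dvd_of_pos_of_lt hm0 hmp)).symm
  have hsum := hμ.geom_sum_eq_zero hpp.one_lt
  have h1 : (p : R) = - ∑ i ∈ Finset.range p, ((z ^ m) ^ i - 1) := by
    rw [Finset.sum_sub_distrib, hsum]
    simp
  rw [h1]
  refine v.neg_mem (v.sum_mem fun i _ => ?_)
  obtain ⟨c, hc⟩ := sub_dvd_pow_sub_pow (z ^ m) 1 i
  rw [one_pow] at hc
  rw [hc]
  exact v.mul_mem_right _ hmem

/-- counting lemma -/
theorem kummerSplit_count {ι : Type*} [Fintype ι] (g : ι → ℕ) (hg : ∀ i, 1 ≤ g i) (p : ℕ)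
    (hsum : ∑ i, g i = p) (W : ℕ → ι) (hW : Set.InjOn W (Finset.range p : Set ℕ)) (k : ℕ)
    (hk : k < p) : g (W k) = 1 := by
  classical
  have h1 : ∑ j ∈ Finset.range p, g (W j) ≤ p := by
    calc ∑ j ∈ Finset.range p, g (W j) = ∑ x ∈ (Finset.range p).image W, g x :=
          (Finset.sum_image hW).symm
      _ ≤ ∑ i, g i := Finset.sum_le_sum_of_subset (Finset.subset_univ _)
      _ = p := hsum
  have h2 := Finset.add_sum_erase (Finset.range p) (fun j => g (W j)) (Finset.mem_range.2 hk)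
  have h3 : ((Finset.range p).erase k).card • 1 ≤ ∑ j ∈ (Finset.range p).erase k, g (W j) :=
    Finset.card_nsmul_le_sum _ _ _ fun j _ => hg _
  rw [Finset.card_erase_of_mem (Finset.mem_range.2 hk), Finset.card_range] at h3
  have h4 := hg (W k)
  simp only [smul_eq_mul, mul_one] at h3
  omega

/-- (D) primes at which `η` is a `p`-th power split completely in `K(η^(1/p))`. -/
theorem kummer_split (p : ℕ) [Fact p.Prime] (K : Type) [Field K] [NumberField K]
    (ζ : K) (hζ : IsPrimitiveRoot ζ p)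
    (L : Type) [Field L] [NumberField L] [Algebra K L] (hdeg : Module.finrank K L = p)
    (η : 𝓞 K) (hη : ∀ y : K, (η : K) ≠ y ^ p) (B : 𝓞 L) (hB : B ^ p = algebraMap (𝓞 K) (𝓞 L) η)
    (v : HeightOneSpectrum (𝓞 K)) (hpv : (p : 𝓞 K) ∉ v.asIdeal) (hηv : η ∉ v.asIdeal)
    (y : 𝓞 K) (hy : η - y ^ p ∈ v.asIdeal) :
    ∃ S : Finset (HeightOneSpectrum (𝓞 L)), S.card = p ∧
      ∀ w ∈ S, w.asIdeal.comap (algebraMap (𝓞 K) (𝓞 L)) = v.asIdeal ∧
        Ideal.absNorm w.asIdeal = Ideal.absNorm v.asIdeal := by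
  classical
  have hpp : p.Prime := Fact.out
  have : NeZero p := ⟨hpp.ne_zero⟩
  have hinj : Function.Injective (algebraMap (𝓞 K) (𝓞 L)) :=
    FaithfulSMul.algebraMap_injective _ _
  have hz : IsPrimitiveRoot hζ.toInteger p := hζ.toInteger_isPrimitiveRoot
  set z : 𝓞 K := hζ.toInteger with hzdef
  have hz' : IsPrimitiveRoot (algebraMap (𝓞 K) (𝓞 L) z) p := hz.map_of_injective hinj
  have hvmax : v.asIdeal.IsMaximal := v.isMaximal
  have hvprime : v.asIdeal.IsPrime := v.isPrime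
  have hyv : y ∉ v.asIdeal := by
    intro h
    apply hηv
    have := v.asIdeal.add_mem hy (v.asIdeal.pow_mem_of_mem h p hpp.pos)
    simpa using this
  -- the automorphism
  obtain ⟨τ, hτ⟩ := kummerSplit_exists_aut p K ζ hζ L hdeg (η : K) hη (B : L)
    (congrArg (fun x : 𝓞 L => (x : L)) hB)
  have hτB : ∀ k : ℕ, (τ ^ k) • B = algebraMap (𝓞 K) (𝓞 L) (z ^ k) * B := by
    intro k
    induction k with
    | zero => simp
    | succ k ih =>
      rw [pow_succ', mul_smul, ih, smul_mul']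
      have h1 : τ • B = algebraMap (𝓞 K) (𝓞 L) z * B := RingOfIntegers.ext hτ
      have h2 : τ • algebraMap (𝓞 K) (𝓞 L) (z ^ k) = algebraMap (𝓞 K) (𝓞 L) (z ^ k) :=
        RingOfIntegers.ext (τ.commutes _)
      rw [h1, h2, pow_succ, map_mul]
      ring
  have hτK : ∀ (k : ℕ) (x : 𝓞 K),
      (τ ^ k) • algebraMap (𝓞 K) (𝓞 L) x = algebraMap (𝓞 K) (𝓞 L) x :=
    fun k x => RingOfIntegers.ext ((τ ^ k).commutes _)
  -- a first prime
  obtain ⟨w0, -, hw0p, hw0⟩ := Ideal.exists_ideal_over_prime_of_isIntegral v.asIdeal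
    (⊥ : Ideal (𝓞 L)) (by rw [Ideal.comap_bot_of_injective _ hinj]; exact bot_le)
  obtain ⟨j0, hj0⟩ : ∃ j0 : ℕ,
      B - algebraMap (𝓞 K) (𝓞 L) (z ^ j0) * algebraMap (𝓞 K) (𝓞 L) y ∈ w0 := by
    have hprod := hz'.pow_sub_pow_eq_prod_sub_mul B (algebraMap (𝓞 K) (𝓞 L) y) hpp.pos
    have hmem : B ^ p - (algebraMap (𝓞 K) (𝓞 L) y) ^ p ∈ w0 := by
      rw [hB, ← map_pow, ← map_sub]
      have : η - y ^ p ∈ w0.comap (algebraMap (𝓞 K) (𝓞 L)) := by rw [hw0]; exact hy
      exact this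
    rw [hprod, Ideal.IsPrime.prod_mem_iff] at hmem
    obtain ⟨μ, hμ, hμw⟩ := hmem
    rw [mem_nthRootsFinset hpp.pos] at hμ
    obtain ⟨i, -, hi⟩ := hz'.eq_pow_of_pow_eq_one hμ
    exact ⟨i, by rw [map_pow, hi]; exact hμw⟩
  -- the conjugate primes
  let ρ : ℕ → (𝓞 L →+* 𝓞 L) := fun k => MulSemiringAction.toRingHom _ _ (τ ^ k)
  have hρ : ∀ k x, ρ k x = (τ ^ k) • x := fun _ _ => rfl
  let W : ℕ → Ideal (𝓞 L) := fun k => w0.comap (ρ k)
  have hWp : ∀ k, (W k).IsPrime := fun k => Ideal.comap_isPrime _ _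
  have hWv : ∀ k, (W k).comap (algebraMap (𝓞 K) (𝓞 L)) = v.asIdeal := by
    intro k
    rw [← hw0]
    ext x
    simp only [W, Ideal.mem_comap, hρ, hτK]
  have hWβ : ∀ k, B - algebraMap (𝓞 K) (𝓞 L) (z ^ (j0 + k)) * algebraMap (𝓞 K) (𝓞 L) y ∈ W k := by
    intro k
    simp only [W, Ideal.mem_comap, hρ]
    rw [smul_sub, smul_mul', hτB, hτK, hτK]
    have : algebraMap (𝓞 K) (𝓞 L) (z ^ k) * B -
        algebraMap (𝓞 K) (𝓞 L) (z ^ (j0 + k)) * algebraMap (𝓞 K) (𝓞 L) y =
        algebraMap (𝓞 K) (𝓞 L) (z ^ k) *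
          (B - algebraMap (𝓞 K) (𝓞 L) (z ^ j0) * algebraMap (𝓞 K) (𝓞 L) y) := by
      rw [pow_add, map_mul]; ring
    rw [this]
    exact w0.mul_mem_left _ hj0
  have hWne : ∀ k, W k ≠ ⊥ := by
    intro k h
    have h1 := hWv k
    rw [h, Ideal.comap_bot_of_injective _ hinj] at h1
    exact v.ne_bot h1.symm
  have hWinj : ∀ k k', k < k' → k' < p → W k ≠ W k' := by
    intro k k' hkk' hk' heq
    have h1 := hWβ k
    have h2 := hWβ k'
    rw [← heq] at h2
    have h3 := (W k).sub_mem h1 h2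
    have h4 : (z ^ (j0 + k') - z ^ (j0 + k)) * y ∈ (W k).comap (algebraMap (𝓞 K) (𝓞 L)) := by
      rw [Ideal.mem_comap, map_mul, map_sub]
      convert h3 using 1
      ring
    rw [hWv] at h4
    have h5 : z ^ (j0 + k') - z ^ (j0 + k) = z ^ (j0 + k) * (z ^ (k' - k) - 1) := by
      rw [mul_sub, ← pow_add, mul_one]
      congr 2
      omega
    rw [h5] at h4
    rcases hvprime.mem_or_mem h4 with h6 | h6
    · rcases hvprime.mem_or_mem h6 with h7 | h7
      · have h8 : z ^ (j0 + k) ∣ 1 := (IsUnit.pow _ (hz.isUnit hpp.ne_zero)).dvd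
        exact hvprime.ne_top ((Ideal.eq_top_iff_one _).2 (v.asIdeal.mem_of_dvd h8 h7))
      · exact kummerSplit_root_sub_one_notMem p z hz v.asIdeal hpv (k' - k) (by omega) (by omega) h7
    · exact hyv h6
  have hWinj' : ∀ k k', k < p → k' < p → W k = W k' → k = k' := by
    intro k k' hk hk' heq
    rcases lt_trichotomy k k' with h | h | h
    · exact absurd heq (hWinj k k' h hk')
    · exact h
    · exact absurd heq.symm (hWinj k' k h hk)
  -- counting
  let hfin : Fintype (v.asIdeal.primesOver (𝓞 L)) :=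
    (Algebra.QuasiFinite.finite_primesOver v.asIdeal).fintype
  have hsum := Ideal.sum_ramification_inertia_eq_finrank v.asIdeal (𝓞 L)
  have hrank : Module.finrank (𝓞 K) (𝓞 L) = p := by
    rw [← IsFractionRing.finrank_eq (𝓞 K) K (𝓞 L) L, hdeg]
  let W' : ℕ → v.asIdeal.primesOver (𝓞 L) := fun k => ⟨W k, hWp k, ⟨(hWv k).symm⟩⟩
  have hone : ∀ k < p, (W k).ramificationIdx (𝓞 K) * (W k).inertiaDeg (𝓞 K) = 1 := by
    intro k hk
    refine kummerSplit_count (fun q : v.asIdeal.primesOver (𝓞 L) =>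
      q.1.ramificationIdx (𝓞 K) * q.1.inertiaDeg (𝓞 K)) (fun q => ?_) p (hsum.trans hrank) W'
      ?_ k hk
    · have := q.2.1
      exact Nat.mul_pos (Ideal.ramificationIdx_pos _ _) (Ideal.inertiaDeg_pos _ _)
    · intro a ha b hb hab
      exact hWinj' a b (Finset.mem_range.1 ha) (Finset.mem_range.1 hb) (congrArg Subtype.val hab)
  refine ⟨(Finset.range p).image
    (fun k => (⟨W k, hWp k, hWne k⟩ : HeightOneSpectrum (𝓞 L))), ?_, ?_⟩
  · rw [Finset.card_image_of_injOn, Finset.card_range]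
    intro a ha b hb hab
    exact hWinj' a b (Finset.mem_range.1 ha) (Finset.mem_range.1 hb)
      (congrArg HeightOneSpectrum.asIdeal hab)
  · intro w hw
    obtain ⟨k, hk, rfl⟩ := Finset.mem_image.1 hw
    rw [Finset.mem_range] at hk
    refine ⟨hWv k, ?_⟩
    show Ideal.absNorm (W k) = _
    have hf : (W k).inertiaDeg (𝓞 K) = 1 := Nat.eq_one_of_mul_eq_one_left (hone k hk)
    have hlo : (W k).LiesOver v.asIdeal := ⟨(hWv k).symm⟩
    have hWmax : (W k).IsMaximal := (hWp k).isMaximal (hWne k)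
    rw [Ideal.inertiaDeg_eq_of_isMaximal v.asIdeal (W k)] at hf
    let _ : Field (𝓞 K ⧸ v.asIdeal) := Ideal.Quotient.field _
    have hcard := Module.natCard_eq_pow_finrank (K := 𝓞 K ⧸ v.asIdeal) (V := 𝓞 L ⧸ W k)
    rw [hf, pow_one] at hcard
    rw [Ideal.absNorm_apply, Ideal.absNorm_apply, Submodule.cardQuot_apply,
      Submodule.cardQuot_apply]
    exact hcard

end Fermat.Agent.S14Lib
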