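import Mathlib
import Fermat.Agent.S14.NonSplitCore

/-!
# S14, leaf (E), part 3: the Kummer extension and the final statement
(with leaves (A) and (D) as hypotheses)
-/

set_option autoImplicit false

namespace Fermat.Agent.S14Lib

open NumberField nonZeroDivisors IsDedekindDomain Filter Topology Polynomial

namespace NonSplit

section chi

variable {K : Type} [Field K] [NumberField K] (p : ℕ) [Fact p.Prime]

/-- the complex character attached to `ψ`. -/
noncomputable def chiOf (ψ : ClassGroup (𝓞 K) →* Multiplicative (ZMod p)) :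
    ClassGroup (𝓞 K) →* ℂ :=
  (ZMod.stdAddChar (N := p)).toMonoidHom.comp ψ

theorem chiOf_apply (ψ : ClassGroup (𝓞 K) →* Multiplicative (ZMod p)) (C : ClassGroup (𝓞 K)) :
    chiOf p ψ C = ZMod.stdAddChar (Multiplicative.toAdd (ψ C)) := rfl

theorem chiOf_pow (ψ : ClassGroup (𝓞 K) →* Multiplicative (ZMod p)) (C : ClassGroup (𝓞 K)) :
    chiOf p ψ C ^ p = 1 := by
  rw [chiOf_apply, ← AddChar.map_nsmul_eq_pow]
  simp

theorem chiOf_eq_one_iff (ψ : ClassGroup (𝓞 K) →* Multiplicative (ZMod p))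
    (C : ClassGroup (𝓞 K)) : chiOf p ψ C = 1 ↔ ψ C = 1 := by
  rw [chiOf_apply, ← (ZMod.stdAddChar (N := p)).map_zero_eq_one,
    ZMod.injective_stdAddChar.eq_iff]
  exact Iff.rfl

theorem chiOf_ne_one {ψ : ClassGroup (𝓞 K) →* Multiplicative (ZMod p)} (hψ : ψ ≠ 1) :
    chiOf p ψ ≠ 1 := by
  intro h
  apply hψ
  ext C
  have := DFunLike.congr_fun h C
  rw [MonoidHom.one_apply, chiOf_eq_one_iff] at this
  rw [this]
  rfl

end chi

end NonSplit

open NonSplit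

/-- (E) with leaves (A) and (D) as hypotheses. -/
theorem exists_prime_nonsplit_of (p : ℕ) [Fact p.Prime] (hp2 : p ≠ 2)
    (K : Type) [Field K] [NumberField K] (ζ : K) (hζ : IsPrimitiveRoot ζ p)
    (hA : ∀ f : ClassGroup (𝓞 K) → ℂ, ∑ C, f C = 0 → ∃ B : ℝ, ∀ s : ℝ, 1 < s → s ≤ 2 →
      ‖∑' I : Ideal (𝓞 K), f (cls I) * (((Ideal.absNorm I : ℝ) ^ (-s) : ℝ) : ℂ)‖ ≤ B)
    (hD : ∀ (L : Type) [Field L] [NumberField L] [Algebra K L] (_ : Module.finrank K L = p)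
      (η : 𝓞 K) (_ : ∀ y : K, (η : K) ≠ y ^ p) (B : 𝓞 L)
      (_ : B ^ p = algebraMap (𝓞 K) (𝓞 L) η)
      (v : HeightOneSpectrum (𝓞 K)) (_ : (p : 𝓞 K) ∉ v.asIdeal) (_ : η ∉ v.asIdeal)
      (y : 𝓞 K) (_ : η - y ^ p ∈ v.asIdeal),
      ∃ S : Finset (HeightOneSpectrum (𝓞 L)), S.card = p ∧
        ∀ w ∈ S, w.asIdeal.comap (algebraMap (𝓞 K) (𝓞 L)) = v.asIdeal ∧
          Ideal.absNorm w.asIdeal = Ideal.absNorm v.asIdeal)
    (ψ : ClassGroup (𝓞 K) →* Multiplicative (ZMod p)) (hψ : ψ ≠ 1)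
    (η : 𝓞 K) (hηu : IsUnit η) (hη : ∀ y : K, (η : K) ≠ y ^ p) :
    ∃ v : HeightOneSpectrum (𝓞 K), (Ideal.absNorm v.asIdeal).Prime ∧ (p : 𝓞 K) ∉ v.asIdeal ∧
      ψ (cls v.asIdeal) ≠ 1 ∧ ∀ y : 𝓞 K, η - y ^ p ∉ v.asIdeal := by
  by_contra hcon
  push Not at hcon
  have hp : p.Prime := Fact.out
  -- the Kummer extension
  set f : K[X] := X ^ p - C (η : K) with hf
  have hirr : Irreducible f := X_pow_sub_C_irreducible_of_prime hp (fun b hb => hη b hb.symm)
  haveI : Fact (Irreducible f) := ⟨hirr⟩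
  have hf0 : f ≠ 0 := hirr.ne_zero
  let L := AdjoinRoot f
  haveI : Module.Finite K L := (AdjoinRoot.powerBasis hf0).finite
  haveI : CharZero L := charZero_of_injective_algebraMap (algebraMap K L).injective
  haveI : Module.Finite ℚ L := Module.Finite.trans K L
  haveI : NumberField L := ⟨⟩
  have hdeg : Module.finrank K L = p := by
    rw [(AdjoinRoot.powerBasis hf0).finrank, AdjoinRoot.powerBasis_dim, hf,
      natDegree_X_pow_sub_C]
  have hroot : (AdjoinRoot.root f : L) ^ p = algebraMap K L (η : K) := by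
    have h := AdjoinRoot.eval₂_root f
    rw [hf, eval₂_sub, eval₂_pow, eval₂_X, eval₂_C, sub_eq_zero] at h
    exact h
  have hint : IsIntegral ℤ (AdjoinRoot.root f : L) := by
    refine IsIntegral.of_pow hp.pos ?_
    rw [hroot]
    exact η.2.algebraMap
  let B : 𝓞 L := ⟨AdjoinRoot.root f, hint⟩
  have hB : B ^ p = algebraMap (𝓞 K) (𝓞 L) η := by
    apply RingOfIntegers.ext
    exact hroot
  refine core_analytic p hp hp2 (chiOf p ψ) (chiOf_pow p ψ) (chiOf_ne_one p hψ) hA L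
    (fun w => w.asIdeal.comap (algebraMap (𝓞 K) (𝓞 L))) ?_
  intro v hv1 hv2 hv3
  have hψv : ψ (cls v.asIdeal) ≠ 1 := fun h => hv3 ((chiOf_eq_one_iff p ψ _).2 h)
  obtain ⟨y, hy⟩ := hcon v hv1 hv2 hψv
  have hηv : η ∉ v.asIdeal := fun h =>
    v.isPrime.ne_top (Ideal.eq_top_of_isUnit_mem _ h hηu)
  exact hD L hdeg η hη B hB v hv2 hηv y hy

end Fermat.Agent.S14Lib
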