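import Mathlib
import Fermat.Agent.S14.NonSplitOf
import Fermat.Agent.S14.KummerSplit
import Fermat.Agent.S14.ClassL

/-!
# S14, leaf (E): final statement
-/

set_option autoImplicit false

namespace Fermat.Agent.S14Lib

open NumberField nonZeroDivisors IsDedekindDomain

/-- (E) final analytic statement. -/
theorem exists_prime_nonsplit (p : ℕ) [Fact p.Prime] (hp2 : p ≠ 2)
    (K : Type) [Field K] [NumberField K] (ζ : K) (hζ : IsPrimitiveRoot ζ p)
    (ψ : ClassGroup (𝓞 K) →* Multiplicative (ZMod p)) (hψ : ψ ≠ 1)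
    (η : 𝓞 K) (hηu : IsUnit η) (hη : ∀ y : K, (η : K) ≠ y ^ p) :
    ∃ v : HeightOneSpectrum (𝓞 K), (Ideal.absNorm v.asIdeal).Prime ∧ (p : 𝓞 K) ∉ v.asIdeal ∧
      ψ (cls v.asIdeal) ≠ 1 ∧ ∀ y : 𝓞 K, η - y ^ p ∉ v.asIdeal :=
  exists_prime_nonsplit_of p hp2 K ζ hζ (bounded_classL K)
    (fun L _ _ _ hdeg η hη B hB v hpv hηv y hy =>
      kummer_split p K ζ hζ L hdeg η hη B hB v hpv hηv y hy) ψ hψ η hηu hη

end Fermat.Agent.S14Lib
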