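import Mathlib
import Fermat.Agent.S14.Defs

/-!
# S14 (I): the `ω²`-eigenspace of units mod `p`-th powers is at most one-dimensional
-/

set_option autoImplicit false

namespace Fermat.Agent.S14Lib

open NumberField nonZeroDivisors IsDedekindDomain
open scoped Pointwise

namespace UnitsEigen

open Polynomial

/-! ### Abstract algebra -/

/-- a monic polynomial of degree `rank` killing `T`, in presence of a cyclic vector, is the
characteristic polynomial. -/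
theorem charpoly_eq {Λ : Type*} [AddCommGroup Λ] [Module.Free ℤ Λ] [Module.Finite ℤ Λ]
    (T : Λ →ₗ[ℤ] Λ) (f : ℤ[X]) (hf : f.Monic) (hdeg : f.natDegree = Module.finrank ℤ Λ)
    (hfT : aeval T f = 0) (v : Λ)
    (hv : ∀ c : ℕ → ℤ, ∑ k ∈ Finset.range (Module.finrank ℤ Λ), c k • (T ^ k) v = 0 →
      ∀ k < Module.finrank ℤ Λ, c k = 0) :
    T.charpoly = f := by
  set r := Module.finrank ℤ Λ with hr
  by_contra hne
  have hg0 : T.charpoly - f ≠ 0 := sub_ne_zero.mpr hne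
  have hdeg' : T.charpoly.natDegree = r := T.charpoly_natDegree
  have h1 : (T.charpoly - f).degree < T.charpoly.degree := by
    apply degree_sub_lt_left
    · rw [degree_eq_natDegree T.charpoly_monic.ne_zero, degree_eq_natDegree hf.ne_zero, hdeg',
        hdeg]
    · exact T.charpoly_monic.ne_zero
    · rw [T.charpoly_monic.leadingCoeff, hf.leadingCoeff]
  rw [degree_eq_natDegree T.charpoly_monic.ne_zero, hdeg'] at h1
  have h2 : (T.charpoly - f).natDegree < r := (natDegree_lt_iff_degree_lt hg0).mpr h1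
  have h3 : aeval T (T.charpoly - f) = 0 := by
    rw [map_sub, LinearMap.aeval_self_charpoly, hfT, sub_zero]
  rw [aeval_eq_sum_range' h2] at h3
  have h4 := hv (fun k => (T.charpoly - f).coeff k) (by
    have := congrArg (fun S : Module.End ℤ Λ => S v) h3
    simpa only [LinearMap.sum_apply, LinearMap.smul_apply, LinearMap.zero_apply] using this)
  apply hg0
  ext k
  by_cases hk : k < r
  · simpa using h4 k hk
  · rw [coeff_eq_zero_of_natDegree_lt (lt_of_lt_of_le h2 (not_lt.mp hk))]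
    simp


open TensorProduct in
/-- kernel of `Λ → ZMod p ⊗ Λ`. -/
theorem exists_smul_of_tmul_eq_zero {Λ : Type*} [AddCommGroup Λ] [Module.Free ℤ Λ]
    [Module.Finite ℤ Λ] (p : ℕ) (x : Λ) (h : (1 : ZMod p) ⊗ₜ[ℤ] x = 0) : ∃ z : Λ, x = p • z := by
  classical
  let b := Module.Free.chooseBasis ℤ Λ
  have h1 : ∀ i, (p : ℤ) ∣ b.repr x i := by
    intro i
    have := congrArg (fun t => (b.baseChange (ZMod p)).repr t i) h
    simp only [Module.Basis.baseChange_repr_tmul, map_zero, Finsupp.coe_zero, Pi.zero_apply] at this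
    rw [← ZMod.intCast_zmod_eq_zero_iff_dvd]
    simpa using this
  choose c hc using h1
  refine ⟨∑ i, c i • b i, ?_⟩
  conv_lhs => rw [← b.sum_repr x]
  rw [Finset.smul_sum]
  refine Finset.sum_congr rfl fun i _ => ?_
  rw [hc i, mul_smul, natCast_zsmul]

open TensorProduct in
/-- eigenvectors mod `p` are proportional if the characteristic polynomial is separable mod `p`. -/
theorem exists_eq_smul_add {Λ : Type*} [AddCommGroup Λ] [Module.Free ℤ Λ] [Module.Finite ℤ Λ]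
    (T : Λ →ₗ[ℤ] Λ) (p : ℕ) [Fact p.Prime]
    (hsep : (T.charpoly.map (Int.castRingHom (ZMod p))).Separable) (a : ℤ) (x y : Λ)
    (hx : ∃ z, T x = a • x + p • z) (hy : ∃ z, T y = a • y + p • z) (hy0 : ¬ ∃ z, y = p • z) :
    ∃ (j : ℕ) (z : Λ), x = j • y + p • z := by
  classical
  let φ : Module.End (ZMod p) (ZMod p ⊗[ℤ] Λ) := T.baseChange (ZMod p)
  have hchar : φ.charpoly = T.charpoly.map (Int.castRingHom (ZMod p)) :=
    LinearMap.charpoly_baseChange T (ZMod p)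
  have hfin : Module.finrank (ZMod p) (φ.eigenspace (a : ZMod p)) ≤ 1 :=
    (LinearMap.finrank_eigenspace_le φ _).trans
      (by rw [hchar]; exact rootMultiplicity_le_one_of_separable hsep _)
  have hmem : ∀ w : Λ, (∃ z, T w = a • w + p • z) →
      (1 : ZMod p) ⊗ₜ[ℤ] w ∈ φ.eigenspace (a : ZMod p) := by
    rintro w ⟨z, hz⟩
    rw [Module.End.mem_eigenspace_iff]
    show T.baseChange (ZMod p) _ = _
    rw [LinearMap.baseChange_tmul, hz, TensorProduct.tmul_add, TensorProduct.tmul_smul,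
      TensorProduct.tmul_smul, Int.cast_smul_eq_zsmul, ← Nat.cast_smul_eq_nsmul (ZMod p) p,
      ZMod.natCast_self, zero_smul, add_zero]
  obtain ⟨v, hv⟩ := finrank_le_one_iff.mp hfin
  obtain ⟨c1, hc1⟩ := hv ⟨_, hmem y hy⟩
  obtain ⟨c2, hc2⟩ := hv ⟨_, hmem x hx⟩
  have hc1' : c1 • (v : ZMod p ⊗[ℤ] Λ) = (1 : ZMod p) ⊗ₜ[ℤ] y := congrArg Subtype.val hc1
  have hc2' : c2 • (v : ZMod p ⊗[ℤ] Λ) = (1 : ZMod p) ⊗ₜ[ℤ] x := congrArg Subtype.val hc2
  have hc10 : c1 ≠ 0 := by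
    rintro rfl
    rw [zero_smul] at hc1'
    exact hy0 (exists_smul_of_tmul_eq_zero p y hc1'.symm)
  refine ⟨(c2 * c1⁻¹).val, ?_⟩
  have h0 : (1 : ZMod p) ⊗ₜ[ℤ] (x - (c2 * c1⁻¹).val • y) = 0 := by
    rw [TensorProduct.tmul_sub, TensorProduct.tmul_smul, ← hc1', ← hc2', ← Nat.cast_smul_eq_nsmul (ZMod p),
      ZMod.natCast_zmod_val, smul_smul, mul_assoc, inv_mul_cancel₀ hc10, mul_one, sub_self]
  obtain ⟨z, hz⟩ := exists_smul_of_tmul_eq_zero p _ h0
  exact ⟨z, by rw [← hz]; abel⟩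

/-- circulant lemma -/
theorem circulant {m : ℕ} [NeZero m] (y c : ZMod m → ℝ) (hy : ∀ i, i ≠ 0 → y i < 0)
    (hsum : ∑ i, y i = 0) (h : ∀ j, ∑ k, c k * y (j - k) = 0) (k k' : ZMod m) : c k = c k' := by
  obtain ⟨k0, hk0⟩ := Finite.exists_max c
  suffices H : ∀ k, c k = c k0 by rw [H k, H k']
  have h1 : ∑ k, y (k0 - k) = 0 := by
    rw [← hsum]
    exact Equiv.sum_comp (Equiv.subLeft k0) y
  have h2 : ∑ k, (c k - c k0) * y (k0 - k) = 0 := by
    simp only [sub_mul, Finset.sum_sub_distrib, h k0, ← Finset.mul_sum, h1, mul_zero, sub_zero]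
  have h3 : ∀ k ∈ Finset.univ, 0 ≤ (c k - c k0) * y (k0 - k) := by
    intro k _
    by_cases hk : k = k0
    · simp [hk]
    · exact mul_nonneg_of_nonpos_of_nonpos (sub_nonpos.mpr (hk0 k))
        (hy _ (sub_ne_zero.mpr (Ne.symm hk))).le
  intro k
  by_cases hk : k = k0
  · rw [hk]
  · have h4 := (Finset.sum_eq_zero_iff_of_nonneg h3).mp h2 k (Finset.mem_univ k)
    rcases mul_eq_zero.mp h4 with h5 | h5
    · linarith
    · exact absurd h5 (hy _ (sub_ne_zero.mpr (Ne.symm hk))).ne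

open NumberField.Units

section gen

variable (p : ℕ) [Fact p.Prime] (K : Type) [Field K] [NumberField K]
  [IsCyclotomicExtension {p} ℚ K] (ζ : 𝓞 K)

/-- a generator of the Galois group -/
theorem exists_gen (hp : 5 ≤ p) (hζ : IsPrimitiveRoot ζ p) :
    ∃ (σ : K ≃ₐ[ℚ] K) (g : ℕ), σ • ζ = ζ ^ g ∧ (∀ τ : K ≃ₐ[ℚ] K, τ ∈ Subgroup.zpowers σ) ∧
      ¬ p ∣ g ∧ ¬ (g : ZMod p) = 1 := by
  have hpp : p.Prime := Fact.out
  obtain ⟨u, hu⟩ := IsCyclic.exists_generator (α := (ZMod p)ˣ)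
  let e := IsCyclotomicExtension.Rat.galEquivZMod p K
  refine ⟨e.symm u, u.val.val, ?_, ?_, ?_, ?_⟩
  · have := IsCyclotomicExtension.Rat.galEquivZMod_smul_of_pow_eq p K (e.symm u) hζ.pow_eq_one
    rw [this]
    show ζ ^ ((e (e.symm u)).val).val = _
    rw [MulEquiv.apply_symm_apply]
  · intro τ
    obtain ⟨k, hk⟩ := Subgroup.mem_zpowers_iff.mp (hu (e τ))
    refine Subgroup.mem_zpowers_iff.mpr ⟨k, ?_⟩
    apply e.injective
    rw [map_zpow, MulEquiv.apply_symm_apply, hk]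
  · rw [← ZMod.natCast_eq_zero_iff, ZMod.natCast_zmod_val]
    exact u.ne_zero
  · rw [ZMod.natCast_zmod_val]
    intro h1
    have hu1 : u = 1 := Units.ext h1
    have hcard : Nat.card (ZMod p)ˣ = p - 1 := by
      rw [Nat.card_eq_fintype_card, ZMod.card_units_eq_totient, Nat.totient_prime hpp]
    have : Nat.card (ZMod p)ˣ = 1 := by
      rw [Nat.card_eq_one_iff_unique]
      refine ⟨⟨fun a b => ?_⟩, ⟨1⟩⟩
      have ha := hu a
      have hb := hu b
      rw [hu1] at ha hb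
      simp at ha hb
      rw [ha, hb]
    omega

end gen

section places

variable (K : Type) [Field K] [NumberField K] [IsGalois ℚ K]

/-- indexing of the infinite places by `ZMod m`. -/
theorem exists_places (m : ℕ) [NeZero m] (hm : Fintype.card (InfinitePlace K) = m)
    (σ : K ≃ₐ[ℚ] K) (hσ : ∀ τ : K ≃ₐ[ℚ] K, τ ∈ Subgroup.zpowers σ) (w₁ : InfinitePlace K) :
    ∃ wz : ZMod m → InfinitePlace K, Function.Bijective wz ∧ wz 0 = w₁ ∧
      ∀ (k : ℕ) (i : ZMod m), σ ^ k • wz i = wz (i + k) := by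
  classical
  have htrans : ∀ w : InfinitePlace K, ∃ τ : K ≃ₐ[ℚ] K, τ • w₁ = w := fun w =>
    InfinitePlace.exists_smul_eq_of_comap_eq (Subsingleton.elim _ _)
  have horb : MulAction.orbit (Subgroup.zpowers σ) w₁ = Set.univ := by
    ext w
    simp only [Set.mem_univ, iff_true]
    obtain ⟨τ, hτ⟩ := htrans w
    exact ⟨⟨τ, hσ τ⟩, hτ⟩
  have hper : Function.minimalPeriod (σ • ·) w₁ = m := by
    rw [MulAction.minimalPeriod_eq_card, ← hm]
    simp only [horb]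
    exact Fintype.card_congr (Equiv.Set.univ _)
  have hmod : ∀ n : ℕ, σ ^ (n % m) • w₁ = σ ^ n • w₁ := by
    intro n
    have := MulAction.pow_smul_mod_minimalPeriod σ w₁ n
    rwa [hper] at this
  refine ⟨fun i => σ ^ i.val • w₁, ?_, by simp, ?_⟩
  · rw [Fintype.bijective_iff_surjective_and_card]
    refine ⟨fun w => ?_, by rw [ZMod.card, hm]⟩
    obtain ⟨τ, hτ⟩ := htrans w
    obtain ⟨z, hz⟩ := Subgroup.mem_zpowers_iff.mp (hσ τ)
    refine ⟨(z : ZMod m), ?_⟩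
    have h1 := MulAction.zpow_smul_mod_minimalPeriod σ w₁ z
    rw [hper, ← ZMod.val_intCast, zpow_natCast] at h1
    show σ ^ (z : ZMod m).val • w₁ = w
    rw [h1, hz, hτ]
  · intro k i
    show σ ^ k • σ ^ i.val • w₁ = σ ^ (i + k).val • w₁
    rw [ZMod.val_add, ZMod.val_natCast, hmod, pow_add, mul_smul, hmod, smul_smul, smul_smul,
      ← pow_add, ← pow_add, add_comm]

end places

section logs

variable {K : Type} [Field K] [NumberField K]

/-- Galois action on units -/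
noncomputable def sU (σ : K ≃ₐ[ℚ] K) : (𝓞 K)ˣ →* (𝓞 K)ˣ :=
  Units.map (MulSemiringAction.toRingHom (K ≃ₐ[ℚ] K) (𝓞 K) σ : 𝓞 K →* 𝓞 K)

theorem coe_sU (σ : K ≃ₐ[ℚ] K) (u : (𝓞 K)ˣ) : ((sU σ u : (𝓞 K)ˣ) : 𝓞 K) = σ • (u : 𝓞 K) := rfl

theorem sU_mul (σ τ : K ≃ₐ[ℚ] K) (u : (𝓞 K)ˣ) : sU (σ * τ) u = sU σ (sU τ u) := by
  ext
  simp only [coe_sU, mul_smul]

theorem sU_one (u : (𝓞 K)ˣ) : sU (1 : K ≃ₐ[ℚ] K) u = u := by
  ext
  simp only [coe_sU, one_smul]

theorem place_sU (σ : K ≃ₐ[ℚ] K) (w : InfinitePlace K) (u : (𝓞 K)ˣ) :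
    w ((sU σ u : (𝓞 K)ˣ) : K) = (σ⁻¹ • w) (u : K) := by
  rw [InfinitePlace.smul_apply]
  rfl

/-- log of a unit at a place -/
noncomputable def lg (w : InfinitePlace K) (u : (𝓞 K)ˣ) : ℝ := Real.log (w (u : K))

theorem lg_mul (w : InfinitePlace K) (u v : (𝓞 K)ˣ) : lg w (u * v) = lg w u + lg w v := by
  unfold lg
  rw [Units.val_mul, map_mul, map_mul, Real.log_mul (Units.pos_at_place _ _).ne'
    (Units.pos_at_place _ _).ne']

theorem lg_one (w : InfinitePlace K) : lg w (1 : (𝓞 K)ˣ) = 0 := by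
  unfold lg
  simp

/-- `lg w` as an additive hom. -/
noncomputable def lgHom (w : InfinitePlace K) : Additive (𝓞 K)ˣ →+ ℝ :=
  AddMonoidHom.mk' (fun u => lg w u.toMul) (fun a b => lg_mul w _ _)

theorem lg_zpow (w : InfinitePlace K) (u : (𝓞 K)ˣ) (z : ℤ) : lg w (u ^ z) = z * lg w u := by
  have := map_zsmul (lgHom w) z (Additive.ofMul u)
  simpa [lgHom] using this

theorem lg_prod {ι : Type*} (w : InfinitePlace K) (s : Finset ι) (f : ι → (𝓞 K)ˣ) :
    lg w (∏ i ∈ s, f i) = ∑ i ∈ s, lg w (f i) := by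
  classical
  induction s using Finset.induction_on with
  | empty => simp [lg_one]
  | insert a s ha ih => rw [Finset.prod_insert ha, Finset.sum_insert ha, lg_mul, ih]

theorem mem_torsion_of_lg (u : (𝓞 K)ˣ) (h : ∀ w, lg w u = 0) : u ∈ torsion K := by
  rw [mem_torsion]
  intro w
  exact Real.eq_one_of_pos_of_log_eq_zero (Units.pos_at_place _ _) (h w)

theorem lg_of_mem_torsion {u : (𝓞 K)ˣ} (h : u ∈ torsion K) (w : InfinitePlace K) : lg w u = 0 := by
  rw [mem_torsion] at h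
  unfold lg
  rw [h w, Real.log_one]

theorem sum_lg (hK : ∀ w : InfinitePlace K, w.IsComplex) (u : (𝓞 K)ˣ) : ∑ w, lg w u = 0 := by
  have h := sum_mult_mul_log u
  have h2 : ∀ w : InfinitePlace K, (w.mult : ℝ) * Real.log (w (u : K)) = 2 * lg w u := by
    intro w
    rw [InfinitePlace.mult_isComplex ⟨w, hK w⟩]
    simp [lg]
  simp only [h2, ← Finset.mul_sum] at h
  linarith

end logs


section lattice

set_option maxSynthPendingDepth 2

variable {K : Type} [Field K] [NumberField K]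

theorem sum_range_zmod {m : ℕ} [NeZero m] {M : Type*} [AddCommMonoid M] (F : ZMod m → M) :
    ∑ k ∈ Finset.range m, F (k : ZMod m) = ∑ i, F i := by
  refine Finset.sum_nbij' (fun k => (k : ZMod m)) (fun i => i.val) ?_ ?_ ?_ ?_ ?_
  · intros; simp
  · intro i _; simp [ZMod.val_lt]
  · intro k hk
    simp only [Finset.mem_range] at hk
    simp [ZMod.val_natCast, Nat.mod_eq_of_lt hk]
  · intro i _; simp
  · intros; rfl

/-- the projection to units modulo torsion, additively -/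
noncomputable def pr (u : (𝓞 K)ˣ) : Additive ((𝓞 K)ˣ ⧸ torsion K) :=
  Additive.ofMul (QuotientGroup.mk u)

theorem pr_mul (u v : (𝓞 K)ˣ) : pr (u * v) = pr u + pr v := rfl

theorem pr_one : pr (1 : (𝓞 K)ˣ) = 0 := rfl

theorem pr_pow (u : (𝓞 K)ˣ) (n : ℕ) : pr (u ^ n) = n • pr u := rfl

theorem pr_zpow (u : (𝓞 K)ˣ) (n : ℤ) : pr (u ^ n) = n • pr u := rfl

theorem pr_prod {ι : Type*} (s : Finset ι) (f : ι → (𝓞 K)ˣ) :
    pr (∏ i ∈ s, f i) = ∑ i ∈ s, pr (f i) := by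
  classical
  induction s using Finset.induction_on with
  | empty => simp [pr_one]
  | insert a s ha ih => rw [Finset.prod_insert ha, Finset.sum_insert ha, pr_mul, ih]

theorem pr_eq_zero_iff (u : (𝓞 K)ˣ) : pr u = 0 ↔ u ∈ torsion K := by
  unfold pr
  rw [ofMul_eq_zero, QuotientGroup.eq_one_iff]

theorem pr_surjective : Function.Surjective (pr : (𝓞 K)ˣ → Additive ((𝓞 K)ˣ ⧸ torsion K)) := by
  intro x
  obtain ⟨u, hu⟩ := QuotientGroup.mk_surjective x.toMul
  exact ⟨u, by unfold pr; rw [hu]; rfl⟩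

theorem sU_torsion (σ : K ≃ₐ[ℚ] K) : torsion K ≤ (torsion K).comap (sU σ) := by
  intro u hu
  rw [Subgroup.mem_comap]
  rw [torsion, CommGroup.mem_torsion] at hu ⊢
  exact (sU σ).isOfFinOrder hu

/-- the Galois action on units modulo torsion -/
noncomputable def TT (σ : K ≃ₐ[ℚ] K) :
    Additive ((𝓞 K)ˣ ⧸ torsion K) →ₗ[ℤ] Additive ((𝓞 K)ˣ ⧸ torsion K) :=
  (QuotientGroup.map (torsion K) (torsion K) (sU σ) (sU_torsion σ)).toAdditive.toIntLinearMap

theorem TT_pr (σ : K ≃ₐ[ℚ] K) (u : (𝓞 K)ˣ) : TT σ (pr u) = pr (sU σ u) := rfl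

theorem TT_pow_pr (σ : K ≃ₐ[ℚ] K) (k : ℕ) (u : (𝓞 K)ˣ) :
    (TT σ ^ k) (pr u) = pr (sU (σ ^ k) u) := by
  induction k with
  | zero => simp [sU_one]
  | succ k ih => rw [pow_succ', Module.End.mul_apply, ih, TT_pr, pow_succ', sU_mul]

end lattice

section charpoly

set_option maxSynthPendingDepth 2

variable {K : Type} [Field K] [NumberField K]

theorem lg_sU_pow {m : ℕ} (σ : K ≃ₐ[ℚ] K) (wz : ZMod m → InfinitePlace K)
    (hwz : ∀ (k : ℕ) (i : ZMod m), σ ^ k • wz i = wz (i + k)) (j : ZMod m) (k : ℕ) (u : (𝓞 K)ˣ) :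
    lg (wz j) (sU (σ ^ k) u) = lg (wz (j - k)) u := by
  unfold lg
  rw [place_sU]
  have : (σ ^ k)⁻¹ • wz j = wz (j - k) := by
    rw [inv_smul_eq_iff, hwz, sub_add_cancel]
  rw [this]

omit [NumberField K] in
theorem natDegree_geom (m : ℕ) (hm : m ≠ 0) :
    (∑ k ∈ Finset.range m, (X : ℤ[X]) ^ k).natDegree = m - 1 := by
  have h := geom_sum_mul (X : ℤ[X]) m
  have h1 := (monic_geom_sum_X (R := ℤ) hm).natDegree_mul (monic_X_sub_C (1 : ℤ))
  rw [map_one, h, ← map_one (C : ℤ →+* ℤ[X]), natDegree_X_sub_C, natDegree_X_pow_sub_C] at h1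
  omega

theorem charpoly_TT [IsGalois ℚ K] (m : ℕ) [NeZero m] (hm : Fintype.card (InfinitePlace K) = m)
    (hK : ∀ w : InfinitePlace K, w.IsComplex)
    (σ : K ≃ₐ[ℚ] K) (hσ : ∀ τ : K ≃ₐ[ℚ] K, τ ∈ Subgroup.zpowers σ) :
    (TT σ).charpoly = ∑ k ∈ Finset.range m, (X : ℤ[X]) ^ k := by
  classical
  obtain ⟨w₁⟩ : Nonempty (InfinitePlace K) := inferInstance
  obtain ⟨wz, hbij, hw0, hwz⟩ := exists_places K m hm σ hσ w₁
  have hmpos : 0 < m := NeZero.pos m
  have hrank : Module.finrank ℤ (Additive ((𝓞 K)ˣ ⧸ torsion K)) = m - 1 := by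
    rw [finrank_modTorsion, rank, hm]
  have hsumw : ∀ (u : (𝓞 K)ˣ), ∑ i, lg (wz i) u = 0 := by
    intro u
    rw [← sum_lg hK u]
    exact (Equiv.ofBijective wz hbij).sum_comp (fun w => lg w u)
  obtain ⟨u0, hu0⟩ := dirichletUnitTheorem.exists_unit K w₁
  apply charpoly_eq (TT σ) _ (monic_geom_sum_X (NeZero.ne m)) ?_ ?_ (pr u0) ?_
  · rw [hrank]
    exact natDegree_geom m (NeZero.ne m)
  · refine LinearMap.ext fun x => ?_
    obtain ⟨u, rfl⟩ := pr_surjective x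
    rw [map_sum]
    simp only [map_pow, aeval_X, LinearMap.sum_apply, TT_pow_pr, LinearMap.zero_apply]
    rw [← pr_prod, pr_eq_zero_iff]
    apply mem_torsion_of_lg
    intro w
    obtain ⟨j, rfl⟩ := hbij.2 w
    rw [lg_prod]
    simp only [lg_sU_pow σ wz hwz]
    rw [sum_range_zmod (fun i => lg (wz (j - i)) u), ← hsumw u]
    exact (Equiv.subLeft j).sum_comp (fun i => lg (wz i) u)
  · intro c hc k hk
    rw [hrank] at hc hk
    simp only [TT_pow_pr, ← pr_zpow, ← pr_prod] at hc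
    rw [pr_eq_zero_iff] at hc
    have h1 : ∀ j, ∑ k ∈ Finset.range (m - 1), (c k : ℝ) * lg (wz (j - k)) u0 = 0 := by
      intro j
      have := lg_of_mem_torsion hc (wz j)
      rw [lg_prod] at this
      simpa only [lg_zpow, lg_sU_pow σ wz hwz] using this
    let c' : ZMod m → ℝ := fun i => if i.val < m - 1 then (c i.val : ℝ) else 0
    have hval : ∀ x : ℕ, x < m → ((x : ZMod m)).val = x := fun x hx => by
      rw [ZMod.val_natCast, Nat.mod_eq_of_lt hx]
    have h2 : ∀ j, ∑ i, c' i * lg (wz (j - i)) u0 = 0 := by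
      intro j
      rw [← sum_range_zmod (fun i => c' i * lg (wz (j - i)) u0), ← h1 j]
      symm
      apply Finset.sum_subset_zero_on_sdiff (Finset.range_subset_range.mpr (Nat.sub_le m 1))
      · intro x hx
        simp only [Finset.mem_sdiff, Finset.mem_range, not_lt] at hx
        simp only [c', hval x hx.1, if_neg (not_lt.mpr hx.2), zero_mul]
      · intro x hx
        simp only [Finset.mem_range] at hx
        simp only [c', hval x (by omega), if_pos hx]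
    have h3 := circulant (fun i => lg (wz i) u0) c'
      (fun i hi => hu0 (wz i) (by rw [← hw0]; exact fun h => hi (hbij.1 h))) (hsumw u0) h2
      (k : ZMod m) ((m - 1 : ℕ) : ZMod m)
    simp only [c', hval k (by omega), hval (m - 1) (by omega), if_pos hk, lt_irrefl,
      if_false] at h3
    exact_mod_cast h3

end charpoly

section final

set_option maxSynthPendingDepth 2

variable (p : ℕ) [Fact p.Prime] (K : Type) [Field K] [NumberField K]
  [IsCyclotomicExtension {p} ℚ K] (ζ : 𝓞 K)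

/-- torsion units are `± ζ ^ r`. -/
theorem torsion_eq (hp : 5 ≤ p) (hζ : IsPrimitiveRoot ζ p) (ζu : (𝓞 K)ˣ)
    (hζu : (ζu : 𝓞 K) = ζ) (t : (𝓞 K)ˣ) (ht : IsOfFinOrder t) :
    ∃ (r : ℕ) (e : (𝓞 K)ˣ), t = ζu ^ r * e ^ p ∧ e ^ 2 = 1 := by
  have hpp : p.Prime := Fact.out
  have hodd : Odd p := hpp.odd_of_ne_two (by omega)
  have hζK : IsPrimitiveRoot ((ζ : 𝓞 K) : K) p :=
    hζ.map_of_injective (RingOfIntegers.coe_injective)
  have ht' : IsOfFinOrder (((t : (𝓞 K)ˣ) : 𝓞 K) : K) :=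
    (((algebraMap (𝓞 K) K : 𝓞 K →* K).comp (Units.coeHom (𝓞 K)))).isOfFinOrder ht
  obtain ⟨r, -, h | h⟩ := hζK.exists_pow_or_neg_mul_pow_of_isOfFinOrder hodd ht'
  · refine ⟨r, 1, ?_, one_pow 2⟩
    apply Units.ext
    apply RingOfIntegers.ext
    rw [h]
    simp [hζu]
  · refine ⟨r, -1, ?_, by simp⟩
    apply Units.ext
    apply RingOfIntegers.ext
    rw [h]
    simp [hζu, hodd.neg_one_pow]

theorem isPow_of_eigen (hp : 5 ≤ p) (hζ : IsPrimitiveRoot ζ p) (σ : K ≃ₐ[ℚ] K) (g : ℕ)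
    (hσ : σ • ζ = ζ ^ g) (hg : ¬ p ∣ g) (hg1 : ¬ (g : ZMod p) = 1) (θ t s u : (𝓞 K)ˣ)
    (ht : t ∈ torsion K) (hθ : θ = t * s ^ p) (hσθ : sU σ θ = θ ^ (g ^ 2) * u ^ p) :
    ∃ v : (𝓞 K)ˣ, θ = v ^ p := by
  have hpp : p.Prime := Fact.out
  obtain ⟨ζu, hζu⟩ : IsUnit ζ := hζ.isUnit (by omega)
  rw [torsion, CommGroup.mem_torsion] at ht
  obtain ⟨r, e, rfl, he⟩ := torsion_eq p K ζ hp hζ ζu hζu t ht
  obtain ⟨s', hs'⟩ : ∃ s', s' = e * s := ⟨_, rfl⟩
  have hθ' : θ = ζu ^ r * s' ^ p := by rw [hθ, hs', mul_pow, mul_assoc]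
  have hσζ : sU σ ζu = ζu ^ g := Units.ext (by rw [coe_sU, hζu, hσ]; push_cast; rw [hζu])
  have h1 : ζu ^ (r * g) * (sU σ s') ^ p = ζu ^ (r * g ^ 2) * (s' ^ (g ^ 2) * u) ^ p := by
    have := hσθ
    rw [hθ', map_mul, map_pow, map_pow, hσζ, ← pow_mul, mul_comm g r] at this
    rw [this, mul_pow (ζu ^ r), ← pow_mul, ← pow_mul, mul_pow (s' ^ (g ^ 2)), ← pow_mul,
      mul_comm p (g ^ 2), mul_assoc]
  obtain ⟨w, hw⟩ : ∃ w, w = sU σ s' * (s' ^ (g ^ 2) * u)⁻¹ := ⟨_, rfl⟩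
  have h2 : ζu ^ (r * g) * w ^ p = ζu ^ (r * g ^ 2) := by
    rw [hw, mul_pow, inv_pow, ← mul_assoc, h1, mul_inv_cancel_right]
  have hζp : ζu ^ p = 1 := Units.ext (by push_cast; rw [hζu, hζ.pow_eq_one])
  have h3 : w ^ (p * p) = 1 := by
    have := congrArg (· ^ p) h2
    simp only [mul_pow, ← pow_mul] at this
    rwa [pow_mul' ζu (r * g) p, pow_mul' ζu (r * g ^ 2) p, hζp, one_pow, one_pow, one_mul] at this
  have hwfin : IsOfFinOrder w :=
    isOfFinOrder_iff_pow_eq_one.mpr ⟨p * p, Nat.mul_pos hpp.pos hpp.pos, h3⟩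
  obtain ⟨r', e', hw', he'⟩ := torsion_eq p K ζ hp hζ ζu hζu w hwfin
  have h4 : w ^ (2 * p) = 1 := by
    have ha : (ζu ^ r') ^ (2 * p) = 1 := by
      rw [← pow_mul, mul_comm 2 p, ← mul_assoc, mul_comm r' p, mul_assoc, pow_mul, hζp, one_pow]
    have hb : (e' ^ p) ^ (2 * p) = 1 := by
      rw [← pow_mul, mul_left_comm, pow_mul, he', one_pow]
    rw [hw', mul_pow, ha, hb, one_mul]
  have h5 : ζu ^ (2 * (r * g)) = ζu ^ (2 * (r * g ^ 2)) := by
    have := congrArg (· ^ 2) h2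
    simp only [mul_pow, ← pow_mul] at this
    rw [mul_comm p 2, h4, mul_one] at this
    rw [mul_comm 2, mul_comm 2]
    exact this
  have hord : orderOf ζu = p := by
    have : IsPrimitiveRoot ζu p := by
      rw [← IsPrimitiveRoot.coe_units_iff, hζu]
      exact hζ
    exact this.eq_orderOf.symm
  rw [pow_eq_pow_iff_modEq, hord] at h5
  have h6 : ((2 * (r * g) : ℕ) : ZMod p) = ((2 * (r * g ^ 2) : ℕ) : ZMod p) :=
    (ZMod.natCast_eq_natCast_iff _ _ _).mpr h5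
  push_cast at h6
  have h7 : (r : ZMod p) = 0 := by
    have h2ne : (2 : ZMod p) ≠ 0 := by
      intro h
      have : ((2 : ℕ) : ZMod p) = 0 := by exact_mod_cast h
      rw [ZMod.natCast_eq_zero_iff] at this
      have := Nat.le_of_dvd (by norm_num) this
      omega
    have hgne : (g : ZMod p) ≠ 0 := by
      rw [Ne, ZMod.natCast_eq_zero_iff]
      exact hg
    have h8 : (2 : ZMod p) * g * (1 - g) * r = 0 := by linear_combination h6
    have h9 : (1 - (g : ZMod p)) ≠ 0 := sub_ne_zero.mpr (fun h => hg1 h.symm)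
    simpa [h2ne, hgne, h9] using h8
  obtain ⟨q, rfl⟩ := (ZMod.natCast_eq_zero_iff _ _).mp h7
  exact ⟨s', by rw [hθ', pow_mul, hζp, one_pow, one_mul]⟩

end final

end UnitsEigen

section cyclo

set_option maxSynthPendingDepth 2

variable (p : ℕ) [Fact p.Prime] (K : Type) [Field K] [NumberField K]
  [IsCyclotomicExtension {p} ℚ K] (ζ : 𝓞 K)

open UnitsEigen NumberField.Units Polynomial in
/-- (I): the `ω²`-eigenspace of units modulo `p`-th powers is generated by any non-trivial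
element. -/
theorem units_eigen (hp : 5 ≤ p) (hζ : IsPrimitiveRoot ζ p) (ε η : (𝓞 K)ˣ)
    (hε : ∀ (σ : K ≃ₐ[ℚ] K) (a : ℕ), σ • ζ = ζ ^ a →
      ∃ u : (𝓞 K)ˣ, σ • (ε : 𝓞 K) = (ε : 𝓞 K) ^ (a ^ 2) * (u : 𝓞 K) ^ p)
    (hη : ∀ (σ : K ≃ₐ[ℚ] K) (a : ℕ), σ • ζ = ζ ^ a →
      ∃ u : (𝓞 K)ˣ, σ • (η : 𝓞 K) = (η : 𝓞 K) ^ (a ^ 2) * (u : 𝓞 K) ^ p)
    (hη' : ∀ u : (𝓞 K)ˣ, η ≠ u ^ p) :
    ∃ (j : ℕ) (u : (𝓞 K)ˣ), ε = η ^ j * u ^ p := by
  have hpp : p.Prime := Fact.out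
  obtain ⟨σ, g, hσg, hσ, hg, hg1⟩ := exists_gen p K ζ hp hζ
  have : IsGalois ℚ K := IsCyclotomicExtension.isGalois {p} ℚ K
  obtain ⟨m, hm⟩ : ∃ m, m = (p - 1) / 2 := ⟨_, rfl⟩
  have : NeZero m := ⟨by omega⟩
  have hcard : Fintype.card (InfinitePlace K) = m := by
    have h1 := IsCyclotomicExtension.Rat.nrRealPlaces_eq_zero (n := p) K (by omega)
    have h3 := IsCyclotomicExtension.Rat.nrComplexPlaces_eq_totient_div_two p K
    rw [Nat.totient_prime hpp] at h3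
    have h4 := NumberField.InfinitePlace.card_eq_nrRealPlaces_add_nrComplexPlaces K
    rw [h1, h3, zero_add] at h4
    rw [h4, hm]
  have hK : ∀ w : InfinitePlace K, w.IsComplex :=
    (IsCyclotomicExtension.Rat.isTotallyComplex (n := p) K (by omega)).isComplex
  have hchar := charpoly_TT m hcard hK σ hσ
  have hsep : ((TT σ).charpoly.map (Int.castRingHom (ZMod p))).Separable := by
    rw [hchar, Polynomial.map_sum]
    simp only [Polynomial.map_pow, Polynomial.map_X]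
    have h1 : ((X : (ZMod p)[X]) ^ m - 1).Separable := by
      rw [X_pow_sub_one_separable_iff, Ne, ZMod.natCast_eq_zero_iff]
      intro h
      have := Nat.le_of_dvd (NeZero.pos m) h
      omega
    rw [← geom_sum_mul] at h1
    exact h1.of_mul_left
  obtain ⟨u1, hu1⟩ := hε σ g hσg
  obtain ⟨u2, hu2⟩ := hη σ g hσg
  have hu1' : sU σ ε = ε ^ (g ^ 2) * u1 ^ p := Units.ext (by rw [coe_sU, hu1]; push_cast; rfl)
  have hu2' : sU σ η = η ^ (g ^ 2) * u2 ^ p := Units.ext (by rw [coe_sU, hu2]; push_cast; rfl)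
  have key := exists_eq_smul_add (TT σ) p hsep ((g : ℤ) ^ 2) (pr ε) (pr η)
    ⟨pr u1, by
      rw [TT_pr, hu1', pr_mul, pr_pow, pr_pow]
      congr 1⟩
    ⟨pr u2, by
      rw [TT_pr, hu2', pr_mul, pr_pow, pr_pow]
      congr 1⟩
    (by
      rintro ⟨z, hz⟩
      obtain ⟨s, rfl⟩ := pr_surjective z
      have h1 : pr (η * (s ^ p)⁻¹) = 0 := by
        rw [pr_mul, hz, ← pr_pow, ← pr_mul, mul_inv_cancel, pr_one]
      rw [pr_eq_zero_iff] at h1
      obtain ⟨v, hv⟩ := isPow_of_eigen p K ζ hp hζ σ g hσg hg hg1 η _ s u2 h1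
        (by rw [inv_mul_cancel_right]) hu2'
      exact hη' v hv)
  obtain ⟨j, z, hz⟩ := key
  obtain ⟨s, rfl⟩ := pr_surjective z
  have h1 : pr (ε * (η ^ j)⁻¹ * (s ^ p)⁻¹) = 0 := by
    rw [pr_mul, pr_mul, hz, ← pr_pow, ← pr_pow, ← pr_mul, ← pr_mul, ← pr_mul]
    have : η ^ j * s ^ p * (η ^ j)⁻¹ * (s ^ p)⁻¹ = 1 := by
      rw [mul_right_comm (η ^ j), mul_inv_cancel, one_mul, mul_inv_cancel]
    rw [this, pr_one]
  rw [pr_eq_zero_iff] at h1
  obtain ⟨v, hv⟩ := isPow_of_eigen p K ζ hp hζ σ g hσg hg hg1 (ε * (η ^ j)⁻¹) _ s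
    (u1 * (u2 ^ j)⁻¹) h1 (by rw [inv_mul_cancel_right]) (by
      rw [map_mul, map_inv, map_pow, hu1', hu2']
      simp only [mul_pow, inv_pow, mul_inv, ← pow_mul]
      rw [mul_comm j (g ^ 2), mul_comm p j]
      exact mul_mul_mul_comm _ _ _ _)
  exact ⟨j, v, by rw [← hv, mul_comm, inv_mul_cancel_right]⟩

end cyclo

end Fermat.Agent.S14Lib
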