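import Mathlib
import Fermat.Agent.S14.Defs
import Fermat.Agent.S14.NonSplit
import Fermat.Agent.S14.EtaMod
import Fermat.Agent.S14.NoChar
import Fermat.Agent.S14.UnitsEigen
import Fermat.Agent.S14.EtaUnit
import Fermat.Agent.S14.EtaLocal

set_option autoImplicit false
set_option linter.style.haveILetI false

namespace Fermat.Agent.S14Lib

open NumberField nonZeroDivisors IsDedekindDomain
open scoped Pointwise

section action

variable {K : Type} [Field K] [NumberField K]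

theorem core_smul_span (σ : K ≃ₐ[ℚ] K) (x : 𝓞 K) :
    σ • Ideal.span {x} = Ideal.span {σ • x} := by
  rw [Ideal.pointwise_smul_def, Ideal.map_span, Set.image_singleton]
  rfl

theorem core_smul_ne_bot (σ : K ≃ₐ[ℚ] K) {I : Ideal (𝓞 K)} (hI : I ≠ ⊥) : σ • I ≠ ⊥ := by
  intro h
  apply hI
  have : σ⁻¹ • (σ • I) = σ⁻¹ • (⊥ : Ideal (𝓞 K)) := by rw [h]
  rw [inv_smul_smul] at this
  rw [this, Ideal.pointwise_smul_def, Ideal.map_bot]

theorem core_exists_rep (C : ClassGroup (𝓞 K)) : ∃ I : Ideal (𝓞 K), I ≠ ⊥ ∧ cls I = C := by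
  obtain ⟨I, rfl⟩ := ClassGroup.mk0_surjective C
  exact ⟨I, nonZeroDivisors.coe_ne_zero I, cls_mk0 I⟩

theorem core_cls_smul_eq_one (σ : K ≃ₐ[ℚ] K) {I : Ideal (𝓞 K)} (hI : I ≠ ⊥) (h : cls I = 1) :
    cls (σ • I) = 1 := by
  rw [cls_eq_one_iff hI] at h
  obtain ⟨⟨x, hx⟩⟩ := h
  rw [hx]
  change cls (σ • Ideal.span {x}) = 1
  rw [core_smul_span, cls_span_singleton]

theorem core_cls_smul_congr (σ : K ≃ₐ[ℚ] K) {I J : Ideal (𝓞 K)} (hI : I ≠ ⊥) (hJ : J ≠ ⊥)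
    (h : cls I = cls J) : cls (σ • I) = cls (σ • J) := by
  obtain ⟨J', hJ', hJ'c⟩ := core_exists_rep (cls J)⁻¹
  have h1 : cls (I * J') = 1 := by rw [cls_mul hI hJ', hJ'c, h, mul_inv_cancel]
  have h2 : cls (J * J') = 1 := by rw [cls_mul hJ hJ', hJ'c, mul_inv_cancel]
  have h3 := core_cls_smul_eq_one σ (mul_ne_zero hI hJ') h1
  have h4 := core_cls_smul_eq_one σ (mul_ne_zero hJ hJ') h2
  rw [smul_mul', cls_mul (core_smul_ne_bot σ hI) (core_smul_ne_bot σ hJ')] at h3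
  rw [smul_mul', cls_mul (core_smul_ne_bot σ hJ) (core_smul_ne_bot σ hJ')] at h4
  exact mul_right_cancel (h3.trans h4.symm)

/-- the action of a Galois automorphism on ideal classes -/
noncomputable def clsAct (σ : K ≃ₐ[ℚ] K) (C : ClassGroup (𝓞 K)) : ClassGroup (𝓞 K) :=
  cls (σ • (core_exists_rep C).choose)

theorem clsAct_cls (σ : K ≃ₐ[ℚ] K) (I : Ideal (𝓞 K)) : clsAct σ (cls I) = cls (σ • I) := by
  have hs := (core_exists_rep (cls I)).choose_spec
  by_cases hI : I = ⊥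
  · subst hI
    have h1 : cls (⊥ : Ideal (𝓞 K)) = 1 := by rw [cls, dif_pos rfl]
    have h2 : σ • (⊥ : Ideal (𝓞 K)) = ⊥ := by rw [Ideal.pointwise_smul_def, Ideal.map_bot]
    rw [h2, h1, clsAct]
    exact core_cls_smul_eq_one σ (core_exists_rep _).choose_spec.1
      ((core_exists_rep _).choose_spec.2)
  · exact core_cls_smul_congr σ hs.1 hI hs.2

theorem clsAct_mul (σ : K ≃ₐ[ℚ] K) (C D : ClassGroup (𝓞 K)) :
    clsAct σ (C * D) = clsAct σ C * clsAct σ D := by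
  obtain ⟨I, hI, rfl⟩ := core_exists_rep C
  obtain ⟨J, hJ, rfl⟩ := core_exists_rep D
  rw [← cls_mul hI hJ, clsAct_cls, clsAct_cls, clsAct_cls, smul_mul',
    cls_mul (core_smul_ne_bot σ hI) (core_smul_ne_bot σ hJ)]

theorem clsAct_comp (σ τ : K ≃ₐ[ℚ] K) (C : ClassGroup (𝓞 K)) :
    clsAct (σ * τ) C = clsAct σ (clsAct τ C) := by
  obtain ⟨I, hI, rfl⟩ := core_exists_rep C
  rw [clsAct_cls, clsAct_cls, clsAct_cls, mul_smul]

theorem clsAct_one (C : ClassGroup (𝓞 K)) : clsAct (1 : K ≃ₐ[ℚ] K) C = C := by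
  obtain ⟨I, hI, rfl⟩ := core_exists_rep C
  rw [clsAct_cls, one_smul]

/-- the action of the Galois group on the class group, as a homomorphism -/
noncomputable def clsActHom : (K ≃ₐ[ℚ] K) →* MulAut (ClassGroup (𝓞 K)) where
  toFun σ :=
    { toFun := clsAct σ
      invFun := clsAct σ⁻¹
      left_inv := fun C => by rw [← clsAct_comp, inv_mul_cancel, clsAct_one]
      right_inv := fun C => by rw [← clsAct_comp, mul_inv_cancel, clsAct_one]
      map_mul' := clsAct_mul σ }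
  map_one' := by
    ext C
    exact clsAct_one C
  map_mul' σ τ := by
    ext C
    exact clsAct_comp σ τ C

theorem clsActHom_apply (σ : K ≃ₐ[ℚ] K) (I : Ideal (𝓞 K)) :
    clsActHom σ (cls I) = cls (σ • I) := clsAct_cls σ I

/-- `p`-th roots of ideals are unique. -/
theorem core_ideal_pow_inj {I J : Ideal (𝓞 K)} {n : ℕ} (hn : n ≠ 0) (h : I ^ n = J ^ n) :
    I = J := by
  have h1 : I ∣ J := (UniqueFactorizationMonoid.pow_dvd_pow_iff_dvd hn).mp (h ▸ dvd_rfl)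
  have h2 : J ∣ I := (UniqueFactorizationMonoid.pow_dvd_pow_iff_dvd hn).mp (h ▸ dvd_rfl)
  exact dvd_antisymm h1 h2

end action

section main

variable (p : ℕ) [Fact p.Prime] (K : Type) [Field K] [NumberField K]
  [IsCyclotomicExtension {p} ℚ K] (ζ : 𝓞 K)

omit [Fact (Nat.Prime p)] [NumberField K] [IsCyclotomicExtension {p} ℚ K] in
theorem core_coe_prim {ζ : 𝓞 K} (hζ : IsPrimitiveRoot ζ p) : IsPrimitiveRoot (ζ : K) p :=
  hζ.map_of_injective (f := algebraMap (𝓞 K) K) RingOfIntegers.coe_injective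

theorem core_prime (hζ : IsPrimitiveRoot ζ p) : Prime (ζ - 1) :=
  (core_coe_prim p K hζ).zeta_sub_one_prime'

theorem core_not_unit (hζ : IsPrimitiveRoot ζ p) : ¬ IsUnit (ζ - 1) :=
  (core_prime p K ζ hζ).not_isUnit

omit [NumberField K] in
/-- an element of `K` whose `p`-th power is integral is integral -/
theorem core_integral_of_pow {n : ℕ} (hn : 0 < n) (y : K) (z : 𝓞 K) (h : y ^ n = (z : K)) :
    ∃ y' : 𝓞 K, (y' : K) = y := by
  have hy : IsIntegral ℤ y := by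
    apply IsIntegral.of_pow hn
    rw [h]
    exact z.2
  exact ⟨⟨y, hy⟩, rfl⟩

theorem core_eta_not_pow (hp : 5 ≤ p) (hζ : IsPrimitiveRoot ζ p) (y : 𝓞 K) :
    eta p ζ ≠ y ^ p := by
  intro h
  have h1 : p ∣ 1 := by
    apply eta_local p K ζ hp hζ 1 1 y
    · intro hd
      exact core_not_unit p K ζ hζ (isUnit_of_dvd_one hd)
    · rw [pow_one, one_pow, mul_one, h, sub_self]
      exact dvd_zero _
  have := Nat.le_of_dvd one_pos h1
  omega

theorem core_eta_not_pow' (hp : 5 ≤ p) (hζ : IsPrimitiveRoot ζ p) (y : K) :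
    ((eta p ζ : 𝓞 K) : K) ≠ y ^ p := by
  intro h
  obtain ⟨y', rfl⟩ := core_integral_of_pow K (by omega : 0 < p) y (eta p ζ) h.symm
  apply core_eta_not_pow p K ζ hp hζ y'
  exact_mod_cast h

omit [IsCyclotomicExtension {p} ℚ K] in
theorem core_cls_eig (α : 𝓞 K) (hα : α ≠ 0) (I : Ideal (𝓞 K)) (hI : Ideal.span {α} = I ^ p)
    (σ : K ≃ₐ[ℚ] K) (m : ℕ) (c : K) (hc : ((σ • α : 𝓞 K) : K) = (α : K) ^ m * c ^ p) :
    cls (σ • I) = cls I ^ m := by
  have hp0 : p ≠ 0 := (Fact.out : p.Prime).ne_zero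
  have hI0 : I ≠ ⊥ := by
    rintro rfl
    rw [Ideal.bot_pow hp0, Ideal.span_singleton_eq_bot] at hI
    exact hα hI
  have hσα : σ • α ≠ 0 := by
    intro h
    apply hα
    have := congrArg (fun z => σ⁻¹ • z) h
    simpa using this
  obtain ⟨c₁, c₂, hc₂, rfl⟩ := IsFractionRing.div_surjective (A := 𝓞 K) c
  have hc₂0 : c₂ ≠ 0 := nonZeroDivisors.ne_zero hc₂
  have hc₂K : (algebraMap (𝓞 K) K c₂) ≠ 0 := by
    simpa using hc₂0
  have hc₁0 : c₁ ≠ 0 := by
    rintro rfl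
    apply hσα
    apply RingOfIntegers.coe_injective
    change ((σ • α : 𝓞 K) : K) = _
    rw [hc]
    simp [hp0]
  have h1 : σ • α * c₂ ^ p = α ^ m * c₁ ^ p := by
    apply RingOfIntegers.coe_injective
    rw [map_mul, map_mul, map_pow, map_pow, map_pow]
    change ((σ • α : 𝓞 K) : K) * _ = _
    rw [hc, div_pow]
    field_simp
  have h2 : (σ • I * Ideal.span {c₂}) ^ p = (I ^ m * Ideal.span {c₁}) ^ p := by
    rw [mul_pow, mul_pow, ← smul_pow', ← hI, core_smul_span, ← pow_mul, mul_comm m p, pow_mul,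
      ← hI, Ideal.span_singleton_pow, Ideal.span_singleton_pow, Ideal.span_singleton_pow,
      Ideal.span_singleton_mul_span_singleton, Ideal.span_singleton_mul_span_singleton, h1]
  have h3 := core_ideal_pow_inj hp0 h2
  have h4 := congrArg cls h3
  have hs1 : Ideal.span {c₁} ≠ ⊥ := by rwa [Ne, Ideal.span_singleton_eq_bot]
  have hs2 : Ideal.span {c₂} ≠ ⊥ := by rwa [Ne, Ideal.span_singleton_eq_bot]
  rw [cls_mul (core_smul_ne_bot σ hI0) hs2, cls_mul (pow_ne_zero m hI0) hs1, cls_span_singleton,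
    cls_span_singleton, mul_one, mul_one, cls_pow hI0] at h4
  exact h4

theorem core_pow_congr {G : Type*} [Monoid G] (g : G) (hg : g ^ p = 1) (m n : ℕ)
    (h : (m : ZMod p) = (n : ZMod p)) : g ^ m = g ^ n := by
  rw [pow_eq_pow_mod m hg, pow_eq_pow_mod n hg, (ZMod.natCast_eq_natCast_iff' m n p).mp h]

theorem core_zmod_eq {R : Type*} [CommRing R] {ζ : R}
    (hζ : IsPrimitiveRoot ζ p) (m n : ℕ) (h : ζ ^ m = ζ ^ n) : (m : ZMod p) = (n : ZMod p) := by
  have hfin : IsOfFinOrder ζ := isOfFinOrder_iff_pow_eq_one.mpr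
    ⟨p, (Fact.out : p.Prime).pos, hζ.pow_eq_one⟩
  have h1 : m ≡ n [MOD p] := by
    have := hfin.pow_eq_pow_iff_modEq.mp h
    rwa [← hζ.eq_orderOf] at this
  exact (ZMod.natCast_eq_natCast_iff _ _ _).mpr h1

theorem core_mult_pow (g : Multiplicative (ZMod p)) : g ^ p = 1 := by
  apply Multiplicative.toAdd.injective
  rw [toAdd_pow, toAdd_one]
  simp

/-- (L) the core theorem, `p ≥ 5`. -/
theorem core (hp : 5 ≤ p) (hζ : IsPrimitiveRoot ζ p) (α : 𝓞 K) (hα : α ≠ 0)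
    (heig : ∀ (σ : K ≃ₐ[ℚ] K) (a : ℕ), σ • ζ = ζ ^ a →
      ∃ c : K, ((σ • α : 𝓞 K) : K) = (α : K) ^ (a ^ 2) * c ^ p)
    (hval : ∃ I : Ideal (𝓞 K), Ideal.span {α} = I ^ p)
    (hunit : ¬ (ζ - 1) ∣ α)
    (hloc : ∃ c : 𝓞 K, (ζ - 1) ^ 3 ∣ α - c ^ p) :
    ∃ β : 𝓞 K, α = β ^ p := by
  have hp0 : p ≠ 0 := by omega
  have hp2 : p ≠ 2 := by omega
  haveI : NeZero p := ⟨hp0⟩
  obtain ⟨I, hI⟩ := hval
  have hI0 : I ≠ ⊥ := by
    rintro rfl
    rw [Ideal.bot_pow hp0, Ideal.span_singleton_eq_bot] at hI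
    exact hα hI
  let e := IsCyclotomicExtension.Rat.galEquivZMod p K
  have he : ∀ σ : K ≃ₐ[ℚ] K, σ • ζ = ζ ^ ((e σ : (ZMod p)ˣ) : ZMod p).val :=
    fun σ => IsCyclotomicExtension.Rat.galEquivZMod_smul_of_pow_eq p K σ hζ.pow_eq_one
  let T : (ZMod p)ˣ →* MulAut (ClassGroup (𝓞 K)) := clsActHom.comp e.symm.toMonoidHom
  have hT : ∀ (u : (ZMod p)ˣ) (J : Ideal (𝓞 K)), T u (cls J) = cls (e.symm u • J) :=
    fun u J => clsActHom_apply _ _
  have hx : cls I ^ p = 1 := by rw [← cls_pow hI0, ← hI, cls_span_singleton]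
  have hcls1 : cls I = 1 := by
    apply eq_one_of_no_char p (ClassGroup (𝓞 K)) T 2 (cls I) hx
    · intro u
      rw [hT]
      have hσ : e.symm u • ζ = ζ ^ (u : ZMod p).val := by
        have := he (e.symm u)
        rwa [e.apply_symm_apply] at this
      obtain ⟨c, hc⟩ := heig (e.symm u) _ hσ
      rw [core_cls_eig p K α hα I hI (e.symm u) _ c hc]
      apply core_pow_congr p _ hx
      push_cast
      rw [ZMod.natCast_val, ZMod.natCast_val, ZMod.cast_id, ZMod.cast_id]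
    · intro ψ hψ
      by_contra hne
      obtain ⟨v, hv1, hv2, hv3, hv4⟩ := exists_prime_nonsplit p hp2 K (ζ : K)
        (core_coe_prim p K hζ) ψ hne (eta p ζ) (isUnit_eta p K ζ hp2 hζ)
        (core_eta_not_pow' p K ζ hp hζ)
      obtain ⟨y, hy⟩ := eta_pow_mod_of_char p K ζ hp2 hζ ψ (by
        intro σ a ha J
        have h1 := hψ (e σ) (cls J)
        rw [hT, e.symm_apply_apply] at h1
        rw [h1]
        apply core_pow_congr p _ (core_mult_pow p _)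
        have h2 := core_zmod_eq p hζ _ _ ((he σ).symm.trans ha)
        push_cast
        rw [← h2, ZMod.natCast_val, ZMod.natCast_val, ZMod.cast_id, ZMod.cast_id]) v hv1 hv2 hv3
      exact hv4 y hy
  rw [cls_eq_one_iff hI0] at hcls1
  obtain ⟨⟨γ, hγ⟩⟩ := hcls1
  have hγ' : I = Ideal.span {γ} := hγ
  rw [hγ', Ideal.span_singleton_pow, Ideal.span_singleton_eq_span_singleton] at hI
  obtain ⟨ε', hε'⟩ := hI
  have hαε : α = (ε'⁻¹ : (𝓞 K)ˣ) * γ ^ p := by
    rw [← hε', mul_comm α, ← mul_assoc, Units.inv_mul, one_mul]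
  set ε : (𝓞 K)ˣ := ε'⁻¹ with hεdef
  have hγ0 : γ ≠ 0 := by
    rintro rfl
    rw [zero_pow hp0, mul_zero] at hαε
    exact hα hαε
  have hεeig : ∀ (σ : K ≃ₐ[ℚ] K) (a : ℕ), σ • ζ = ζ ^ a →
      ∃ u : (𝓞 K)ˣ, σ • (ε : 𝓞 K) = (ε : 𝓞 K) ^ (a ^ 2) * (u : 𝓞 K) ^ p := by
    intro σ a ha
    obtain ⟨c, hc⟩ := heig σ a ha
    have hσγ : σ • γ ≠ 0 := by
      intro h
      apply hγ0
      have := congrArg (fun z => σ⁻¹ • z) h
      simpa using this
    have hσγK : ((σ • γ : 𝓞 K) : K) ≠ 0 := by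
      intro h
      exact hσγ (RingOfIntegers.coe_injective (h.trans (map_zero _).symm))
    have hσα : σ • α = σ • (ε : 𝓞 K) * (σ • γ) ^ p := by
      rw [hαε, smul_mul', smul_pow']
    have hεK : ((ε : 𝓞 K) : K) ≠ 0 := by
      intro h
      exact ε.ne_zero (RingOfIntegers.coe_injective (h.trans (map_zero _).symm))
    -- the unit `w = σ ε * ε ^ (-a²)`
    let w : 𝓞 K := σ • (ε : 𝓞 K) * ((ε⁻¹ : (𝓞 K)ˣ) : 𝓞 K) ^ (a ^ 2)
    have hσε : IsUnit (σ • (ε : 𝓞 K)) :=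
      ε.isUnit.map (MulSemiringAction.toRingHom (K ≃ₐ[ℚ] K) (𝓞 K) σ)
    have hw : IsUnit w := hσε.mul ((Units.isUnit _).pow _)
    have hwε : σ • (ε : 𝓞 K) = (ε : 𝓞 K) ^ (a ^ 2) * w := by
      change _ = _ * (_ * _)
      rw [mul_left_comm, ← mul_pow, Units.mul_inv, one_pow, mul_one]
    let d : K := (γ : K) ^ (a ^ 2) * c / ((σ • γ : 𝓞 K) : K)
    have hd : d ^ p = (w : K) := by
      have h1 : ((σ • α : 𝓞 K) : K) = ((ε : 𝓞 K) : K) ^ (a ^ 2) * (w : K) *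
          ((σ • γ : 𝓞 K) : K) ^ p := by
        rw [hσα, hwε]
        simp only [map_mul, map_pow]
      have h2 : (α : K) = ((ε : 𝓞 K) : K) * (γ : K) ^ p := by
        conv_lhs => rw [hαε]
        simp only [map_mul, map_pow]
      rw [h1, h2] at hc
      have h3 : (w : K) * ((σ • γ : 𝓞 K) : K) ^ p = ((γ : K) ^ (a ^ 2) * c) ^ p := by
        apply mul_left_cancel₀ (pow_ne_zero (a ^ 2) hεK)
        rw [← mul_assoc, hc]
        ring
      change (_ / _) ^ p = _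
      rw [div_pow, ← h3, mul_div_assoc, div_self (pow_ne_zero p hσγK), mul_one]
    obtain ⟨d', hd'⟩ := core_integral_of_pow K (by omega : 0 < p) d w hd
    have hd'w : d' ^ p = w := by
      apply RingOfIntegers.coe_injective
      rw [map_pow]
      change (d' : K) ^ p = _
      rw [hd', hd]
    have hd'u : IsUnit d' := by
      rw [← isUnit_pow_iff hp0, hd'w]
      exact hw
    refine ⟨hd'u.unit, ?_⟩
    rw [IsUnit.unit_spec, hd'w]
    exact hwε
  have hηu := isUnit_eta p K ζ hp2 hζ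
  have hηeig : ∀ (σ : K ≃ₐ[ℚ] K) (a : ℕ), σ • ζ = ζ ^ a →
      ∃ u : (𝓞 K)ˣ, σ • (hηu.unit : 𝓞 K) = (hηu.unit : 𝓞 K) ^ (a ^ 2) * (u : 𝓞 K) ^ p := by
    intro σ a ha
    rw [IsUnit.unit_spec]
    exact eta_eigen p K ζ hp2 hζ σ a ha
  have hη' : ∀ u : (𝓞 K)ˣ, hηu.unit ≠ u ^ p := by
    intro u hu
    apply core_eta_not_pow p K ζ hp hζ (u : 𝓞 K)
    have := congrArg (fun z : (𝓞 K)ˣ => (z : 𝓞 K)) hu
    simpa using this
  obtain ⟨j, u, hju⟩ := units_eigen p K ζ hp hζ ε hηu.unit hεeig hηeig hη'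
  have hα2 : α = eta p ζ ^ j * ((u : 𝓞 K) * γ) ^ p := by
    rw [hαε, hju]
    simp only [Units.val_mul, Units.val_pow_eq_pow_val, IsUnit.unit_spec]
    ring
  obtain ⟨c, hc⟩ := hloc
  have hpj : p ∣ j := by
    apply eta_local p K ζ hp hζ j ((u : 𝓞 K) * γ) c
    · intro hdvd
      apply hunit
      rw [hα2]
      exact Dvd.dvd.mul_left (dvd_pow hdvd hp0) _
    · rw [← hα2]
      exact hc
  obtain ⟨k, rfl⟩ := hpj
  refine ⟨eta p ζ ^ k * ((u : 𝓞 K) * γ), ?_⟩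
  rw [hα2]
  ring

end main

end Fermat.Agent.S14Lib
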