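import Mathlib

/-!
# S14, leaf (K) : the core theorem for `p = 3`
-/

set_option autoImplicit false

namespace Fermat.Agent.S14Lib

open NumberField

/-- (K) the core theorem, `p = 3`. -/
theorem core_three (K : Type) [Field K] [NumberField K] [IsCyclotomicExtension {3} ℚ K]
    (ζ : 𝓞 K) (hζ : IsPrimitiveRoot ζ 3) (α : 𝓞 K) (hα : α ≠ 0)
    (heig : ∀ (σ : K ≃ₐ[ℚ] K) (a : ℕ), σ • ζ = ζ ^ a →
      ∃ c : K, ((σ • α : 𝓞 K) : K) = (α : K) ^ (a ^ 2) * c ^ 3)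
    (hval : ∃ I : Ideal (𝓞 K), Ideal.span {α} = I ^ 3) :
    ∃ β : 𝓞 K, α = β ^ 3 := by
  have hζK : IsPrimitiveRoot (ζ : K) 3 := hζ.map_of_injective RingOfIntegers.coe_injective
  have hζ3 : ζ ^ 3 = 1 := hζ.pow_eq_one
  have hη : hζK.toInteger = ζ := rfl
  -- units
  have hunits : ∀ u : (𝓞 K)ˣ, ∃ (j : ℕ) (s : 𝓞 K), (u : 𝓞 K) = ζ ^ j * s ^ 3 := by
    intro u
    have h := IsCyclotomicExtension.Rat.Three.Units.mem hζK u
    simp only [List.mem_cons, List.not_mem_nil, or_false] at h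
    rcases h with h | h | h | h | h | h
    · exact ⟨0, 1, by rw [h]; simp⟩
    · exact ⟨0, -1, by rw [h]; simp only [Units.val_neg, Units.val_one]; ring⟩
    · exact ⟨1, 1, by rw [h]; simp [hη]⟩
    · exact ⟨1, -1, by rw [h]; simp only [Units.val_neg, IsUnit.unit_spec, hη]; ring⟩
    · exact ⟨2, 1, by rw [h]; simp [hη]⟩
    · exact ⟨2, -1, by
        rw [h]; simp only [Units.val_neg, Units.val_pow_eq_pow_val, IsUnit.unit_spec, hη]; ring⟩
  have hcube : ∀ u : (𝓞 K)ˣ, (u : 𝓞 K) ^ 3 = 1 ∨ (u : 𝓞 K) ^ 3 = -1 := by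
    intro u
    have h := IsCyclotomicExtension.Rat.Three.Units.mem hζK u
    simp only [List.mem_cons, List.not_mem_nil, or_false] at h
    rcases h with h | h | h | h | h | h
    · left; rw [h]; simp
    · right; rw [h]; simp only [Units.val_neg, Units.val_one]; ring
    · left; rw [h]; simp [hη, hζ3]
    · right; rw [h]; simp [hη, hζ3, Odd.neg_pow (by decide : Odd 3)]
    · left; rw [h]; simp only [Units.val_pow_eq_pow_val, IsUnit.unit_spec, hη]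
      rw [← pow_mul, mul_comm, pow_mul, hζ3, one_pow]
    · right; rw [h]; simp only [Units.val_neg, Units.val_pow_eq_pow_val, IsUnit.unit_spec, hη]
      rw [Odd.neg_pow (by decide : Odd 3), ← pow_mul, mul_comm, pow_mul, hζ3, one_pow]
  -- `α = ζ ^ j * δ ^ 3`
  obtain ⟨I, hI⟩ := hval
  have hpid := IsCyclotomicExtension.Rat.three_pid K
  obtain ⟨γ, hγ⟩ := (hpid.principal I).principal
  have hγ' : I = Ideal.span {γ} := hγ
  rw [hγ', Ideal.span_singleton_pow, Ideal.span_singleton_eq_span_singleton] at hI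
  obtain ⟨u, hu⟩ := hI.symm
  obtain ⟨j, s, hs⟩ := hunits u
  obtain ⟨δ, hδ⟩ : ∃ δ : 𝓞 K, α = ζ ^ j * δ ^ 3 := ⟨γ * s, by rw [← hu, hs]; ring⟩
  have hδ0 : δ ≠ 0 := by
    rintro rfl
    apply hα
    rw [hδ]; simp
  -- complex conjugation
  obtain ⟨σ, hσ⟩ : ∃ σ : K ≃ₐ[ℚ] K, σ • ζ = ζ ^ 2 := by
    have hz := IsCyclotomicExtension.zeta_spec 3 ℚ K
    have hz2 : IsPrimitiveRoot (IsCyclotomicExtension.zeta 3 ℚ K ^ 2) 3 :=
      hz.pow_of_coprime 2 (by decide)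
    have hirr := Polynomial.cyclotomic.irreducible_rat (n := 3) (by decide)
    refine ⟨IsCyclotomicExtension.fromZetaAut hz2 hirr, ?_⟩
    obtain ⟨i, -, hi⟩ := hz.eq_pow_of_pow_eq_one hζK.pow_eq_one
    apply RingOfIntegers.coe_injective
    change (IsCyclotomicExtension.fromZetaAut hz2 hirr) (ζ : K) = ((ζ ^ 2 : 𝓞 K) : K)
    rw [← hi, map_pow, IsCyclotomicExtension.fromZetaAut_spec]
    have h2 : ((ζ ^ 2 : 𝓞 K) : K) = (ζ : K) ^ 2 := by push_cast; rfl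
    rw [h2, ← hi]
    ring
  obtain ⟨c, hc⟩ := heig σ 2 hσ
  have hσα : ((σ • α : 𝓞 K) : K) = (ζ : K) ^ (2 * j) * ((σ • δ : 𝓞 K) : K) ^ 3 := by
    rw [hδ, smul_mul', smul_pow', smul_pow', hσ]
    push_cast
    ring
  have hσδ0 : ((σ • δ : 𝓞 K) : K) ≠ 0 := by
    intro h
    apply hδ0
    have h1 : σ (δ : K) = 0 := h
    have h2 : (δ : K) = 0 := by simpa using h1
    exact RingOfIntegers.coe_injective (by simpa using h2)
  have hζK3 : (ζ : K) ^ 3 = 1 := hζK.pow_eq_one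
  -- `ζ ^ j` is a cube in `K`
  obtain ⟨x, hx⟩ : ∃ x : K, (ζ : K) ^ j = x ^ 3 := by
    refine ⟨(δ : K) ^ 4 * c / ((σ • δ : 𝓞 K) : K), ?_⟩
    rw [div_pow, eq_div_iff (pow_ne_zero _ hσδ0)]
    have hαK : (α : K) = (ζ : K) ^ j * (δ : K) ^ 3 := by rw [hδ]; push_cast; rfl
    rw [hσα, hαK] at hc
    have h1 : (ζ : K) ^ (6 * j) = 1 := by
      rw [show 6 * j = 3 * (2 * j) by ring, pow_mul, hζK3, one_pow]
    have h2 : (ζ : K) ^ (3 * j) = 1 := by rw [pow_mul, hζK3, one_pow]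
    calc (ζ : K) ^ j * ((σ • δ : 𝓞 K) : K) ^ 3
        = (ζ : K) ^ (3 * j) * ((ζ : K) ^ j * ((σ • δ : 𝓞 K) : K) ^ 3) := by rw [h2, one_mul]
      _ = (ζ : K) ^ (2 * j) * ((ζ : K) ^ (2 * j) * ((σ • δ : 𝓞 K) : K) ^ 3) := by ring
      _ = (ζ : K) ^ (2 * j) * (((ζ : K) ^ j * (δ : K) ^ 3) ^ 2 ^ 2 * c ^ 3) := by rw [hc]
      _ = (ζ : K) ^ (6 * j) * ((δ : K) ^ 4 * c) ^ 3 := by ring
      _ = ((δ : K) ^ 4 * c) ^ 3 := by rw [h1, one_mul]
  have hx9 : x ^ 9 = 1 := by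
    rw [show 9 = 3 * 3 by norm_num, pow_mul, ← hx, ← pow_mul, mul_comm, pow_mul, hζK3, one_pow]
  have hxint : IsIntegral ℤ x :=
    ⟨Polynomial.X ^ 9 - 1, Polynomial.monic_X_pow_sub_C 1 (by norm_num), by simp [hx9]⟩
  set y : 𝓞 K := ⟨x, hxint⟩ with hy
  have hyx : (y : K) = x := rfl
  have hy9 : y ^ 9 = 1 := RingOfIntegers.coe_injective (by
    rw [map_pow, map_one]; exact hx9)
  have hyu : IsUnit y := IsUnit.of_pow_eq_one hy9 (by norm_num)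
  have hζj : ζ ^ j = y ^ 3 := RingOfIntegers.coe_injective (by
    rw [map_pow, map_pow]; exact hx)
  rcases hcube hyu.unit with h | h
  · rw [IsUnit.unit_spec] at h
    exact ⟨δ, by rw [hδ, hζj, h, one_mul]⟩
  · rw [IsUnit.unit_spec] at h
    exact ⟨-δ, by rw [hδ, hζj, h]; ring⟩

end Fermat.Agent.S14Lib
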