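import Mathlib

/-!
# S14 (M), part 2: Galois theory / Kummer theory of the extension `N / ℚ(ζ)`
-/

set_option autoImplicit false

namespace Fermat.Agent.S14Lib

namespace NoExt

open NumberField IntermediateField

section Gal

variable {p : ℕ} [hp : Fact p.Prime] {N : Type} [Field N] [NumberField N] [IsGalois ℚ N]
  {ζ : N} {τ₀ : N ≃ₐ[ℚ] N}

theorem fix_adjoin (τ : N ≃ₐ[ℚ] N) (hτ : τ ζ = ζ) (k : ℚ⟮ζ⟯) :
    τ (algebraMap ℚ⟮ζ⟯ N k) = algebraMap ℚ⟮ζ⟯ N k := by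
  obtain ⟨z, hz⟩ := k
  show τ z = z
  induction hz using IntermediateField.adjoin_induction with
  | mem x hx => rw [Set.mem_singleton_iff.1 hx]; exact hτ
  | algebraMap x => exact τ.commutes x
  | add x y _ _ hx hy => rw [map_add, hx, hy]
  | inv x _ hx => rw [map_inv₀, hx]
  | mul x y _ _ hx hy => rw [map_mul, hx, hy]

theorem pow_fix (x : N) (hx : τ₀ x = x) (k : ℕ) : (τ₀ ^ k) x = x := by
  induction k with
  | zero => simp
  | succ k ih => rw [pow_succ, AlgEquiv.mul_apply, hx, ih]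

theorem mem_adjoin_of_fixed
    (hgen : ∀ τ : N ≃ₐ[ℚ] N, τ ζ = ζ → ∃ k : ℕ, τ = τ₀ ^ k) (x : N) (hx : τ₀ x = x) :
    x ∈ ℚ⟮ζ⟯ := by
  rw [← IsGalois.fixedField_fixingSubgroup ℚ⟮ζ⟯, IntermediateField.mem_fixedField_iff]
  intro f hf
  have hfζ : f ζ = ζ := by
    rw [IntermediateField.mem_fixingSubgroup_iff] at hf
    exact hf ζ (mem_adjoin_simple_self ℚ ζ)
  obtain ⟨k, rfl⟩ := hgen f hfζ
  exact pow_fix x hx k

theorem finrank_adjoin (hτ₀ζ : τ₀ ζ = ζ) (hτ₀ : τ₀ ≠ 1) (hord : τ₀ ^ p = 1)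
    (hgen : ∀ τ : N ≃ₐ[ℚ] N, τ ζ = ζ → ∃ k : ℕ, τ = τ₀ ^ k) :
    Module.finrank ℚ⟮ζ⟯ N = p := by
  rw [← IsGalois.card_fixingSubgroup_eq_finrank]
  have h1 : (ℚ⟮ζ⟯).fixingSubgroup = Subgroup.zpowers τ₀ := by
    ext f
    constructor
    · intro hf
      have hfζ : f ζ = ζ := by
        rw [IntermediateField.mem_fixingSubgroup_iff] at hf
        exact hf ζ (mem_adjoin_simple_self ℚ ζ)
      obtain ⟨k, rfl⟩ := hgen f hfζ
      exact Subgroup.npow_mem_zpowers τ₀ k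
    · intro hf
      have hτmem : τ₀ ∈ (ℚ⟮ζ⟯).fixingSubgroup := by
        rw [IntermediateField.mem_fixingSubgroup_iff]
        intro x hx
        exact fix_adjoin τ₀ hτ₀ζ ⟨x, hx⟩
      exact (Subgroup.zpowers_le.2 hτmem) hf
  rw [h1, Nat.card_zpowers, orderOf_eq_prime hord hτ₀]

/-- Lagrange resolvent -/
theorem exists_resolvent (hζ : IsPrimitiveRoot ζ p) (hτ₀ζ : τ₀ ζ = ζ) (hτ₀ : τ₀ ≠ 1)
    (hord : τ₀ ^ p = 1) : ∃ A : N, A ≠ 0 ∧ τ₀ A = ζ * A := by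
  classical
  have hζ0 : ζ ≠ 0 := hζ.ne_zero hp.out.ne_zero
  have hζinv : τ₀ ζ⁻¹ = ζ⁻¹ := by rw [map_inv₀, hτ₀ζ]
  let S : N → N := fun x => ∑ i ∈ Finset.range p, (ζ⁻¹) ^ i * (τ₀ ^ i) x
  have hS : ∀ x, τ₀ (S x) = ζ * S x := by
    intro x
    let g : ℕ → N := fun i => ζ * ((ζ⁻¹) ^ i * (τ₀ ^ i) x)
    have h1 : τ₀ (S x) = ∑ i ∈ Finset.range p, g (i + 1) := by
      simp only [S, map_sum, map_mul, map_pow, hζinv, g]
      apply Finset.sum_congr rfl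
      intro i _
      rw [pow_succ' τ₀ i, AlgEquiv.mul_apply, pow_succ (ζ⁻¹) i]
      field_simp
    have h2 : ζ * S x = ∑ i ∈ Finset.range p, g i := by
      simp only [S, Finset.mul_sum, g]
    have h3 : ∑ i ∈ Finset.range p, (g (i + 1) - g i) = g p - g 0 := Finset.sum_range_sub g p
    have h4 : g p = g 0 := by
      simp only [g, hord, inv_pow, hζ.pow_eq_one]
      simp
    rw [h1, h2, ← sub_eq_zero, ← Finset.sum_sub_distrib, h3, h4, sub_self]
  by_contra hcon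
  push Not at hcon
  have hzero : ∀ x, S x = 0 := by
    intro x
    by_contra hx
    exact hcon (S x) hx (hS x)
  -- Dedekind independence
  have hinj : Function.Injective (fun i : Fin p => ((τ₀ ^ (i : ℕ) : N ≃ₐ[ℚ] N) : N →* N)) := by
    intro i j hij
    have h1 : (τ₀ ^ (i : ℕ) : N ≃ₐ[ℚ] N) = τ₀ ^ (j : ℕ) := by
      ext x
      exact DFunLike.congr_fun hij x
    have h2 := (pow_injOn_Iio_orderOf (x := τ₀))
    rw [orderOf_eq_prime hord hτ₀] at h2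
    exact Fin.ext (h2 i.2 j.2 h1)
  have hli := (linearIndependent_monoidHom N N).comp _ hinj
  rw [Fintype.linearIndependent_iff] at hli
  have hp0 : 0 < p := hp.out.pos
  have := hli (fun i => (ζ⁻¹) ^ (i : ℕ)) (by
    ext x
    have := hzero x
    simp only [S] at this
    rw [← Fin.sum_univ_eq_sum_range (fun i => (ζ⁻¹) ^ i * (τ₀ ^ i) x) p] at this
    simpa using this) ⟨0, hp0⟩
  simp at this

end Gal

end NoExt

end Fermat.Agent.S14Lib
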