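import Mathlib

/-!
# S14 (M), part 1: ramification lemmas for an extension of prime degree
-/

set_option autoImplicit false

namespace Fermat.Agent.S14Lib

namespace NoExt

open NumberField IsDedekindDomain
open scoped Pointwise

section Ram

variable {p : ℕ} [hp : Fact p.Prime] {K N : Type} [Field K] [NumberField K] [Field N]
  [NumberField N] [Algebra K N]

theorem sum_ef (hdeg : Module.finrank K N = p) (v : HeightOneSpectrum (𝓞 K)) :
    ∑ P ∈ IsDedekindDomain.primesOverFinset v.asIdeal (𝓞 N),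
      v.asIdeal.ramificationIdx' P * v.asIdeal.inertiaDeg' P = p := by
  have := v.isMaximal
  rw [← hdeg]
  exact Ideal.sum_ramification_inertia (𝓞 N) K N v.ne_bot

theorem mem_primesOverFinset (v : HeightOneSpectrum (𝓞 K)) {P : Ideal (𝓞 N)} (hP : P.IsPrime)
    (hPv : P.LiesOver v.asIdeal) : P ∈ IsDedekindDomain.primesOverFinset v.asIdeal (𝓞 N) := by
  have := v.isMaximal
  rw [IsDedekindDomain.mem_primesOverFinset_iff v.ne_bot]
  exact ⟨hP, hPv⟩

theorem ef_pos (v : HeightOneSpectrum (𝓞 K)) {P : Ideal (𝓞 N)} (hP : P.IsPrime)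
    (hPv : P.LiesOver v.asIdeal) :
    0 < v.asIdeal.ramificationIdx' P ∧ 0 < v.asIdeal.inertiaDeg' P := by
  have := v.isMaximal
  exact ⟨Nat.pos_of_ne_zero (Ideal.IsDedekindDomain.ramificationIdx'_ne_zero_of_liesOver P v.ne_bot),
    Ideal.inertiaDeg'_pos v.asIdeal P⟩

/-- totally ramified case -/
theorem of_dvd_ramificationIdx (hdeg : Module.finrank K N = p) (v : HeightOneSpectrum (𝓞 K))
    {P : Ideal (𝓞 N)} (hP : P.IsPrime) (hPv : P.LiesOver v.asIdeal)
    (hdvd : p ∣ v.asIdeal.ramificationIdx' P) :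
    v.asIdeal.inertiaDeg' P = 1 ∧
      ∀ Q : Ideal (𝓞 N), Q.IsPrime → Q.LiesOver v.asIdeal → Q = P := by
  classical
  have hsum := sum_ef (N := N) hdeg v
  have hmem := mem_primesOverFinset v hP hPv
  obtain ⟨he, hf⟩ := ef_pos v hP hPv
  have hpe : p ≤ v.asIdeal.ramificationIdx' P := Nat.le_of_dvd he hdvd
  have hle : v.asIdeal.ramificationIdx' P * v.asIdeal.inertiaDeg' P ≤ p := by
    rw [← hsum]
    exact Finset.single_le_sum
      (f := fun P => v.asIdeal.ramificationIdx' P * v.asIdeal.inertiaDeg' P)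
      (fun _ _ => Nat.zero_le _) hmem
  have hf1 : v.asIdeal.inertiaDeg' P = 1 := by
    by_contra hne
    have h2 : 2 ≤ v.asIdeal.inertiaDeg' P := by omega
    have : p * 2 ≤ v.asIdeal.ramificationIdx' P * v.asIdeal.inertiaDeg' P :=
      Nat.mul_le_mul hpe h2
    have hp0 := hp.out.pos
    omega
  refine ⟨hf1, ?_⟩
  intro Q hQ hQv
  by_contra hne
  have hmemQ := mem_primesOverFinset v hQ hQv
  obtain ⟨heQ, hfQ⟩ := ef_pos v hQ hQv
  have hsub : ({P, Q} : Finset (Ideal (𝓞 N))) ⊆ IsDedekindDomain.primesOverFinset v.asIdeal (𝓞 N) := by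
    intro x hx
    rw [Finset.mem_insert, Finset.mem_singleton] at hx
    rcases hx with rfl | rfl
    · exact hmem
    · exact hmemQ
  have h2 := Finset.sum_le_sum_of_subset (f := fun P =>
    v.asIdeal.ramificationIdx' P * v.asIdeal.inertiaDeg' P) hsub
  rw [hsum, Finset.sum_pair (Ne.symm hne), hf1, mul_one] at h2
  have : 0 < v.asIdeal.ramificationIdx' Q * v.asIdeal.inertiaDeg' Q := Nat.mul_pos heQ hfQ
  omega

/-- totally split case -/
theorem of_card_eq (hdeg : Module.finrank K N = p) (v : HeightOneSpectrum (𝓞 K))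
    (T : Finset (Ideal (𝓞 N))) (hT : ∀ P ∈ T, P.IsPrime ∧ P.LiesOver v.asIdeal)
    (hcard : T.card = p) :
    ∀ P ∈ T, v.asIdeal.ramificationIdx' P = 1 ∧ v.asIdeal.inertiaDeg' P = 1 := by
  classical
  have hsum := sum_ef (N := N) hdeg v
  have hsub : T ⊆ IsDedekindDomain.primesOverFinset v.asIdeal (𝓞 N) := fun P hP =>
    mem_primesOverFinset v (hT P hP).1 (hT P hP).2
  have h2 := Finset.sum_le_sum_of_subset (f := fun P =>
    v.asIdeal.ramificationIdx' P * v.asIdeal.inertiaDeg' P) hsub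
  rw [hsum] at h2
  have h1 : ∀ P ∈ T, 1 ≤ v.asIdeal.ramificationIdx' P * v.asIdeal.inertiaDeg' P := fun P hP =>
    Nat.mul_pos (ef_pos v (hT P hP).1 (hT P hP).2).1 (ef_pos v (hT P hP).1 (hT P hP).2).2
  have h3 : ∑ P ∈ T, 1 = ∑ P ∈ T, v.asIdeal.ramificationIdx' P * v.asIdeal.inertiaDeg' P := by
    apply le_antisymm (Finset.sum_le_sum h1)
    rw [Finset.sum_const, smul_eq_mul, mul_one, hcard]
    exact h2
  have h4 := (Finset.sum_eq_sum_iff_of_le h1).1 h3
  intro P hP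
  have := (h4 P hP).symm
  exact mul_eq_one.1 this

/-- residue degree one: every integer of `N` is congruent to an integer of `K` -/
theorem exists_sub_mem_of_inertiaDeg_eq_one (v : HeightOneSpectrum (𝓞 K))
    {P : Ideal (𝓞 N)} (hP : P.IsPrime) (hPv : P.LiesOver v.asIdeal)
    (hf : v.asIdeal.inertiaDeg' P = 1) (x : 𝓞 N) :
    ∃ k : 𝓞 K, x - algebraMap (𝓞 K) (𝓞 N) k ∈ P := by
  have hmax := v.isMaximal
  rw [Ideal.inertiaDeg'_algebraMap] at hf
  let _ := Ideal.Quotient.field v.asIdeal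
  have hnt : Nontrivial (𝓞 N ⧸ P) := Ideal.Quotient.nontrivial_iff.2 hP.ne_top
  rw [finrank_eq_one_iff_of_nonzero' (1 : 𝓞 N ⧸ P) one_ne_zero] at hf
  obtain ⟨c, hc⟩ := hf (Ideal.Quotient.mk P x)
  obtain ⟨k, rfl⟩ := Ideal.Quotient.mk_surjective c
  refine ⟨k, ?_⟩
  rw [Algebra.smul_def, mul_one, Ideal.Quotient.algebraMap_mk_of_liesOver] at hc
  exact (Ideal.Quotient.mk_eq_mk_iff_sub_mem _ _).1 hc.symm

theorem smul_algebraMap (τ : N ≃ₐ[ℚ] N) (hτK : ∀ k : K, τ (algebraMap K N k) = algebraMap K N k)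
    (k : 𝓞 K) : τ • (algebraMap (𝓞 K) (𝓞 N) k) = algebraMap (𝓞 K) (𝓞 N) k := by
  apply RingOfIntegers.ext
  exact hτK (k : K)

theorem inv_fix (τ : N ≃ₐ[ℚ] N) (hτK : ∀ k : K, τ (algebraMap K N k) = algebraMap K N k)
    (k : K) : τ⁻¹ (algebraMap K N k) = algebraMap K N k := by
  conv_lhs => rw [← hτK k]
  exact τ.symm_apply_apply _

theorem smul_liesOver (τ : N ≃ₐ[ℚ] N) (hτK : ∀ k : K, τ (algebraMap K N k) = algebraMap K N k)
    (I : Ideal (𝓞 K)) (P : Ideal (𝓞 N)) (hP : P.LiesOver I) : (τ • P).LiesOver I := by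
  constructor
  rw [hP.over]
  ext x
  simp only [Ideal.under_def, Ideal.mem_comap]
  rw [Ideal.mem_pointwise_smul_iff_inv_smul_mem, smul_algebraMap τ⁻¹ (inv_fix τ hτK)]

theorem dvd_log_intValuation (hdeg : Module.finrank K N = p) (v : HeightOneSpectrum (𝓞 K))
    (w : HeightOneSpectrum (𝓞 N)) (hwv : w.asIdeal.LiesOver v.asIdeal)
    (τ : N ≃ₐ[ℚ] N) (hτK : ∀ k : K, τ (algebraMap K N k) = algebraMap K N k)
    (hτ : ¬ ∀ x : 𝓞 N, τ • x - x ∈ w.asIdeal)
    (α : 𝓞 K) (A : 𝓞 N) (hA : algebraMap (𝓞 K) (𝓞 N) α = A ^ p) :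
    (p : ℤ) ∣ WithZero.log (v.intValuation α) := by
  have h := HeightOneSpectrum.intValuation_liesOver v w α
  rw [hA, map_pow] at h
  have h2 := congrArg WithZero.log h
  rw [WithZero.log_pow, WithZero.log_pow, nsmul_eq_mul, nsmul_eq_mul] at h2
  have h3 : (p : ℤ) ∣ (v.asIdeal.ramificationIdx' w.asIdeal : ℤ) *
      WithZero.log (v.intValuation α) := ⟨_, h2⟩
  rcases (Nat.prime_iff_prime_int.1 hp.out).dvd_or_dvd h3 with h4 | h4
  · exfalso
    apply hτ
    have h5 : p ∣ v.asIdeal.ramificationIdx' w.asIdeal := by exact_mod_cast h4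
    obtain ⟨hf, huniq⟩ := of_dvd_ramificationIdx hdeg v w.isPrime hwv h5
    have hτw : τ • w.asIdeal = w.asIdeal :=
      huniq _ inferInstance (smul_liesOver τ hτK _ _ hwv)
    intro x
    obtain ⟨k, hk⟩ := exists_sub_mem_of_inertiaDeg_eq_one v w.isPrime hwv hf x
    have h6 : τ • (x - algebraMap (𝓞 K) (𝓞 N) k) ∈ w.asIdeal := by
      rw [← hτw]
      exact Ideal.smul_mem_pointwise_smul_iff.mpr hk
    rw [smul_sub, smul_algebraMap τ hτK] at h6
    have h7 := w.asIdeal.sub_mem h6 hk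
    have h8 : τ • x - algebraMap (𝓞 K) (𝓞 N) k - (x - algebraMap (𝓞 K) (𝓞 N) k) = τ • x - x := by
      ring
    rwa [h8] at h7
  · exact h4

theorem mem_pow_iff_of_ramificationIdx_eq_one (v : HeightOneSpectrum (𝓞 K))
    (w : HeightOneSpectrum (𝓞 N)) (hwv : w.asIdeal.LiesOver v.asIdeal)
    (he : v.asIdeal.ramificationIdx' w.asIdeal = 1) (n : ℕ) (x : 𝓞 K) :
    algebraMap (𝓞 K) (𝓞 N) x ∈ w.asIdeal ^ n ↔ x ∈ v.asIdeal ^ n := by
  have h := HeightOneSpectrum.intValuation_liesOver v w x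
  rw [he, pow_one] at h
  rw [← HeightOneSpectrum.intValuation_le_pow_iff_mem, ← HeightOneSpectrum.intValuation_le_pow_iff_mem,
    h]

/-- `e = f = 1`: approximation of integers of `N` by integers of `K` -/
theorem exists_sub_mem_pow (v : HeightOneSpectrum (𝓞 K))
    (w : HeightOneSpectrum (𝓞 N)) (hwv : w.asIdeal.LiesOver v.asIdeal)
    (he : v.asIdeal.ramificationIdx' w.asIdeal = 1) (hf : v.asIdeal.inertiaDeg' w.asIdeal = 1)
    (π : 𝓞 K) (hπ : v.asIdeal = Ideal.span {π}) (n : ℕ) (x : 𝓞 N) :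
    ∃ c : 𝓞 K, x - algebraMap (𝓞 K) (𝓞 N) c ∈ w.asIdeal ^ n := by
  induction n with
  | zero => exact ⟨0, by simp⟩
  | succ n ih =>
    obtain ⟨c, hc⟩ := ih
    have hw := w.isPrime
    have hmem : algebraMap (𝓞 K) (𝓞 N) (π ^ n) ∈ w.asIdeal ^ n := by
      rw [mem_pow_iff_of_ramificationIdx_eq_one v w hwv he, hπ, Ideal.span_singleton_pow]
      exact Ideal.mem_span_singleton_self _
    have hnmem : algebraMap (𝓞 K) (𝓞 N) (π ^ n) ∉ w.asIdeal ^ (n + 1) := by
      rw [mem_pow_iff_of_ramificationIdx_eq_one v w hwv he, hπ, Ideal.span_singleton_pow,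
        Ideal.mem_span_singleton, pow_succ]
      intro hdvd
      have hπ0 : π ≠ 0 := by
        rintro rfl
        apply v.ne_bot
        rw [hπ]; simp
      have h1 : π ∣ 1 := by
        have := (mul_dvd_mul_iff_left (pow_ne_zero n hπ0)).1 (by simpa using hdvd : π ^ n * π ∣ π ^ n * 1)
        exact this
      apply v.isPrime.ne_top
      rw [hπ, Ideal.span_singleton_eq_top]
      exact isUnit_of_dvd_one h1
    obtain ⟨d, e, he', hde⟩ := Ideal.exists_mul_add_mem_pow_succ w.ne_bot _ _ hmem hnmem hc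
    obtain ⟨k, hk⟩ := exists_sub_mem_of_inertiaDeg_eq_one v w.isPrime hwv hf d
    refine ⟨c + π ^ n * k, ?_⟩
    have h2 : x - algebraMap (𝓞 K) (𝓞 N) (c + π ^ n * k) =
        algebraMap (𝓞 K) (𝓞 N) (π ^ n) * (d - algebraMap (𝓞 K) (𝓞 N) k) + e := by
      rw [map_add, map_mul, mul_sub, ← sub_sub, ← hde]
      ring
    rw [h2, pow_succ]
    refine Ideal.add_mem _ (Ideal.mul_mem_mul hmem hk) ?_
    rw [← pow_succ]
    exact he'

/-- trivial decomposition group: the prime splits completely -/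
theorem split_of_stabilizer (hdeg : Module.finrank K N = p) (v : HeightOneSpectrum (𝓞 K))
    (w : HeightOneSpectrum (𝓞 N)) (hwv : w.asIdeal.LiesOver v.asIdeal)
    (τ : N ≃ₐ[ℚ] N) (hτK : ∀ k : K, τ (algebraMap K N k) = algebraMap K N k)
    (hτ1 : τ ≠ 1) (hord : τ ^ p = 1)
    (hstab : ∀ k : ℕ, (τ ^ k) • w.asIdeal = w.asIdeal → τ ^ k = 1) :
    v.asIdeal.ramificationIdx' w.asIdeal = 1 ∧ v.asIdeal.inertiaDeg' w.asIdeal = 1 := by
  classical
  have hpowK : ∀ (i : ℕ) (k : K), (τ ^ i) (algebraMap K N k) = algebraMap K N k := by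
    intro i k
    induction i with
    | zero => simp
    | succ i ih => rw [pow_succ, AlgEquiv.mul_apply, hτK, ih]
  have hinj : Set.InjOn (fun i : ℕ => (τ ^ i) • w.asIdeal) (Finset.range p : Set ℕ) := by
    have key : ∀ i j : ℕ, i ≤ j → j < p → (τ ^ i) • w.asIdeal = (τ ^ j) • w.asIdeal → i = j := by
      intro i j hij hj h
      have h1 : τ ^ j = τ ^ i * τ ^ (j - i) := by rw [← pow_add]; congr 1; omega
      rw [h1, mul_smul] at h
      have h2 := smul_left_cancel _ h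
      have h3 := hstab _ h2.symm
      have h4 := orderOf_dvd_of_pow_eq_one h3
      rw [orderOf_eq_prime hord hτ1] at h4
      have h5 : j - i = 0 := Nat.eq_zero_of_dvd_of_lt h4 (by omega)
      omega
    intro i hi j hj h
    simp only [Finset.coe_range, Set.mem_Iio] at hi hj
    rcases le_total i j with hij | hij
    · exact key i j hij hj h
    · exact (key j i hij hi h.symm).symm
  have hcard : ((Finset.range p).image (fun i : ℕ => (τ ^ i) • w.asIdeal)).card = p := by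
    rw [Finset.card_image_of_injOn hinj, Finset.card_range]
  have hw := w.isPrime
  refine of_card_eq hdeg v _ ?_ hcard w.asIdeal ?_
  · intro P hP
    obtain ⟨i, -, rfl⟩ := Finset.mem_image.1 hP
    exact ⟨inferInstance, smul_liesOver _ (hpowK i) _ _ hwv⟩
  · exact Finset.mem_image.2 ⟨0, Finset.mem_range.2 hp.out.pos, by simp⟩

/-- dividing out the exact power of the uniformiser at an unramified prime -/
theorem exists_scaled (v : HeightOneSpectrum (𝓞 K))
    (w : HeightOneSpectrum (𝓞 N)) (hwv : w.asIdeal.LiesOver v.asIdeal)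
    (he : v.asIdeal.ramificationIdx' w.asIdeal = 1)
    (π : 𝓞 K) (hπ : v.asIdeal = Ideal.span {π}) (A₁ : 𝓞 N) (α₁ : 𝓞 K) (hα₁ : α₁ ≠ 0)
    (h : algebraMap (𝓞 K) (𝓞 N) α₁ = A₁ ^ p) :
    ∃ (k : ℕ) (A₂ : 𝓞 N) (α₂ : 𝓞 K), α₂ ≠ 0 ∧ algebraMap (𝓞 K) (𝓞 N) α₂ = A₂ ^ p ∧ ¬ π ∣ α₂ ∧
      A₁ = algebraMap (𝓞 K) (𝓞 N) (π ^ k) * A₂ := by
  have hπ0 : π ≠ 0 := by
    rintro rfl
    apply v.ne_bot
    rw [hπ]; simp
  have hπu : ¬ IsUnit π := by
    intro hu
    apply v.isPrime.ne_top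
    rw [hπ, Ideal.span_singleton_eq_top]
    exact hu
  obtain ⟨c, hc, hcπ⟩ := (FiniteMultiplicity.of_not_isUnit hπu hα₁).exists_eq_pow_mul_and_not_dvd
  set n := multiplicity π α₁ with hn
  have hc0 : c ≠ 0 := by
    rintro rfl
    exact hα₁ (by rw [hc, mul_zero])
  have hcv : v.intValuation c = 1 := by
    rw [HeightOneSpectrum.intValuation_eq_one_iff, hπ, Ideal.mem_span_singleton]
    exact hcπ
  have hA₁0 : A₁ ≠ 0 := by
    rintro rfl
    rw [zero_pow hp.out.ne_zero] at h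
    exact hα₁ ((map_eq_zero_iff _ (FaithfulSMul.algebraMap_injective (𝓞 K) (𝓞 N))).1 h)
  have h1 := HeightOneSpectrum.intValuation_liesOver v w α₁
  rw [he, pow_one, h, map_pow, hc, map_mul, map_pow, hcv, mul_one,
    HeightOneSpectrum.intValuation_singleton v hπ0 hπ] at h1
  have h2 := congrArg WithZero.log h1
  rw [WithZero.log_pow, WithZero.log_pow, WithZero.log_exp, nsmul_eq_mul, nsmul_eq_mul] at h2
  have h3 : (p : ℤ) ∣ (n : ℤ) := ⟨-WithZero.log (w.intValuation A₁), by linarith⟩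
  obtain ⟨k, hk⟩ : p ∣ n := by exact_mod_cast h3
  -- the new element
  have hπN : ((algebraMap (𝓞 K) (𝓞 N) π : 𝓞 N) : N) ≠ 0 := by
    intro h0
    apply hπ0
    apply FaithfulSMul.algebraMap_injective (𝓞 K) (𝓞 N)
    rw [map_zero]
    exact RingOfIntegers.ext h0
  have hpow : ((A₁ : N) / ((algebraMap (𝓞 K) (𝓞 N) π : 𝓞 N) : N) ^ k) ^ p =
      ((algebraMap (𝓞 K) (𝓞 N) c : 𝓞 N) : N) := by
    have h4 : ((A₁ : 𝓞 N) : N) ^ p =
        ((algebraMap (𝓞 K) (𝓞 N) π : 𝓞 N) : N) ^ n * ((algebraMap (𝓞 K) (𝓞 N) c : 𝓞 N) : N) := by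
      have := congrArg (fun z : 𝓞 N => (z : N)) h
      simp only [hc, map_mul, map_pow] at this
      exact this.symm
    rw [div_pow, h4, ← pow_mul, hk, mul_comm k p]
    field_simp
  have hint : IsIntegral ℤ ((A₁ : N) / ((algebraMap (𝓞 K) (𝓞 N) π : 𝓞 N) : N) ^ k) := by
    apply IsIntegral.of_pow hp.out.pos
    rw [hpow]
    exact RingOfIntegers.isIntegral_coe _
  refine ⟨k, ⟨_, hint⟩, c, hc0, ?_, hcπ, ?_⟩
  · apply RingOfIntegers.ext
    rw [← hpow]
    rfl
  · apply RingOfIntegers.ext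
    show (A₁ : N) = ((algebraMap (𝓞 K) (𝓞 N) (π ^ k) : 𝓞 N) : N) *
      ((A₁ : N) / ((algebraMap (𝓞 K) (𝓞 N) π : 𝓞 N) : N) ^ k)
    rw [map_pow]
    have h5 : (((algebraMap (𝓞 K) (𝓞 N) π) ^ k : 𝓞 N) : N) =
        ((algebraMap (𝓞 K) (𝓞 N) π : 𝓞 N) : N) ^ k := rfl
    rw [h5]
    field_simp

theorem exists_over (v : HeightOneSpectrum (𝓞 K)) :
    ∃ w : HeightOneSpectrum (𝓞 N), w.asIdeal.LiesOver v.asIdeal := by
  have := v.isPrime
  obtain ⟨⟨P, hP, hPv⟩⟩ := v.asIdeal.nonempty_primesOver (S := 𝓞 N)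
  exact ⟨⟨P, hP, Ideal.ne_bot_of_liesOver_of_ne_bot v.ne_bot P⟩, hPv⟩

end Ram

section Pow

open UniqueFactorizationMonoid

theorem exists_ideal_pow_eq {R : Type*} [CommRing R] [IsDedekindDomain R] (p : ℕ) (α : R)
    (hα : α ≠ 0)
    (h : ∀ v : HeightOneSpectrum R, (p : ℤ) ∣ WithZero.log (v.intValuation α)) :
    ∃ I : Ideal R, Ideal.span {α} = I ^ p := by
  classical
  have hJ : Ideal.span {α} ≠ ⊥ := by simpa using hα
  have hcount : ∀ q ∈ normalizedFactors (Ideal.span {α}),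
      p ∣ Multiset.count q (normalizedFactors (Ideal.span {α})) := by
    intro q hq
    have hqprime : Prime q := prime_of_normalized_factor q hq
    let v : HeightOneSpectrum R := ⟨q, Ideal.isPrime_of_prime hqprime, hqprime.ne_zero⟩
    have h1 := h v
    rw [HeightOneSpectrum.intValuation_eq_exp_neg_multiplicity v hα, WithZero.log_exp] at h1
    have h2 : emultiplicity q (Ideal.span {α}) =
        Multiset.count q (normalizedFactors (Ideal.span {α})) := by
      rw [emultiplicity_eq_count_normalizedFactors hqprime.irreducible hJ, normalize_eq]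
    have h3 : multiplicity q (Ideal.span {α}) =
        Multiset.count q (normalizedFactors (Ideal.span {α})) :=
      multiplicity_eq_of_emultiplicity_eq_some h2
    rw [← h3]
    have h4 : (p : ℤ) ∣ (multiplicity q (Ideal.span {α}) : ℤ) := by
      rw [← Int.dvd_neg]
      exact h1
    exact_mod_cast h4
  obtain ⟨u, hu⟩ := Multiset.exists_smul_of_dvd_count _ hcount
  refine ⟨u.prod, ?_⟩
  rw [← Multiset.prod_nsmul, ← hu, Ideal.prod_normalizedFactors_eq_self hJ]

end Pow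

end NoExt

end Fermat.Agent.S14Lib
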