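import Mathlib
import Fermat.Agent.S14.NoExtRam
import Fermat.Agent.S14.NoExtGal

/-!
# S14 (M), part 3: there is no unramified `ω⁻¹`-extension of `ℚ(ζ_p)` split at `p`
-/

set_option autoImplicit false

namespace Fermat.Agent.S14Lib

namespace NoExt

open NumberField IsDedekindDomain IntermediateField
open scoped Pointwise

section Main

variable {p : ℕ} [hp : Fact p.Prime] {N : Type} [Field N] [NumberField N] [IsGalois ℚ N]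
  {ζ : N} {τ₀ : N ≃ₐ[ℚ] N}

/-- an integral Kummer generator -/
theorem exists_integral_resolvent (hζ : IsPrimitiveRoot ζ p) (hτ₀ζ : τ₀ ζ = ζ) (hτ₀ : τ₀ ≠ 1)
    (hord : τ₀ ^ p = 1) (hgen : ∀ τ : N ≃ₐ[ℚ] N, τ ζ = ζ → ∃ k : ℕ, τ = τ₀ ^ k) :
    ∃ (A : 𝓞 N) (α : 𝓞 ℚ⟮ζ⟯), α ≠ 0 ∧ algebraMap (𝓞 ℚ⟮ζ⟯) (𝓞 N) α = A ^ p ∧
      τ₀ (A : N) = ζ * A := by
  obtain ⟨A₀, hA₀, hτA₀⟩ := exists_resolvent hζ hτ₀ζ hτ₀ hord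
  obtain ⟨m, hm, hint⟩ := ((IsFractionRing.isAlgebraic_iff ℤ ℚ N).2
    (Algebra.IsAlgebraic.isAlgebraic (R := ℚ) A₀)).exists_integral_multiple
  let A : 𝓞 N := ⟨m • A₀, hint⟩
  have hAcoe : (A : N) = m • A₀ := rfl
  have hA0 : (A : N) ≠ 0 := by
    rw [hAcoe]
    exact smul_ne_zero hm hA₀
  have hτA : τ₀ (A : N) = ζ * A := by
    rw [hAcoe, map_zsmul, hτA₀, mul_smul_comm]
  have hfix : τ₀ ((A : N) ^ p) = (A : N) ^ p := by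
    rw [map_pow, hτA, mul_pow, hζ.pow_eq_one, one_mul]
  have hmem := mem_adjoin_of_fixed hgen _ hfix
  have hint2 : IsIntegral ℤ (⟨(A : N) ^ p, hmem⟩ : ℚ⟮ζ⟯) := by
    rw [← isIntegral_algebraMap_iff (algebraMap ℚ⟮ζ⟯ N).injective]
    exact (RingOfIntegers.isIntegral_coe A).pow p
  refine ⟨A, ⟨⟨(A : N) ^ p, hmem⟩, hint2⟩, ?_, ?_, hτA⟩
  · intro h0
    have h1 := congrArg (fun z : 𝓞 ℚ⟮ζ⟯ => algebraMap ℚ⟮ζ⟯ N (z : ℚ⟮ζ⟯)) h0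
    simp only [map_zero] at h1
    exact pow_ne_zero p hA0 h1
  · apply RingOfIntegers.ext
    rfl

theorem pow_apply_resolvent (hτ₀ζ : τ₀ ζ = ζ) (A : N) (hτA : τ₀ A = ζ * A) (k : ℕ) :
    (τ₀ ^ k) A = ζ ^ k * A := by
  induction k with
  | zero => simp
  | succ k ih =>
    rw [pow_succ', AlgEquiv.mul_apply, ih, map_mul, map_pow, hτ₀ζ, hτA]
    ring

theorem eigen (hζ : IsPrimitiveRoot ζ p) (hτ₀ζ : τ₀ ζ = ζ)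
    (hgen : ∀ τ : N ≃ₐ[ℚ] N, τ ζ = ζ → ∃ k : ℕ, τ = τ₀ ^ k)
    (hconj : ∀ (δ : N ≃ₐ[ℚ] N) (a : ℕ), δ ζ = ζ ^ a → δ⁻¹ * τ₀ * δ = τ₀ ^ a)
    (A : N) (hA0 : A ≠ 0) (hτA : τ₀ A = ζ * A) (δ : N ≃ₐ[ℚ] N) (a : ℕ) (hδ : δ ζ = ζ ^ a) :
    ∃ c : ℚ⟮ζ⟯, δ A = A ^ (a ^ 2) * algebraMap ℚ⟮ζ⟯ N c := by
  have hζ0 : ζ ≠ 0 := hζ.ne_zero hp.out.ne_zero
  have h1 : (δ⁻¹ * τ₀ * δ) A = ζ ^ a * A := by
    rw [hconj δ a hδ, pow_apply_resolvent hτ₀ζ A hτA]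
  have h2 : τ₀ (δ A) = ζ ^ (a ^ 2) * δ A := by
    have h3 : δ ((δ⁻¹ * τ₀ * δ) A) = τ₀ (δ A) := by
      simp only [AlgEquiv.mul_apply]
      exact δ.apply_symm_apply _
    rw [← h3, h1, map_mul, map_pow, hδ, ← pow_mul, sq]
  have hfix : τ₀ (δ A / A ^ (a ^ 2)) = δ A / A ^ (a ^ 2) := by
    rw [map_div₀, map_pow, h2, hτA, mul_pow]
    field_simp
  have hmem := mem_adjoin_of_fixed hgen _ hfix
  refine ⟨⟨_, hmem⟩, ?_⟩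
  show δ A = A ^ (a ^ 2) * (δ A / A ^ (a ^ 2))
  field_simp

end Main

end NoExt

open NumberField IsDedekindDomain IntermediateField
open scoped Pointwise

/-- (M) with the core theorem as a hypothesis -/
theorem no_extension_of (p : ℕ) [hp : Fact p.Prime]
    (hcore : ∀ (K : Type) [Field K] [NumberField K] [IsCyclotomicExtension {p} ℚ K] (ζ : 𝓞 K),
      IsPrimitiveRoot ζ p → ∀ α : 𝓞 K, α ≠ 0 →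
      (∀ (σ : K ≃ₐ[ℚ] K) (a : ℕ), σ • ζ = ζ ^ a →
        ∃ c : K, ((σ • α : 𝓞 K) : K) = (α : K) ^ (a ^ 2) * c ^ p) →
      (∃ I : Ideal (𝓞 K), Ideal.span {α} = I ^ p) → ¬ (ζ - 1) ∣ α →
      (∃ c : 𝓞 K, (ζ - 1) ^ 3 ∣ α - c ^ p) → ∃ β : 𝓞 K, α = β ^ p)
    (N : Type) [Field N] [NumberField N] [IsGalois ℚ N] (ζ : N) (hζ : IsPrimitiveRoot ζ p)
    (τ₀ : N ≃ₐ[ℚ] N) (hτ₀ζ : τ₀ ζ = ζ) (hτ₀ : τ₀ ≠ 1) (hord : τ₀ ^ p = 1)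
    (hgen : ∀ τ : N ≃ₐ[ℚ] N, τ ζ = ζ → ∃ k : ℕ, τ = τ₀ ^ k)
    (hconj : ∀ (δ : N ≃ₐ[ℚ] N) (a : ℕ), δ ζ = ζ ^ a → δ⁻¹ * τ₀ * δ = τ₀ ^ a)
    (hunr : ∀ w : Ideal (𝓞 N), w.IsPrime → (p : 𝓞 N) ∉ w → ∀ τ : N ≃ₐ[ℚ] N, τ ζ = ζ →
      (∀ x : 𝓞 N, τ • x - x ∈ w) → τ = 1)
    (hsplit : ∀ w : Ideal (𝓞 N), w.IsPrime → (p : 𝓞 N) ∈ w → ∀ τ : N ≃ₐ[ℚ] N, τ ζ = ζ →
      τ • w = w → τ = 1) : False := by
  classical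
  have hpne : NeZero p := ⟨hp.out.ne_zero⟩
  have hcyc : IsCyclotomicExtension {p} ℚ ℚ⟮ζ⟯ :=
    hζ.intermediateField_adjoin_isCyclotomicExtension ℚ
  have hζK : IsPrimitiveRoot (AdjoinSimple.gen ℚ ζ) p :=
    IsPrimitiveRoot.of_map_of_injective (f := algebraMap ℚ⟮ζ⟯ N)
      (by rw [AdjoinSimple.algebraMap_gen]; exact hζ) (algebraMap ℚ⟮ζ⟯ N).injective
  have hζO : IsPrimitiveRoot hζK.toInteger p := hζK.toInteger_isPrimitiveRoot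
  have hπprime : Prime (hζK.toInteger - 1) := hζK.zeta_sub_one_prime'
  set π : 𝓞 ℚ⟮ζ⟯ := hζK.toInteger - 1 with hπdef
  let 𝔭 : HeightOneSpectrum (𝓞 ℚ⟮ζ⟯) :=
    ⟨Ideal.span {π}, (Ideal.span_singleton_prime hπprime.ne_zero).2 hπprime,
      by simpa using hπprime.ne_zero⟩
  have h𝔭 : 𝔭.asIdeal = Ideal.span {π} := rfl
  have hdeg : Module.finrank ℚ⟮ζ⟯ N = p := NoExt.finrank_adjoin hτ₀ζ hτ₀ hord hgen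
  have hτK := NoExt.fix_adjoin τ₀ hτ₀ζ
  have hpowζ : ∀ k : ℕ, (τ₀ ^ k) ζ = ζ := fun k => NoExt.pow_fix ζ hτ₀ζ k
  -- the prime above `p`
  obtain ⟨w, hw⟩ := NoExt.exists_over (N := N) 𝔭
  have hp𝔭 : (p : 𝓞 ℚ⟮ζ⟯) ∈ 𝔭.asIdeal := by
    rw [h𝔭, Ideal.mem_span_singleton]
    exact hζK.toInteger_sub_one_dvd_prime'
  have hpw : (p : 𝓞 N) ∈ w.asIdeal := by
    have h1 : algebraMap (𝓞 ℚ⟮ζ⟯) (𝓞 N) (p : 𝓞 ℚ⟮ζ⟯) ∈ w.asIdeal := by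
      rw [hw.over] at hp𝔭
      exact hp𝔭
    simpa using h1
  obtain ⟨he, hf⟩ := NoExt.split_of_stabilizer hdeg 𝔭 w hw τ₀ hτK hτ₀ hord
    (fun k hk => hsplit w.asIdeal w.isPrime hpw (τ₀ ^ k) (hpowζ k) hk)
  -- the Kummer generator
  obtain ⟨A₁, α₁, hα₁, hAα₁, hτA₁⟩ := NoExt.exists_integral_resolvent hζ hτ₀ζ hτ₀ hord hgen
  obtain ⟨k, A, α, hα, hAα, hπα, hA₁A⟩ := NoExt.exists_scaled 𝔭 w hw he π h𝔭 A₁ α₁ hα₁ hAα₁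
  have hinjO : Function.Injective (algebraMap (𝓞 ℚ⟮ζ⟯) (𝓞 N)) :=
    FaithfulSMul.algebraMap_injective (𝓞 ℚ⟮ζ⟯) (𝓞 N)
  have hcoe : ∀ x : 𝓞 ℚ⟮ζ⟯, ((algebraMap (𝓞 ℚ⟮ζ⟯) (𝓞 N) x : 𝓞 N) : N) =
      algebraMap ℚ⟮ζ⟯ N (x : ℚ⟮ζ⟯) := fun x => rfl
  have hAαN : algebraMap ℚ⟮ζ⟯ N (α : ℚ⟮ζ⟯) = (A : N) ^ p := by
    rw [← hcoe, hAα]; rfl
  have hA0 : (A : N) ≠ 0 := by
    intro h0
    rw [h0, zero_pow hp.out.ne_zero] at hAαN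
    apply hα
    apply RingOfIntegers.ext
    exact (map_eq_zero_iff _ (algebraMap ℚ⟮ζ⟯ N).injective).1 hAαN
  have hτA : τ₀ (A : N) = ζ * A := by
    have h1 : (A₁ : N) = algebraMap ℚ⟮ζ⟯ N ((π ^ k : 𝓞 ℚ⟮ζ⟯) : ℚ⟮ζ⟯) * (A : N) := by
      rw [← hcoe, hA₁A]; rfl
    have h2 : algebraMap ℚ⟮ζ⟯ N ((π ^ k : 𝓞 ℚ⟮ζ⟯) : ℚ⟮ζ⟯) ≠ 0 := by
      intro h0
      have h3 : (A₁ : N) = 0 := by rw [h1, h0, zero_mul]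
      apply hα₁
      apply hinjO
      rw [hAα₁, map_zero]
      apply RingOfIntegers.ext
      show (A₁ : N) ^ p = 0
      rw [h3, zero_pow hp.out.ne_zero]
    rw [h1, map_mul, hτK] at hτA₁
    have h4 : algebraMap ℚ⟮ζ⟯ N ((π ^ k : 𝓞 ℚ⟮ζ⟯) : ℚ⟮ζ⟯) * τ₀ (A : N) =
        algebraMap ℚ⟮ζ⟯ N ((π ^ k : 𝓞 ℚ⟮ζ⟯) : ℚ⟮ζ⟯) * (ζ * A) := by
      rw [hτA₁]; ring
    exact mul_left_cancel₀ h2 h4
  -- the eigen-condition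
  have heig : ∀ (σ : ℚ⟮ζ⟯ ≃ₐ[ℚ] ℚ⟮ζ⟯) (a : ℕ), σ • hζK.toInteger = hζK.toInteger ^ a →
      ∃ c : ℚ⟮ζ⟯, ((σ • α : 𝓞 ℚ⟮ζ⟯) : ℚ⟮ζ⟯) = (α : ℚ⟮ζ⟯) ^ (a ^ 2) * c ^ p := by
    intro σ a hσ
    have hδ : ∀ x : ℚ⟮ζ⟯, (σ.liftNormal N) (algebraMap ℚ⟮ζ⟯ N x) = algebraMap ℚ⟮ζ⟯ N (σ x) :=
      fun x => σ.liftNormal_commutes N x
    have hσ' : σ (AdjoinSimple.gen ℚ ζ) = (AdjoinSimple.gen ℚ ζ) ^ a := by
      have := congrArg (fun z : 𝓞 ℚ⟮ζ⟯ => (z : ℚ⟮ζ⟯)) hσ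
      exact this
    have hδζ : (σ.liftNormal N) ζ = ζ ^ a := by
      have := hδ (AdjoinSimple.gen ℚ ζ)
      rw [hσ', map_pow, AdjoinSimple.algebraMap_gen] at this
      exact this
    obtain ⟨c, hc⟩ := NoExt.eigen hζ hτ₀ζ hgen hconj (A : N) hA0 hτA (σ.liftNormal N) a hδζ
    refine ⟨c, ?_⟩
    apply (algebraMap ℚ⟮ζ⟯ N).injective
    have h1 : ((σ • α : 𝓞 ℚ⟮ζ⟯) : ℚ⟮ζ⟯) = σ (α : ℚ⟮ζ⟯) := rfl
    rw [h1, ← hδ, hAαN, map_pow, hc, map_mul, map_pow, map_pow, hAαN]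
    ring
  -- the valuation condition
  have hval : ∃ I : Ideal (𝓞 ℚ⟮ζ⟯), Ideal.span {α} = I ^ p := by
    apply NoExt.exists_ideal_pow_eq p α hα
    intro v
    by_cases hv : v = 𝔭
    · have h1 : v.intValuation α = 1 := by
        rw [HeightOneSpectrum.intValuation_eq_one_iff, hv, h𝔭, Ideal.mem_span_singleton]
        exact hπα
      rw [h1]
      simp
    · obtain ⟨w', hw'⟩ := NoExt.exists_over (N := N) v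
      have hpw' : (p : 𝓞 N) ∉ w'.asIdeal := by
        intro hmem
        apply hv
        have h1 : (p : 𝓞 ℚ⟮ζ⟯) ∈ v.asIdeal := by
          rw [hw'.over]
          show algebraMap (𝓞 ℚ⟮ζ⟯) (𝓞 N) (p : 𝓞 ℚ⟮ζ⟯) ∈ w'.asIdeal
          simpa using hmem
        have h2 : π ^ (p - 1) ∈ v.asIdeal := by
          obtain ⟨u, hu⟩ := (IsCyclotomicExtension.Rat.associated_zeta_sub_one_pow_prime p hζK).symm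
          rw [hπdef, ← hu]
          exact Ideal.mul_mem_right _ _ h1
        have h3 : π ∈ v.asIdeal := v.isPrime.mem_of_pow_mem _ h2
        have h4 : 𝔭.asIdeal ≤ v.asIdeal := by
          rw [h𝔭, Ideal.span_singleton_le_iff_mem]
          exact h3
        exact (HeightOneSpectrum.ext (𝔭.isMaximal.eq_of_le v.isPrime.ne_top h4)).symm
      exact NoExt.dvd_log_intValuation hdeg v w' hw' τ₀ hτK
        (fun hall => hτ₀ (hunr w'.asIdeal w'.isPrime hpw' τ₀ hτ₀ζ hall)) α A hAα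
  -- the local condition
  have hloc : ∃ c : 𝓞 ℚ⟮ζ⟯, (hζK.toInteger - 1) ^ 3 ∣ α - c ^ p := by
    obtain ⟨c, hc⟩ := NoExt.exists_sub_mem_pow 𝔭 w hw he hf π h𝔭 3 A
    refine ⟨c, ?_⟩
    have h1 : algebraMap (𝓞 ℚ⟮ζ⟯) (𝓞 N) (α - c ^ p) ∈ w.asIdeal ^ 3 := by
      rw [map_sub, map_pow, hAα]
      obtain ⟨d, hd⟩ := sub_dvd_pow_sub_pow A (algebraMap (𝓞 ℚ⟮ζ⟯) (𝓞 N) c) p
      rw [hd]
      exact Ideal.mul_mem_right _ _ hc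
    rw [NoExt.mem_pow_iff_of_ramificationIdx_eq_one 𝔭 w hw he, h𝔭, Ideal.span_singleton_pow,
      Ideal.mem_span_singleton] at h1
    exact h1
  obtain ⟨β, hβ⟩ := hcore ℚ⟮ζ⟯ hζK.toInteger hζO α hα heig hval hπα hloc
  -- conclusion
  have hβ0 : algebraMap ℚ⟮ζ⟯ N (β : ℚ⟮ζ⟯) ≠ 0 := by
    intro h0
    apply hA0
    have h1 : (A : N) ^ p = 0 := by
      rw [← hAαN, hβ]
      show algebraMap ℚ⟮ζ⟯ N ((β : ℚ⟮ζ⟯) ^ p) = 0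
      rw [map_pow, h0, zero_pow hp.out.ne_zero]
    exact pow_eq_zero_iff hp.out.ne_zero |>.1 h1
  have h1 : ((A : N) / algebraMap ℚ⟮ζ⟯ N (β : ℚ⟮ζ⟯)) ^ p = 1 := by
    rw [div_pow, ← hAαN, hβ]
    show algebraMap ℚ⟮ζ⟯ N ((β : ℚ⟮ζ⟯) ^ p) / _ = 1
    rw [map_pow]
    exact div_self (pow_ne_zero p hβ0)
  obtain ⟨i, -, hi⟩ := hζ.eq_pow_of_pow_eq_one h1
  have h2 : (A : N) = ζ ^ i * algebraMap ℚ⟮ζ⟯ N (β : ℚ⟮ζ⟯) := by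
    rw [hi]; field_simp
  have h3 : τ₀ (A : N) = A := by
    rw [h2, map_mul, map_pow, hτ₀ζ, hτK]
  rw [hτA] at h3
  have h4 : ζ = 1 := by
    have : ζ * (A : N) = 1 * A := by rw [h3, one_mul]
    exact mul_right_cancel₀ hA0 this
  exact hζ.ne_one hp.out.one_lt h4

end Fermat.Agent.S14Lib
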