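import Mathlib
import Fermat.Agent.S14.Core
import Fermat.Agent.S14.CoreThree
import Fermat.Agent.S14.NoExtMain

set_option autoImplicit false

namespace Fermat.Agent.S14Lib

open NumberField
open scoped Pointwise

/-- (M) there is no unramified `ω⁻¹`-extension of `ℚ(ζ_p)` split at `p`. -/
theorem no_extension (p : ℕ) [Fact p.Prime] (hp2 : p ≠ 2)
    (N : Type) [Field N] [NumberField N] [IsGalois ℚ N] (ζ : N) (hζ : IsPrimitiveRoot ζ p)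
    (τ₀ : N ≃ₐ[ℚ] N) (hτ₀ζ : τ₀ ζ = ζ) (hτ₀ : τ₀ ≠ 1) (hord : τ₀ ^ p = 1)
    (hgen : ∀ τ : N ≃ₐ[ℚ] N, τ ζ = ζ → ∃ k : ℕ, τ = τ₀ ^ k)
    (hconj : ∀ (δ : N ≃ₐ[ℚ] N) (a : ℕ), δ ζ = ζ ^ a → δ⁻¹ * τ₀ * δ = τ₀ ^ a)
    (hunr : ∀ w : Ideal (𝓞 N), w.IsPrime → (p : 𝓞 N) ∉ w → ∀ τ : N ≃ₐ[ℚ] N, τ ζ = ζ →
      (∀ x : 𝓞 N, τ • x - x ∈ w) → τ = 1)
    (hsplit : ∀ w : Ideal (𝓞 N), w.IsPrime → (p : 𝓞 N) ∈ w → ∀ τ : N ≃ₐ[ℚ] N, τ ζ = ζ →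
      τ • w = w → τ = 1) : False := by
  refine no_extension_of p ?_ N ζ hζ τ₀ hτ₀ζ hτ₀ hord hgen hconj hunr hsplit
  intro K _ _ _ z hz α hα heig hval hunit hloc
  have hpp : p.Prime := Fact.out
  have h35 : p = 3 ∨ 5 ≤ p := by
    have h2 := hpp.two_le
    by_contra hcon
    push Not at hcon
    have h4 : p = 4 := by omega
    rw [h4] at hpp
    exact absurd hpp (by norm_num)
  rcases h35 with rfl | h5
  · exact core_three K z hz α hα heig hval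
  · exact core p K z h5 hz α hα heig hval hunit hloc

end Fermat.Agent.S14Lib
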