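import Mathlib
import Fermat.Agent.S14.Defs
import Fermat.Agent.Lib.FrobeniusExists
import Fermat.Prelude.Def_ExtCitation_KummerBridge

set_option autoImplicit false
set_option linter.style.haveILetI false

namespace Fermat.Agent.S14Lib

open NumberField nonZeroDivisors IsDedekindDomain
open scoped Pointwise
open Fermat.Agent.FrobLib

local notation "Qb" => AlgebraicClosure ℚ
local notation "GQ" => (AlgebraicClosure ℚ ≃ₐ[ℚ] AlgebraicClosure ℚ)

attribute [local instance] isAlgebraic_Qbar isAlgClosure_Qbar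

/-- (N6) the cyclotomic character of the prelude. -/
theorem exists_zeta (p : ℕ) [Fact p.Prime] :
    ∃ ζ : Qb, IsPrimitiveRoot ζ p ∧
      (∀ σ : GQ, σ ζ = ζ ^ ((ExtCitation.cycloChar p σ : (ZMod p)ˣ) : ZMod p).val) ∧
      (p ≠ 2 → ∃ σ : GQ, ExtCitation.cycloChar p σ ≠ 1) := by
  have hp : p.Prime := Fact.out
  haveI : NeZero p := ⟨hp.ne_zero⟩
  obtain ⟨ζ, hζ⟩ := HasEnoughRootsOfUnity.exists_primitiveRoot Qb p
  have hspec : ∀ σ : GQ, σ ζ = ζ ^ ((ExtCitation.cycloChar p σ : (ZMod p)ˣ) : ZMod p).val := by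
    intro σ
    have h := modularCyclotomicCharacter.spec Qb (ExtCitation.card_rootsOfUnity_eq_self p)
      (σ : Qb ≃+* Qb) (SetLike.coe_mem hζ.toRootsOfUnity)
    exact h
  refine ⟨ζ, hζ, hspec, fun hp2 => ?_⟩
  by_contra hcon
  push Not at hcon
  have hfix : ∀ σ : GQ, σ ζ = ζ := by
    intro σ
    rw [hspec σ, hcon σ, Units.val_one, ZMod.val_one, pow_one]
  have h1 : ζ ∈ (⊥ : IntermediateField ℚ Qb) := by
    rw [InfiniteGalois.mem_bot_iff_fixed]
    exact hfix
  obtain ⟨r, hr⟩ := IntermediateField.mem_bot.mp h1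
  have hodd : Odd p := hp.odd_of_ne_two hp2
  have hr1 : r ^ p = 1 ^ p := by
    apply (algebraMap ℚ Qb).injective
    rw [map_pow, hr, hζ.pow_eq_one, one_pow, map_one]
  have hr2 : r = 1 := hodd.strictMono_pow.injective hr1
  rw [hr2, map_one] at hr
  exact hp.one_lt.ne' (hζ.unique (hr ▸ IsPrimitiveRoot.one))

end Fermat.Agent.S14Lib
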