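import Mathlib
import Fermat.Statements.S14
import Fermat.Prelude.Def_ExtCitation_KummerBridge
import Fermat.Agent.S14.Defs
import Fermat.Agent.S14.LiftPlace
import Fermat.Agent.S14.Cocycle
import Fermat.Agent.S14.FiniteLevel
import Fermat.Agent.S14.Zeta
import Fermat.Agent.S14.NoExt

set_option autoImplicit false
set_option linter.style.haveILetI false

namespace Fermat.Agent.S14Lib

open NumberField
open scoped Pointwise

local notation "Qb" => AlgebraicClosure ℚ
local notation "GQ" => (AlgebraicClosure ℚ ≃ₐ[ℚ] AlgebraicClosure ℚ)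

section cocycle

variable {p : ℕ} [Fact p.Prime] {Γ : Type*} [Group Γ] (χ : Γ →* (ZMod p)ˣ) (κ : Γ → ZMod p)
  (hκ : ∀ σ τ, κ (σ * τ) = (χ τ : ZMod p) * κ σ + κ τ)

include hκ

theorem final_kappa_one : κ 1 = 0 := by
  have h := hκ 1 1
  simp only [mul_one, map_one, Units.val_one, one_mul] at h
  have : κ 1 + 0 = κ 1 + κ 1 := by rw [add_zero]; exact h
  exact (add_left_cancel this).symm

theorem final_kappa_pow (τ : Γ) (hτ : χ τ = 1) (k : ℕ) : κ (τ ^ k) = k * κ τ := by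
  induction k with
  | zero => simp [final_kappa_one χ κ hκ]
  | succ k ih =>
    rw [pow_succ, hκ, hτ, ih]
    push_cast
    ring

theorem final_kappa_mul_inv (σ σ' : Γ) (h : κ σ = κ σ') : κ (σ * σ'⁻¹) = 0 := by
  have h1 := hκ σ' σ'⁻¹
  rw [mul_inv_cancel, final_kappa_one χ κ hκ] at h1
  rw [hκ, h]
  exact h1.symm

theorem final_kappa_conj (d τ : Γ) (hτ : χ τ = 1) : κ (d⁻¹ * τ * d) = (χ d : ZMod p) * κ τ := by
  have h1 := hκ d⁻¹ d
  rw [inv_mul_cancel, final_kappa_one χ κ hκ] at h1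
  rw [hκ, hκ, hτ]
  simp only [Units.val_one, one_mul]
  linear_combination -h1

end cocycle

theorem final_zmod_val_eq {p : ℕ} [Fact p.Prime] {R : Type*} [CommRing R] [IsDomain R] {ζ : R}
    (hζ : IsPrimitiveRoot ζ p) (u : (ZMod p)ˣ) (a : ℕ) (h : ζ ^ ((u : ZMod p)).val = ζ ^ a) :
    (u : ZMod p) = (a : ZMod p) := by
  have hfin : IsOfFinOrder ζ := isOfFinOrder_iff_pow_eq_one.mpr
    ⟨p, (Fact.out : p.Prime).pos, hζ.pow_eq_one⟩
  have h1 : ((u : ZMod p)).val ≡ a [MOD p] := by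
    have := hfin.pow_eq_pow_iff_modEq.mp h
    rwa [← hζ.eq_orderOf] at this
  have h2 := (ZMod.natCast_eq_natCast_iff _ _ _).mpr h1
  rwa [ZMod.natCast_val, ZMod.cast_id] at h2

theorem final_isAlgClosure_Qb : IsAlgClosure ℚ Qb := by
  refine ⟨inferInstance, ?_⟩
  have h : @Algebra.IsAlgebraic ℚ Qb _ _ (AlgebraicClosure.instAlgebra ℚ) := inferInstance
  convert h
  exact Subsingleton.elim _ _

theorem ext_vanishing {p : ℕ} [Fact p.Prime] (h3 : 3 ≤ p) : ExtCitation.ExtVanishingCts p := by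
  intro V _ _ _ _ C hadm
  have hp2 : p ≠ 2 := by omega
  have hp1 : 1 < p := by omega
  haveI : Fact (1 < p) := ⟨hp1⟩
  set χ := ExtCitation.cycloChar p with hχdef
  have hfix := hadm.fixed_sub
  have hquot : ∀ (σ : GQ) (x : V), σ • x - (χ σ : ZMod p) • x ∈ C := by
    intro σ x
    rw [hχdef, ExtCitation.coe_cycloChar]
    exact hadm.cyclo_quot σ x
  obtain ⟨κ, hκ, hκtriv⟩ := exists_cocycle p V C χ hfix hquot hadm.card_sub hadm.card_total
  obtain ⟨ζ, hζ, hζσ, hχne⟩ := exists_zeta p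
  by_cases hcase : ∀ σ, χ σ = 1 → ∀ x : V, σ • x = x
  · exact split_of_trivial p V C χ hfix hquot hadm.card_sub hadm.card_total (hχne hp2) hcase
  exfalso
  push Not at hcase
  obtain ⟨τ₁, hτ₁χ, hτ₁⟩ := hcase
  let H : Subgroup GQ :=
    { carrier := {σ | ∀ v : V, σ • v = v}
      mul_mem' := fun {a b} ha hb v => by rw [mul_smul, hb, ha]
      one_mem' := fun v => one_smul _ v
      inv_mem' := fun {a} ha v => by rw [inv_smul_eq_iff, ha] }
  have hHmem : ∀ σ : GQ, σ ∈ H ↔ ∀ v : V, σ • v = v := fun σ => Iff.rfl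
  have hHn : H.Normal := by
    constructor
    intro n hn g v
    rw [mul_smul, mul_smul, hn, smul_inv_smul]
  obtain ⟨N, hfd, hgal, hN1, hN2, -, -⟩ := exists_finite_level H hadm.open_kernel hHn
  haveI := hfd
  haveI := hgal
  haveI : NumberField N := { to_charZero := inferInstance, to_finiteDimensional := hfd }
  let res : GQ →* (N ≃ₐ[ℚ] N) := AlgEquiv.restrictNormalHom N
  have hres : ∀ (σ : GQ) (x : N), ((res σ x : N) : Qb) = σ (x : Qb) :=
    fun σ x => AlgEquiv.restrictNormal_commutes σ N x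
  haveI := final_isAlgClosure_Qb
  haveI : Normal ℚ Qb := IsAlgClosure.normal ℚ Qb
  have hres_surj : Function.Surjective res := AlgEquiv.restrictNormalHom_surjective Qb
  have hres_one : ∀ σ : GQ, σ ∈ H → res σ = 1 := by
    intro σ hσ
    ext x
    rw [hres]
    exact (hN2 σ).mp hσ x
  have hres_one' : ∀ σ : GQ, res σ = 1 → σ ∈ H := by
    intro σ hσ
    rw [hN2]
    intro x
    rw [← hres, hσ]
    rfl
  have hres_eq : ∀ (σ : GQ) (s : N ≃ₐ[ℚ] N), (∀ x : N, σ (x : Qb) = ((s x : N) : Qb)) →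
      res σ = s := by
    intro σ s h
    ext x
    rw [hres, h]
  have hmemH : ∀ σ : GQ, χ σ = 1 → κ σ = 0 → σ ∈ H := fun σ h1 h2 => (hκtriv σ).mpr ⟨h1, h2⟩
  have hres_congr : ∀ σ σ' : GQ, χ σ = χ σ' → κ σ = κ σ' → res σ = res σ' := by
    intro σ σ' h1 h2
    have : res (σ * σ'⁻¹) = 1 := by
      apply hres_one
      apply hmemH
      · rw [map_mul, map_inv, h1, mul_inv_cancel]
      · exact final_kappa_mul_inv χ κ hκ σ σ' h2
    rw [map_mul, map_inv, mul_inv_eq_one] at this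
    exact this
  have hζN : ζ ∈ N := by
    rw [hN1]
    intro σ hσ
    have h1 : χ σ = 1 := ((hκtriv σ).mp hσ).1
    rw [hζσ σ, ← hχdef, h1, Units.val_one, ZMod.val_one, pow_one]
  let ζN : N := ⟨ζ, hζN⟩
  have hζNprim : IsPrimitiveRoot ζN p :=
    IsPrimitiveRoot.of_map_of_injective (f := algebraMap N Qb) hζ (algebraMap N Qb).injective
  have hχ_of : ∀ (σ : GQ) (a : ℕ), res σ ζN = ζN ^ a → (χ σ : ZMod p) = (a : ZMod p) := by
    intro σ a h
    have h1 : σ ζ = ζ ^ a := by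
      have := congrArg (fun y : N => (y : Qb)) h
      simp only [hres] at this
      exact this
    rw [hζσ σ, ← hχdef] at h1
    exact final_zmod_val_eq hζ (χ σ) a h1
  have hχ_one_of : ∀ σ : GQ, res σ ζN = ζN → χ σ = 1 := by
    intro σ h
    have := hχ_of σ 1 (by rw [pow_one]; exact h)
    ext
    rw [this]
    simp
  have hκτ₁ : κ τ₁ ≠ 0 := fun h => by
    obtain ⟨x, hx⟩ := hτ₁
    exact hx ((hκtriv τ₁).mpr ⟨hτ₁χ, h⟩ x)
  refine no_extension p hp2 N ζN hζNprim (res τ₁) ?_ ?_ ?_ ?_ ?_ ?_ ?_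
  · -- τ₀ ζ = ζ
    apply Subtype.ext
    rw [hres]
    change τ₁ ζ = ζ
    rw [hζσ τ₁, ← hχdef, hτ₁χ, Units.val_one, ZMod.val_one, pow_one]
  · -- τ₀ ≠ 1
    intro h
    obtain ⟨x, hx⟩ := hτ₁
    exact hx (hres_one' τ₁ h x)
  · -- τ₀ ^ p = 1
    rw [← map_pow]
    apply hres_one
    apply hmemH
    · rw [map_pow, hτ₁χ, one_pow]
    · rw [final_kappa_pow χ κ hκ τ₁ hτ₁χ]
      simp
  · -- generation
    intro τ hτ
    obtain ⟨σ, rfl⟩ := hres_surj τ
    have h1 := hχ_one_of σ hτ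
    refine ⟨(κ σ / κ τ₁).val, ?_⟩
    rw [← map_pow]
    apply hres_congr
    · rw [map_pow, hτ₁χ, one_pow, h1]
    · rw [final_kappa_pow χ κ hκ τ₁ hτ₁χ, ZMod.natCast_val, ZMod.cast_id,
        div_mul_cancel₀ _ hκτ₁]
  · -- conjugation
    intro δ a hδ
    obtain ⟨d, rfl⟩ := hres_surj δ
    have h1 := hχ_of d a hδ
    rw [← map_pow, ← map_inv, ← map_mul, ← map_mul]
    apply hres_congr
    · rw [map_mul, map_mul, map_pow, hτ₁χ, one_pow, mul_one, map_inv, inv_mul_cancel]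
    · rw [final_kappa_conj χ κ hκ d τ₁ hτ₁χ, final_kappa_pow χ κ hκ τ₁ hτ₁χ, h1]
  · -- unramified
    intro w hw hpw τ hτ hin
    by_cases hw0 : w = ⊥
    · subst hw0
      ext x
      obtain ⟨a, b, hb, rfl⟩ := IsFractionRing.div_surjective (A := 𝓞 N) x
      have ha := hin a
      have hb' := hin b
      rw [Ideal.mem_bot, sub_eq_zero] at ha hb'
      have ha2 : τ (algebraMap (𝓞 N) N a) = algebraMap (𝓞 N) N a := congrArg (algebraMap (𝓞 N) N) ha
      have hb2 : τ (algebraMap (𝓞 N) N b) = algebraMap (𝓞 N) N b := congrArg (algebraMap (𝓞 N) N) hb'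
      rw [map_div₀, ha2, hb2]
      rfl
    · obtain ⟨ℓ, A, σ, hℓ, hℓw, hA, hσ, hστ⟩ := exists_lift_inertia N w hw hw0 τ hin
      have hℓp : ℓ ≠ p := by
        rintro rfl
        exact hpw hℓw
      rw [← hres_eq σ τ hστ]
      exact hres_one σ (hadm.unramified_outside ℓ hℓ hℓp A hA σ hσ)
  · -- split at p
    intro w hw hpw τ hτ hdec
    have hw0 : w ≠ ⊥ := by
      rintro rfl
      rw [Ideal.mem_bot] at hpw
      exact (Fact.out : p.Prime).ne_zero (by exact_mod_cast hpw)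
    obtain ⟨ℓ, A, σ, hℓ, hℓw, hA, hσ, hστ⟩ := exists_lift_decomposition N w hw hw0 τ hdec
    have hℓp : ℓ = p := by
      by_contra hne
      have hcop : Nat.Coprime ℓ p := (Nat.coprime_primes hℓ Fact.out).mpr hne
      have hcop' : IsCoprime (ℓ : ℤ) (p : ℤ) := Nat.isCoprime_iff_coprime.mpr hcop
      obtain ⟨u, v, huv⟩ := hcop'
      apply hw.ne_top
      rw [Ideal.eq_top_iff_one]
      have : (1 : 𝓞 N) = (u : 𝓞 N) * (ℓ : 𝓞 N) + (v : 𝓞 N) * (p : 𝓞 N) := by
        have := congrArg (fun z : ℤ => (z : 𝓞 N)) huv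
        push_cast at this
        exact this.symm
      rw [this]
      exact w.add_mem (w.mul_mem_left _ hℓw) (w.mul_mem_left _ hpw)
    subst hℓp
    have hrs := hres_eq σ τ hστ
    rw [← hrs]
    have hχσ : χ σ = 1 := hχ_one_of σ (by rw [hrs]; exact hτ)
    obtain ⟨C', hC', hcompl⟩ := hadm.locally_split A hA
    apply hres_one
    intro v
    have hv : v ∈ C ⊔ C' := by rw [hcompl.sup_eq_top]; trivial
    obtain ⟨c, hc, c', hc', rfl⟩ := Submodule.mem_sup.mp hv
    have h1 : σ • c' - c' ∈ C := by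
      have := hquot σ c'
      rwa [hχσ, Units.val_one, one_smul] at this
    have h2 : σ • c' - c' ∈ C' := C'.sub_mem (hC' σ hσ c' hc') hc'
    have h3 : σ • c' - c' = 0 := by
      have : σ • c' - c' ∈ C ⊓ C' := ⟨h1, h2⟩
      rwa [hcompl.inf_eq_bot, Submodule.mem_bot] at this
    rw [smul_add, hfix σ c hc, sub_eq_zero.mp h3]

end Fermat.Agent.S14Lib
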