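import Mathlib
import Fermat.Agent.S14.Defs

set_option autoImplicit false
set_option linter.style.haveILetI false
set_option linter.unusedSectionVars false
set_option linter.deprecated false

namespace Fermat.Agent.S14Lib

open NumberField IsDedekindDomain

section

variable {K : Type} [Field K] [NumberField K]

/-- the rational prime below a prime of `𝓞 K` -/
noncomputable def npnUnder (v : HeightOneSpectrum (𝓞 K)) : ℕ :=
  Ideal.absNorm (Ideal.under ℤ v.asIdeal)

theorem npnUnder_prime (v : HeightOneSpectrum (𝓞 K)) : (npnUnder v).Prime := by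
  haveI : NeZero v.asIdeal := ⟨v.ne_bot⟩
  haveI := v.isPrime
  exact Nat.absNorm_under_prime v.asIdeal

theorem npn_liesOver (v : HeightOneSpectrum (𝓞 K)) :
    v.asIdeal.LiesOver (Ideal.span {(npnUnder v : ℤ)}) := by
  constructor
  rw [npnUnder, Int.ideal_span_absNorm_eq_self]

theorem npn_sq_le (v : HeightOneSpectrum (𝓞 K)) (hv : ¬ (Ideal.absNorm v.asIdeal).Prime) :
    npnUnder v ^ 2 ≤ Ideal.absNorm v.asIdeal := by
  haveI := npn_liesOver v
  haveI := v.isPrime
  have hq := npnUnder_prime v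
  have h := Ideal.absNorm_eq_pow_inertiaDeg' v.asIdeal hq
  set f := (Ideal.span {(npnUnder v : ℤ)}).inertiaDeg' v.asIdeal with hf
  have hf0 : f ≠ 0 := by
    intro h0
    rw [h0, pow_zero] at h
    have := Ideal.absNorm_eq_one_iff.mp h
    exact v.isPrime.ne_top this
  have hf1 : f ≠ 1 := by
    intro h1
    rw [h1, pow_one] at h
    exact hv (h ▸ hq)
  rw [h]
  exact Nat.pow_le_pow_right hq.pos (by omega)

theorem npn_card_fiber (F : Finset (HeightOneSpectrum (𝓞 K))) (q : ℕ) (hq : q.Prime) :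
    (F.filter (fun v => npnUnder v = q)).card ≤ Module.finrank ℚ K := by
  classical
  have hq0 : (Ideal.span {(q : ℤ)}) ≠ ⊥ := by
    rw [Ne, Ideal.span_singleton_eq_bot]
    exact_mod_cast hq.ne_zero
  haveI : Fact q.Prime := ⟨hq⟩
  haveI : (Ideal.span {(q : ℤ)}).IsMaximal := Int.ideal_span_isMaximal_of_prime q
  refine le_trans ?_ (Ideal.card_primesOverFinset_le_finrank (R := ℤ) (S := 𝓞 K) (K := ℚ) (L := K) hq0)
  apply Finset.card_le_card_of_injOn (fun v => v.asIdeal)
  · intro v hv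
    rw [Finset.coe_filter, Set.mem_setOf_eq] at hv
    rw [Finset.mem_coe, IsDedekindDomain.mem_primesOverFinset_iff hq0]
    refine ⟨v.isPrime, ?_⟩
    rw [← hv.2]
    exact npn_liesOver v
  · intro v _ w _ h
    exact HeightOneSpectrum.ext h

end

/-- (E1) primes of degree `≥ 2` contribute `O(1)`. -/
theorem sum_nonprime_norm_bounded (K : Type) [Field K] [NumberField K] :
    ∃ C : ℝ, ∀ s : ℝ, 1 ≤ s → ∀ F : Finset (HeightOneSpectrum (𝓞 K)),
      (∀ v ∈ F, ¬ (Ideal.absNorm v.asIdeal).Prime) →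
      ∑ v ∈ F, (Ideal.absNorm v.asIdeal : ℝ) ^ (-s) ≤ C := by
  classical
  have hsum : Summable (fun k : ℕ => 1 / (k : ℝ) ^ 2) :=
    Real.summable_one_div_nat_pow.mpr (by norm_num)
  refine ⟨(Module.finrank ℚ K : ℝ) * ∑' k : ℕ, 1 / (k : ℝ) ^ 2, ?_⟩
  intro s hs F hF
  have h1 : ∀ v ∈ F, (Ideal.absNorm v.asIdeal : ℝ) ^ (-s) ≤ 1 / (npnUnder v : ℝ) ^ 2 := by
    intro v hv
    have hq := npnUnder_prime v
    have hq0 : (0 : ℝ) < (npnUnder v : ℝ) ^ 2 := by
      have : (0 : ℝ) < npnUnder v := by exact_mod_cast hq.pos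
      positivity
    have h2 : ((npnUnder v : ℝ)) ^ 2 ≤ (Ideal.absNorm v.asIdeal : ℝ) := by
      exact_mod_cast npn_sq_le v (hF v hv)
    have h3 : (1 : ℝ) ≤ (Ideal.absNorm v.asIdeal : ℝ) := by
      refine le_trans ?_ h2
      have : (1 : ℝ) ≤ npnUnder v := by exact_mod_cast hq.one_lt.le
      nlinarith
    calc (Ideal.absNorm v.asIdeal : ℝ) ^ (-s) ≤ (Ideal.absNorm v.asIdeal : ℝ) ^ (-1 : ℝ) :=
          Real.rpow_le_rpow_of_exponent_le h3 (by linarith)
      _ = 1 / (Ideal.absNorm v.asIdeal : ℝ) := by rw [Real.rpow_neg_one, one_div]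
      _ ≤ 1 / (npnUnder v : ℝ) ^ 2 := one_div_le_one_div_of_le hq0 h2
  calc ∑ v ∈ F, (Ideal.absNorm v.asIdeal : ℝ) ^ (-s)
      ≤ ∑ v ∈ F, 1 / (npnUnder v : ℝ) ^ 2 := Finset.sum_le_sum h1
    _ = ∑ q ∈ F.image npnUnder, ∑ v ∈ F.filter (fun v => npnUnder v = q),
          1 / (npnUnder v : ℝ) ^ 2 := by
        rw [Finset.sum_image' (fun v => 1 / (npnUnder v : ℝ) ^ 2)]
        intro v hv
        rfl
    _ ≤ ∑ q ∈ F.image npnUnder, (Module.finrank ℚ K : ℝ) * (1 / (q : ℝ) ^ 2) := by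
        apply Finset.sum_le_sum
        intro q hq
        obtain ⟨v₀, hv₀, rfl⟩ := Finset.mem_image.mp hq
        have hcard := npn_card_fiber F (npnUnder v₀) (npnUnder_prime v₀)
        have : ∑ v ∈ F.filter (fun v => npnUnder v = npnUnder v₀), 1 / (npnUnder v : ℝ) ^ 2
            = ((F.filter (fun v => npnUnder v = npnUnder v₀)).card : ℝ) *
              (1 / (npnUnder v₀ : ℝ) ^ 2) := by
          rw [Finset.sum_congr rfl (g := fun _ => 1 / (npnUnder v₀ : ℝ) ^ 2), Finset.sum_const,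
            nsmul_eq_mul]
          intro v hv
          rw [(Finset.mem_filter.mp hv).2]
        rw [this]
        apply mul_le_mul_of_nonneg_right _ (by positivity)
        exact_mod_cast hcard
    _ = (Module.finrank ℚ K : ℝ) * ∑ q ∈ F.image npnUnder, 1 / (q : ℝ) ^ 2 := by
        rw [Finset.mul_sum]
    _ ≤ (Module.finrank ℚ K : ℝ) * ∑' k : ℕ, 1 / (k : ℝ) ^ 2 := by
        apply mul_le_mul_of_nonneg_left _ (by positivity)
        exact hsum.sum_le_tsum _ (fun _ _ => by positivity)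

end Fermat.Agent.S14Lib
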